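import Fermat.Agent.LL.Pair.Inputs
import Fermat.Agent.S31
import Fermat.Agent.S32
import Fermat.Agent.S33
import Fermat.Agent.S34
import Fermat.Agent.S36
import Fermat.Agent.S37

/-!
# The local inputs of the congruent modules hold
-/

set_option autoImplicit false
set_option synthInstance.maxHeartbeats 400000

noncomputable section

open IsLocalRing

namespace Fermat.Agent.LL.Pair

theorem inputs : Inputs where
  unramified := by
    intro p N _ S 𝒪 _ _ _ _ θ T _ _ _ _ _ _ _ _ hp hp𝒪 hpS hNS H q hq hqS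
    exact Fermat.Agent.S31.result hp hp𝒪 hpS hNS H q hq hqS
  flatAt := by
    intro p N _ S 𝒪 _ _ _ _ θ T _ _ _ _ _ _ _ _ _ _ hp hp2 hp𝒪 hpN hpS hNS H
    exact Fermat.Agent.S32.result hp hp2 hp𝒪 hpN hpS hNS H
  ordinary := by
    intro p N _ S 𝒪 _ _ _ _ θ T _ _ _ _ _ _ _ _ _ _ hp hp2 hp𝒪 hN hNS H hres
    exact Fermat.Agent.S33.result hp hp2 hp𝒪 hN hNS H hres
  unipotent := by
    intro 𝒪 _ _ _ _ _ _ p hp hp𝒪 N _ S hpS hNS θ T _ _ _ _ _ _ _ _ H q hq hqp hqN hq2
    exact Fermat.Agent.S34.result hp hp𝒪 hpS hNS H q hq hqp hqN hq2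
  specialization := fun N p _ hcomm => Fermat.Agent.S37.result N p hcomm
  carayol := by
    intro M _ g hg lam _ S O' _ _ _ _ _ _ hO hlam2 chig hchig iota hlamS hMS hres
    exact Fermat.Agent.S36.result hg lam S O' hO hlam2 chig hchig iota hlamS hMS hres

end Fermat.Agent.LL.Pair
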