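/-
Recognition of free modules over `O⟦X⟧ / ((1 + Xᵢ) ^ pⁿ - 1)` (owner: helper61).
-/
import Fermat.Agent.Patching.Compact
import Fermat.Agent.Deform.PowerSeriesLocal
import Mathlib.RingTheory.Filtration
import Mathlib.LinearAlgebra.Dimension.StrongRankCondition

set_option autoImplicit false

noncomputable section

namespace Fermat.Agent.LL.Pair

open IsLocalRing MvPowerSeries

section Quotient

variable (O : Type) [CommRing O] (p n R : ℕ)

/-- The relations `(1 + Xᵢ) ^ pⁿ - 1`. -/
def levelIdeal : Ideal (MvPowerSeries (Fin R) O) :=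
  Ideal.span (Set.range fun i : Fin R =>
    (1 + MvPowerSeries.X i : MvPowerSeries (Fin R) O) ^ p ^ n - 1)

/-- The combination of the monomials with all exponents below `pⁿ`. -/
def levelPoly : ((Fin R → Fin (p ^ n)) → O) →ₗ[O] MvPowerSeries (Fin R) O :=
  Fintype.linearCombination O fun e => ∏ i, MvPowerSeries.X i ^ (e i : ℕ)

variable {O p n R}

theorem levelPoly_single (e : Fin R → Fin (p ^ n)) :
    levelPoly O p n R (Pi.single e 1) = ∏ i, MvPowerSeries.X i ^ (e i : ℕ) := by
  simp [levelPoly, Fintype.linearCombination_apply, Pi.single_apply]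

/-- The reduced elements. -/
def reduced : Submodule O (MvPowerSeries (Fin R) O) :=
  LinearMap.range (levelPoly O p n R) ⊔ (levelIdeal O p n R).restrictScalars O

theorem X_pow_card_eq (i : Fin R) :
    (MvPowerSeries.X i : MvPowerSeries (Fin R) O) ^ p ^ n =
      ((1 + MvPowerSeries.X i) ^ p ^ n - 1) -
        ∑ k ∈ Finset.range (p ^ n), (((p ^ n).choose k : O)) •
          (MvPowerSeries.X i : MvPowerSeries (Fin R) O) ^ k + 1 := by
  rw [add_comm (1 : MvPowerSeries (Fin R) O), add_pow, Finset.sum_range_succ]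
  simp only [one_pow, mul_one, Nat.choose_self, Nat.cast_one, Nat.cast_smul_eq_nsmul, nsmul_eq_mul]
  rw [Finset.sum_congr rfl fun k _ => mul_comm (((p ^ n).choose k : ℕ) : MvPowerSeries (Fin R) O) _]
  abel

theorem X_mul_mono_mem [NeZero p] (i : Fin R) (e : Fin R → Fin (p ^ n)) :
    (MvPowerSeries.X i : MvPowerSeries (Fin R) O) * ∏ j, MvPowerSeries.X j ^ (e j : ℕ) ∈
      (reduced (O := O) (p := p) (n := n) (R := R)) := by
  classical
  set P : MvPowerSeries (Fin R) O :=
    ∏ j ∈ Finset.univ.erase i, MvPowerSeries.X j ^ (e j : ℕ)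
  have hlow : ∀ m < p ^ n, P * MvPowerSeries.X i ^ m ∈ reduced (O := O) (p := p) (n := n) := by
    intro m hm
    refine Submodule.mem_sup_left ⟨Pi.single (Function.update e i ⟨m, hm⟩) 1, ?_⟩
    rw [levelPoly_single, ← Finset.prod_erase_mul _ _ (Finset.mem_univ i), Function.update_self]
    congr 1
    refine Finset.prod_congr rfl fun j hj => ?_
    rw [Function.update_of_ne (Finset.ne_of_mem_erase hj)]
  rw [← Finset.prod_erase_mul _ _ (Finset.mem_univ i), mul_left_comm, ← pow_succ']
  rcases Nat.lt_or_ge ((e i : ℕ) + 1) (p ^ n) with h | h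
  · exact hlow _ h
  rw [show (e i : ℕ) + 1 = p ^ n by have := (e i).isLt; omega, X_pow_card_eq, mul_add, mul_sub,
    Finset.mul_sum, mul_one]
  refine Submodule.add_mem _ (Submodule.sub_mem _ (Submodule.mem_sup_right ?_)
    (Submodule.sum_mem _ fun k hk => ?_)) ?_
  · exact Ideal.mul_mem_left _ P (Ideal.subset_span ⟨i, rfl⟩)
  · rw [mul_smul_comm]
    exact Submodule.smul_mem _ _ (hlow k (Finset.mem_range.mp hk))
  · simpa using hlow 0 (pow_pos (Nat.pos_of_ne_zero (NeZero.ne p)) n)

theorem X_mul_mem [NeZero p] (i : Fin R) {f : MvPowerSeries (Fin R) O}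
    (hf : f ∈ reduced (O := O) (p := p) (n := n)) :
    MvPowerSeries.X i * f ∈ reduced (O := O) (p := p) (n := n) := by
  obtain ⟨_, ⟨c, rfl⟩, g, hg, rfl⟩ := Submodule.mem_sup.mp hf
  rw [mul_add]
  refine Submodule.add_mem _ ?_ (Submodule.mem_sup_right ?_)
  · rw [levelPoly, Fintype.linearCombination_apply, Finset.mul_sum]
    exact Submodule.sum_mem _ fun e _ => by
      rw [mul_smul_comm]; exact Submodule.smul_mem _ _ (X_mul_mono_mem i e)
  · exact (levelIdeal O p n R).mul_mem_left _ hg

theorem coe_mem_reduced [NeZero p] (t : MvPolynomial (Fin R) O) :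
    (t : MvPowerSeries (Fin R) O) ∈ reduced (O := O) (p := p) (n := n) := by
  induction t using MvPolynomial.induction_on with
  | C a =>
    refine Submodule.mem_sup_left
      ⟨a • Pi.single (fun _ => ⟨0, pow_pos (Nat.pos_of_ne_zero (NeZero.ne p)) n⟩) 1, ?_⟩
    rw [map_smul, levelPoly_single, MvPolynomial.coe_C]
    simp [MvPowerSeries.smul_eq_C_mul]
  | add s t hs ht => rw [MvPolynomial.coe_add]; exact Submodule.add_mem _ hs ht
  | mul_X t i ht => rw [MvPolynomial.coe_mul, MvPolynomial.coe_X, mul_comm]; exact X_mul_mem i ht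

variable [IsDomain O] [IsDiscreteValuationRing O] [IsAdicComplete (maximalIdeal O) O]
  [Finite (ResidueField O)]

/-- Every series is a combination of the low monomials modulo the relations. -/
theorem exists_levelPoly_sub_mem [hp : Fact p.Prime] (hpO : (p : O) ∈ maximalIdeal O)
    (f : MvPowerSeries (Fin R) O) :
    ∃ c, f - levelPoly O p n R c ∈ levelIdeal O p n R := by
  classical
  obtain ⟨π, hπ⟩ := IsDiscreteValuationRing.exists_irreducible O
  have hπm : maximalIdeal O = Ideal.span {π} := hπ.maximalIdeal_eq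
  set J := levelIdeal O p n R
  set I₀ : Ideal (MvPowerSeries (Fin R) O) := Ideal.span {MvPowerSeries.C π} ⊔ J
  have hrad : maximalIdeal (MvPowerSeries (Fin R) O) ≤ I₀.radical := by
    intro g hg
    have hX : ∀ i, MvPowerSeries.X i ∈ I₀.radical := fun i => ⟨p ^ n, by
      obtain ⟨u, hu⟩ : (p : MvPowerSeries (Fin R) O) ∣
          (1 + MvPowerSeries.X i) ^ p ^ n - 1 - MvPowerSeries.X i ^ p ^ n := by
        obtain ⟨r, hr⟩ := exists_add_pow_prime_pow_eq hp.out
          (1 : MvPowerSeries (Fin R) O) (MvPowerSeries.X i) n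
        exact ⟨MvPowerSeries.X i * r, by rw [hr, one_pow]; ring⟩
      have hp0 : (p : MvPowerSeries (Fin R) O) ∈ I₀ := by
        refine Ideal.mem_sup_left ?_
        rw [hπm, Ideal.mem_span_singleton] at hpO
        obtain ⟨w, hw⟩ := hpO
        rw [Ideal.mem_span_singleton, ← map_natCast (MvPowerSeries.C (σ := Fin R) (R := O)), hw,
          map_mul]
        exact dvd_mul_right _ _
      have h : (1 + MvPowerSeries.X i : MvPowerSeries (Fin R) O) ^ p ^ n - 1 - p * u ∈ I₀ :=
        I₀.sub_mem (Ideal.mem_sup_right (Ideal.subset_span ⟨i, rfl⟩)) (I₀.mul_mem_right u hp0)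
      rw [← hu, sub_sub_cancel] at h
      exact h⟩
    rw [Deform.mem_maximalIdeal_iff, hπm, Ideal.mem_span_singleton] at hg
    obtain ⟨w, hw⟩ := hg
    have h0 : g - MvPowerSeries.C (π * w) ∈ I₀.radical := by
      refine Ideal.span_le.mpr ?_ (Patching.mem_span_X_of_constantCoeff_eq_zero
        (f := g - MvPowerSeries.C (π * w)) (by simp [hw]))
      rintro _ ⟨i, rfl⟩
      exact hX i
    have h1 : MvPowerSeries.C (π * w) ∈ I₀.radical := by
      rw [map_mul]
      exact Ideal.mul_mem_right _ _
        (Ideal.le_radical (Ideal.mem_sup_left (Ideal.mem_span_singleton_self _)))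
    simpa using add_mem h0 h1
  obtain ⟨k, hk⟩ := Ideal.exists_pow_le_of_le_radical_of_fg hrad (IsNoetherian.noetherian _)
  -- one step of the division
  have step : ∀ g : MvPowerSeries (Fin R) O, ∃ c g',
      g - levelPoly O p n R c - MvPowerSeries.C π * g' ∈ J := by
    intro g
    have h1 : g - ((truncTotal k g : MvPolynomial (Fin R) O) : MvPowerSeries (Fin R) O) ∈ I₀ :=
      hk (Deform.mem_pow_of_coeff_eq_zero fun d hd => by
        rw [map_sub, MvPolynomial.coeff_coe, coeff_truncTotal _ hd, sub_self])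
    obtain ⟨a, ha, b, hb, hab⟩ := Submodule.mem_sup.mp h1
    obtain ⟨g', rfl⟩ := Ideal.mem_span_singleton.mp ha
    obtain ⟨_, ⟨c, rfl⟩, w, hw, hcw⟩ := Submodule.mem_sup.mp
      (coe_mem_reduced (p := p) (n := n) (truncTotal k g))
    refine ⟨c, g', ?_⟩
    have : g - levelPoly O p n R c - MvPowerSeries.C π * g' = b + w := by
      linear_combination -hab - hcw
    rw [this]
    exact J.add_mem hb hw
  choose c g' hstep using step
  let fs : ℕ → MvPowerSeries (Fin R) O := fun m => g'^[m] f
  let S : ℕ → (Fin R → Fin (p ^ n)) → O := fun m =>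
    ∑ j ∈ Finset.range m, π ^ j • c (fs j)
  have hS : ∀ m, f - levelPoly O p n R (S m) - MvPowerSeries.C (π ^ m) * fs m ∈ J := by
    intro m
    induction m with
    | zero => simp [S, fs]
    | succ m ih =>
      have h := J.mul_mem_left (MvPowerSeries.C (π ^ m)) (hstep (fs m))
      have e : fs (m + 1) = g' (fs m) := Function.iterate_succ_apply' g' m f
      rw [show S (m + 1) = S m + π ^ m • c (fs m) from Finset.sum_range_succ _ _, map_add,
        map_smul, MvPowerSeries.smul_eq_C_mul, e, pow_succ, map_mul]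
      have hcomb := J.add_mem ih h
      have : f - (levelPoly O p n R (S m) + MvPowerSeries.C (π ^ m) * levelPoly O p n R (c (fs m))) -
          MvPowerSeries.C (π ^ m) * MvPowerSeries.C π * g' (fs m) =
        (f - levelPoly O p n R (S m) - MvPowerSeries.C (π ^ m) * fs m) +
          MvPowerSeries.C (π ^ m) *
            (fs m - levelPoly O p n R (c (fs m)) - MvPowerSeries.C π * g' (fs m)) := by ring
      rw [this]
      exact hcomb
  have hlim : ∀ e, ∃ L : O, ∀ m, S m e ≡ L [SMOD (maximalIdeal O ^ m • ⊤ : Submodule O O)] := by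
    intro e
    refine IsPrecomplete.prec inferInstance fun {a b} hab => ?_
    rw [SModEq.sub_mem, smul_eq_mul, Ideal.mul_top]
    simp only [S, Finset.sum_apply, Pi.smul_apply, smul_eq_mul]
    rw [← Finset.sum_range_add_sum_Ico _ hab, sub_add_cancel_left]
    refine neg_mem (Ideal.sum_mem _ fun j hj => Ideal.mul_mem_right _ _ ?_)
    rw [hπm, Ideal.span_singleton_pow, Ideal.mem_span_singleton]
    exact pow_dvd_pow π (Finset.mem_Ico.mp hj).1
  choose L hL using hlim
  refine ⟨L, ?_⟩
  rw [← Ideal.Quotient.eq_zero_iff_mem]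
  have hCπ : MvPowerSeries.C π ∈ maximalIdeal (MvPowerSeries (Fin R) O) := by
    rw [Deform.mem_maximalIdeal_iff, MvPowerSeries.constantCoeff_C, hπm]
    exact Ideal.mem_span_singleton_self π
  have hJ : J ≤ maximalIdeal _ := by
    refine Ideal.span_le.mpr ?_
    rintro _ ⟨i, rfl⟩
    rw [SetLike.mem_coe, Deform.mem_maximalIdeal_iff]
    simp
  have key : ∀ m, f - levelPoly O p n R L ∈ maximalIdeal _ ^ m ⊔ J := by
    intro m
    have h1 := hS m
    have h2 : MvPowerSeries.C (π ^ m) * fs m +
        levelPoly O p n R (S m - L) ∈ maximalIdeal _ ^ m := by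
      refine add_mem (Ideal.mul_mem_right _ _ ?_) ?_
      · rw [map_pow]; exact Ideal.pow_mem_pow hCπ m
      · rw [levelPoly, Fintype.linearCombination_apply]
        refine Ideal.sum_mem _ fun e _ => ?_
        rw [MvPowerSeries.smul_eq_C_mul]
        refine Ideal.mul_mem_right _ _ (Deform.C_mem_pow ?_)
        have := hL e m
        rwa [SModEq.sub_mem, smul_eq_mul, Ideal.mul_top] at this
    refine Submodule.mem_sup.mpr ⟨_, h2, _, h1, ?_⟩
    rw [map_sub]
    ring
  let A := MvPowerSeries (Fin R) O ⧸ J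
  have hne : J ≠ ⊤ := fun h => (maximalIdeal.isMaximal _).ne_top (top_le_iff.mp (h ▸ hJ))
  have : Nontrivial A := Ideal.Quotient.nontrivial_iff.mpr hne
  have : IsLocalRing A :=
    IsLocalRing.of_surjective' (Ideal.Quotient.mk J) Ideal.Quotient.mk_surjective
  have hkr := Ideal.iInf_pow_eq_bot_of_isLocalRing (R := A)
    (maximalIdeal A) (maximalIdeal.isMaximal A).ne_top
  have : Ideal.Quotient.mk J (f - levelPoly O p n R L) ∈ (⨅ m : ℕ, maximalIdeal A ^ m) := by
    refine (Ideal.mem_iInf).mpr fun m => ?_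
    obtain ⟨a, ha, b, hb, hab⟩ := Submodule.mem_sup.mp (key m)
    rw [← hab, map_add, Ideal.Quotient.eq_zero_iff_mem.mpr hb, add_zero]
    have hmap : (maximalIdeal (MvPowerSeries (Fin R) O)).map (Ideal.Quotient.mk J) ≤ maximalIdeal A :=
      IsLocalRing.le_maximalIdeal fun h => by
        have h1 := (Ideal.comap_map_of_surjective (Ideal.Quotient.mk J)
          Ideal.Quotient.mk_surjective (maximalIdeal (MvPowerSeries (Fin R) O)))
        rw [h, Ideal.comap_top, ← RingHom.ker_eq_comap_bot, Ideal.mk_ker, sup_eq_left.mpr hJ] at h1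
        exact (maximalIdeal.isMaximal _).ne_top h1.symm
    have := Ideal.mem_map_of_mem (Ideal.Quotient.mk J) ha
    rw [Ideal.map_pow] at this
    exact Ideal.pow_right_mono hmap m this
  rwa [hkr, Ideal.mem_bot] at this

end Quotient

section Module

variable {O : Type} [CommRing O] [IsDomain O] [IsDiscreteValuationRing O]
  [IsAdicComplete (maximalIdeal O) O] [Finite (ResidueField O)] {p n R d : ℕ} [Fact p.Prime]
  {B : Type} [CommRing B] [Algebra O B] {M : Type} [AddCommGroup M] [Module B M] [Module O M]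
  [IsScalarTower O B M] [Module.Finite O M]

/-- A free `O`-module with unipotent operators is free over `O⟦X⟧ / ((1 + Xᵢ) ^ pⁿ - 1)` as soon as
`d` elements generate it modulo the operators and its rank is `d` times that of the quotient. -/
theorem isFreeLevel_basis (hpO : (p : O) ∈ maximalIdeal O) (u : Fin R → B)
    (hrel : ∀ i, ∀ m : M, ((1 + u i) ^ p ^ n - 1) • m = 0) (b : Fin d → M)
    (hgen : ∀ m : M, ∃ (c : Fin d → O) (m' : M),
      m' ∈ Ideal.span (Set.range u) • (⊤ : Submodule B M) ∧ m = ∑ j, c j • b j + m')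
    (hrank : Module.finrank O M = d * (p ^ n) ^ R)
    (α : MvPowerSeries (Fin R) O →ₐ[O] B) (hα : ∀ i, α (MvPowerSeries.X i) = u i) :
    (∀ m : M, ∃ f : Fin d → MvPowerSeries (Fin R) O, m = ∑ j, α (f j) • b j) ∧
    ∀ f : Fin d → MvPowerSeries (Fin R) O, (∑ j, α (f j) • b j = 0 ↔
      ∀ j, f j ∈ levelIdeal O p n R) := by
  classical
  have hp := (Fact.out : p.Prime)
  -- the relations die on the module
  have hJ : ∀ f ∈ levelIdeal O p n R, ∀ m : M, α f • m = 0 := by
    intro f hf
    induction hf using Submodule.span_induction with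
    | mem x hx =>
      obtain ⟨i, rfl⟩ := hx
      intro m
      rw [map_sub, map_pow, map_add, map_one, hα, hrel]
    | zero => intro m; rw [map_zero, zero_smul]
    | add x y _ _ hx hy => intro m; rw [map_add, add_smul, hx, hy, add_zero]
    | smul a x _ hx => intro m; rw [smul_eq_mul, map_mul, mul_smul, hx, smul_zero]
  let Φ : ((Fin R → Fin (p ^ n)) → O) →ₗ[O] MvPowerSeries (Fin R) O := levelPoly O p n R
  let v : (Fin R → Fin (p ^ n)) × Fin d → M :=
    fun x => α (Φ (Pi.single x.1 1)) • b x.2
  have hcomb : ∀ (c : (Fin R → Fin (p ^ n)) → O) (j : Fin d),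
      α (Φ c) • b j = ∑ e, c e • v (e, j) := by
    intro c j
    conv_lhs => rw [pi_eq_sum_univ' c, map_sum, map_sum, Finset.sum_smul]
    refine Finset.sum_congr rfl fun e _ => ?_
    rw [map_smul, map_smul, smul_assoc]
  set W : Submodule O M := Submodule.span O (Set.range v) with hW
  have hW' : ∀ f j, α f • b j ∈ W := by
    intro f j
    obtain ⟨c, hc⟩ := exists_levelPoly_sub_mem (p := p) (n := n) hpO f
    have : α f • b j = α (Φ c) • b j := by
      rw [← sub_eq_zero, ← sub_smul, ← map_sub]
      exact hJ _ hc _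
    rw [this, hcomb]
    exact Submodule.sum_mem _ fun e _ => Submodule.smul_mem _ _ (Submodule.subset_span ⟨(e, j), rfl⟩)
  -- the span is stable under the operators
  have hstab : ∀ i, ∀ w ∈ W, u i • w ∈ W := by
    intro i w hw
    induction hw using Submodule.span_induction with
    | mem y hy =>
      obtain ⟨⟨e, j⟩, rfl⟩ := hy
      show u i • α _ • b j ∈ W
      rw [← mul_smul, ← hα, ← map_mul]
      exact hW' _ _
    | zero => rw [smul_zero]; exact zero_mem _
    | add y z _ _ hy hz => rw [smul_add]; exact add_mem hy hz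
    | smul a y _ hy => rw [smul_comm]; exact Submodule.smul_mem _ _ hy
  set I : Ideal B := Ideal.span (Set.range u)
  have hdec : ∀ m : M, ∃ w ∈ W, ∃ ms : Fin R → M, m = w + ∑ i, u i • ms i := by
    intro m
    obtain ⟨c, m', hm', rfl⟩ := hgen m
    have hm : ∃ ms : Fin R → M, m' = ∑ i, u i • ms i := by
      refine Submodule.smul_induction_on hm' ?_ ?_
      · intro x hx y _
        obtain ⟨a, rfl⟩ := Ideal.mem_span_range_iff_exists_fun.mp hx
        exact ⟨fun i => a i • y, by
          rw [Finset.sum_smul]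
          exact Finset.sum_congr rfl fun i _ => by rw [mul_comm, mul_smul]⟩
      · rintro x y ⟨a, rfl⟩ ⟨a', rfl⟩
        exact ⟨a + a', by simp [Finset.sum_add_distrib]⟩
    obtain ⟨ms, rfl⟩ := hm
    refine ⟨∑ j, c j • b j, Submodule.sum_mem _ fun j _ => Submodule.smul_mem _ _ ?_, ms, rfl⟩
    simpa using hW' 1 j
  have hpow : ∀ k, ∀ m : M, ∃ w ∈ W, ∃ m' ∈ I ^ k • (⊤ : Submodule B M), m = w + m' := by
    intro k
    induction k with
    | zero => intro m; exact ⟨0, zero_mem _, m, by simp, (zero_add m).symm⟩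
    | succ k ih =>
      intro m
      obtain ⟨w, hw, ms, rfl⟩ := hdec m
      choose w' hw' m' hm' hms using fun i => ih (ms i)
      refine ⟨w + ∑ i, u i • w' i, add_mem hw (Submodule.sum_mem _ fun i _ => hstab i _ (hw' i)),
        ∑ i, u i • m' i, Submodule.sum_mem _ fun i _ => ?_, ?_⟩
      · rw [pow_succ', Submodule.mul_smul]
        exact Submodule.smul_mem_smul (Ideal.subset_span ⟨i, rfl⟩) (hm' i)
      · rw [add_assoc, ← Finset.sum_add_distrib]
        congr 1
        exact Finset.sum_congr rfl fun i _ => by rw [hms, smul_add]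
  -- `p` divides high powers of the operators on the module
  have hrad : I ≤ (Ideal.span {(p : B)} ⊔ Module.annihilator B M).radical := by
    refine Ideal.span_le.mpr ?_
    rintro _ ⟨i, rfl⟩
    refine ⟨p ^ n, ?_⟩
    obtain ⟨r, hr⟩ := exists_add_pow_prime_pow_eq hp (1 : B) (u i) n
    have h1 : (1 + u i) ^ p ^ n - 1 ∈ Module.annihilator B M := Module.mem_annihilator.mpr (hrel i)
    have h2 := sub_mem (Ideal.mem_sup_right (S := Ideal.span {(p : B)}) h1)
      (Ideal.mem_sup_left (T := Module.annihilator B M)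
        (Ideal.mul_mem_right (u i * r) _ (Ideal.mem_span_singleton_self (p : B))))
    convert h2 using 1
    rw [hr, one_pow]
    ring
  obtain ⟨k, hk⟩ := Ideal.exists_pow_le_of_le_radical_of_fg hrad
    ⟨Finset.univ.image u, by simp [I]⟩
  have htop : W = ⊤ := by
    refine top_le_iff.mp (Submodule.le_of_le_smul_of_le_jacobson_bot
      (Module.finite_def.mp inferInstance) (I := Ideal.span {(p : O)}) ?_ fun m _ => ?_)
    · rw [Ideal.span_singleton_le_iff_mem, IsLocalRing.jacobson_eq_maximalIdeal ⊥ bot_ne_top]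
      exact hpO
    · obtain ⟨w, hw, m', hm', rfl⟩ := hpow k m
      refine Submodule.add_mem _ (Submodule.mem_sup_left hw) (Submodule.mem_sup_right ?_)
      have hm'' := Submodule.smul_mono_left hk hm'
      refine Submodule.smul_induction_on hm'' (fun x hx y _ => ?_) fun x y hx hy => add_mem hx hy
      obtain ⟨a, ha, c, hc, rfl⟩ := Submodule.mem_sup.mp hx
      obtain ⟨a, rfl⟩ := Ideal.mem_span_singleton'.mp ha
      rw [add_smul, Module.mem_annihilator.mp hc y, add_zero, mul_comm, mul_smul,
        ← map_natCast (algebraMap O B), algebraMap_smul]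
      exact Submodule.smul_mem_smul (Ideal.mem_span_singleton_self _) trivial
  have hli : LinearIndependent O v :=
    linearIndependent_of_top_le_span_of_card_eq_finrank (hW ▸ htop.ge) (by
      rw [hrank, Fintype.card_prod, Fintype.card_fun, Fintype.card_fin, Fintype.card_fin,
        Fintype.card_fin, mul_comm])
  constructor
  · intro m
    have hm : m ∈ Submodule.span O (Set.range v) := hW ▸ htop ▸ Submodule.mem_top
    obtain ⟨c, rfl⟩ := (Submodule.mem_span_range_iff_exists_fun O).mp hm
    refine ⟨fun j => Φ fun e => c (e, j), ?_⟩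
    simp only [hcomb]
    rw [Fintype.sum_prod_type_right]
  · intro f
    choose c hc using fun j => exists_levelPoly_sub_mem (p := p) (n := n) hpO (f j)
    have hsum : ∑ j, α (f j) • b j = ∑ x, c x.2 x.1 • v x := by
      rw [Fintype.sum_prod_type_right]
      refine Finset.sum_congr rfl fun j _ => ?_
      rw [← hcomb]
      rw [← sub_eq_zero, ← sub_smul, ← map_sub]
      exact hJ _ (hc j) _
    constructor
    · intro h0 j
      have hz : c j = 0 := by
        funext e
        exact Fintype.linearIndependent_iff.mp hli (fun x => c x.2 x.1) (hsum ▸ h0) (e, j)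
      simpa [hz] using hc j
    · intro hf
      exact Finset.sum_eq_zero fun j _ => hJ _ (hf j) _

end Module

end Fermat.Agent.LL.Pair
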