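/-
From actions on free parts over the coefficient ring to the fields of a pair (owner: helper61).
-/
import Fermat.Agent.LL.Setting
import Fermat.Agent.LL.Pair.FreeLevel
import Fermat.Agent.R59.GroupRing
import Fermat.Agent.R59.TWLevel.Algebra
import Fermat.Agent.TW.Mod.LocPart

set_option autoImplicit false
set_option linter.style.haveILetI false
set_option synthInstance.maxHeartbeats 400000

noncomputable section

namespace Fermat.Agent.LL.Pair

open IsLocalRing

local notation "Γℚ" => (AlgebraicClosure ℚ ≃ₐ[ℚ] AlgebraicClosure ℚ)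

section Level

variable {O : Type} [CommRing O] {p n R : ℕ} {A X : Type} [CommRing A] [Algebra O A]
  [AddCommGroup X] [Module (R59.TWAlg O p n R) X] [Module O X]
  [IsScalarTower O (R59.TWAlg O p n R) X]
  (ρ : A →ₐ[O] Module.End (R59.TWAlg O p n R) X) (u : Fin R → A)

/-- The action as a module structure. -/
@[reducible] def actModule : Module A X := Module.compHom X (ρ : A →+* Module.End (R59.TWAlg O p n R) X)

theorem actModule_smul (a : A) (x : X) :
    letI := actModule ρ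
    a • x = ρ a x := rfl

theorem actModule_tower :
    letI := actModule ρ
    IsScalarTower O A X := by
  letI := actModule ρ
  refine IsScalarTower.of_algebraMap_smul fun c x => ?_
  show ρ (algebraMap O A c) x = c • x
  rw [AlgHom.commutes, Module.algebraMap_end_apply]

variable (hgen : ∀ i y, ∃ z, ρ (u i) z = (R59.twGen O p n R i - 1) • y)
include hgen

/-- The augmentation part lies in the span of the operators. -/
theorem mem_span_of_aug [NeZero p] {x : X}
    (hx : x ∈ RingHom.ker (R59.twAug O p n R) • (⊤ : Submodule (R59.TWAlg O p n R) X)) :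
    letI := actModule ρ
    x ∈ Ideal.span (Set.range u) • (⊤ : Submodule A X) := by
  letI := actModule ρ
  rw [R59.ker_twAug] at hx
  have key : ∀ c ∈ Ideal.span (Set.range fun j => R59.twGen O p n R j - 1), ∀ y : X,
      c • y ∈ Ideal.span (Set.range u) • (⊤ : Submodule A X) := by
    intro c hc
    induction hc using Submodule.span_induction with
    | mem c hc =>
      obtain ⟨i, rfl⟩ := hc
      intro y
      obtain ⟨z, hz⟩ := hgen i y
      rw [← hz]
      exact Submodule.smul_mem_smul (Ideal.subset_span ⟨i, rfl⟩) Submodule.mem_top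
    | zero => intro y; rw [zero_smul]; exact zero_mem _
    | add a b _ _ ha hb => intro y; rw [add_smul]; exact add_mem (ha y) (hb y)
    | smul a b _ hb => intro y; rw [smul_eq_mul, mul_comm, mul_smul]; exact hb _
  exact Submodule.smul_induction_on hx (fun c hc y _ => key c hc y) fun a b ha hb => add_mem ha hb

variable [IsDomain O] [IsDiscreteValuationRing O] [IsAdicComplete (maximalIdeal O) O]
  [Finite (ResidueField O)] [IsAddTorsionFree O] [Fact p.Prime]
  [Module.Free (R59.TWAlg O p n R) X] [Module.Finite (R59.TWAlg O p n R) X]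

set_option maxHeartbeats 1000000 in
/-- A free part with divisible diamond operators is free of its rank at level `n`. -/
theorem isFreeLevel_act (hp2 : p ≠ 2) (hpm : (p : O) ∈ maximalIdeal O)
    (hdiv : ∀ i, ∃ x, ρ (1 + u i) = 1 + algebraMap (R59.TWAlg O p n R) _ (R59.twGen O p n R i - 1) * x)
    (hpow : ∀ i, ∃ v : ℕ, (1 + u i) ^ p ^ v = 1) {d : ℕ}
    (hd : Module.finrank (R59.TWAlg O p n R) X = d) :
    letI := actModule ρ
    IsFreeLevel (O := O) p n d u X := by
  classical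
  letI := actModule ρ
  haveI : NeZero p := ⟨(Fact.out : p.Prime).ne_zero⟩
  haveI := actModule_tower ρ
  haveI : Module.Finite O X := Module.Finite.trans (R59.TWAlg O p n R) X
  haveI : Module.Finite O (Module.End (R59.TWAlg O p n R) X) := TW.Mod.finite_end_restrict
  let b := (Module.finBasisOfFinrankEq (R59.TWAlg O p n R) X hd)
  have htf : ∀ a : Module.End (R59.TWAlg O p n R) X, (p : Module.End _ X) * a = 0 → a = 0 := by
    intro a ha
    refine LinearMap.ext fun y => b.repr.injective (Finsupp.ext fun j => ?_)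
    have h := congrArg (fun z => b.repr z j) (LinearMap.congr_fun ha y)
    simp only [Module.End.mul_apply, Module.End.natCast_apply, map_nsmul, LinearMap.zero_apply,
      map_zero, Finsupp.zero_apply, Finsupp.smul_apply] at h
    rw [LinearMap.zero_apply, map_zero, Finsupp.zero_apply]
    exact (smul_eq_zero.mp h).resolve_left (Fact.out : p.Prime).ne_zero
  have hrel : ∀ i, ∀ m : X, ((1 + u i) ^ p ^ n - 1) • m = 0 := by
    intro i m
    obtain ⟨x, hx⟩ := hdiv i
    obtain ⟨v, hv⟩ := hpow i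
    have h := R59.TWLevel.pow_eq_one_of_gen_pow (𝒪 := O) hp2 hpm htf
      (Λ := R59.TWAlg O p n R) (g := R59.twGen O p n R i) (k := n)
      (by rw [R59.twGen_pow, map_one]) hx v (by rw [← map_pow, hv, map_one])
    show ρ ((1 + u i) ^ p ^ n - 1) m = 0
    rw [map_sub, map_pow, map_one, h, sub_self, LinearMap.zero_apply]
  refine ⟨b, fun α hα => isFreeLevel_basis (O := O) hpm u hrel b (fun m => ?_) ?_ α hα⟩
  · refine ⟨fun j => R59.twAug O p n R (b.repr m j),
      m - ∑ j, R59.twAug O p n R (b.repr m j) • b j, ?_, by abel⟩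
    refine mem_span_of_aug ρ u hgen ?_
    nth_rewrite 1 [← b.sum_repr m]
    rw [← Finset.sum_sub_distrib]
    refine Submodule.sum_mem _ fun j _ => ?_
    rw [← algebraMap_smul (R59.TWAlg O p n R) (R59.twAug O p n R (b.repr m j)) (b j), ← sub_smul]
    refine Submodule.smul_mem_smul ?_ Submodule.mem_top
    rw [RingHom.mem_ker, map_sub, AlgHom.commutes, Algebra.algebraMap_self, RingHom.id_apply,
      sub_self]
  · rw [← Module.finrank_mul_finrank O (R59.TWAlg O p n R) X, hd, mul_comm]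
    congr 1
    rw [Module.finrank_eq_card_basis (MonoidAlgebra.basis (R59.TWGroup p n R) O), Fintype.card_fun,
      Fintype.card_fin, Fintype.card_multiplicative, ZMod.card]

end Level

theorem mem_map_smul_top_iff {O B X : Type} [CommRing O] [CommRing B] [Algebra O B] [AddCommGroup X]
    [Module B X] [Module O X] [IsScalarTower O B X] (I : Ideal O) (x : X) :
    x ∈ I.map (algebraMap O B) • (⊤ : Submodule B X) ↔ x ∈ I • (⊤ : Submodule O X) := by
  rw [← Submodule.restrictScalars_mem O (I.map (algebraMap O B) • (⊤ : Submodule B X)) x,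
    Ideal.smul_restrictScalars, Submodule.restrictScalars_top]

section Pair

variable {U : Setting} {i₀ : U.Idx} {n R : ℕ} {qv : Fin R → ℕ}
  (D : GaloisRep.DeformationRingData U.O U.ρbar (U.defCond qv))
  {X₀ X₁ : Type} [AddCommGroup X₀] [Module (R59.TWAlg U.O U.p n R) X₀] [Module U.O X₀]
  [IsScalarTower U.O (R59.TWAlg U.O U.p n R) X₀]
  [Module.Free (R59.TWAlg U.O U.p n R) X₀] [Module.Finite (R59.TWAlg U.O U.p n R) X₀]
  [AddCommGroup X₁] [Module (R59.TWAlg U.O U.p n R) X₁] [Module U.O X₁]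
  [IsScalarTower U.O (R59.TWAlg U.O U.p n R) X₁]
  [Module.Free (R59.TWAlg U.O U.p n R) X₁] [Module.Finite (R59.TWAlg U.O U.p n R) X₁]

set_option maxHeartbeats 1000000 in
/-- Congruent parts with actions of the deformation ring give a pair. -/
theorem nonempty_pair_of_acts {d e k : ℕ} (he : 0 < e)
    (ρ₀ : D.R →ₐ[U.O] Module.End (R59.TWAlg U.O U.p n R) X₀)
    (ρ₁ : D.R →ₐ[U.O] Module.End (R59.TWAlg U.O U.p n R) X₁)
    (u : Fin R → D.R) (hu : ∀ i, u i ∈ maximalIdeal D.R)
    (hpow : ∀ i, ∃ v : ℕ, (1 + u i) ^ U.p ^ v = 1)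
    (hgen₀ : ∀ i y, ∃ z, ρ₀ (u i) z = (R59.twGen U.O U.p n R i - 1) • y)
    (hgen₁ : ∀ i y, ∃ z, ρ₁ (u i) z = (R59.twGen U.O U.p n R i - 1) • y)
    (hdiv₀ : ∀ i, ∃ x, ρ₀ (1 + u i) =
      1 + algebraMap (R59.TWAlg U.O U.p n R) _ (R59.twGen U.O U.p n R i - 1) * x)
    (hdiv₁ : ∀ i, ∃ x, ρ₁ (1 + u i) =
      1 + algebraMap (R59.TWAlg U.O U.p n R) _ (R59.twGen U.O U.p n R i - 1) * x)
    (hd₀ : Module.finrank (R59.TWAlg U.O U.p n R) X₀ = d)
    (hd₁ : Module.finrank (R59.TWAlg U.O U.p n R) X₁ = d)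
    (hcongr : ∃ f : X₀ →ₗ[R59.TWAlg U.O U.p n R] X₁ ⧸
        ((maximalIdeal U.O).map (algebraMap U.O (R59.TWAlg U.O U.p n R)) •
          (⊤ : Submodule (R59.TWAlg U.O U.p n R) X₁)),
      Function.Surjective f ∧
      LinearMap.ker f = (maximalIdeal U.O).map (algebraMap U.O (R59.TWAlg U.O U.p n R)) • ⊤ ∧
      ∀ (a : D.R) (m : X₀) (m' : X₁), f m = Submodule.Quotient.mk m' →
        f (ρ₀ a m) = Submodule.Quotient.mk (ρ₁ a m'))
    (htr₀ : ∀ i : U.Idx, ρ₀ (trAt D.ρ (U.tame i) - 2) = 0)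
    (htr₁ : ∀ i : U.Idx, i ≠ i₀ → ρ₁ (trAt D.ρ (U.tame i) - 2) = 0)
    (hnt : ∀ m : X₀, algebraMap U.O (R59.TWAlg U.O U.p n R) ((U.p : U.O) ^ k) • m ∈
      (⨆ σ : Γℚ, LinearMap.range (ρ₀ (trAt D.ρ (U.tame i₀ * σ) - trAt D.ρ σ))) ⊔
        RingHom.ker (R59.twAug U.O U.p n R) • (⊤ : Submodule (R59.TWAlg U.O U.p n R) X₀))
    (hfo : ∀ m : X₁, ρ₁ ((∏ᶠ ζ ∈ {ζ : U.O | ζ ^ U.p ^ padicValNat U.p (i₀.1 - 1) = 1 ∧ ζ ≠ 1},
      (trAt D.ρ (U.tame i₀) - algebraMap U.O D.R (ζ + ζ ^ (U.p ^ padicValNat U.p (i₀.1 - 1) - 1))))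
        ^ e) m ∈
      RingHom.ker (R59.twAug U.O U.p n R) • (⊤ : Submodule (R59.TWAlg U.O U.p n R) X₁)) :
    Nonempty (Pair U i₀ d e k n D) := by
  classical
  have hp2 := U.two_ne_p
  haveI : NeZero U.p := ⟨(Fact.out : U.p.Prime).ne_zero⟩
  letI m₀ : Module D.R X₀ := actModule ρ₀
  letI m₁ : Module D.R X₁ := actModule ρ₁
  haveI := actModule_tower ρ₀
  haveI := actModule_tower ρ₁
  set IB := (maximalIdeal U.O).map (algebraMap U.O (R59.TWAlg U.O U.p n R))
  set IA := (maximalIdeal U.O).map (algebraMap U.O D.R)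
  have hmem₀ : ∀ x : X₀, x ∈ IB • (⊤ : Submodule (R59.TWAlg U.O U.p n R) X₀) ↔
      x ∈ IA • (⊤ : Submodule D.R X₀) := fun x =>
    (mem_map_smul_top_iff _ x).trans (mem_map_smul_top_iff _ x).symm
  have hmem₁ : ∀ x : X₁, x ∈ IB • (⊤ : Submodule (R59.TWAlg U.O U.p n R) X₁) ↔
      x ∈ IA • (⊤ : Submodule D.R X₁) := fun x =>
    (mem_map_smul_top_iff _ x).trans (mem_map_smul_top_iff _ x).symm
  obtain ⟨f, hfs, hfk, hfact⟩ := hcongr
  let e₁ : (X₁ ⧸ (IB • (⊤ : Submodule (R59.TWAlg U.O U.p n R) X₁))) →+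
      (X₁ ⧸ (IA • (⊤ : Submodule D.R X₁))) :=
    QuotientAddGroup.map _ _ (AddMonoidHom.id X₁) fun x hx => (hmem₁ x).1 hx
  have he₁ : ∀ y : X₁, e₁ (Submodule.Quotient.mk y) = Submodule.Quotient.mk y := fun y => rfl
  let g : X₀ →ₗ[D.R] X₁ ⧸ (IA • (⊤ : Submodule D.R X₁)) :=
    { toFun := fun x => e₁ (f x)
      map_add' := fun x y => by rw [map_add, map_add]
      map_smul' := fun a x => by
        refine Exists.elim (Submodule.Quotient.mk_surjective _ (f x)) fun y hy => ?_
        show e₁ (f (ρ₀ a x)) = a • e₁ (f x)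
        rw [hfact a x y hy.symm, ← hy, he₁, he₁, ← Submodule.Quotient.mk_smul]
        rfl }
  refine ⟨{ M₀ := X₀, M₁ := X₁, instModule₀ := m₀, instModule₁ := m₁, u := u, u_mem := hu
            free₀ := isFreeLevel_act ρ₀ u hgen₀ hp2 U.p_mem hdiv₀ hpow hd₀
            free₁ := isFreeLevel_act ρ₁ u hgen₁ hp2 U.p_mem hdiv₁ hpow hd₁
            congr := ⟨g, ?_, ?_⟩
            trace₀ := fun i m => ?_, nontriv := fun m => ?_, trace₁ := fun i hi m => ?_
            finiteOrder₁ := fun m => mem_span_of_aug ρ₁ u hgen₁ (hfo m) }⟩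
  · intro y
    refine Exists.elim (Submodule.Quotient.mk_surjective _ y) fun y' hy' => ?_
    obtain ⟨x, hx⟩ := hfs (Submodule.Quotient.mk y')
    exact ⟨x, by show e₁ (f x) = y; rw [hx, he₁, hy']⟩
  · refine Submodule.ext fun x => ?_
    rw [LinearMap.mem_ker, ← hmem₀, ← hfk, LinearMap.mem_ker]
    show e₁ (f x) = 0 ↔ f x = 0
    refine Exists.elim (Submodule.Quotient.mk_surjective _ (f x)) fun y hy => ?_
    rw [← hy, he₁, Submodule.Quotient.mk_eq_zero, Submodule.Quotient.mk_eq_zero, hmem₁]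
  · rw [← Nat.sub_add_cancel he, pow_succ, mul_smul]
    refine Submodule.smul_mem _ _ ?_
    show ρ₀ _ m ∈ _
    rw [htr₀ i]
    exact zero_mem _
  · have e : algebraMap U.O D.R (U.p : U.O) ^ k • m =
        algebraMap U.O (R59.TWAlg U.O U.p n R) ((U.p : U.O) ^ k) • m := by
      rw [← map_pow, algebraMap_smul, algebraMap_smul]
    rw [e]
    obtain ⟨a, ha, b, hb, hab⟩ := Submodule.mem_sup.mp (hnt m)
    rw [← hab, Submodule.sup_smul]
    refine Submodule.add_mem_sup ?_ (mem_span_of_aug ρ₀ u hgen₀ hb)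
    refine Submodule.iSup_induction _ (motive := fun z => z ∈ Ideal.span (Set.range fun σ : Γℚ =>
      trAt D.ρ (U.tame i₀ * σ) - trAt D.ρ σ) • (⊤ : Submodule D.R X₀)) ha ?_ (zero_mem _)
      fun _ _ => add_mem
    rintro σ _ ⟨z, rfl⟩
    exact Submodule.smul_mem_smul (Ideal.subset_span ⟨σ, rfl⟩) Submodule.mem_top
  · rw [← Nat.sub_add_cancel he, pow_succ, mul_smul]
    refine Submodule.smul_mem _ _ ?_
    show ρ₁ _ m ∈ _
    rw [htr₁ i hi]
    exact zero_mem _

end Pair

end Fermat.Agent.LL.Pair
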