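/-
Congruent characters have the same twisted `H¹` modulo the congruence ideal, compatibly with the
Hecke operators (owner: helper61).
-/
import Fermat.Agent.TW.Mod.Hecke

set_option autoImplicit false

noncomputable section

namespace Fermat.Agent.LL.Pair

open Fermat.Agent.TW.Mod CongruenceSubgroup
open scoped MatrixGroups

section Group

variable {Γ : Subgroup SL(2, ℤ)} {R : Type*} [CommRing R] {ε₀ ε₁ : Γ →* Rˣ}

/-- The retraction only depends on the action on the coefficients. -/
theorem genRetract_eq_of_smul_eq {B : Type*} [AddCommGroup B] [Module R B] (h₀ : Admissible ε₀)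
    (h₁ : Admissible ε₁) (heq : ∀ (g : Γ) (b : B), (ε₀ g : R) • b = (ε₁ g : R) • b)
    (f : (SL(2, ℤ) ⧸ Γ → B) × (SL(2, ℤ) ⧸ Γ → B)) (γ : Γ) :
    (genRetract h₁ f : Γ → B) γ = (genRetract h₀ f : Γ → B) γ := by
  have hind : ∀ (g : SL(2, ℤ)) (v : SL(2, ℤ) ⧸ Γ → B), indAct ε₀ g v = indAct ε₁ g v :=
    fun g v => funext fun x => heq _ _
  have hC : IsIndCocycle ε₁ (liftCocycle h₀ f) := fun g g' => by
    rw [isIndCocycle_liftCocycle h₀ f g g', hind]
  have hS : liftCocycle h₀ f ModularGroup.S = projS ε₁ f.1 := by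
    rw [liftCocycle_S]
    funext x
    classical
    simp only [projS_apply, heq]
  have hU : liftCocycle h₀ f Fermat.Agent.MF.ParHom.genU = projU ε₁ f.2 := by
    rw [liftCocycle_U]
    funext x
    classical
    simp only [projU_apply, heq]
  exact congrFun (congrFun (liftCocycle_eq_of h₁ hC hS hU) (γ : SL(2, ℤ))) _

variable [IsAddTorsionFree R] (h₀ : Admissible ε₀) (h₁ : Admissible ε₁)

/-- Derivations for one character made into derivations for the other. -/
def congDer : Der ε₀ R →ₗ[R] Der ε₁ R := genRetract h₁ ∘ₗ genValues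

variable (I : Ideal R) (hI : ∀ g, (ε₀ g : R) - ε₁ g ∈ I)
include h₀ hI

/-- The values are unchanged modulo the ideal. -/
theorem congDer_sub_mem (c : Der ε₀ R) (γ : Γ) :
    (congDer h₁ c : Γ → R) γ - (c : Γ → R) γ ∈ I := by
  have heq : ∀ (g : Γ) (b : R ⧸ I), (ε₀ g : R) • b = (ε₁ g : R) • b := fun g b => by
    obtain ⟨b, rfl⟩ := Submodule.mkQ_surjective I b
    rw [← map_smul, ← map_smul, Submodule.mkQ_apply, Submodule.mkQ_apply, Submodule.Quotient.eq,
      smul_eq_mul, smul_eq_mul, ← sub_mul]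
    exact I.mul_mem_right _ (hI g)
  rw [← Submodule.Quotient.eq]
  show I.mkQ ((genRetract h₁ (genValues c) : Γ → R) γ) = I.mkQ ((c : Γ → R) γ)
  have e1 := congrFun (congrArg Subtype.val (genRetract_natural h₁ I.mkQ (genValues c))) γ
  have e0 := congrFun (congrArg Subtype.val (genRetract_natural h₀ I.mkQ (genValues c))) γ
  rw [genRetract_genValues h₀ c] at e0
  rw [Der.map_apply] at e1 e0
  rw [e1, e0]
  exact genRetract_eq_of_smul_eq h₀ h₁ heq _ γ

omit h₀ hI in
/-- Derivations with values in the ideal are multiples. -/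
theorem mem_smul_top_of_values [Γ.FiniteIndex] {ε : Γ →* Rˣ} (h : Admissible ε) {c : Der ε R}
    (hc : ∀ g, (c : Γ → R) g ∈ I) : c ∈ I • (⊤ : Submodule R (Der ε R)) := by
  have := h.ker_der_map I.mkQ
  rw [Submodule.ker_mkQ] at this
  rw [← this, LinearMap.mem_ker]
  exact Subtype.ext (funext fun g => (Submodule.Quotient.mk_eq_zero I).mpr (hc g))

/-- `H¹` modulo the ideal. -/
abbrev H1Mod (ε : Γ →* Rˣ) : Type _ := H1 ε R ⧸ (I • ⊤ : Submodule R (H1 ε R))

omit h₀ hI in
theorem mk_mem_smul_top [Γ.FiniteIndex] {ε : Γ →* Rˣ} (h : Admissible ε) {c : Der ε R}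
    (hc : ∀ g, (c : Γ → R) g ∈ I) :
    (Submodule.Quotient.mk c : H1 ε R) ∈ (I • ⊤ : Submodule R (H1 ε R)) := by
  have h1 := Submodule.mem_map_of_mem (f := (LinearMap.range (cobound ε R)).mkQ)
    (mem_smul_top_of_values I h hc)
  rw [Submodule.map_smul''] at h1
  exact Submodule.smul_mono le_rfl le_top h1

omit h₀ [IsAddTorsionFree R] in
theorem congr_symm (g : Γ) : (ε₁ g : R) - ε₀ g ∈ I := by
  rw [← neg_sub]; exact I.neg_mem (hI g)

variable [Γ.FiniteIndex]

/-- The comparison on `H¹`. -/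
def congMap : H1 ε₀ R →ₗ[R] H1Mod I ε₁ :=
  Submodule.liftQ _ ((Submodule.mkQ _).comp ((Submodule.mkQ _).comp (congDer h₁))) (by
    rintro _ ⟨a, rfl⟩
    rw [LinearMap.mem_ker]
    show Submodule.Quotient.mk (Submodule.Quotient.mk (congDer h₁ (cobound ε₀ R a))) = 0
    rw [Submodule.Quotient.mk_eq_zero]
    have e : (Submodule.Quotient.mk (congDer h₁ (cobound ε₀ R a)) : H1 ε₁ R) =
        Submodule.Quotient.mk (congDer h₁ (cobound ε₀ R a) - cobound ε₁ R a) := by
      rw [Submodule.Quotient.eq, sub_sub_cancel]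
      exact LinearMap.mem_range_self _ a
    rw [e]
    refine mk_mem_smul_top I h₁ fun g => ?_
    show (congDer h₁ (cobound ε₀ R a) : Γ → R) g - (cobound ε₁ R a : Γ → R) g ∈ I
    rw [show (congDer h₁ (cobound ε₀ R a) : Γ → R) g - (cobound ε₁ R a : Γ → R) g =
      ((congDer h₁ (cobound ε₀ R a) : Γ → R) g - (cobound ε₀ R a : Γ → R) g) +
        ((cobound ε₀ R a : Γ → R) g - (cobound ε₁ R a : Γ → R) g) by ring]
    refine I.add_mem (congDer_sub_mem h₀ h₁ I hI _ g) ?_
    rw [cobound_apply, cobound_apply, smul_eq_mul, smul_eq_mul]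
    convert I.mul_mem_right a (hI g) using 1
    ring)

theorem congMap_mk (c : Der ε₀ R) :
    congMap h₀ h₁ I hI (Submodule.Quotient.mk c) =
      Submodule.Quotient.mk (Submodule.Quotient.mk (congDer h₁ c)) := rfl

/-- The comparison in the other direction undoes it. -/
theorem congMap_congMap (x : H1 ε₀ R) (y : H1 ε₁ R)
    (h : congMap h₀ h₁ I hI x = Submodule.Quotient.mk y) :
    congMap h₁ h₀ I (congr_symm I hI) y =
      Submodule.Quotient.mk x := by
  set F := congMap h₁ h₀ I (congr_symm I hI) with hF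
  induction x using Submodule.Quotient.induction_on with
  | _ c =>
    have hy : F y = F (Submodule.Quotient.mk (congDer h₁ c)) := by
      rw [congMap_mk] at h
      have h' := (Submodule.Quotient.eq _).1 h.symm
      rw [← sub_eq_zero, ← map_sub]
      refine Submodule.smul_induction_on h' (fun r hr z _ => ?_) fun a b ha hb => by
        rw [map_add, ha, hb, add_zero]
      rw [map_smul]
      induction F z using Submodule.Quotient.induction_on with
      | _ w =>
        rw [← Submodule.Quotient.mk_smul, Submodule.Quotient.mk_eq_zero]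
        exact Submodule.smul_mem_smul hr Submodule.mem_top
    rw [hy, hF, congMap_mk, Submodule.Quotient.eq, ← Submodule.Quotient.mk_sub]
    refine mk_mem_smul_top I h₀ fun g => ?_
    have e1 := congDer_sub_mem h₀ h₁ I hI c g
    have e2 := congDer_sub_mem h₁ h₀ I (congr_symm I hI)
      (congDer h₁ c) g
    have := I.add_mem e1 e2
    convert this using 1
    show (congDer h₀ (congDer h₁ c) : Γ → R) g - (c : Γ → R) g = _
    ring

theorem congMap_surjective : Function.Surjective (congMap h₀ h₁ I hI) := by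
  intro y
  induction y using Submodule.Quotient.induction_on with
  | _ y =>
    have hI' := congr_symm I hI
    obtain ⟨x, hx⟩ := Submodule.Quotient.mk_surjective _ (congMap h₁ h₀ I hI' y)
    exact ⟨x, congMap_congMap h₁ h₀ I hI' y x hx.symm⟩

theorem ker_congMap :
    LinearMap.ker (congMap h₀ h₁ I hI) = (I • ⊤ : Submodule R (H1 ε₀ R)) := by
  refine le_antisymm (fun x hx => ?_) (Submodule.smul_le.2 fun r hr z _ => ?_)
  · have := congMap_congMap h₀ h₁ I hI x 0 (by rw [LinearMap.mem_ker.1 hx]; rfl)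
    rw [map_zero] at this
    exact (Submodule.Quotient.mk_eq_zero _).1 this.symm
  · rw [LinearMap.mem_ker, map_smul]
    induction congMap h₀ h₁ I hI z using Submodule.Quotient.induction_on with
    | _ w =>
      rw [← Submodule.Quotient.mk_smul, Submodule.Quotient.mk_eq_zero]
      exact Submodule.smul_mem_smul hr Submodule.mem_top

end Group

section Hecke

variable {M : ℕ} [NeZero M] {R : Type*} [CommRing R] [IsAddTorsionFree R]
  {χ₀ χ₁ : (ZMod M)ˣ →* Rˣ} (h₀ : Admissible (epsOf χ₀)) (h₁ : Admissible (epsOf χ₁))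
  (I : Ideal R) (hI : ∀ u, (χ₀ u : R) - χ₁ u ∈ I)

omit [NeZero M] [IsAddTorsionFree R] in
include hI in
theorem epsOf_sub_mem (g : Gamma0 M) : (epsOf χ₀ g : R) - epsOf χ₁ g ∈ I := hI _

omit [NeZero M] [IsAddTorsionFree R] in
include hI in
theorem heckeWeight_sub_mem (p : ℕ) (i : HK.HeckeIdx M p) :
    heckeWeight χ₀ i - heckeWeight χ₁ i ∈ I := by
  obtain ⟨_ | j, h⟩ := i
  · show (chiPrime χ₀ p : R) - chiPrime χ₁ p ∈ I
    unfold chiPrime
    split_ifs
    · exact hI _
    · rw [sub_self]; exact I.zero_mem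
  · show (1 : R) - 1 ∈ I
    rw [sub_self]; exact I.zero_mem

/-- The comparison intertwines the Hecke operators. -/
theorem congMap_h1T (p : ℕ) [Fact p.Prime] (x : H1 (epsOf χ₀) R) (y : H1 (epsOf χ₁) R)
    (h : congMap h₀ h₁ I (epsOf_sub_mem I hI) x = Submodule.Quotient.mk y) :
    congMap h₀ h₁ I (epsOf_sub_mem I hI) (h1T χ₀ R p x) =
      Submodule.Quotient.mk (h1T χ₁ R p y) := by
  induction x using Submodule.Quotient.induction_on with
  | _ c =>
    rw [congMap_mk] at h
    have h' := (Submodule.Quotient.eq _).1 h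
    have h'' : h1T χ₁ R p (Submodule.Quotient.mk (congDer h₁ c) - y) ∈
        (I • ⊤ : Submodule R (H1 (epsOf χ₁) R)) := by
      have := Submodule.mem_map_of_mem (f := h1T χ₁ R p) h'
      rw [Submodule.map_smul''] at this
      exact Submodule.smul_mono le_rfl le_top this
    rw [h1T_mk, congMap_mk, Submodule.Quotient.eq]
    have e : (Submodule.Quotient.mk (congDer h₁ (derT χ₀ R p c)) : H1 (epsOf χ₁) R) -
        h1T χ₁ R p y = Submodule.Quotient.mk (congDer h₁ (derT χ₀ R p c) -
          derT χ₁ R p (congDer h₁ c)) +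
        h1T χ₁ R p (Submodule.Quotient.mk (congDer h₁ c) - y) := by
      rw [map_sub, h1T_mk, Submodule.Quotient.mk_sub]
      abel
    rw [e]
    refine add_mem (mk_mem_smul_top I h₁ fun g => ?_) h''
    show (congDer h₁ (derT χ₀ R p c) : Gamma0 M → R) g -
      (derT χ₁ R p (congDer h₁ c) : Gamma0 M → R) g ∈ I
    rw [show (congDer h₁ (derT χ₀ R p c) : Gamma0 M → R) g -
      (derT χ₁ R p (congDer h₁ c) : Gamma0 M → R) g =
      ((congDer h₁ (derT χ₀ R p c) : Gamma0 M → R) g - (derT χ₀ R p c : Gamma0 M → R) g) +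
      ((derT χ₀ R p c : Gamma0 M → R) g - (derT χ₁ R p (congDer h₁ c) : Gamma0 M → R) g) by ring]
    refine I.add_mem (congDer_sub_mem h₀ h₁ I (epsOf_sub_mem I hI) _ g) ?_
    show ∑ i : HK.HeckeIdx M p, heckeWeight χ₀ i • (c : Gamma0 M → R) (HK.heckeCoc g i) -
      ∑ i : HK.HeckeIdx M p, heckeWeight χ₁ i • (congDer h₁ c : Gamma0 M → R) (HK.heckeCoc g i) ∈ I
    rw [← Finset.sum_sub_distrib]
    refine I.sum_mem fun i _ => ?_
    rw [smul_eq_mul, smul_eq_mul]
    set a := (c : Gamma0 M → R) (HK.heckeCoc g i)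
    set b := (congDer h₁ c : Gamma0 M → R) (HK.heckeCoc g i)
    rw [show heckeWeight χ₀ i * a - heckeWeight χ₁ i * b =
      (heckeWeight χ₀ i - heckeWeight χ₁ i) * a - heckeWeight χ₁ i * (b - a) by ring]
    exact I.sub_mem (I.mul_mem_right _ (heckeWeight_sub_mem I hI p i))
      (I.mul_mem_left _ (congDer_sub_mem h₀ h₁ I (epsOf_sub_mem I hI) c _))

end Hecke

end Fermat.Agent.LL.Pair
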