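/-
For `ℓ ≡ 1` modulo `L`, `T_ℓ - (ℓ + 1)` maps `Hom(Γ₀(L), A)` into the parabolic homomorphisms
(owner: helper61).
-/
import Fermat.Agent.HK.HeckeHom

set_option autoImplicit false

noncomputable section

namespace Fermat.Agent.LL.Pair

open CongruenceSubgroup Fermat.Agent.HK ModularCurve.Period
open scoped MatrixGroups

/-- The unipotent `[[1, x], [0, 1]]`. -/
def uMat (x : ℤ) : SL(2, ℤ) := ⟨!![1, x; 0, 1], by simp [Matrix.det_fin_two_of]⟩

theorem coe_uMat (x : ℤ) : (uMat x : Matrix (Fin 2) (Fin 2) ℤ) = !![1, x; 0, 1] := rfl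

theorem uMat_add (x y : ℤ) : uMat (x + y) = uMat x * uMat y := by
  refine Subtype.ext ?_
  show (uMat (x + y) : Matrix (Fin 2) (Fin 2) ℤ) = (uMat x * uMat y : SL(2, ℤ))
  rw [Matrix.SpecialLinearGroup.coe_mul, coe_uMat, coe_uMat, coe_uMat, Matrix.mul_fin_two]
  simp [add_comm]

/-- A matrix of trace two is conjugate to an upper unipotent. -/
theorem exists_conj_uMat (g : SL(2, ℤ))
    (hg : (g : Matrix (Fin 2) (Fin 2) ℤ).trace = 2) :
    ∃ (γ : SL(2, ℤ)) (h : ℤ), g = γ * uMat h * γ⁻¹ := by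
  have hdet := g.det_coe
  rw [Matrix.trace_fin_two] at hg
  rw [Matrix.det_fin_two] at hdet
  by_cases hz : g 1 0 = 0
  · refine ⟨1, g 0 1, ?_⟩
    have h00 : (g 0 0 - 1) * (g 0 0 - 1) = 0 := by
      rw [hz] at hdet
      linear_combination -hdet + g 0 0 * hg
    have h1 : g 0 0 = 1 := by have := mul_self_eq_zero.mp h00; omega
    rw [one_mul, inv_one, mul_one]
    refine Subtype.ext (Matrix.ext fun i j => ?_)
    fin_cases i <;> fin_cases j <;> simp [uMat, hz, h1]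
    omega
  set x := g 0 0 - 1
  obtain ⟨a, c, hac, hxa, hzc⟩ : ∃ a c : ℤ, IsCoprime a c ∧
      x = (Int.gcd x (g 1 0) : ℤ) * a ∧ g 1 0 = (Int.gcd x (g 1 0) : ℤ) * c := by
    have hd : 0 < Int.gcd x (g 1 0) := Int.gcd_pos_iff.mpr (Or.inr hz)
    refine ⟨x / Int.gcd x (g 1 0), g 1 0 / Int.gcd x (g 1 0), ?_,
      (Int.mul_ediv_cancel' (Int.gcd_dvd_left _ _)).symm,
      (Int.mul_ediv_cancel' (Int.gcd_dvd_right _ _)).symm⟩
    rw [Int.isCoprime_iff_gcd_eq_one, Int.gcd_div_gcd_div_gcd hd]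
  set d : ℤ := (Int.gcd x (g 1 0) : ℤ)
  have hd0 : d ≠ 0 := fun h => hz (by rw [hzc, h, zero_mul])
  obtain ⟨s, t, hst⟩ := hac
  let γ : SL(2, ℤ) := ⟨!![a, -t; c, s], by rw [Matrix.det_fin_two_of]; linear_combination hst⟩
  set M : SL(2, ℤ) := γ⁻¹ * g * γ with hM
  have hxa' : g 0 0 - 1 = d * a := hxa
  have hMc : (M : Matrix (Fin 2) (Fin 2) ℤ) =
      !![s, t; -c, a] * (g : Matrix (Fin 2) (Fin 2) ℤ) * !![a, -t; c, s] := by
    rw [hM, Matrix.SpecialLinearGroup.coe_mul, Matrix.SpecialLinearGroup.coe_mul,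
      Matrix.SpecialLinearGroup.coe_inv]
    show Matrix.adjugate !![a, -t; c, s] * _ * _ = _
    rw [Matrix.adjugate_fin_two_of, neg_neg]
  have h10 : M 1 0 = 0 := by
    apply mul_left_cancel₀ hd0
    rw [hMc]
    simp only [Matrix.mul_apply, Fin.sum_univ_two, Matrix.of_apply, Matrix.cons_val_zero,
      Matrix.cons_val_one, Matrix.cons_val', Matrix.cons_val_fin_one, mul_zero]
    linear_combination (c * g 0 0 - a * g 1 0 - c) * hxa' + (c * g 0 1 - a * g 1 1 + a) * hzc +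
        (a * g 1 0 - c * g 0 0) * hg + c * hdet
  have h00 : M 0 0 = 1 := by
    apply mul_left_cancel₀ hd0
    rw [hMc]
    simp only [Matrix.mul_apply, Fin.sum_univ_two, Matrix.of_apply, Matrix.cons_val_zero,
      Matrix.cons_val_one, Matrix.cons_val', Matrix.cons_val_fin_one, mul_one]
    linear_combination (-(s * g 0 0 + t * g 1 0) + s) * hxa' +
        (-(s * g 0 1 + t * g 1 1) + t) * hzc + (t * g 1 0 + s * g 0 0) * hg - s * hdet + d * hst
  have h11 : M 1 1 = 1 := by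
    have := M.det_coe
    rw [Matrix.det_fin_two, h10, h00] at this
    simpa using this
  refine ⟨γ, M 0 1, ?_⟩
  have : uMat (M 0 1) = M := by
    refine Subtype.ext (Matrix.ext fun i j => ?_)
    fin_cases i <;> fin_cases j <;> simp [uMat, h10, h00, h11]
  rw [this, hM]
  group

variable {L ℓ : ℕ} [NeZero L] [hℓ : Fact ℓ.Prime] {R : Type*} [Semiring R] {A : Type*}
  [AddCommGroup A] [Module R A]

/-- `T_ℓ φ = (ℓ + 1) φ` on the parabolic elements of trace two, for `ℓ ≡ 1` modulo `L`. -/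
theorem heckeHom_apply_of_trace_two (hL : (ℓ : ZMod L) = 1) (hℓL : ¬ ℓ ∣ L)
    (φ : Additive (Gamma0 L) →+ A) (g : Gamma0 L)
    (hg : ((g : SL(2, ℤ)) : Matrix (Fin 2) (Fin 2) ℤ).trace = 2) :
    heckeHom L ℓ R A φ (Additive.ofMul g) = ((ℓ : ℤ) + 1) • φ (Additive.ofMul g) := by
  classical
  have : NeZero ℓ := ⟨hℓ.out.ne_zero⟩
  obtain ⟨γ, h, hgh⟩ := exists_conj_uMat _ hg
  set c : ℤ := γ 1 0
  have hlow : ∀ x, (γ * uMat x * γ⁻¹) 1 0 = -(x * c * c) := fun x => by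
    rw [Matrix.SpecialLinearGroup.coe_mul, Matrix.SpecialLinearGroup.coe_mul,
      Matrix.SpecialLinearGroup.coe_inv, coe_uMat]
    simp [c, Matrix.adjugate_fin_two, Matrix.mul_apply, Fin.sum_univ_two]
    ring
  -- the width of the cusp
  set L' : ℕ := Int.gcd L (c * c)
  obtain ⟨w, hw⟩ : (L' : ℤ) ∣ (L : ℤ) := Int.gcd_dvd_left _ _
  have hL'0 : 0 < L' := Int.gcd_pos_iff.mpr (Or.inl (by exact_mod_cast NeZero.ne L))
  obtain ⟨h', rfl⟩ : w ∣ h := by
    have hg10 : (L : ℤ) ∣ (g : SL(2, ℤ)) 1 0 := Gamma0.dvd_one_zero g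
    rw [hgh, hlow, dvd_neg, mul_assoc] at hg10
    obtain ⟨e, he⟩ : (L' : ℤ) ∣ c * c := Int.gcd_dvd_right _ _
    have hcop : IsCoprime w e := by
      obtain ⟨a, b, hab⟩ : ∃ a b : ℤ, (L : ℤ) * a + c * c * b = L' :=
        ⟨_, _, (Int.gcd_eq_gcd_ab _ _).symm⟩
      refine ⟨a, b, mul_left_cancel₀ (a := (L' : ℤ)) (by exact_mod_cast hL'0.ne') ?_⟩
      rw [mul_one]
      linear_combination hab - a * hw - b * he
    rw [hw, he, ← mul_assoc, mul_comm h (L' : ℤ), mul_assoc,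
      mul_dvd_mul_iff_left (by exact_mod_cast hL'0.ne')] at hg10
    exact hcop.dvd_of_dvd_mul_right hg10
  have hmem : ∀ s : ℤ, γ * uMat (w * s) * γ⁻¹ ∈ Gamma0 L := fun s => by
    rw [Gamma0_mem, hlow, ZMod.intCast_zmod_eq_zero_iff_dvd, dvd_neg, mul_assoc]
    obtain ⟨e, he⟩ : (L' : ℤ) ∣ c * c := Int.gcd_dvd_right _ _
    exact ⟨s * e, by rw [he, hw]; ring⟩
  let P : ℤ →+ A := AddMonoidHom.mk' (fun s => φ (Additive.ofMul ⟨_, hmem s⟩)) fun s t => by
    rw [← map_add, ← ofMul_mul]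
    congr 2
    refine Subtype.ext ?_
    show γ * uMat (w * (s + t)) * γ⁻¹ = γ * uMat (w * s) * γ⁻¹ * (γ * uMat (w * t) * γ⁻¹)
    rw [mul_add, uMat_add]
    group
  have hP : ∀ s : ℤ, P s = s • P 1 := fun s => by rw [← map_zsmul, smul_eq_mul, mul_one]
  have hgP : φ (Additive.ofMul g) = P h' := congrArg (fun z => φ (Additive.ofMul z)) (Subtype.ext hgh)
  -- representatives conjugated to the cusp
  let β : Option (Fin ℓ) → Matrix (Fin 2) (Fin 2) ℤ := fun o =>
    match o with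
    | some j => !![1, (L : ℤ) * (j : ℕ); 0, (ℓ : ℤ)]
    | none => !![(ℓ : ℤ), 0; 0, 1]
  have hβ1 : ∀ o, (β o).map (Int.castRingHom (ZMod L)) = 1 := by
    rintro (_ | j) <;> ext i k <;> fin_cases i <;> fin_cases k <;> simp [β, hL]
  have hβdet : ∀ o, (β o).det = ℓ := by rintro (_ | j) <;> simp [β, Matrix.det_fin_two_of]
  set G : Matrix (Fin 2) (Fin 2) ℤ := (γ : Matrix (Fin 2) (Fin 2) ℤ)
  set G' : Matrix (Fin 2) (Fin 2) ℤ := ((γ⁻¹ : SL(2, ℤ)) : Matrix (Fin 2) (Fin 2) ℤ)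
  have hGG : G * G' = 1 := by
    rw [← Matrix.SpecialLinearGroup.coe_mul, mul_inv_cancel]; rfl
  have hG'G : G' * G = 1 := by
    rw [← Matrix.SpecialLinearGroup.coe_mul, inv_mul_cancel]; rfl
  have hc : ∀ o, (L : ℤ) ∣ (G * β o * G') 1 0 := fun o => by
    rw [← ZMod.intCast_zmod_eq_zero_iff_dvd]
    have : ((G * β o * G').map (Int.castRingHom (ZMod L))) = 1 := by
      rw [Matrix.map_mul, Matrix.map_mul, hβ1, mul_one, ← Matrix.map_mul, hGG,
        Matrix.map_one _ (map_zero _) (map_one _)]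
    have := congrFun (congrFun this 1) 0
    simpa using this
  choose π u hu using fun o => exists_eq_mul_heckeMat (p := ℓ) (N := L)
    (M := G * β o * G') (by
      rw [Matrix.det_mul, Matrix.det_mul, hβdet, γ.det_coe, (γ⁻¹).det_coe, one_mul, mul_one])
    (hc o) (fun h => absurd h hℓL)
  have hinj : Function.Injective π := by
    intro o o' ho
    obtain ⟨k, hk⟩ : ∃ k : SL(2, ℤ), (k : Matrix (Fin 2) (Fin 2) ℤ) * β o = β o' := by
      refine ⟨γ⁻¹ * ((u o' : SL(2, ℤ)) * (u o : SL(2, ℤ))⁻¹) * γ, ?_⟩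
      have e1 := hu o
      have e2 := hu o'
      rw [← ho] at e2
      have e3 : (((u o' : SL(2, ℤ)) * (u o : SL(2, ℤ))⁻¹ : SL(2, ℤ)) : Matrix (Fin 2) (Fin 2) ℤ) *
          (G * β o * G') = G * β o' * G' := by
        rw [← e2, ← e1, ← Matrix.mul_assoc, ← Matrix.SpecialLinearGroup.coe_mul,
          inv_mul_cancel_right]
      have e4 := congrArg (fun X => G' * X * G) e3
      simp only [← Matrix.mul_assoc, hG'G, Matrix.one_mul] at e4
      simp only [Matrix.mul_assoc, hG'G, Matrix.mul_one] at e4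
      simp only [Matrix.SpecialLinearGroup.coe_mul, Matrix.mul_assoc]
      simpa only [Matrix.SpecialLinearGroup.coe_mul, Matrix.mul_assoc] using e4
    have hkd := k.det_coe
    rw [Matrix.det_fin_two] at hkd
    have k10 := congrFun (congrFun hk 1) 0
    have k00 := congrFun (congrFun hk 0) 0
    have k11 := congrFun (congrFun hk 1) 1
    have k01 := congrFun (congrFun hk 0) 1
    have hℓ1 : (1 : ℤ) < ℓ := by exact_mod_cast hℓ.out.one_lt
    rcases o with _ | j <;> rcases o' with _ | j' <;>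
      simp [β, Matrix.mul_apply, Fin.sum_univ_two] at k10 k00 k11 k01 hkd ⊢
    · have := Int.eq_one_or_neg_one_of_mul_eq_one' k00
      omega
    · simp [k10] at hkd
      rcases Int.eq_one_or_neg_one_of_mul_eq_one' hkd with h | h <;> rw [h.1] at k00 <;> omega
    · simp [k10] at hkd
      have h11 : k 1 1 = 1 := by
        rw [k00] at hkd; simpa using hkd
      rw [k00] at k01
      have hdvd : (ℓ : ℤ) ∣ (L : ℤ) * (((j' : ℕ) : ℤ) - (j : ℕ)) :=
        ⟨k 0 1, by linear_combination -k01⟩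
      have hcop : IsCoprime (ℓ : ℤ) (L : ℤ) :=
        Int.isCoprime_iff_nat_coprime.mpr (by simpa using hℓ.out.coprime_iff_not_dvd.mpr hℓL)
      obtain ⟨e, he⟩ := hcop.dvd_of_dvd_mul_left hdvd
      have := j.isLt; have := j'.isLt
      have : e = 0 := by nlinarith
      subst this
      exact Fin.ext (by omega)
  have hbij : Function.Bijective π := by
    refine (Fintype.bijective_iff_injective_and_card π).mpr ⟨hinj, ?_⟩
    exact (Fintype.card_congr (Equiv.subtypeUnivEquiv fun _ h => absurd h hℓL)).symm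
  -- the shift of the representatives
  have hL'ℓ : ((L' : ℤ) : ZMod ℓ) ≠ 0 := fun h0 => by
    rw [ZMod.intCast_zmod_eq_zero_iff_dvd] at h0
    exact hℓL (Int.natCast_dvd_natCast.mp (h0.trans ⟨w, hw⟩))
  let tau : Fin ℓ → Fin ℓ := fun j =>
    ⟨((j : ℕ) + (h' : ZMod ℓ) * ((L' : ℤ) : ZMod ℓ)⁻¹).val, ZMod.val_lt _⟩
  have htau : Function.Bijective tau := by
    refine Finite.injective_iff_bijective.mp fun a b hab => ?_
    have h1 := ZMod.val_injective ℓ (congrArg Fin.val hab)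
    rw [add_left_inj, ZMod.natCast_eq_natCast_iff', Nat.mod_eq_of_lt a.isLt,
      Nat.mod_eq_of_lt b.isLt] at h1
    exact Fin.ext h1
  have hs : ∀ j : Fin ℓ, ∃ s : ℤ, s * ℓ + L' * ((tau j : ℕ) : ℤ) = h' + L' * ((j : ℕ) : ℤ) := by
    intro j
    obtain ⟨s, hs⟩ : (ℓ : ℤ) ∣ h' + L' * ((j : ℕ) : ℤ) - L' * ((tau j : ℕ) : ℤ) := by
      rw [← ZMod.intCast_zmod_eq_zero_iff_dvd]
      push_cast
      simp only [tau, ZMod.natCast_zmod_val]
      rw [Int.cast_natCast] at hL'ℓ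
      rw [Int.cast_natCast]
      field_simp
      ring
    exact ⟨s, by linear_combination -hs⟩
  choose S hS using hs
  let τ : Option (Fin ℓ) → Option (Fin ℓ) := fun o => o.map tau
  let C : Option (Fin ℓ) → Gamma0 L := fun o =>
    match o with
    | some j => ⟨_, hmem (S j)⟩
    | none => ⟨_, hmem ((ℓ : ℤ) * h')⟩
  have key : ∀ o, ((C o : SL(2, ℤ)) : Matrix (Fin 2) (Fin 2) ℤ) * (G * β (τ o) * G') =
      G * β o * G' * ((g : SL(2, ℤ)) : Matrix (Fin 2) (Fin 2) ℤ) := by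
    intro o
    have hU : ∀ (s : ℤ) (o' : Option (Fin ℓ)),
        (uMat (w * s) : Matrix (Fin 2) (Fin 2) ℤ) * β o' =
          β o * (uMat (w * h') : Matrix (Fin 2) (Fin 2) ℤ) →
        ((γ * uMat (w * s) * γ⁻¹ : SL(2, ℤ)) : Matrix (Fin 2) (Fin 2) ℤ) * (G * β o' * G') =
          G * β o * G' * ((g : SL(2, ℤ)) : Matrix (Fin 2) (Fin 2) ℤ) := by
      intro s o' hUs
      rw [hgh, Matrix.SpecialLinearGroup.coe_mul, Matrix.SpecialLinearGroup.coe_mul,
        Matrix.SpecialLinearGroup.coe_mul, Matrix.SpecialLinearGroup.coe_mul]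
      simp only [Matrix.mul_assoc]
      rw [← Matrix.mul_assoc G' G, hG'G, Matrix.one_mul, ← Matrix.mul_assoc G' G, hG'G,
        Matrix.one_mul, ← Matrix.mul_assoc (uMat (w * s) : Matrix (Fin 2) (Fin 2) ℤ), hUs,
        Matrix.mul_assoc]
    rcases o with _ | j
    · refine hU _ none ?_
      ext i k; fin_cases i <;> fin_cases k <;> simp [β, uMat, Matrix.mul_apply, Fin.sum_univ_two]
      ring
    · refine hU _ (some (tau j)) ?_
      ext i k; fin_cases i <;> fin_cases k <;> simp [β, uMat, Matrix.mul_apply, Fin.sum_univ_two]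
      linear_combination w * hS j + (((j : ℕ) : ℤ) - ((tau j : ℕ) : ℤ)) * (-hw)
  rw [heckeHom_apply_eq_of_reps (R := R) (Equiv.ofBijective π hbij) u φ g τ C fun o => by
    simp only [Equiv.ofBijective_apply]
    rw [hu, hu]
    exact key o]
  rw [Fintype.sum_option]
  show P ((ℓ : ℤ) * h') + ∑ j, P (S j) = _
  rw [← map_sum, ← map_add, hgP, ← map_zsmul, smul_eq_mul]
  congr 1
  have htot : (∑ j, S j) * ℓ + L' * ∑ j, ((tau j : ℕ) : ℤ) =
      ℓ * h' + L' * ∑ j : Fin ℓ, ((j : ℕ) : ℤ) := by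
    rw [Finset.sum_mul, Finset.mul_sum, Finset.mul_sum, ← Finset.sum_add_distrib,
      Finset.sum_congr rfl fun j _ => hS j, Finset.sum_add_distrib, Finset.sum_const,
      Finset.card_univ, Fintype.card_fin, nsmul_eq_mul]
  rw [htau.sum_comp (fun j : Fin ℓ => ((j : ℕ) : ℤ)), add_left_inj, mul_comm] at htot
  rw [mul_left_cancel₀ (by exact_mod_cast hℓ.out.ne_zero) htot]
  ring

variable [IsAddTorsionFree A]

/-- `T_ℓ φ - (ℓ + 1) φ` is parabolic for `ℓ ≡ 1` modulo `L`. -/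
theorem isParabolicHom_heckeHom_sub (hL : (ℓ : ZMod L) = 1) (hℓL : ¬ ℓ ∣ L)
    (φ : Additive (Gamma0 L) →+ A) :
    IsParabolicHom (Gamma0 L) (heckeHom L ℓ R A φ - ((ℓ : ℤ) + 1) • φ) := by
  intro g hg
  set ψ := heckeHom L ℓ R A φ - ((ℓ : ℤ) + 1) • φ
  have h2 : ∀ x : Gamma0 L, ((x : SL(2, ℤ)) : Matrix (Fin 2) (Fin 2) ℤ).trace = 2 →
      ψ (Additive.ofMul x) = 0 := fun x hx => by
    simp only [ψ, AddMonoidHom.sub_apply, AddMonoidHom.smul_apply,
      heckeHom_apply_of_trace_two (R := R) hL hℓL φ x hx, sub_self]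
  have hsq : g * g = g ^ 2 := (pow_two g).symm
  have h22 : (((g * g : Gamma0 L) : SL(2, ℤ)) : Matrix (Fin 2) (Fin 2) ℤ).trace = 2 := by
    rw [hsq, SubmonoidClass.coe_pow, trace_sq, hg]
    norm_num
  have := h2 _ h22
  rw [ofMul_mul, map_add, ← two_nsmul] at this
  exact (smul_eq_zero.mp this).resolve_left two_ne_zero

end Fermat.Agent.LL.Pair
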