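/-
The part of twisted `H¹` cut out by a residual system: freeness, twisting and the action of the
Hecke algebra of trivial character (owner: helper61; after helper87's Taylor-Wiles module).
-/
import Fermat.Agent.TW.Mod.HeckeAction

set_option autoImplicit false
set_option synthInstance.maxHeartbeats 400000

noncomputable section

namespace Fermat.Agent.LL.Pair

open CongruenceSubgroup IsLocalRing ModularCurve.Period Fermat.Agent.TW.Mod
open Fermat.Agent.HK (heckeHom)
open Fermat.Agent.LR (Hom1)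

variable {𝒪 : Type} [CommRing 𝒪] [IsDomain 𝒪] [IsDiscreteValuationRing 𝒪]
  [IsAdicComplete (maximalIdeal 𝒪) 𝒪] [IsAddTorsionFree 𝒪]
variable {R : Type} [CommRing R] [Algebra 𝒪 R] [IsLocalRing R] [Module.Finite 𝒪 R]
  [IsAddTorsionFree R]
variable {aug : R →ₐ[𝒪] 𝒪} {S : Set ℕ} {M : ℕ} [NeZero M] {χ : (ZMod M)ˣ →* Rˣ}
  (hadm : Admissible (epsOf χ)) {lam : PrimeIdx S → ResidueField 𝒪}
  (h : Occurs 𝒪 (twFam χ S) lam)

/-- The idempotent of the system. -/
def genIdem : Module.End R (H1 (epsOf χ) R) :=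
  haveI := finite_end_h1 (𝒪 := 𝒪) hadm
  h.idem (twFam_comm χ S)

/-- The part of the system. -/
abbrev genPart : Submodule R (H1 (epsOf χ) R) := LinearMap.range (genIdem hadm h)

omit [IsLocalRing R] [IsAddTorsionFree 𝒪] in
theorem genIdem_mul_self : genIdem hadm h * genIdem hadm h = genIdem hadm h :=
  haveI := finite_end_h1 (𝒪 := 𝒪) hadm
  h.idem_mul_idem _

omit [IsLocalRing R] [IsAddTorsionFree 𝒪] in
theorem genIdem_commute {a : Module.End R (H1 (epsOf χ) R)} (ha : a ∈ famAlg 𝒪 (twFam χ S)) :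
    Commute a (genIdem hadm h) :=
  haveI := finite_end_h1 (𝒪 := 𝒪) hadm
  h.commute_idem _ ha

omit [IsLocalRing R] [IsAddTorsionFree 𝒪] in
theorem genIdem_apply_self {x : H1 (epsOf χ) R} (hx : x ∈ genPart hadm h) :
    genIdem hadm h x = x :=
  (mem_range_iff_of_idem (genIdem_mul_self hadm h)).1 hx

omit [IsLocalRing R] [IsAddTorsionFree 𝒪] in
theorem famAlg_mem_genPart {a : Module.End R (H1 (epsOf χ) R)} (ha : a ∈ famAlg 𝒪 (twFam χ S))
    {x : H1 (epsOf χ) R} (hx : x ∈ genPart hadm h) : a x ∈ genPart hadm h := by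
  obtain ⟨y, rfl⟩ := hx
  exact ⟨a y, (LinearMap.congr_fun (genIdem_commute hadm h ha).eq y).symm⟩

omit [IsLocalRing R] [IsAddTorsionFree 𝒪] in
theorem genPart_stable (i : PrimeIdx S) {x : H1 (epsOf χ) R} (hx : x ∈ genPart hadm h) :
    twFam χ S i x ∈ genPart hadm h :=
  famAlg_mem_genPart hadm h (famGen 𝒪 _ i).2 hx

/-- The Hecke operators on the part. -/
def genOp (i : PrimeIdx S) : Module.End R (genPart hadm h) :=
  (twFam χ S i).restrict fun _ hx => genPart_stable hadm h i hx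

omit [IsLocalRing R] [IsAddTorsionFree 𝒪] in
theorem coe_genOp (i : PrimeIdx S) (x : genPart hadm h) :
    ((genOp hadm h i x : genPart hadm h) : H1 (epsOf χ) R) = twFam χ S i x.1 := rfl

variable (hf : ∀ u, resHom aug (χ u : R) = 1)
include hf

/-- The part is finite free. -/
theorem free_genPart (hne : ∃ i : PrimeIdx S, ¬ i.1 ∣ M ∧ lam i ≠ (i.1 : ResidueField 𝒪) + 1) :
    Module.Free R (genPart hadm h) ∧ Module.Finite R (genPart hadm h) := by
  have := finite_end_h1 (𝒪 := 𝒪) hadm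
  have hder := hadm.finite_der (A := R)
  have := hadm.projective_der
  obtain ⟨i, hiM, hi⟩ := hne
  set T := twFam χ S i with hT
  obtain ⟨hTm, v, hvm, hv⟩ := h.exists_inv_sub_algebraMap (twFam_comm χ S) i ((i.1 : 𝒪) + 1)
    (by rw [map_add, map_natCast, map_one]; exact hi)
  have hr : (chiPrime χ i.1 : R) - 1 ∈ maximalIdeal R := by
    rw [← resHom_eq_zero_iff (aug := aug), map_sub, map_one, sub_eq_zero, chiPrime]
    split_ifs
    · exact hf _
    · simp
  set e := genIdem hadm h with he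
  have het : Commute e (T - algebraMap 𝒪 _ ((i.1 : 𝒪) + 1)) := (genIdem_commute hadm h hTm).symm
  have hev : Commute e v := (genIdem_commute hadm h hvm).symm
  obtain ⟨v', hv'⟩ := exists_inv_sub_smul het hev (famAlg_commute (twFam_comm χ S) hvm hTm)
    (genIdem_mul_self hadm h) hv hr
  set μ : R := (heckeSystem χ i.1).degree with hμ
  let s := sectionOfLift (derT χ R i.1) μ fun a => derT_cobound χ a
  have hps : (LinearMap.range (cobound (epsOf χ) R)).mkQ ∘ₗ s =
      T - algebraMap 𝒪 _ ((i.1 : 𝒪) + 1) - ((chiPrime χ i.1 : R) - 1) • 1 := by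
    rw [mkQ_sectionOfLift (T := T) (hT := fun c => h1T_mk χ c), hμ,
      heckeSystem_degree_of_not_dvd χ hiM]
    refine LinearMap.ext fun x => ?_
    simp only [LinearMap.sub_apply, LinearMap.smul_apply, LinearMap.id_apply, Module.End.one_apply,
      Module.algebraMap_end_apply]
    rw [← algebraMap_smul R ((i.1 : 𝒪) + 1) x, map_add, map_natCast, map_one, sub_sub,
      ← add_smul]
    congr 2
    ring
  refine ⟨free_range_of_section _ e s v' (Submodule.mkQ_surjective _) (genIdem_mul_self hadm h) ?_,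
    finite_range_of_surjective _ e (Submodule.mkQ_surjective _)⟩
  rw [← LinearMap.comp_assoc e s, ← LinearMap.comp_assoc _ _ v', hps]
  exact hv'

/-- Away from Eisenstein, `T - u (ℓ + 1)` is surjective on the part. -/
theorem exists_sub_smul_preimage_gen
    {i : PrimeIdx S} (hiM : ¬ i.1 ∣ M) (hi : lam i ≠ (i.1 : ResidueField 𝒪) + 1)
    {u : R} (hu : u - 1 ∈ maximalIdeal R) (x : genPart hadm h) :
    ∃ y : genPart hadm h, x.1 = twFam χ S i y.1 - (u * ((i.1 : R) + 1)) • y.1 := by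
  have := finite_end_h1 (𝒪 := 𝒪) hadm
  have := hadm.finite_der (A := R)
  have hfin := (free_genPart hadm h hf ⟨i, hiM, hi⟩).2
  obtain ⟨hTm, v, hvm, hv⟩ := h.exists_inv_sub_algebraMap
    (twFam_comm χ S) i ((i.1 : 𝒪) + 1) (by rw [map_add, map_natCast, map_one]; exact hi)
  have hr : (u - 1) * ((i.1 : R) + 1) ∈ maximalIdeal R := Ideal.mul_mem_right _ _ hu
  obtain ⟨v', hv'⟩ := exists_inv_sub_smul (genIdem_commute hadm h hTm).symm
    (genIdem_commute hadm h hvm).symm (famAlg_commute (twFam_comm χ S) hvm hTm)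
    (genIdem_mul_self hadm h) hv hr
  let F : Module.End R (genPart hadm h) := genOp hadm h i - (u * ((i.1 : R) + 1)) • 1
  let G : Module.End R (genPart hadm h) :=
    LinearMap.codRestrict _ ((genIdem hadm h * v') ∘ₗ (genPart hadm h).subtype)
      fun y => LinearMap.mem_range_self _ _
  have hGF : G * F = 1 := by
    refine LinearMap.ext fun y => Subtype.ext ?_
    have h1 := LinearMap.congr_fun hv' y.1
    simp only [Module.End.mul_apply, genIdem_apply_self hadm h y.2] at h1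
    refine Eq.trans ?_ h1
    show genIdem hadm h (v' (twFam χ S i y.1 - (u * ((i.1 : R) + 1)) • y.1)) = _
    refine congrArg (fun z => genIdem hadm h (v' z)) ?_
    rw [LinearMap.sub_apply, LinearMap.sub_apply, LinearMap.smul_apply, Module.End.one_apply,
      Module.algebraMap_end_apply, ← algebraMap_smul R ((i.1 : 𝒪) + 1) y.1, map_add, map_natCast,
      map_one, sub_sub, ← add_smul]
    congr 2
    ring
  have hsurj : Function.Surjective G := fun y => ⟨F y, LinearMap.congr_fun hGF y⟩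
  have hinj := OrzechProperty.injective_of_surjective_endomorphism G hsurj
  exact ⟨G x, (congrArg Subtype.val (hinj (LinearMap.congr_fun hGF (G x)))).symm.trans rfl⟩

/-- An element of the part with zero reduction is divisible by the maximal ideal. -/
theorem mem_smul_top_of_red_eq_zero (x : genPart hadm h)
    (hx : redMap χ (resHom aug) hf x.1 = 0) :
    x ∈ maximalIdeal R • (⊤ : Submodule R (genPart hadm h)) := by
  have hf' : ∀ u, Ideal.Quotient.mk (maximalIdeal R) (χ u : R) = 1 := fun u => by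
    rw [← map_one (Ideal.Quotient.mk (maximalIdeal R)), Ideal.Quotient.eq,
      ← resHom_eq_zero_iff (aug := aug), map_sub, hf, map_one, sub_self]
  have hx' : redMap χ (Ideal.Quotient.mk (maximalIdeal R)) hf' x.1 = 0 := by
    revert hx
    induction x.1 using Submodule.Quotient.induction_on with
    | _ c =>
      intro hx
      refine AddMonoidHom.ext fun g => ?_
      have := DFunLike.congr_fun hx g
      obtain ⟨g, rfl⟩ := Additive.ofMul.surjective g
      rw [redMap_mk, AddMonoidHom.zero_apply] at this ⊢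
      exact Ideal.Quotient.eq_zero_iff_mem.2 ((resHom_eq_zero_iff (aug := aug) _).1 this)
  have := Submodule.mem_map_of_mem (f := (genIdem hadm h).rangeRestrict)
    (redMap_mkQ_eq_zero_iff hadm _ hf' _ hx')
  rw [Submodule.map_smul'', show (genIdem hadm h).rangeRestrict x.1 = x from
    Subtype.ext (genIdem_apply_self hadm h x.2)] at this
  exact Submodule.smul_mono le_rfl le_top this

section Twist

variable {L : ℕ} {χ' : (ZMod L)ˣ →* Rˣ} (tw : H1 (epsOf χ) R →ₗ[R] H1 (epsOf χ') R)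
  (hf' : ∀ u, resHom aug (χ' u : R) = 1)

/-- Classes of the part all of whose translates have twist of reduction zero. -/
def genKer : Submodule 𝒪 (H1 (epsOf χ) R) where
  carrier := {y | y ∈ genPart hadm h ∧ ∀ a : famAlg 𝒪 (twFam χ S),
    redMap χ' (resHom aug) hf' (tw ((a : Module.End R (H1 (epsOf χ) R)) y)) = 0}
  zero_mem' := ⟨zero_mem _, fun a => by simp⟩
  add_mem' := fun {y z} hy hz => ⟨add_mem hy.1 hz.1, fun a => by
    rw [map_add, map_add, map_add, hy.2, hz.2, add_zero]⟩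
  smul_mem' := fun c y hy => ⟨Submodule.smul_of_tower_mem _ c hy.1, fun a => by
    rw [LinearMap.map_smul_of_tower, LinearMap.map_smul_of_tower, ← algebraMap_smul R c,
      redMap_smul, hy.2, smul_zero]⟩

omit hf [IsLocalRing R] [IsAddTorsionFree 𝒪] in
theorem famAlg_mem_genKer (b : famAlg 𝒪 (twFam χ S)) {y : H1 (epsOf χ) R}
    (hy : y ∈ genKer hadm h tw hf') :
    (b : Module.End R (H1 (epsOf χ) R)) y ∈ genKer hadm h tw hf' :=
  ⟨famAlg_mem_genPart hadm h b.2 hy.1, fun a => hy.2 (a * b)⟩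

/-- Residual injectivity on eigen vectors of the whole system. -/
def InjOnFullEigen (lam : PrimeIdx S → ResidueField 𝒪) : Prop :=
  ∀ x, (∀ j : PrimeIdx S, heckeHom M j.1 (ResidueField 𝒪) (ResidueField 𝒪)
      (redMap χ (resHom aug) hf x) = lam j • redMap χ (resHom aug) hf x) →
    redMap χ' (resHom aug) hf' (tw x) = 0 → redMap χ (resHom aug) hf x = 0

variable (hinj : InjOnFullEigen (M := M) tw hf' (hf := hf) lam)
include hinj

/-- Nothing survives reduction in `genKer`. -/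
theorem red_eq_zero_of_mem_genKer {x : H1 (epsOf χ) R} (hx : x ∈ genKer hadm h tw hf') :
    redMap χ (resHom aug) hf x = 0 := by
  classical
  have := finite_end_h1 (𝒪 := 𝒪) hadm
  by_contra hred
  obtain ⟨y, hyK, hy, hyeig⟩ := h.exists_eigen (twFam_comm χ S)
    (redMap χ (resHom aug) hf)
    (fun c hc y => by
      rw [← algebraMap_smul R c y, redMap_smul, show resHom aug (algebraMap 𝒪 R c) = 0 by
        rw [RingHom.comp_apply, AlgHom.toRingHom_eq_coe, RingHom.coe_coe, aug.commutes]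
        exact (residue_eq_zero_iff _).2 hc, zero_smul])
    (genKer hadm h tw hf')
    (fun j y hy => famAlg_mem_genKer hadm h tw hf' (famGen 𝒪 _ j) hy)
    (fun y hy => genIdem_apply_self hadm h hy.1) hx hred
  refine hy (hinj y (fun j => ?_) (hyK.2 1))
  obtain ⟨c, hc⟩ := IsLocalRing.residue_surjective (lam j)
  have h1 := hyeig j c hc
  rw [twFam, redMap_h1T, ← algebraMap_smul R c y, redMap_smul] at h1
  rw [h1, ← hc, RingHom.comp_apply, AlgHom.toRingHom_eq_coe, RingHom.coe_coe, aug.commutes]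
  rfl

omit hinj
variable {i : PrimeIdx S} (hiL : ¬ i.1 ∣ L) (hi : lam i ≠ (i.1 : ResidueField 𝒪) + 1)
include hiL hi

omit hf in
/-- Classes whose lifted twisted translates have values in the maximal ideal lie in `genKer`. -/
theorem mem_genKer_of_lift
    (htw : ∃ u : R, resHom aug u = 1 ∧ ∀ x, u • h1T χ' R i.1 (tw x) = tw (h1T χ R i.1 x))
    (x : genPart hadm h)
    (hx : ∀ (a : famAlg 𝒪 (twFam χ S)) (g : Gamma0 L),
      ((sectionOfLift (derT χ' R i.1) ((heckeSystem χ' i.1).degree)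
        (fun b => derT_cobound χ' b) (tw ((a : Module.End R (H1 (epsOf χ) R)) x.1)) :
          Der (epsOf χ') R) : Gamma0 L → R) g ∈ maximalIdeal R) :
    x.1 ∈ genKer hadm h tw hf' := by
  have := finite_end_h1 (𝒪 := 𝒪) hadm
  obtain ⟨hTm, v, hvm, hv⟩ := h.exists_inv_sub_algebraMap
    (twFam_comm χ S) i ((i.1 : 𝒪) + 1) (by rw [map_add, map_natCast, map_one]; exact hi)
  have htx : (twFam χ S i - algebraMap 𝒪 _ ((i.1 : 𝒪) + 1)) x.1 ∈ genKer hadm h tw hf' := by
    refine ⟨famAlg_mem_genPart hadm h hTm x.2, fun a => ?_⟩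
    have h2 := redMap_h1T_of_lift hf' hiL (tw ((a : Module.End R (H1 (epsOf χ) R)) x.1)) (hx a)
    have h1 : (a : Module.End R (H1 (epsOf χ) R))
        ((twFam χ S i - algebraMap 𝒪 _ ((i.1 : 𝒪) + 1)) x.1) =
        twFam χ S i ((a : Module.End R (H1 (epsOf χ) R)) x.1) -
          algebraMap 𝒪 R ((i.1 : 𝒪) + 1) • (a : Module.End R (H1 (epsOf χ) R)) x.1 := by
      have h3 := LinearMap.congr_fun (famAlg_commute (twFam_comm χ S) a.2 hTm).eq x.1
      rw [Module.End.mul_apply, Module.End.mul_apply] at h3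
      rw [h3, algebraMap_smul]
      rfl
    obtain ⟨u, hu, hcomm⟩ := htw
    rw [h1, map_sub, map_sub, map_smul, redMap_smul, twFam, ← hcomm, redMap_smul, hu, one_smul,
      h2, sub_self]
  have h1 := LinearMap.congr_fun hv x.1
  rw [Module.End.mul_apply, Module.End.mul_apply] at h1
  change v ((twFam χ S i - algebraMap 𝒪 _ ((i.1 : 𝒪) + 1)) (genIdem hadm h x.1)) =
    genIdem hadm h x.1 at h1
  rw [genIdem_apply_self hadm h x.2] at h1
  rw [← h1]
  exact famAlg_mem_genKer hadm h tw hf' ⟨v, hvm⟩ htx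

include hinj in
/-- Retraction from residual injectivity on eigen vectors. -/
theorem exists_retraction_gen (hiM : ¬ i.1 ∣ M)
    (htw : ∃ u : R, resHom aug u = 1 ∧ ∀ x, u • h1T χ' R i.1 (tw x) = tw (h1T χ R i.1 x)) :
    ∃ r : (famAlg 𝒪 (twFam χ S) → H1 (epsOf χ') R) →ₗ[R] genPart hadm h,
      ∀ x : genPart hadm h,
        r (fun a => tw ((a : Module.End R (H1 (epsOf χ) R)) x.1)) = x := by
  obtain ⟨hfree, hfin⟩ := free_genPart hadm h hf ⟨i, hiM, hi⟩
  let s := sectionOfLift (derT χ' R i.1) ((heckeSystem χ' i.1).degree)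
    (fun b => derT_cobound χ' b)
  let G : (famAlg 𝒪 (twFam χ S) → H1 (epsOf χ') R) →ₗ[R]
      (famAlg 𝒪 (twFam χ S) × Gamma0 L → R) :=
    { toFun := fun φ ag => ((s (φ ag.1) : Der (epsOf χ') R) : Gamma0 L → R) ag.2
      map_add' := fun φ φ' => funext fun ag => by simp
      map_smul' := fun r φ => funext fun ag => by simp }
  let T : genPart hadm h →ₗ[R] (famAlg 𝒪 (twFam χ S) → H1 (epsOf χ') R) :=
    LinearMap.pi fun a =>
      tw ∘ₗ (a : Module.End R (H1 (epsOf χ) R)) ∘ₗ (genPart hadm h).subtype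
  have hr := exists_retraction (G ∘ₗ T) fun x hx =>
    mem_smul_top_of_red_eq_zero hadm h hf x
      (red_eq_zero_of_mem_genKer hadm h hf tw hf' hinj
        (mem_genKer_of_lift hadm h tw hf' hiL hi htw x fun a g => hx (a, g)))
  exact hr.elim fun r hr => ⟨r ∘ₗ G, fun x => hr x⟩

end Twist

/-- The Hecke algebra of trivial character acts on the part. -/
theorem exists_genHecke {L : ℕ} [NeZero L] {χ' : (ZMod L)ˣ →* Rˣ}
    (hχ' : ∀ u, (χ' u : R) = 1) (tw : H1 (epsOf χ) R →ₗ[R] H1 (epsOf χ') R)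
    (hinj : InjOnFullEigen (M := M) tw (hf := hf)
      (fun u => by rw [hχ', map_one] : ∀ u, resHom aug (χ' u : R) = 1) lam)
    (W : ℕ → Rˣ) (hW1 : ∀ ℓ : ℕ, resHom aug (W ℓ : R) = 1)
    (hW : ∀ (ℓ : ℕ) [Fact ℓ.Prime], ¬ ℓ ∣ L → ∀ x,
      (W ℓ : R) • h1T χ' R ℓ (tw x) = tw (h1T χ R ℓ x))
    (hne : ∃ i : PrimeIdx S, (i.1 : ZMod L) = 1 ∧ ¬ i.1 ∣ L ∧ ¬ i.1 ∣ M ∧
      lam i ≠ (i.1 : ResidueField 𝒪) + 1)
    (T : Set ℕ) (hLT : ∀ q : ℕ, q.Prime → q ∣ L → q ∈ T)
    (hT : ∀ ℓ : ℕ, ℓ.Prime → ℓ ∉ T → ℓ ∉ S) :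
    ∃ Φ : ↥(CuspForm.heckeAlgebra L 2 T) →+* Module.End R (genPart hadm h),
      ∀ (ℓ : ℕ) (hℓ : ℓ.Prime) (hℓL : ¬ ℓ ∣ L) (hℓT : ℓ ∉ T),
        Φ (CuspForm.heckeAlgebra.T hℓ hℓL hℓT) =
          (((W ℓ)⁻¹ : Rˣ) : R) • genOp hadm h ⟨ℓ, hℓ, hT ℓ hℓ hℓT⟩ := by
  classical
  obtain ⟨i, hi1, hiL, hiM, hi⟩ := hne
  obtain ⟨r, hr⟩ := exists_retraction_gen hadm h hf tw _ hinj hiL hi hiM
    ⟨(W i.1 : R), hW1 i.1, hW i.1 hiL⟩
  let red := redMap χ' (RingHom.id R) (fun u => hχ' u)
  have hred : ∀ z, red z = 0 → z = 0 := by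
    intro z hz
    induction z using Submodule.Quotient.induction_on with
    | _ c =>
      rw [show c = 0 from Subtype.ext (funext fun g => DFunLike.congr_fun hz (Additive.ofMul g)),
        Submodule.Quotient.mk_zero]
  let J : genPart hadm h →+ (famAlg 𝒪 (twFam χ S) → Hom1 L R) :=
    AddMonoidHom.mk' (fun x a => red (tw ((a : Module.End R (H1 (epsOf χ) R)) x.1)))
      fun x y => funext fun a => by
        rw [Submodule.coe_add, map_add, map_add, map_add, Pi.add_apply]
  have hJ : Function.Injective J := (injective_iff_map_eq_zero J).2 fun x hx => by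
    rw [← hr x, show (fun a : famAlg 𝒪 (twFam χ S) =>
      tw ((a : Module.End R (H1 (epsOf χ) R)) x.1)) = 0 from
        funext fun a => hred _ (congrFun hx a), map_zero]
  have hwm : (W i.1 : R) - 1 ∈ maximalIdeal R := by
    rw [← resHom_eq_zero_iff (aug := aug), map_sub, hW1, map_one, sub_self]
  have hpar : ∀ x a, IsParabolicHom (Gamma0 L) (J x a) := fun x a =>
    (exists_sub_smul_preimage_gen hadm h hf hiM hi hwm x).elim fun y hy =>
      redMap_tw_mem_parabolic tw _ (fun u => hχ' u) hi1 hiL (hW i.1 hiL) a.1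
        (famAlg_commute (twFam_comm χ S) a.2 (famGen 𝒪 _ i).2) hy
  refine exists_heckeAlgebra_action hLT J hJ hpar
    (fun ℓ hℓ hℓT => (((W ℓ)⁻¹ : Rˣ) : R) • genOp hadm h ⟨ℓ, hℓ, hT ℓ hℓ hℓT⟩) ?_
  intro ℓ _ hℓ hℓT x a
  exact redMap_tw_op (i := (⟨ℓ, hℓ, hT ℓ hℓ hℓT⟩ : PrimeIdx S)) tw _ (fun u => hχ' u) _
    (hW ℓ fun hd => hℓT (hLT ℓ hℓ hd)) a.1 (famAlg_commute (twFam_comm χ S) a.2 (famGen 𝒪 _ _).2)
    x.1

end Fermat.Agent.LL.Pair
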