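/-
Transfer of a residual system and of its part along maps with small kernel (owner: helper61).
-/
import Fermat.Agent.TW.Mod.LocPart
import Mathlib.RingTheory.Nakayama

set_option autoImplicit false

noncomputable section

namespace Fermat.Agent.LL.Pair

open IsLocalRing Fermat.Agent.TW.Mod

variable {𝒪 : Type} [CommRing 𝒪] [IsLocalRing 𝒪] [IsNoetherianRing 𝒪]
  [IsAdicComplete (maximalIdeal 𝒪) 𝒪] {ι : Type*}
variable {R R' : Type} [CommRing R] [IsLocalRing R] [CommRing R'] [Algebra 𝒪 R] [Algebra 𝒪 R']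
variable {H : Type} [AddCommGroup H] [Module R H] [Module 𝒪 H] [IsScalarTower 𝒪 R H]
  [Module.Finite R H] [Module.Finite 𝒪 (Module.End R H)]
variable {H' : Type} [AddCommGroup H'] [Module R' H'] [Module 𝒪 H'] [IsScalarTower 𝒪 R' H']
variable {F : ι → Module.End R H} {F' : ι → Module.End R' H'} {lam : ι → ResidueField 𝒪}
  {g : H →ₗ[𝒪] H'}

omit [IsLocalRing 𝒪] [IsNoetherianRing 𝒪] [IsAdicComplete (maximalIdeal 𝒪) 𝒪]
  [Algebra 𝒪 R] [IsScalarTower 𝒪 R H] [Module 𝒪 H] [Module.Finite 𝒪 (Module.End R H)] in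
/-- An idempotent with range inside `I • ⊤` vanishes, `I` in the maximal ideal. -/
theorem idem_eq_zero_of_mem {e : Module.End R H} (he : e * e = e) {I : Ideal R}
    (hI : I ≤ maximalIdeal R) (h : ∀ x, e x ∈ (I • ⊤ : Submodule R H)) : e = 0 := by
  refine LinearMap.range_eq_bot.1 (Submodule.eq_bot_of_le_smul_of_le_jacobson_bot I _ ?_ ?_
    (hI.trans (IsLocalRing.maximalIdeal_le_jacobson ⊥)))
  · rw [← Submodule.map_top]
    exact (Module.Finite.fg_top (R := R) (M := H)).map e
  · rintro _ ⟨x, rfl⟩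
    have h1 := Submodule.mem_map_of_mem (f := e) (h x)
    rw [Submodule.map_smul'', Submodule.map_top, ← Module.End.mul_apply, he] at h1
    exact h1

/-- A system of the source occurs in the target of a map with kernel inside `I • ⊤`. -/
theorem occurs_of_ker_le (hF : ∀ i j, Commute (F i) (F j)) (hg : ∀ i x, g (F i x) = F' i (g x))
    {I : Ideal R} (hI : I ≤ maximalIdeal R)
    (hker : ∀ x, g x = 0 → x ∈ (I • ⊤ : Submodule R H)) (h : Occurs 𝒪 F lam) :
    Occurs 𝒪 F' lam := by
  have hπ : ∀ i, AlgHom.fst 𝒪 (Module.End R H) (Module.End R' H') (F i, F' i) = F i := fun i => rfl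
  have hπ' : ∀ i, AlgHom.snd 𝒪 (Module.End R H) (Module.End R' H') (F i, F' i) = F' i :=
    fun i => rfl
  have hP : Occurs 𝒪 (fun i => (F i, F' i)) lam := h.of_map _ hπ
  refine hP.map_of_ker _ hπ' fun a ha => ?_
  by_contra hne
  set b := famMap (AlgHom.fst 𝒪 (Module.End R H) (Module.End R' H')) hπ a with hb
  have hchar : h.char b ≠ 0 := by rw [hb, hP.char_famMap _ hπ h a]; exact hne
  obtain ⟨v, hvm, hv⟩ := h.exists_inv hF b.2 hchar
  have he0 : h.idem hF = 0 := by
    refine idem_eq_zero_of_mem (h.idem_mul_idem hF) hI fun x => ?_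
    rw [← hv, Module.End.mul_apply, Module.End.mul_apply]
    have h1 : (b : Module.End R H) (h.idem hF x) ∈ (I • ⊤ : Submodule R H) := by
      refine hker _ ?_
      rw [hb, coe_famMap, AlgHom.fst_apply, intertwine_famAlg hg a,
        show (a : Module.End R H × Module.End R' H').2 = 0 from ha]
      rfl
    have h2 := Submodule.mem_map_of_mem (f := v) h1
    rw [Submodule.map_smul''] at h2
    exact Submodule.smul_mono le_rfl le_top h2
  have h1 := h.char_idem hF
  rw [show (⟨h.idem hF, h.idem_mem hF⟩ : famAlg 𝒪 F) = 0 from Subtype.ext he0, map_zero] at h1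
  exact zero_ne_one h1

variable [Module.Finite 𝒪 (Module.End R' H')]
  (hg : ∀ i x, g (F i x) = F' i (g x)) (hF : ∀ i j, Commute (F i) (F j))
  (hF' : ∀ i j, Commute (F' i) (F' j)) (h : Occurs 𝒪 F lam) (h' : Occurs 𝒪 F' lam)
include hg hF hF' h h'

/-- The map between the parts. -/
def partMap : LinearMap.range (h.idem hF) →ₗ[𝒪] LinearMap.range (h'.idem hF') where
  toFun x := ⟨g x, by
    obtain ⟨y, hy⟩ := x.2
    rw [← hy, Occurs.intertwine_idem hg hF hF' h h' y]
    exact ⟨_, rfl⟩⟩
  map_add' x y := Subtype.ext (map_add g _ _)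
  map_smul' r x := Subtype.ext (map_smul g r (x : H))

omit [IsLocalRing R] [Module.Finite R H] in
@[simp] theorem coe_partMap (x : LinearMap.range (h.idem hF)) :
    (partMap hg hF hF' h h' x : H') = g x := rfl

omit [IsLocalRing R] [Module.Finite R H] in
theorem partMap_surjective (hgs : Function.Surjective g) :
    Function.Surjective (partMap hg hF hF' h h') := by
  rintro ⟨_, y, rfl⟩
  obtain ⟨x, rfl⟩ := hgs y
  exact ⟨⟨h.idem hF x, x, rfl⟩, Subtype.ext (Occurs.intertwine_idem hg hF hF' h h' x)⟩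

omit [IsLocalRing R] [Module.Finite R H] in
theorem partMap_eq_zero_iff {I : Ideal R}
    (hker : ∀ x, g x = 0 ↔ x ∈ (I • ⊤ : Submodule R H)) (x : LinearMap.range (h.idem hF)) :
    partMap hg hF hF' h h' x = 0 ↔
      x ∈ (I • ⊤ : Submodule R (LinearMap.range (h.idem hF))) := by
  constructor
  · intro hx
    have hx' := Submodule.mem_map_of_mem (f := (h.idem hF).rangeRestrict)
      ((hker _).1 (congrArg Subtype.val hx))
    rw [Submodule.map_smul''] at hx'
    obtain ⟨_, y, rfl⟩ := x
    have he : (h.idem hF).rangeRestrict (h.idem hF y) =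
        (⟨h.idem hF y, y, rfl⟩ : LinearMap.range (h.idem hF)) :=
      Subtype.ext (by
        show h.idem hF (h.idem hF y) = h.idem hF y
        rw [← Module.End.mul_apply, h.idem_mul_idem])
    rw [he] at hx'
    exact Submodule.smul_mono le_rfl le_top hx'
  · intro hx
    refine Subtype.ext ((hker _).2 ?_)
    have hx' := Submodule.mem_map_of_mem (f := (LinearMap.range (h.idem hF)).subtype) hx
    rw [Submodule.map_smul''] at hx'
    exact Submodule.smul_mono le_rfl le_top hx'

end Fermat.Agent.LL.Pair
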