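/-
The parts of congruent characters agree modulo the congruence ideal (owner: helper61).
-/
import Fermat.Agent.LL.Pair.Congr
import Fermat.Agent.LL.Pair.Transfer
import Fermat.Agent.LL.Pair.GenPart

set_option autoImplicit false
set_option synthInstance.maxHeartbeats 400000

noncomputable section

namespace Fermat.Agent.LL.Pair

open IsLocalRing Fermat.Agent.TW.Mod CongruenceSubgroup

variable {𝒪 : Type} [CommRing 𝒪] [IsDomain 𝒪] [IsDiscreteValuationRing 𝒪]
  [IsAdicComplete (maximalIdeal 𝒪) 𝒪] [IsAddTorsionFree 𝒪]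
variable {R : Type} [CommRing R] [Algebra 𝒪 R] [IsLocalRing R] [Module.Finite 𝒪 R]
  [IsAddTorsionFree R]
variable {S : Set ℕ} {M : ℕ} [NeZero M] {χ₀ χ₁ : (ZMod M)ˣ →* Rˣ}
  (h₀ : Admissible (epsOf χ₀)) (h₁ : Admissible (epsOf χ₁)) (I : Ideal R)
  (hI : ∀ u, (χ₀ u : R) - χ₁ u ∈ I) (hIm : I ≤ maximalIdeal R)
  {lam : PrimeIdx S → ResidueField 𝒪}

omit [IsLocalRing R] in
theorem finite_h1 {χ : (ZMod M)ˣ →* Rˣ} (h : Admissible (epsOf χ)) :
    Module.Finite R (H1 (epsOf χ) R) :=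
  haveI := h.finite_der (A := R)
  inferInstance

omit [IsLocalRing R] in
theorem finite_end_h1Mod {χ : (ZMod M)ˣ →* Rˣ} (h : Admissible (epsOf χ)) :
    Module.Finite 𝒪 (Module.End R (H1Mod I (epsOf χ))) := by
  have := finite_h1 h
  have : Module.Finite 𝒪 (H1Mod I (epsOf χ)) := Module.Finite.trans R _
  exact finite_end_restrict

/-- The Hecke operators on `H¹` modulo the ideal. -/
def modFam (χ : (ZMod M)ˣ →* Rˣ) (i : PrimeIdx S) : Module.End R (H1Mod I (epsOf χ)) :=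
  Submodule.mapQ _ _ (twFam χ S i) (Submodule.map_le_iff_le_comap.1
    (by rw [Submodule.map_smul'']; exact Submodule.smul_mono le_rfl le_top))

omit [IsLocalRing R] [Algebra 𝒪 R] [Module.Finite 𝒪 R] [IsAddTorsionFree R] [NeZero M] in
theorem modFam_mk (χ : (ZMod M)ˣ →* Rˣ) (i : PrimeIdx S) (x : H1 (epsOf χ) R) :
    modFam I χ i (Submodule.Quotient.mk x) = Submodule.Quotient.mk (twFam χ S i x) := rfl

omit [IsLocalRing R] [Algebra 𝒪 R] [Module.Finite 𝒪 R] [IsAddTorsionFree R] [NeZero M] in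
theorem modFam_comm (χ : (ZMod M)ˣ →* Rˣ) (i j : PrimeIdx S) :
    Commute (modFam I χ i) (modFam I χ j) :=
  LinearMap.ext fun x => by
    induction x using Submodule.Quotient.induction_on with
    | _ x =>
      exact congrArg Submodule.Quotient.mk (LinearMap.congr_fun (twFam_comm χ S i j).eq x)

include hI

omit [IsLocalRing R] [Algebra 𝒪 R] [Module.Finite 𝒪 R] in
theorem congMap_twFam (i : PrimeIdx S) (x : H1 (epsOf χ₀) R) :
    congMap h₀ h₁ I (epsOf_sub_mem I hI) (twFam χ₀ S i x) =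
      modFam I χ₁ i (congMap h₀ h₁ I (epsOf_sub_mem I hI) x) := by
  obtain ⟨y, hy⟩ := Submodule.Quotient.mk_surjective _ (congMap h₀ h₁ I (epsOf_sub_mem I hI) x)
  rw [← hy, modFam_mk]
  exact congMap_h1T h₀ h₁ I hI i.1 x y hy.symm

include h₀ h₁ hIm in
/-- The system occurs in `H¹` modulo the ideal and in `H¹` of the congruent character. -/
theorem occurs_congr (h : Occurs 𝒪 (twFam χ₀ S) lam) :
    Occurs 𝒪 (modFam I χ₁ (S := S)) lam ∧ Occurs 𝒪 (twFam χ₁ S) lam := by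
  have := finite_h1 h₀
  have := finite_end_h1 (𝒪 := 𝒪) h₀
  have hb : Occurs 𝒪 (modFam I χ₁ (S := S)) lam := by
    refine occurs_of_ker_le (R := R) (R' := R)
      (g := (congMap h₀ h₁ I (epsOf_sub_mem I hI)).restrictScalars 𝒪)
      (F := twFam χ₀ S) (F' := modFam I χ₁ (S := S)) (twFam_comm χ₀ S) ?_ hIm ?_ h
    · intro i x
      exact congMap_twFam h₀ h₁ I hI i x
    · intro x hx
      rw [← ker_congMap h₀ h₁ I (epsOf_sub_mem I hI)]
      exact hx
  refine ⟨hb, Occurs.of_surjective (R := R) (R' := R)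
    (g := ((I • ⊤ : Submodule R (H1 (epsOf χ₁) R)).mkQ).restrictScalars 𝒪)
    (F := twFam χ₁ S) (F' := modFam I χ₁ (S := S)) ?_ ?_ hb⟩
  · intro i x
    simp only [LinearMap.restrictScalars_apply, Submodule.mkQ_apply]
    rw [modFam_mk]
  · rw [LinearMap.coe_restrictScalars]
    exact Submodule.mkQ_surjective _

include hIm in
/-- The parts agree modulo the ideal. -/
theorem exists_congr_part (h : Occurs 𝒪 (twFam χ₀ S) lam) (h' : Occurs 𝒪 (twFam χ₁ S) lam) :
    ∃ f : genPart h₀ h →ₗ[R]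
        genPart h₁ h' ⧸ (I • ⊤ : Submodule R (genPart h₁ h')),
      Function.Surjective f ∧ LinearMap.ker f = (I • ⊤ : Submodule R (genPart h₀ h)) ∧
      ∀ (i : PrimeIdx S) (x : genPart h₀ h) (y : genPart h₁ h'),
        f x = Submodule.Quotient.mk y →
          f (genOp h₀ h i x) = Submodule.Quotient.mk (genOp h₁ h' i y) := by
  have := finite_h1 h₀
  have := finite_end_h1 (𝒪 := 𝒪) h₀
  have := finite_end_h1 (𝒪 := 𝒪) h₁
  have := finite_end_h1Mod (𝒪 := 𝒪) I h₁
  have hb := (occurs_congr h₀ h₁ I hI hIm h).1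
  set g₀ := congMap h₀ h₁ I (epsOf_sub_mem I hI)
  set eB := hb.idem (modFam_comm I χ₁)
  set g₁ := (I • ⊤ : Submodule R (H1 (epsOf χ₁) R)).mkQ
  have e₀ : g₀ ∘ₗ genIdem h₀ h = eB ∘ₗ g₀ := LinearMap.ext fun x =>
    Occurs.intertwine_idem (g := g₀.restrictScalars 𝒪) (congMap_twFam h₀ h₁ I hI)
      (twFam_comm χ₀ S) (modFam_comm I χ₁) h hb x
  have e₁ : g₁ ∘ₗ genIdem h₁ h' = eB ∘ₗ g₁ := LinearMap.ext fun x =>
    Occurs.intertwine_idem (g := g₁.restrictScalars 𝒪)
      (fun i x => by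
        simp only [LinearMap.restrictScalars_apply, g₁, Submodule.mkQ_apply]
        rw [modFam_mk])
      (twFam_comm χ₁ S) (modFam_comm I χ₁) h' hb x
  let r₀ := rangeMap (genIdem h₀ h) eB g₀ e₀
  let r₁ := rangeMap (genIdem h₁ h') eB g₁ e₁
  have k₀ : LinearMap.ker r₀ = I • ⊤ := ker_rangeMap _ _ _ e₀ (genIdem_mul_self h₀ h) I
    (ker_congMap h₀ h₁ I (epsOf_sub_mem I hI))
  have k₁ : LinearMap.ker r₁ = I • ⊤ := ker_rangeMap _ _ _ e₁ (genIdem_mul_self h₁ h') I
    (Submodule.ker_mkQ _)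
  have s₁ : Function.Surjective r₁ := rangeMap_surjective _ _ _ e₁ (Submodule.mkQ_surjective _)
  let e := (Submodule.quotEquivOfEq _ _ k₁.symm).trans (r₁.quotKerEquivOfSurjective s₁)
  refine ⟨e.symm.toLinearMap ∘ₗ r₀,
    e.symm.surjective.comp (rangeMap_surjective _ _ _ e₀ (congMap_surjective _ _ _ _)), ?_,
    fun i x y hxy => ?_⟩
  · rw [LinearEquiv.ker_comp]; exact k₀
  · have hxy' : r₀ x = r₁ y := by
      have := congrArg e hxy
      rw [LinearMap.comp_apply, LinearEquiv.coe_coe, e.apply_symm_apply] at this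
      rw [this]
      rfl
    show e.symm (r₀ (genOp h₀ h i x)) = _
    rw [LinearEquiv.symm_apply_eq]
    refine Subtype.ext ?_
    show g₀ (twFam χ₀ S i x.1) = g₁ (twFam χ₁ S i y.1)
    rw [congMap_twFam h₀ h₁ I hI, show g₀ x.1 = g₁ y.1 from congrArg Subtype.val hxy']
    rfl

end Fermat.Agent.LL.Pair
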