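import Fermat.Agent.TW.Mod.CharAdmissible

/-!
# Admissible characters at levels without elliptic points of order three

`admissible_of_two_mod_three`: if a prime `≡ 2 (mod 3)` divides the level, a character of odd
exponent kills the elements of finite order of `Γ₀`.
-/

set_option autoImplicit false

open CongruenceSubgroup
open scoped MatrixGroups

namespace Fermat.Agent.LL.Pair

/-- No root of `X² - t X + 1` modulo a prime `≡ 2 (mod 3)` for `t = ± 1`. -/
theorem quadratic_ne_zero_of_two_mod_three {l : ℕ} [Fact l.Prime] (hl3 : l % 3 = 2) (t d : ZMod l)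
    (ht : t ^ 2 = 1) : d ^ 2 - t * d + 1 ≠ 0 := by
  intro h
  have he : (-(t * d)) ^ 2 + -(t * d) + 1 = 0 := by linear_combination h + d ^ 2 * ht
  generalize -(t * d) = e at he
  have he3 : e ^ 3 = 1 := by linear_combination (e - 1) * he
  have he0 : e ≠ 0 := fun h0 => by simp [h0] at he
  have h3 : (3 : ZMod l) ≠ 0 := fun h0 => by
    have h1 : l ∣ 3 := (CharP.cast_eq_zero_iff (ZMod l) l 3).mp (by exact_mod_cast h0)
    rcases (Nat.dvd_prime Nat.prime_three).mp h1 with rfl | rfl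
    · exact (Fact.out : Nat.Prime 1).ne_one rfl
    · omega
  have hpow : e ^ (l - 1) = 1 := ZMod.pow_card_sub_one_eq_one he0
  have hg : e ^ Nat.gcd 3 (l - 1) = 1 := pow_gcd_eq_one.2 ⟨he3, hpow⟩
  have hcop : Nat.gcd 3 (l - 1) = 1 :=
    (Nat.prime_three.coprime_iff_not_dvd).2 (by omega)
  rw [hcop, pow_one] at hg
  exact h3 (by rw [hg] at he; linear_combination he)

/-- Elements of finite order of `Γ₀(L)` have order dividing four if a prime `≡ 2 (mod 3)`
divides `L`. -/
theorem pow_four_of_two_mod_three {L l : ℕ} (hl : l.Prime) (hl3 : l % 3 = 2) (hlL : l ∣ L)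
    {g : SL(2, ℤ)} (hgL : g ∈ Gamma0 L) (hg : IsOfFinOrder g) : g ^ 4 = 1 := by
  have := Fact.mk hl
  rcases MF.Cosets.trace_sq_lt_four_of_isOfFinOrder
    hg with h1 | h1 | h1
  · rw [show g = 1 from h1, one_pow]
  · rw [show g = -1 from h1]
    exact Even.neg_one_pow (by decide)
  change (g : Matrix (Fin 2) (Fin 2) ℤ).trace ^ 2 < 4 at h1
  set t := (g : Matrix (Fin 2) (Fin 2) ℤ).trace with ht
  have ht' : t = -1 ∨ t = 0 ∨ t = 1 := by
    have h2 : -2 < t := by nlinarith
    have h3 : t < 2 := by nlinarith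
    omega
  have hd : g 0 0 * g 1 1 - g 0 1 * g 1 0 = 1 :=
    (Matrix.det_fin_two (g : Matrix (Fin 2) (Fin 2) ℤ)).symm.trans g.det_coe
  have hc : ((g 1 0 : ℤ) : ZMod l) = 0 := by
    have h0 := congrArg (ZMod.castHom hlL (ZMod l)) (Gamma0_mem.mp hgL)
    rwa [map_intCast, map_zero] at h0
  rw [Matrix.trace_fin_two] at ht
  rcases eq_or_ne t 0 with h0 | h0
  · have e : g 1 1 = -g 0 0 := by linarith
    have hsq : g * g = -1 := by
      apply Subtype.ext
      ext i j
      fin_cases i <;> fin_cases j <;>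
        simp [Matrix.mul_apply, Fin.sum_univ_two, e] <;>
        rw [e] at hd <;> linarith
    rw [show (4 : ℕ) = 2 * 2 from rfl, pow_mul, pow_two g, hsq]
    exact neg_one_sq
  · exfalso
    have hd' := congrArg (Int.cast : ℤ → ZMod l) hd
    have ht0 := congrArg (Int.cast : ℤ → ZMod l) ht
    push_cast at hd' ht0
    rw [hc, mul_zero, sub_zero] at hd'
    refine quadratic_ne_zero_of_two_mod_three hl3 (t : ZMod l) (g 1 1 : ZMod l) ?_ ?_
    · rcases ht' with h2 | h2 | h2
      · simp [h2]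
      · exact absurd h2 h0
      · simp [h2]
    · rw [ht0]; linear_combination -hd'

/-- No conjugate of the element of order six lies in such a `Γ₀(L)`. -/
theorem conj_genU_notMem {L l : ℕ} (hl : l.Prime) (hl3 : l % 3 = 2) (hlL : l ∣ L)
    (g : SL(2, ℤ)) : g⁻¹ * MF.ParHom.genU * g ∉ Gamma0 L := fun h => by
  have hU : IsOfFinOrder (MF.ParHom.genU : SL(2, ℤ)) :=
    isOfFinOrder_iff_pow_eq_one.2 ⟨6, by norm_num, by decide⟩
  have h4 := pow_four_of_two_mod_three hl hl3 hlL h (by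
    simpa [MulAut.conj_apply] using (MulAut.conj g⁻¹).toMonoidHom.isOfFinOrder hU)
  rw [show g⁻¹ * MF.ParHom.genU * g = g⁻¹ * MF.ParHom.genU * g⁻¹⁻¹ by rw [inv_inv], conj_pow,
    conj_eq_one_iff] at h4
  exact absurd h4 (by decide)

/-- A character of odd exponent at a level divisible by a prime `≡ 2 (mod 3)` is admissible. -/
theorem admissible_of_two_mod_three {L l : ℕ} (hl : l.Prime) (hl3 : l % 3 = 2) (hlL : l ∣ L)
    {A : Type*} [CommRing A] (χ : (ZMod L)ˣ →* Aˣ) {n : ℕ} (hn : Odd n) (h : ∀ u, χ u ^ n = 1) :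
    TW.Mod.Admissible (TW.Mod.epsOf χ) := by
  refine ⟨by simp [Gamma0_mem], fun γ hγ => ?_⟩
  have h4 : γ ^ 4 = 1 := by
    refine Subtype.ext ?_
    rw [SubmonoidClass.coe_pow, OneMemClass.coe_one]
    exact pow_four_of_two_mod_three hl hl3 hlL γ.2 ((Subgroup.subtype _).isOfFinOrder hγ)
  have h1 : TW.Mod.epsOf χ γ ^ 4 = 1 := by rw [← map_pow, h4, map_one]
  have h2 : TW.Mod.epsOf χ γ ^ n = 1 := h _
  have := pow_gcd_eq_one.2 ⟨h1, h2⟩
  rwa [(Nat.Coprime.pow_left 2 (Nat.coprime_two_left.mpr hn) : Nat.gcd 4 n = 1), pow_one] at this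

end Fermat.Agent.LL.Pair
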