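/-
Characters, eigenvalues and levels for the congruent modules of level lowering (owner: helper61).
-/
import Fermat.Agent.LL.Setting
import Fermat.Agent.LL.Pair.Admissible
import Fermat.Agent.R59.GroupRing
import Fermat.Agent.TW.Mod.TwistChain
import Fermat.Agent.TW.Mod.LevelRaise
import Fermat.Agent.TW.Mod.CharAdmissible
import Fermat.Agent.Galois.Cyclotomic
import Mathlib.RingTheory.ZMod.UnitsCyclic

set_option autoImplicit false

noncomputable section

open IsLocalRing Fermat.Agent.TW.Mod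

namespace Fermat.Agent.LL.Pair

variable (U : Setting)

theorem p_ne_two : U.p ≠ 2 := U.two_ne_p

/-- A character of `p`-power exponent at a level divisible by the minimal one is admissible. -/
theorem admissible_of_pow {L : ℕ} (hL : U.M ∣ L) {A : Type} [CommRing A]
    (χ : (ZMod L)ˣ →* Aˣ) {m : ℕ} (h : ∀ u, χ u ^ U.p ^ m = 1) : Admissible (epsOf χ) := by
  have hp := (Fact.out : U.p.Prime)
  have key : ∀ k : ℕ, ¬ U.p ∣ k → ∀ u, u ^ k = 1 → χ u = 1 := fun k hk u hu => by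
    have hco : Nat.Coprime k (U.p ^ m) :=
      Nat.Coprime.pow_right _ (Nat.Coprime.symm ((hp.coprime_iff_not_dvd).2 hk))
    have h2 := pow_gcd_eq_one.2 ⟨(by rw [← map_pow, hu, map_one] : χ u ^ k = 1), h u⟩
    rwa [hco.gcd_eq_one, pow_one] at h2
  by_cases h3 : U.p = 3
  · obtain ⟨q, hq, hqM, hq3⟩ := U.three h3
    exact admissible_of_two_mod_three hq hq3 (hqM.trans hL) χ
      ((hp.odd_of_ne_two U.two_ne_p).pow) h
  · refine admissible_epsOf χ (key 12 fun hd => ?_)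
    have := Nat.le_of_dvd (by norm_num) hd
    have := U.two_lt
    interval_cases U.p <;> revert hp hd h3 <;> decide

/-- The base set: `p` and the primes of the minimal level. -/
abbrev baseSet : Set ℕ := (↑(insert U.p U.M.primeFactors) : Set ℕ)

theorem not_dvd_of_notMem_baseSet {l : ℕ} (hl : l.Prime) (h : l ∉ baseSet U) : ¬ l ∣ U.M :=
  fun hd => h (Finset.mem_coe.mpr (Finset.mem_insert_of_mem
    (Nat.mem_primeFactors.mpr ⟨hl, hd, NeZero.ne _⟩)))

/-- The residual system at the minimal level. -/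
def lamM (i : PrimeIdx (baseSet U)) : ResidueField U.O :=
  U.θ (CuspForm.heckeAlgebra.T i.2.1 (not_dvd_of_notMem_baseSet U i.2.1 i.2.2) i.2.2)

/-- A root at `q` of the residual Hecke polynomial, different from its inverse. -/
def rootAt (q : ℕ) : ResidueField U.O :=
  Classical.epsilon fun a => ∃ (hq : q.Prime) (hS : q ∉ baseSet U),
    a ^ 2 - lamM U ⟨q, hq, hS⟩ * a + 1 = 0 ∧ a ^ 2 ≠ 1

variable {U} {n R : ℕ} {qv : Fin R → ℕ}

/-- The residue field sees the auxiliary primes as one. -/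
theorem natCast_aux_eq_one (hq : U.IsAux n qv) (i : Fin R) :
    ((qv i : ℕ) : ResidueField U.O) = 1 := by
  obtain ⟨c, hc⟩ := hq.dvd i
  have h : qv i = U.p ^ (n + 1) * c + 1 := by have := (hq.prime i).one_lt; omega
  have hp0 : (U.p : ResidueField U.O) = 0 := by
    rw [← map_natCast (residue U.O), residue_eq_zero_iff]
    exact U.p_mem
  rw [h]
  simp [hp0]

theorem notMem_baseSet_aux (hq : U.IsAux n qv) (i : Fin R) : qv i ∉ baseSet U :=
  fun h => hq.not_mem i (Finset.mem_coe.mp h)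

theorem rootAt_spec (hq : U.IsAux n qv) (i : Fin R) :
    rootAt U (qv i) ^ 2 - lamM U ⟨qv i, hq.prime i, notMem_baseSet_aux hq i⟩ * rootAt U (qv i) + 1
      = 0 ∧ rootAt U (qv i) ^ 2 ≠ 1 := by
  obtain ⟨P, φ, hP, hφ⟩ := Galois.exists_place_isFrobeniusAt (hq.prime i)
  obtain ⟨a, b, hab, hpoly⟩ := hq.distinct i P hP φ hφ
  have hc := U.θ_charpoly (qv i) (hq.prime i)
    (not_dvd_of_notMem_baseSet U (hq.prime i) (notMem_baseSet_aux hq i)) (notMem_baseSet_aux hq i)
    P hP φ hφ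
  rw [hpoly, natCast_aux_eq_one hq i] at hc
  have h0 := congrArg (Polynomial.coeff · 0) hc
  have ha := congrArg (Polynomial.eval a) hc
  simp at h0 ha
  have hex : ∃ a : ResidueField U.O, ∃ (hp : (qv i).Prime) (hS : qv i ∉ baseSet U),
      a ^ 2 - lamM U ⟨qv i, hp, hS⟩ * a + 1 = 0 ∧ a ^ 2 ≠ 1 := by
    refine ⟨a, hq.prime i, notMem_baseSet_aux hq i, ?_, fun h => hab ?_⟩
    · unfold lamM
      linear_combination -ha
    · linear_combination b * h - a * h0
  obtain ⟨_, _, h⟩ := Classical.epsilon_spec hex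
  exact h

/-- A generator of the units modulo a prime. -/
def unitGen (q : ℕ) : (ZMod q)ˣ := Classical.epsilon fun g => ∀ u, u ∈ Subgroup.zpowers g

theorem mem_zpowers_unitGen {q : ℕ} (hq : q.Prime) (u : (ZMod q)ˣ) :
    u ∈ Subgroup.zpowers (unitGen q) :=
  Classical.epsilon_spec (p := fun g => ∀ u, u ∈ Subgroup.zpowers g)
    (ZMod.isCyclic_units_prime hq).exists_generator u

theorem orderOf_unitGen {q : ℕ} (hq : q.Prime) : orderOf (unitGen q) = q - 1 := by
  haveI : Fact q.Prime := ⟨hq⟩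
  rw [orderOf_eq_card_of_forall_mem_zpowers (mem_zpowers_unitGen hq), Nat.card_eq_fintype_card,
    ZMod.card_units]

open scoped Classical in
/-- The surjection `(ℤ/q)ˣ → ℤ/pⁿ`. -/
def cycChar (p n q : ℕ) : (ZMod q)ˣ →* Multiplicative (ZMod (p ^ n)) :=
  if h : (∀ u, u ∈ Subgroup.zpowers (unitGen q)) ∧
      orderOf (Multiplicative.ofAdd (1 : ZMod (p ^ n))) ∣ orderOf (unitGen q)
  then monoidHomOfForallMemZpowers h.1 h.2 else 1

theorem cycChar_gen {p n q : ℕ} (hq : q.Prime) (h : p ^ n ∣ q - 1) :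
    cycChar p n q (unitGen q) = Multiplicative.ofAdd 1 := by
  have h' : orderOf (Multiplicative.ofAdd (1 : ZMod (p ^ n))) ∣ orderOf (unitGen q) := by
    rw [orderOf_ofAdd_eq_addOrderOf, ZMod.addOrderOf_one, orderOf_unitGen hq]
    exact h
  rw [cycChar, dif_pos ⟨mem_zpowers_unitGen hq, h'⟩]
  exact monoidHomOfForallMemZpowers_apply_gen _ _

variable (U)

/-- The coefficient ring of level `n`. -/
abbrev Coeff (n R : ℕ) : Type := R59.TWAlg U.O U.p n R

/-- The root of unity at a hard prime. -/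
def zetaAt (i₀ : U.Idx) : U.O := (U.zeta i₀.1 i₀.2).choose

theorem zetaAt_spec (i₀ : U.Idx) :
    IsPrimitiveRoot (zetaAt U i₀) (U.p ^ padicValNat U.p (i₀.1 - 1)) :=
  (U.zeta i₀.1 i₀.2).choose_spec

theorem hard_prime' (i₀ : U.Idx) : i₀.1.Prime := U.hard_prime i₀

/-- The root of unity as a unit. -/
def zetaUnit (i₀ : U.Idx) : U.Oˣ :=
  ((zetaAt_spec U i₀).isUnit (pow_ne_zero _ (Fact.out : U.p.Prime).ne_zero)).unit

theorem coe_zetaUnit (i₀ : U.Idx) : (zetaUnit U i₀ : U.O) = zetaAt U i₀ := IsUnit.unit_spec _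

theorem orderOf_zetaUnit (i₀ : U.Idx) :
    orderOf (zetaUnit U i₀) = U.p ^ padicValNat U.p (i₀.1 - 1) := by
  rw [← orderOf_units, coe_zetaUnit, ← (zetaAt_spec U i₀).eq_orderOf]

/-- The character of `p`-power order at a hard prime. -/
def hardChar (i₀ : U.Idx) : (ZMod i₀.1)ˣ →* U.Oˣ :=
  monoidHomOfForallMemZpowers (g := unitGen i₀.1) (g' := zetaUnit U i₀)
    (mem_zpowers_unitGen (hard_prime' U i₀)) (by
      rw [orderOf_zetaUnit, orderOf_unitGen (hard_prime' U i₀)]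
      exact pow_padicValNat_dvd)

theorem hardChar_gen (i₀ : U.Idx) : hardChar U i₀ (unitGen i₀.1) = zetaUnit U i₀ :=
  monoidHomOfForallMemZpowers_apply_gen _ _

theorem hardChar_pow (i₀ : U.Idx) (u : (ZMod i₀.1)ˣ) :
    hardChar U i₀ u ^ U.p ^ padicValNat U.p (i₀.1 - 1) = 1 := by
  obtain ⟨j, rfl⟩ := Subgroup.mem_zpowers_iff.mp (mem_zpowers_unitGen (hard_prime' U i₀) u)
  rw [map_zpow, hardChar_gen, ← zpow_natCast, ← zpow_mul, mul_comm, zpow_mul, zpow_natCast,
    ← orderOf_zetaUnit, pow_orderOf_eq_one, one_zpow]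

/-- Roots of unity of `p`-power order are residually one. -/
theorem residue_eq_one_of_pow {z : U.O} {v : ℕ} (h : z ^ U.p ^ v = 1) : residue U.O z = 1 := by
  haveI : CharP (ResidueField U.O) U.p := (CharP.charP_iff_prime_eq_zero Fact.out).2 (by
    rw [← map_natCast (residue U.O), residue_eq_zero_iff]
    exact U.p_mem)
  have h' := congrArg (residue U.O) h
  rw [map_pow, map_one, ← sub_eq_zero] at h'
  have : (residue U.O z - 1) ^ U.p ^ v = 0 := by rw [sub_pow_char_pow, one_pow, h']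
  exact sub_eq_zero.1 (pow_eq_zero_iff'.1 this).1

variable (i₀ : U.Idx) (n : ℕ) {R : ℕ} (qv : Fin R → ℕ)

open scoped Classical in
/-- The twisting characters: the group like ones at the auxiliary primes, a constant one at `i₀`. -/
def eta (q : ℕ) : (ZMod q)ˣ →* (Coeff U n R)ˣ :=
  if h : ∃ i, qv i = q then
    MonoidHom.toHomUnits ((MonoidAlgebra.of U.O (R59.TWGroup U.p n R)).comp
      ((MonoidHom.mulSingle (fun _ : Fin R => Multiplicative (ZMod (U.p ^ n))) h.choose).comp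
        (cycChar U.p n q)))
  else if h' : q = i₀.1 then
    (Units.map (algebraMap U.O (Coeff U n R) : U.O →* Coeff U n R)).comp
      ((hardChar U i₀).comp (ZMod.unitsMap (dvd_of_eq h'.symm)))
  else 1

/-- The set of auxiliary primes. -/
def auxPrimes {R : ℕ} (qv : Fin R → ℕ) : Finset ℕ := Finset.univ.image qv

/-- The level below `i₀`. -/
abbrev lowLevel : ℕ := U.M / i₀.1 * ∏ q ∈ auxPrimes qv, q

/-- The common level of the two modules. -/
abbrev lev : ℕ := lowLevel U i₀ qv * i₀.1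

/-- The first character. -/
def char₀ : (ZMod (lev U i₀ qv))ˣ →* (Coeff U n R)ˣ :=
  chiTot (1 : (ZMod U.M)ˣ →* _) (eta U i₀ n qv) _ (auxPrimes qv)

/-- The second character. -/
def char₁ : (ZMod (lev U i₀ qv))ˣ →* (Coeff U n R)ˣ :=
  chiTot (1 : (ZMod (U.M / i₀.1))ˣ →* _) (eta U i₀ n qv) _ (insert i₀.1 (auxPrimes qv))

theorem hard_dvd : i₀.1 ∣ U.M := U.hard_dvd i₀

theorem M_dvd_lev : U.M ∣ lev U i₀ qv :=
  ⟨∏ q ∈ auxPrimes qv, q, by
    conv_rhs => rw [← Nat.div_mul_cancel (hard_dvd U i₀)]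
    rw [lev, lowLevel, mul_right_comm]⟩

theorem lev_eq : lev U i₀ qv = U.M * ∏ q ∈ auxPrimes qv, q := by
  rw [lev, lowLevel, mul_right_comm, Nat.div_mul_cancel (hard_dvd U i₀)]

theorem dvd_lev_of_mem {q : ℕ} (h : q ∈ auxPrimes qv) : q ∣ lev U i₀ qv :=
  lev_eq U i₀ qv ▸ (Finset.dvd_prod_of_mem _ h).mul_left _

variable {U i₀ n qv}

theorem mem_auxPrimes {q : ℕ} : q ∈ auxPrimes qv ↔ ∃ i, qv i = q := by simp [auxPrimes]

theorem hard_notMem_aux (hq : U.IsAux n qv) : i₀.1 ∉ auxPrimes qv := fun h => by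
  obtain ⟨i, hi⟩ := mem_auxPrimes.1 h
  exact hq.not_mem i (hi ▸ Finset.mem_insert_of_mem
    (Nat.mem_primeFactors.mpr ⟨U.hard_prime i₀, U.hard_dvd i₀, NeZero.ne _⟩))

theorem neZero_lev (hq : U.IsAux n qv) : NeZero (lev U i₀ qv) :=
  ⟨lev_eq U i₀ qv ▸ mul_ne_zero (NeZero.ne U.M) (Finset.prod_ne_zero_iff.2 fun q hmem => by
    obtain ⟨i, rfl⟩ := mem_auxPrimes.1 hmem
    exact (hq.prime i).ne_zero)⟩

theorem eta_aux (hq : U.IsAux n qv) (i : Fin R) (u : (ZMod (qv i))ˣ) :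
    (eta U i₀ n qv (qv i) u : Coeff U n R) =
      MonoidAlgebra.of U.O (R59.TWGroup U.p n R) (Pi.mulSingle i (cycChar U.p n (qv i) u)) := by
  have h : ∃ j, qv j = qv i := ⟨i, rfl⟩
  rw [eta, dif_pos h]
  have : h.choose = i := hq.injective h.choose_spec
  simp only [MonoidHom.coe_toHomUnits, MonoidHom.comp_apply, this, MonoidHom.mulSingle_apply]

theorem eta_aux_gen (hq : U.IsAux n qv) (i : Fin R) :
    (eta U i₀ n qv (qv i) (unitGen (qv i)) : Coeff U n R) = R59.twGen U.O U.p n R i := by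
  rw [eta_aux hq, cycChar_gen (hq.prime i) ((pow_dvd_pow _ n.le_succ).trans (hq.dvd i))]
  rfl

theorem eta_hard (hq : U.IsAux n qv) (u : (ZMod i₀.1)ˣ) :
    (eta U i₀ n qv i₀.1 u : Coeff U n R) =
      algebraMap U.O (Coeff U n R) (hardChar U i₀ u : U.O) := by
  rw [eta, dif_neg (fun h => hard_notMem_aux hq (mem_auxPrimes.2 h)), dif_pos rfl]
  simp [ZMod.unitsMap]

theorem twAug_eta_aux (hq : U.IsAux n qv) {q : ℕ} (h : q ∈ auxPrimes qv) (u : (ZMod q)ˣ) :
    R59.twAug U.O U.p n R (eta U i₀ n qv q u : Coeff U n R) = 1 := by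
  obtain ⟨i, rfl⟩ := mem_auxPrimes.1 h
  rw [eta_aux hq, R59.twAug_of]

theorem eta_pow (q : ℕ) (u : (ZMod q)ˣ) :
    eta U i₀ n qv q u ^ U.p ^ (n + padicValNat U.p (i₀.1 - 1)) = 1 := by
  rw [eta]
  split_ifs with h h'
  · rw [pow_add, pow_mul, ← map_pow (MonoidHom.toHomUnits _) u]
    refine (congrArg (· ^ _) (Units.ext ?_)).trans (one_pow _)
    rw [MonoidHom.coe_toHomUnits, map_pow, MonoidHom.comp_apply, ← map_pow,
      R59.pow_eq_one_of_twGroup, map_one, Units.val_one]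
  · rw [add_comm, pow_add, pow_mul]
    refine (congrArg (· ^ _) ?_).trans (one_pow _)
    rw [MonoidHom.comp_apply, MonoidHom.comp_apply, ← map_pow, hardChar_pow, map_one]
  · exact one_pow _

theorem residue_eta (q : ℕ) (u : (ZMod q)ˣ) :
    residue U.O (R59.twAug U.O U.p n R (eta U i₀ n qv q u : Coeff U n R)) = 1 :=
  residue_eq_one_of_pow U (v := n + padicValNat U.p (i₀.1 - 1)) (by
    rw [← map_pow, ← Units.val_pow_eq_pow_val, eta_pow, Units.val_one, map_one])

theorem twAug_char₀ (hq : U.IsAux n qv) (u : (ZMod (lev U i₀ qv))ˣ) :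
    R59.twAug U.O U.p n R (char₀ U i₀ n qv u : Coeff U n R) = 1 := by
  rw [char₀, chiTot, MonoidHom.mul_apply, MonoidHom.finsetProd_apply, Units.val_mul, map_mul,
    dPart_of_dvd _ (M_dvd_lev U i₀ qv), Units.coe_prod, map_prod]
  refine (mul_eq_left₀ ?_).2 (Finset.prod_eq_one fun q hmem => ?_) |>.trans ?_
  · simp [liftChar]
  · rw [dPart_of_dvd _ (dvd_lev_of_mem U i₀ qv hmem)]
    simp [liftChar, twAug_eta_aux hq hmem]
  · simp [liftChar]

theorem chiTot_pow {N L : ℕ} {s : Finset ℕ} (u : (ZMod L)ˣ) :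
    chiTot (1 : (ZMod N)ˣ →* (Coeff U n R)ˣ) (eta U i₀ n qv) L s u ^
      U.p ^ (n + padicValNat U.p (i₀.1 - 1)) = 1 := by
  rw [chiTot, MonoidHom.mul_apply, MonoidHom.finsetProd_apply, mul_pow, ← Finset.prod_pow,
    Finset.prod_eq_one fun q _ => ?_, mul_one]
  · rw [dPart]
    split_ifs <;> simp [liftChar]
  · rw [dPart]
    split_ifs
    · rw [liftChar, MonoidHom.comp_apply, MonoidHom.pow_apply, pow_right_comm, eta_pow, one_pow]
    · simp

theorem admissible_char₀ : Admissible (epsOf (char₀ U i₀ n qv)) :=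
  admissible_of_pow U (M_dvd_lev U i₀ qv) _ chiTot_pow

theorem admissible_char₁ : Admissible (epsOf (char₁ U i₀ n qv)) :=
  admissible_of_pow U (M_dvd_lev U i₀ qv) _ chiTot_pow

/-- The two characters agree modulo the maximal ideal of `O`. -/
theorem char₀_sub_char₁_mem (hq : U.IsAux n qv) (u : (ZMod (lev U i₀ qv))ˣ) :
    (char₀ U i₀ n qv u : Coeff U n R) - char₁ U i₀ n qv u ∈
      (maximalIdeal U.O).map (algebraMap U.O (Coeff U n R)) := by
  set v := ZMod.unitsMap (dvd_mul_left i₀.1 (lowLevel U i₀ qv)) u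
  have h : char₁ U i₀ n qv u = char₀ U i₀ n qv u * eta U i₀ n qv i₀.1 v ^ 2 := by
    rw [char₀, char₁, chiTot, chiTot, Finset.prod_insert (hard_notMem_aux hq),
      MonoidHom.mul_apply, MonoidHom.mul_apply, MonoidHom.mul_apply,
      dPart_of_dvd _ (M_dvd_lev U i₀ qv),
      dPart_of_dvd _ ((Nat.div_dvd_of_dvd (hard_dvd U i₀)).trans (M_dvd_lev U i₀ qv)),
      dPart_of_dvd (eta U i₀ n qv i₀.1 ^ 2) (dvd_mul_left i₀.1 (lowLevel U i₀ qv))]
    simp [liftChar, v, mul_comm]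
  rw [h, Units.val_mul, Units.val_pow_eq_pow_val, eta_hard hq,
    show (char₀ U i₀ n qv u : Coeff U n R) - (char₀ U i₀ n qv u : Coeff U n R) *
      algebraMap U.O (Coeff U n R) (hardChar U i₀ v : U.O) ^ 2 =
      (char₀ U i₀ n qv u : Coeff U n R) *
        algebraMap U.O (Coeff U n R) (1 - (hardChar U i₀ v : U.O) ^ 2) by
      rw [map_sub, map_one, map_pow]; ring]
  refine Ideal.mul_mem_left _ _ (Ideal.mem_map_of_mem _ ?_)
  rw [← residue_eq_zero_iff, map_sub, map_one, map_pow, residue_eq_one_of_pow U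
    (v := padicValNat U.p (i₀.1 - 1)) (by rw [← Units.val_pow_eq_pow_val, hardChar_pow, Units.val_one])]
  ring

end Fermat.Agent.LL.Pair
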