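import Fermat.Agent.LL.Pair.Points
import Fermat.Agent.LL.Galois.TameGen

/-!
# Harmless primes: unipotent lifts are unramified

At a prime `l ≢ 1 (mod p)` where the residual representation is unramified and
`(tr Frob)² ≠ (l + 1)²`, a deformation with cyclotomic determinant and unipotent inertia is
unramified.
-/

set_option autoImplicit false

noncomputable section

open IsLocalRing Polynomial

namespace Fermat.Agent.LL.Pair

/-- If `f x = l x f` and `x² = 0` for `f` with trace `t` and determinant `l` such that `l - 1` and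
`(l + 1)² - t²` are units, then `x = 0`. -/
theorem eq_zero_of_twisted_commute {T : Type} [CommRing T] {E : Type} [Ring E] [Algebra T E]
    {l t : T} (hl : IsUnit l) (hl1 : IsUnit (l - 1)) (hh : IsUnit ((l + 1) ^ 2 - t ^ 2))
    {f x : E} (hf : f * f = t • f - l • 1) (hx : f * x = l • (x * f)) : x = 0 := by
  have h1 : f * (f * x) = l • l • (x * (f * f)) := by
    rw [hx, mul_smul_comm, ← mul_assoc, hx, smul_mul_assoc, mul_assoc]
  have h2 : (l * (l - 1)) • (t • (x * f)) = (l * (l - 1) * (l + 1)) • x := by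
    have e : f * (f * x) = t • l • (x * f) - l • x := by
      rw [← mul_assoc, hf, sub_mul, smul_mul_assoc, smul_mul_assoc, one_mul, hx]
    rw [e, hf, mul_sub, mul_smul_comm, mul_smul_comm, mul_one] at h1
    linear_combination (norm := module) -h1
  have h3 : t • (x * f) = (l + 1) • x :=
    (hl.mul hl1).smul_left_cancel.mp (by rw [h2, smul_smul])
  have h4 : t • ((l + 1) • (x * f)) = t • (t • (t • (x * f)) - (t * l) • x) := by
    have e : t • (x * f) * f = (l + 1) • (x * f) := by rw [h3, smul_mul_assoc]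
    rw [smul_mul_assoc, mul_assoc, hf, mul_sub, mul_smul_comm, mul_smul_comm, mul_one] at e
    rw [← e]
    module
  rw [h3, smul_comm t (l + 1), h3] at h4
  refine hh.smul_eq_zero.mp ?_
  linear_combination (norm := module) h4

variable {A : Type} [CommRing A] [IsLocalRing A] [IsNoetherianRing A]

/-- A deformation with unipotent inertia at a harmless prime is unramified there. -/
theorem isUnramifiedAt_of_harmless {p l : ℕ} (hp : p.Prime) (hl : l.Prime) (hlp : l ≠ p)
    (ρ : GaloisRepAdic A) (hdet : ρ.DetIsCyclotomic p) (hu : ρ.IsUnipotentOnInertiaAt l)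
    (hres : ρ.residual.IsUnramifiedAt l) (hl1 : IsUnit ((l : A) - 1))
    (hh : ∀ P : ValuationSubring (AlgebraicClosure ℚ), P.LiesOverPrime l →
      ∀ φ : AlgebraicClosure ℚ ≃ₐ[ℚ] AlgebraicClosure ℚ, P.IsFrobeniusAt φ l →
        IsUnit (((l : A) + 1) ^ 2 - LinearMap.trace A ρ.V (ρ.ρ φ) ^ 2)) :
    ρ.IsUnramifiedAt l := by
  obtain ⟨P, φ, hP, hφ⟩ := Galois.exists_place_isFrobeniusAt hl
  obtain ⟨τ, hτ⟩ := exists_isTameGen hp hl hlp hP hφ
  obtain ⟨hdφ, hdτ, hrel⟩ := relations_of_residual_unramified hp hl hlp ρ hdet hP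
    (fun σ hσ => hres P hP σ hσ) hφ hτ
  refine isUnramifiedAt_of_place hl hP fun σ hσ =>
    inertia_eq_one_of_tame_eq_one hdet.1 hφ hτ (fun σ hσ => hres P hP σ hσ) ?_ hσ
  have hlu : IsUnit (l : A) := by
    by_contra h
    have hmem : (l : A) ∈ maximalIdeal A := h
    obtain ⟨a, b, hab⟩ := (Nat.isCoprime_iff_coprime.mpr ((Nat.coprime_primes hl hp).mpr hlp) :
      IsCoprime (l : ℤ) (p : ℤ))
    have h1 := congrArg (Int.cast : ℤ → A) hab
    push_cast at h1
    exact (maximalIdeal.isMaximal A).ne_top ((Ideal.eq_top_iff_one _).mpr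
      (h1 ▸ add_mem (Ideal.mul_mem_left _ _ hmem) (Ideal.mul_mem_left _ _ hdet.1)))
  have hch : ∀ {g : Module.End A ρ.V} {s d : A}, LinearMap.charpoly g = X ^ 2 - C s * X + C d →
      g * g = s • g - d • (1 : Module.End A ρ.V) := fun {g s d} h => by
    have e := LinearMap.aeval_self_charpoly g
    rw [h, map_add, map_sub, map_pow, map_mul, aeval_X, aeval_C, aeval_C,
      Algebra.algebraMap_eq_smul_one, Algebra.algebraMap_eq_smul_one, smul_mul_assoc, one_mul,
      sq] at e
    linear_combination (norm := module) e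
  obtain ⟨b⟩ := Fermat.Agent.Deform.finBasisV ρ
  have hf := hch (g := ρ.ρ φ) (s := LinearMap.trace A ρ.V (ρ.ρ φ)) (d := (l : A)) (by
    rw [← LinearMap.charpoly_toMatrix (ρ.ρ φ) b, Matrix.charpoly_fin_two, LinearMap.det_toMatrix,
      hdφ, ← LinearMap.trace_eq_matrix_trace])
  have hN : (ρ.ρ τ - 1) * (ρ.ρ τ - 1) = 0 := by
    have h := hch (g := ρ.ρ τ) (s := 2) (d := 1) (by
      rw [hu P hP τ hτ.mem, map_one, map_ofNat]; ring)
    rw [sub_mul, mul_sub, one_mul, mul_one, h]
    module
  set N := ρ.ρ τ - 1 with hNdef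
  have hτN : ρ.ρ τ = 1 + N := by rw [hNdef, add_sub_cancel]
  have hpow : ∀ m : ℕ, ρ.ρ τ ^ m = 1 + (m : A) • N := by
    intro m
    induction m with
    | zero => simp
    | succ m ih =>
      rw [pow_succ, ih, hτN, add_mul, one_mul, smul_mul_assoc, mul_add, mul_one, hN, add_zero,
        Nat.cast_succ, add_smul, one_smul]
      abel
  rw [hpow, hτN, mul_add, mul_one, add_mul, one_mul, add_right_inj, smul_mul_assoc] at hrel
  exact sub_eq_zero.mp (eq_zero_of_twisted_commute hlu hl1 (hh P hP φ hφ) hf hrel)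

end Fermat.Agent.LL.Pair
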