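import Fermat.Agent.CondLevel.Inputs
import Fermat.Agent.R59.TopRep.Main

/-!
# The local inputs of the congruent modules, as hypotheses

The types of S31, S32, S33, S34, S36 and S37.
-/

set_option autoImplicit false

namespace Fermat.Agent.LL.Pair

/-- The statements used on the Galois representation of a level. -/
structure Inputs : Prop where
  unramified : R59.TopRep.Stmt31
  flatAt : R59.TopRep.Stmt32
  ordinary : R59.TopRep.Stmt33
  unipotent : R59.TopRep.Stmt34
  specialization : R59.TopRep.Stmt37
  carayol : CondLevel.CarayolNotUnipotent

end Fermat.Agent.LL.Pair
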