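import Fermat.Agent.LL.Pair.AtP
import Fermat.Agent.R59.TopRep.Main

/-!
# The deformation type of the Galois representation of a level

`cond_of_datum`: at a level `N` whose primes lie in `S`, prime to `p` (flat kind) or exactly
divisible by `p` (strict kind, residual representation ordinary and not flat), and exactly
divisible by the primes of `Smin` other than `p`, the Galois representation of the Hecke algebra
has type `cond k`.
-/

set_option autoImplicit false

noncomputable section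

open IsLocalRing Polynomial Fermat.Agent.R59

namespace Fermat.Agent.LL.Pair

variable {p : ℕ} [Fact p.Prime] {O : Type} [CommRing O] [IsDomain O] [IsDiscreteValuationRing O]
  [IsAdicComplete (maximalIdeal O) O] [Finite (ResidueField O)] [CharZero O]
  {N : ℕ} [NeZero N] {S : Finset ℕ}
  {θ : CuspForm.heckeAlgebra N 2 (↑S : Set ℕ) →+* ResidueField O}
  {T : Type} [CommRing T] [IsLocalRing T] [IsNoetherianRing T]
  [IsAdicComplete (maximalIdeal T) T] [Algebra O T] [IsLocalHom (algebraMap O T)]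
  [Module.Finite O T] [Module.Free O T]

/-- The determinant of the Galois representation of a level is cyclotomic. -/
theorem detIsCyclotomic_of_datum (hp : (p : O) ∈ maximalIdeal O)
    (hNS : ∀ q : ℕ, q.Prime → q ∣ N → q ∈ S)
    (H : CuspForm.HeckeGaloisRepDatum N (↑S : Set ℕ) O θ T) : H.ρ.DetIsCyclotomic p := by
  refine TopRep.detIsCyclotomic_of_frobenius H.ρ ?_ S fun ℓ hℓ hℓS P hP σ hσ => ?_
  · rw [← map_natCast (algebraMap O T)]
    exact map_nonunit _ _ hp
  · rw [LinearMap.det_eq_sign_charpoly_coeff, H.charpoly_frob ℓ hℓ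
      (fun hd => hℓS (hNS ℓ hℓ hd)) (fun hS => hℓS (Finset.mem_coe.mp hS)) P hP σ hσ,
      H.ρ.finrank_eq]
    simp

/-- The Galois representation of a level has the deformation type `cond k`. -/
theorem cond_of_datum (h31 : TopRep.Stmt31) (h32 : TopRep.Stmt32) (h33 : TopRep.Stmt33)
    (h34 : TopRep.Stmt34) (hp2 : p ≠ 2) (hp : (p : O) ∈ maximalIdeal O)
    (ρbar : ResidualGaloisRep (ResidueField O)) (k : Kind) (hk : k ≠ .ord)
    (hpN : k = .flat → ¬ p ∣ N)
    (hpNs : k = .strict → (p ∣ N ∧ ¬ p ^ 2 ∣ N) ∧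
      (GaloisRepAdic.ofResidualGaloisRep ρbar).IsOrdinaryAt p ∧
      ¬ (GaloisRepAdic.ofResidualGaloisRep ρbar).IsFlatAt p)
    (hpS : p ∈ S) (hNS : ∀ q : ℕ, q.Prime → q ∣ N → q ∈ S)
    (Smin : Finset ℕ) (hSmin : ∀ q ∈ Smin, q.Prime → q ≠ p → q ∣ N ∧ ¬ q ^ 2 ∣ N)
    (H : CuspForm.HeckeGaloisRepDatum N (↑S : Set ℕ) O θ T)
    (hres : H.ρ.residual.IsEquiv (ρbar.baseChangeAlong (ResidueField.map (algebraMap O T)))) :
    cond k O p S Smin H.ρ := by
  have hpp : p.Prime := Fact.out
  have hdet := detIsCyclotomic_of_datum hp hNS H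
  have hunr : ∀ q : ℕ, q.Prime → q ∉ S → H.ρ.IsUnramifiedAt q := h31 hpp hp hpS hNS H
  refine ⟨?_, fun q hq hqP hqp =>
    h34 hpp hp hpS hNS H q hqP hqp (hSmin q hq hqP hqp).1 (hSmin q hq hqP hqp).2⟩
  cases k with
  | flat => exact ⟨hdet, h32 hpp hp2 hp (hpN rfl) hpS hNS H, hunr⟩
  | strict =>
    obtain ⟨hN, hord, hnf⟩ := hpNs rfl
    exact ⟨hdet, isStrictOrdinaryAt_of_rhoBar_not_flat H.residue_surjective hres hdet
      (h33 hpp hp2 hp hN hNS H (residual_isOrdinaryAt_of_rhoBar hord hres)) hnf, hunr⟩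
  | ord => exact absurd rfl hk

end Fermat.Agent.LL.Pair
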