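import Fermat.Agent.LL.Pair.Points
import Fermat.Agent.R59.Final
import Fermat.Agent.Tangent.Conditions
import Fermat.Agent.TWGal.Diamond

/-!
# From points to a finite algebra

For a finite local algebra `T` over a complete discrete valuation ring and a representation over
`T`, facts at every point give identities in `T`.
-/

set_option autoImplicit false
set_option linter.style.haveILetI false

noncomputable section

open IsLocalRing Fermat.Agent.Deform

namespace Fermat.Agent.LL.Pair

variable {O : Type} [CommRing O] [IsDomain O] [IsDiscreteValuationRing O]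
  {T : Type} [CommRing T] [IsLocalRing T] [Algebra O T] [Module.Finite O T]

/-- Points with values in a finite extension are local homomorphisms. -/
theorem isLocalHom_point {O' : Type} [CommRing O'] [IsLocalRing O'] [Algebra O O']
    [IsLocalHom (algebraMap O O')] (ψ : T →ₐ[O] O') : IsLocalHom (ψ : T →+* O') := by
  refine ⟨fun x hx => ?_⟩
  by_contra hxu
  have hrad : maximalIdeal T ≤ ((maximalIdeal O).map (algebraMap O T)).radical := by
    rw [Ideal.radical_eq_sInf]
    refine le_sInf fun Q hQ => ?_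
    obtain ⟨hle, hQp⟩ := hQ
    haveI := hQp
    haveI : Algebra.IsIntegral O T := Algebra.IsIntegral.of_finite O T
    have hQm : Q.IsMaximal := Ideal.isMaximal_of_isIntegral_of_isMaximal_comap Q (by
      have h1 : maximalIdeal O ≤ Q.comap (algebraMap O T) := Ideal.map_le_iff_le_comap.mp hle
      rw [← (maximalIdeal.isMaximal O).eq_of_le (Ideal.IsPrime.ne_top inferInstance) h1]
      exact maximalIdeal.isMaximal O)
    rw [eq_maximalIdeal hQm]
  obtain ⟨n, hn⟩ := hrad ((mem_maximalIdeal x).mpr hxu)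
  have hle : ((maximalIdeal O).map (algebraMap O T)).map (ψ : T →+* O') ≤ maximalIdeal O' := by
    rw [Ideal.map_map, AlgHom.comp_algebraMap, Ideal.map_le_iff_le_comap]
    exact fun c hc => map_nonunit (algebraMap O O') c hc
  have h2 := hle (Ideal.mem_map_of_mem (ψ : T →+* O') hn)
  rw [map_pow] at h2
  exact h2 (hx.pow n)

omit [IsDomain O] [IsDiscreteValuationRing O] [Algebra O T] [Module.Finite O T] in
/-- Residual triviality passes to specialisations. -/
theorem residual_baseChangeAlong_eq_one {B : Type} [CommRing B] [IsLocalRing B] (f : T →+* B)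
    (hf : IsLocalHom f) {ρ : GaloisRepAdic T}
    {σ : AlgebraicClosure ℚ ≃ₐ[ℚ] AlgebraicClosure ℚ} (h : ρ.residual.ρ σ = 1) :
    (ρ.baseChangeAlong f hf).residual.ρ σ = 1 := by
  obtain ⟨b⟩ := finBasisV ρ
  letI : Algebra T B := f.toAlgebra
  let b' : Module.Basis (Fin 2) B (ρ.baseChangeAlong f hf).V := Algebra.TensorProduct.basis B b
  refine (LinearMap.toMatrix (Algebra.TensorProduct.basis (ResidueField B) b')
    (Algebra.TensorProduct.basis (ResidueField B) b')).injective ?_
  refine (LinearMap.toMatrix_baseChange _ ((ρ.baseChangeAlong f hf).ρ σ) b' b').trans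
    (Eq.trans ?_ (LinearMap.toMatrix_one _).symm)
  rw [show LinearMap.toMatrix b' b' ((ρ.baseChangeAlong f hf).ρ σ) =
      (LinearMap.toMatrix b b (ρ.ρ σ)).map (algebraMap T B) from
        LinearMap.toMatrix_baseChange _ (ρ.ρ σ) b b]
  ext i j
  have hm := matOf_sub_one_mem_of_residual b h i j
  have h0 : residue B (f ((LinearMap.toMatrix b b (ρ.ρ σ) - 1) i j)) = 0 :=
    (residue_eq_zero_iff _).mpr ((hf : IsLocalHom f) |> fun _ => map_nonunit f _ hm)
  rw [Matrix.sub_apply, map_sub, map_sub, sub_eq_zero] at h0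
  show residue B (f (LinearMap.toMatrix b b (ρ.ρ σ) i j)) = _
  rw [h0]
  rcases eq_or_ne i j with rfl | hij
  · simp
  · simp [hij]

omit [IsDomain O] [IsDiscreteValuationRing O] [Algebra O T] [Module.Finite O T] in
/-- Traces of specialisations. -/
theorem trAt_baseChangeAlong {B : Type} [CommRing B] [IsLocalRing B] (f : T →+* B)
    (hf : IsLocalHom f) (ρ : GaloisRepAdic T) (σ : AlgebraicClosure ℚ ≃ₐ[ℚ] AlgebraicClosure ℚ) :
    trAt (ρ.baseChangeAlong f hf) σ = f (trAt ρ σ) :=
  R59.trace_baseChangeAlong f hf ρ σ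

omit [IsDomain O] [IsDiscreteValuationRing O] [Algebra O T] [Module.Finite O T] in
/-- A representation equivalent residually to a base change of one trivial at `σ`. -/
theorem residual_eq_one_of_isEquiv {k : Type} [Field k] {ρbar : ResidualGaloisRep k}
    {f : k →+* ResidueField T} {ρ : GaloisRepAdic T}
    (h : ρ.residual.IsEquiv (ρbar.baseChangeAlong f))
    {σ : AlgebraicClosure ℚ ≃ₐ[ℚ] AlgebraicClosure ℚ} (hσ : ρbar.ρ σ = 1) :
    ρ.residual.ρ σ = 1 :=
  letI : Algebra k (ResidueField T) := f.toAlgebra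
  TWGal.residual_apply_eq_one h hσ

variable {p r : ℕ} {P : ValuationSubring (AlgebraicClosure ℚ)}
  {φ τ : AlgebraicClosure ℚ ≃ₐ[ℚ] AlgebraicClosure ℚ} {ρ : GaloisRepAdic T}

omit [IsDomain O] [IsDiscreteValuationRing O] [Algebra O T] [Module.Finite O T] in
/-- Unipotent inertia gives trace two. -/
theorem trAt_sub_two_eq_zero (hP : P.LiesOverPrime r) (hτ : IsTameGen p r P φ τ)
    (hu : ρ.IsUnipotentOnInertiaAt r) : trAt ρ τ - 2 = 0 :=
  sub_eq_zero.mpr (trace_eq_two_of_charpoly ρ (hu P hP τ hτ.mem))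

variable [IsAdicComplete (maximalIdeal O) O] [Finite (ResidueField O)] [CharZero O]

/-- **Nowhere unramified gives a power of `p` in the ideal of the trace differences.** -/
theorem exists_pow_mem_trace_ideal (hpO : (p : O) ∈ maximalIdeal O)
    (hpT : (p : T) ∈ maximalIdeal T) (hr : r.Prime) (hP : P.LiesOverPrime r)
    (hφ : P.IsFrobeniusAt φ r) (hτ : IsTameGen p r P φ τ)
    (hres : ∀ σ ∈ P.inertiaSubgroupIn ℚ, ρ.residual.ρ σ = 1)
    (hirr : ρ.residual.IsAbsolutelyIrreducible)
    (hram : ∀ (O' : Type) [CommRing O'] [IsDomain O'] [IsDiscreteValuationRing O']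
      [IsAdicComplete (maximalIdeal O') O'] [Finite (ResidueField O')] [CharZero O']
      [Algebra O O'] [Module.Finite O O'] [IsLocalHom (algebraMap O O')],
      Function.Injective (algebraMap O O') → ∀ (ψ : T →ₐ[O] O') (hψ : IsLocalHom (ψ : T →+* O')),
        ¬ (ρ.baseChangeAlong (ψ : T →+* O') hψ).IsUnramifiedAt r) :
    ∃ k : ℕ, algebraMap O T (p : O) ^ k ∈ Ideal.span (Set.range fun σ =>
      trAt ρ (τ * σ) - trAt ρ σ) := by
  refine exists_pow_mem_of_points hpO _ ?_
  intro O' _ _ _ _ _ _ _ _ _ hinj ψ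
  by_contra hcon
  simp only [not_exists, not_and, not_not] at hcon
  have hψ := isLocalHom_point ψ
  refine hram O' hinj ψ hψ (isUnramifiedAt_of_place hr hP fun σ hσ =>
    inertia_eq_one_of_tame_eq_one ?_ hφ hτ
      (fun σ hσ => residual_baseChangeAlong_eq_one _ hψ (hres σ hσ)) ?_ hσ)
  · rw [← map_natCast (ψ : T →+* O')]
    exact map_nonunit (ψ : T →+* O') _ hpT
  obtain ⟨b⟩ := finBasisV ρ
  set M := matOf ρ b
  -- the trace pairing with `M τ - 1`
  let Λ : Matrix (Fin 2) (Fin 2) T →ₗ[T] T :=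
    (Matrix.traceLinearMap (Fin 2) T T).comp (LinearMap.mulLeft T (M τ - 1))
  have hΛ : Submodule.map Λ ⊤ ≤ RingHom.ker (ψ : T →+* O') := by
    rw [← TraceFn.span_range_toMatrix_eq_top ρ hirr b, Submodule.map_span, Submodule.span_le]
    rintro _ ⟨_, ⟨g, rfl⟩, rfl⟩
    refine hcon _ (Ideal.subset_span ⟨g, ?_⟩)
    show trAt ρ (τ * g) - trAt ρ g = Matrix.trace ((M τ - 1) * M g)
    rw [sub_mul, one_mul, ← map_mul, Matrix.trace_sub, trAt, trAt,
      LinearMap.trace_eq_matrix_trace T b, LinearMap.trace_eq_matrix_trace T b]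
    rfl
  have hent : ∀ i j, ψ ((M τ - 1) i j) = 0 := fun i j => by
    have h := hΛ ⟨Matrix.single j i 1, Submodule.mem_top, rfl⟩
    have e : Λ (Matrix.single j i 1) = (M τ - 1) i j := by
      fin_cases i <;> fin_cases j <;>
        simp [Λ, Matrix.trace_fin_two, Matrix.mul_apply, Matrix.single_apply]
    rw [e] at h
    exact h
  letI : Algebra T O' := (ψ : T →+* O').toAlgebra
  refine (LinearMap.toMatrix (Algebra.TensorProduct.basis O' b)
    (Algebra.TensorProduct.basis O' b)).injective ?_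
  refine (LinearMap.toMatrix_baseChange _ (ρ.ρ τ) b b).trans
    (Eq.trans ?_ (LinearMap.toMatrix_one _).symm)
  ext i j
  have h := hent i j
  rw [Matrix.sub_apply, map_sub, sub_eq_zero] at h
  show ψ (M τ i j) = _
  rw [h]
  rcases eq_or_ne i j with rfl | hij
  · simp
  · simp [hij]

/-- **Nowhere unipotent gives the finite order relation on free modules.** -/
theorem finprod_pow_finrank_smul_eq_zero [IsNoetherianRing T] [Module.IsTorsionFree O T]
    (hp : p.Prime) (hp2 : p ≠ 2) (hpO : (p : O) ∈ maximalIdeal O) (hr : r.Prime) (hrp : r ≠ p)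
    (hr1 : r ≡ 1 [MOD p]) (hd : ρ.DetIsCyclotomic p) (hP : P.LiesOverPrime r)
    (hφ : P.IsFrobeniusAt φ r) (hτ : IsTameGen p r P φ τ)
    (hres : ∀ σ ∈ P.inertiaSubgroupIn ℚ, ρ.residual.ρ σ = 1) {ζ₀ : O}
    (hζ : IsPrimitiveRoot ζ₀ (p ^ padicValNat p (r - 1)))
    (hnu : ∀ (O' : Type) [CommRing O'] [IsDomain O'] [IsDiscreteValuationRing O']
      [IsAdicComplete (maximalIdeal O') O'] [Finite (ResidueField O')] [CharZero O']
      [Algebra O O'] [Module.Finite O O'] [IsLocalHom (algebraMap O O')],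
      Function.Injective (algebraMap O O') → ∀ (ψ : T →ₐ[O] O') (hψ : IsLocalHom (ψ : T →+* O')),
        ¬ (ρ.baseChangeAlong (ψ : T →+* O') hψ).IsUnipotentOnInertiaAt r)
    (M : Type) [AddCommGroup M] [Module T M] [Module O M] [IsScalarTower O T M]
    [Module.Free O M] [Module.Finite O M] (m : M) :
    (∏ᶠ ζ ∈ {ζ : O | ζ ^ p ^ padicValNat p (r - 1) = 1 ∧ ζ ≠ 1},
      (trAt ρ τ - algebraMap O T (ζ + ζ ^ (p ^ padicValNat p (r - 1) - 1)))) ^
        Module.finrank O M • m = 0 := by
  classical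
  set x := ∏ᶠ ζ ∈ {ζ : O | ζ ^ p ^ padicValNat p (r - 1) = 1 ∧ ζ ≠ 1},
      (trAt ρ τ - algebraMap O T (ζ + ζ ^ (p ^ padicValNat p (r - 1) - 1))) with hx
  haveI : NeZero (p ^ padicValNat p (r - 1)) := ⟨pow_ne_zero _ hp.ne_zero⟩
  have hfin : {ζ : O | ζ ^ p ^ padicValNat p (r - 1) = 1 ∧ ζ ≠ 1}.Finite := by
    refine ((Finset.range (p ^ padicValNat p (r - 1))).image (ζ₀ ^ ·)).finite_toSet.subset
      fun ζ hζ' => ?_
    obtain ⟨i, hi, rfl⟩ := hζ.eq_pow_of_pow_eq_one hζ'.1
    exact Finset.mem_image.mpr ⟨i, Finset.mem_range.mpr hi, rfl⟩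
  have hnil : IsNilpotent x := by
    refine isNilpotent_of_points (Nat.cast_ne_zero.mpr hp.ne_zero) hpO x ?_
    intro O' _ _ _ _ _ _ _ _ _ hinj ψ
    have hψ := isLocalHom_point ψ
    have h := finprod_trace_eq_zero (A := O') (ρ := ρ.baseChangeAlong (ψ : T →+* O') hψ) hp hp2 hr
      hrp hr1 (Tangent.detIsCyclotomic_baseChangeAlong _ hψ hd) hP hφ hτ
      (fun σ hσ => residual_baseChangeAlong_eq_one _ hψ (hres σ hσ)) hinj hζ
      (hnu O' hinj ψ hψ)
    rw [finprod_mem_eq_finite_toFinset_prod _ hfin] at h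
    rw [hx, finprod_mem_eq_finite_toFinset_prod _ hfin, map_prod]
    refine Eq.trans (Finset.prod_congr rfl fun ζ _ => ?_) h
    rw [map_sub, AlgHom.commutes, trAt_baseChangeAlong]
    rfl
  have h := pow_finrank_eq_zero (hnil.map (Algebra.lsmul O O M (A := T)))
  rw [← map_pow] at h
  exact LinearMap.congr_fun h m

/-- **Nowhere unipotent makes the diamond generator minus one a non zero divisor.** -/
theorem eq_zero_of_diamond_sub_one_smul {q : ℕ} [NeZero q] (hq : q.Prime) (hp : p.Prime)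
    (hpO : (p : O) ∈ maximalIdeal O) (D : TWGal.Diamond ρ p q) (g : (ZMod q)ˣ)
    (hg : ∀ u, u ∈ Subgroup.zpowers g)
    (hnu : ∀ (O' : Type) [CommRing O'] [IsDomain O'] [IsDiscreteValuationRing O']
      [IsAdicComplete (maximalIdeal O') O'] [Finite (ResidueField O')] [CharZero O']
      [Algebra O O'] [Module.Finite O O'] [IsLocalHom (algebraMap O O')],
      Function.Injective (algebraMap O O') → ∀ (ψ : T →ₐ[O] O') (hψ : IsLocalHom (ψ : T →+* O')),
        ¬ (ρ.baseChangeAlong (ψ : T →+* O') hψ).IsUnipotentOnInertiaAt q)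
    (M : Type) [AddCommGroup M] [Module T M] [Module O M] [IsScalarTower O T M]
    [Module.IsTorsionFree O M] {m : M} (hm : ((D.δ g : T) - 1) • m = 0) : m = 0 := by
  obtain ⟨k, hk⟩ := exists_pow_mem_of_points hpO (Ideal.span {(D.δ g : T) - 1}) (by
    intro O' _ _ _ _ _ _ _ _ _ hinj ψ
    refine ⟨_, Ideal.mem_span_singleton_self _, fun h0 => ?_⟩
    have hψ := isLocalHom_point ψ
    rw [map_sub, map_one, sub_eq_zero] at h0
    have hδ : ∀ u, ψ (D.δ u : T) = 1 := fun u => by
      obtain ⟨z, rfl⟩ := Subgroup.mem_zpowers_iff.mp (hg u)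
      have h1 : Units.map (ψ : T →+* O').toMonoidHom (D.δ g) = 1 := Units.ext h0
      have h2 : Units.map (ψ : T →+* O').toMonoidHom (D.δ (g ^ z)) = 1 := by
        rw [map_zpow, map_zpow, h1, one_zpow]
      exact congrArg Units.val h2
    let s := D.split.baseChange (ψ : T →+* O') hψ
    refine hnu O' hinj ψ hψ (isUnipotentOnInertiaAt_of_place hq D.liesOver fun σ hσ => ?_)
    let σ' : D.P.decompositionSubgroup ℚ := ⟨σ, Galois.inertia_le_decomposition _ hσ⟩
    show LinearMap.charpoly ((ρ.baseChangeAlong (ψ : T →+* O') hψ).ρ σ'.1) = _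
    have hc1 : (ψ : T →+* O') ((D.δ (TWGal.cycMod q σ))⁻¹ : Tˣ) = 1 := by
      rw [← map_inv]
      exact hδ _
    rw [s.charpoly_eq σ', D.split.baseChange_char, D.split.baseChange_char,
      (D.char_inertia σ' hσ).1, (D.char_inertia σ' hσ).2, hc1,
      show (ψ : T →+* O') (D.δ (TWGal.cycMod q σ'.1) : T) = 1 from hδ _, map_one]
    ring)
  obtain ⟨c, hc⟩ := Ideal.mem_span_singleton'.mp hk
  have h : algebraMap O T (p : O) ^ k • m = 0 := by rw [← hc, mul_smul, hm, smul_zero]
  rw [← map_pow, algebraMap_smul] at h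
  exact (smul_eq_zero.mp h).resolve_left (pow_ne_zero k (Nat.cast_ne_zero.mpr hp.ne_zero))

end Fermat.Agent.LL.Pair
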