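import Fermat.Agent.LL.Setting
import Fermat.Agent.LL.Pair.Inputs
import Fermat.Agent.LL.Pair.LevelCond
import Fermat.Agent.LL.Pair.Harmless
import Fermat.Agent.LL.Pair.PointFacts
import Fermat.Agent.Datum.Inputs
import Fermat.Agent.S54

/-!
# The deformation ring acts on the Hecke ring of a level

* `exists_levelMap`: the Hecke ring of a level whose residual system is that of `ρbar` is a
  quotient of the deformation ring, unipotent at the primes exactly dividing the level and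
  unramified outside the ramification set of the level.
* `Setting.exists_levelMap`: the case of a level lowering setting.
-/

set_option autoImplicit false
set_option synthInstance.maxHeartbeats 400000

noncomputable section

open IsLocalRing Polynomial

namespace Fermat.Agent.LL.Pair

local notation "Γℚ" => (AlgebraicClosure ℚ ≃ₐ[ℚ] AlgebraicClosure ℚ)

section Residual

variable {k : Type} [Field k] {p : ℕ} [Fact p.Prime]

/-- With cyclotomic determinant, the characteristic polynomial at Frobenius is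
`X² - (trace) X + ℓ`. -/
theorem charpoly_frob_of_detIsCyclotomic (ρbar : ResidualGaloisRep k)
    (hdet : (GaloisRepAdic.ofResidualGaloisRep ρbar).DetIsCyclotomic p) {ℓ : ℕ} (hℓ : ℓ.Prime)
    (hℓp : ℓ ≠ p) {A : ValuationSubring (AlgebraicClosure ℚ)} (hA : A.LiesOverPrime ℓ) {σ : Γℚ}
    (hσ : A.IsFrobeniusAt σ ℓ) :
    LinearMap.charpoly (ρbar.ρ σ) =
      X ^ 2 - C (LinearMap.trace k ρbar.V (ρbar.ρ σ)) * X + C (ℓ : k) := by
  have hp : p.Prime := Fact.out
  have hpk : (p : k) = 0 := by simpa using hdet.1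
  have hd : LinearMap.det (ρbar.ρ σ) = (ℓ : k) := by
    have h := hdet.2 1 σ ℓ fun μ hμ => Galois.isFrobeniusAt_apply_rootOfUnity hA hℓ hσ
      (by rw [pow_one]; exact fun hd => hℓp ((Nat.prime_dvd_prime_iff_eq hℓ hp).1 hd)) hμ
    rw [pow_one, hpk, Ideal.span_singleton_eq_bot.mpr rfl, Ideal.mem_bot, sub_eq_zero] at h
    exact h
  let b := Module.finBasisOfFinrankEq k ρbar.V ρbar.finrank_eq
  rw [← LinearMap.charpoly_toMatrix (ρbar.ρ σ) b, Matrix.charpoly_fin_two,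
    LinearMap.det_toMatrix, hd, ← LinearMap.trace_eq_matrix_trace]

end Residual

variable {p : ℕ} [Fact p.Prime] {O : Type} [CommRing O] [IsDomain O] [IsDiscreteValuationRing O]
  [IsAdicComplete (maximalIdeal O) O] [Finite (ResidueField O)] [CharZero O]

omit [IsAdicComplete (maximalIdeal O) O] [Finite (ResidueField O)] [CharZero O] in
/-- A unipotent lift of `ρbar` at a harmless prime is unramified there. -/
theorem isUnramifiedAt_of_harmless_lift {T : Type} [CommRing T] [IsLocalRing T]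
    [IsNoetherianRing T] [Algebra O T] [IsLocalHom (algebraMap O T)]
    (hp : (p : O) ∈ maximalIdeal O) {ρbar : ResidualGaloisRep (ResidueField O)}
    (ρ : GaloisRepAdic T) (hdet : ρ.DetIsCyclotomic p)
    (hres : ρ.residual.IsEquiv (ρbar.baseChangeAlong (ResidueField.map (algebraMap O T))))
    {q : ℕ} (hq : q.Prime) (hqp : q ≠ p) (hu : ρ.IsUnipotentOnInertiaAt q)
    (hur : ρbar.IsUnramifiedAt q) (hq1 : ¬ q ≡ 1 [MOD p])
    (htr : ∀ A : ValuationSubring (AlgebraicClosure ℚ), A.LiesOverPrime q →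
      ∀ σ : Γℚ, A.IsFrobeniusAt σ q →
        LinearMap.trace (ResidueField O) ρbar.V (ρbar.ρ σ) ^ 2 ≠
          ((q : ResidueField O) + 1) ^ 2) : ρ.IsUnramifiedAt q := by
  have hpp : p.Prime := Fact.out
  set ι := ResidueField.map (algebraMap O T) with hι
  have hpk : (p : ResidueField O) = 0 := by
    rw [← map_natCast (residue O)]; exact (residue_eq_zero_iff _).mpr hp
  haveI : CharP (ResidueField O) p := (CharP.charP_iff_prime_eq_zero hpp).mpr hpk
  have hcast : (q : ResidueField T) = ι (q : ResidueField O) := (map_natCast ι q).symm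
  refine isUnramifiedAt_of_harmless hpp hq hqp ρ hdet hu
    (fun A hA σ hσ => residual_eq_one_of_isEquiv hres (hur A hA σ hσ)) ?_ ?_
  · rw [← residue_ne_zero_iff_isUnit, map_sub, map_one, map_natCast, hcast, ← map_one ι, ← map_sub,
      Ne, map_eq_zero_iff ι ι.injective, sub_eq_zero, ← Nat.cast_one, CharP.natCast_eq_natCast]
    exact hq1
  · intro A hA φ hφ
    obtain ⟨e⟩ := hres
    have hres' : residue T (LinearMap.trace T ρ.V (ρ.ρ φ)) =
        ι (LinearMap.trace (ResidueField O) ρbar.V (ρbar.ρ φ)) := by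
      letI : Algebra (ResidueField O) (ResidueField T) := ι.toAlgebra
      have h2 : (ρbar.baseChangeAlong ι).ρ φ = e.toLinearEquiv.conj (ρ.residual.ρ φ) := by
        refine LinearMap.ext fun x => ?_
        obtain ⟨y, rfl⟩ := e.toLinearEquiv.surjective x
        rw [LinearEquiv.conj_apply_apply, LinearEquiv.symm_apply_apply]
        exact (e.map_apply φ y).symm
      have h3 := congrArg (LinearMap.trace _ _) h2
      rw [LinearMap.trace_conj'] at h3
      exact (LinearMap.trace_baseChange (ρ.ρ φ) (ResidueField T)).symm.trans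
        (h3.symm.trans (LinearMap.trace_baseChange (ρbar.ρ φ) (ResidueField T)))
    rw [← residue_ne_zero_iff_isUnit, map_sub, map_pow, map_pow, map_add, map_one, map_natCast,
      hres', hcast, ← map_one ι, ← map_add, ← map_pow, ← map_pow, ← map_sub, Ne,
      map_eq_zero_iff ι ι.injective, sub_eq_zero]
    exact fun h => htr A hA φ hφ h.symm

open CuspForm in
/-- The Hecke ring of a level receives the deformation ring. -/
theorem exists_levelMap (inp : Inputs) (hp2 : p ≠ 2) (hp : (p : O) ∈ maximalIdeal O)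
    (ρbar : ResidualGaloisRep (ResidueField O)) (habs : ρbar.IsAbsolutelyIrreducible)
    (hdet : (GaloisRepAdic.ofResidualGaloisRep ρbar).DetIsCyclotomic p)
    (k : R59.Kind) (hk : k ≠ .ord) (Smin S' : Finset ℕ)
    (D : GaloisRep.DeformationRingData O ρbar (R59.cond k O p S' Smin))
    (L : ℕ) [NeZero L] [Fact (HasIntegralStructure L 2)]
    (hpN : k = .flat → ¬ p ∣ L)
    (hpNs : k = .strict → (p ∣ L ∧ ¬ p ^ 2 ∣ L) ∧
      (GaloisRepAdic.ofResidualGaloisRep ρbar).IsOrdinaryAt p ∧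
      ¬ (GaloisRepAdic.ofResidualGaloisRep ρbar).IsFlatAt p)
    (hmin : ∀ q ∈ Smin, q.Prime → q ≠ p → q ∣ L ∧ ¬ q ^ 2 ∣ L)
    (S : Finset ℕ) (hpS : p ∈ S) (hLS : ∀ q : ℕ, q.Prime → q ∣ L → q ∈ S)
    (hSS' : ∀ q ∈ S, q.Prime → q ∈ S' ∨ (q ≠ p ∧ q ∣ L ∧ ¬ q ^ 2 ∣ L ∧ ρbar.IsUnramifiedAt q ∧
      ¬ q ≡ 1 [MOD p] ∧ ∀ A : ValuationSubring (AlgebraicClosure ℚ), A.LiesOverPrime q →
        ∀ σ : Γℚ, A.IsFrobeniusAt σ q →
          LinearMap.trace (ResidueField O) ρbar.V (ρbar.ρ σ) ^ 2 ≠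
            ((q : ResidueField O) + 1) ^ 2))
    (θ : heckeAlgebra L 2 (↑S : Set ℕ) →+* ResidueField O)
    (hθ : ∀ (ℓ : ℕ) (hℓ : ℓ.Prime) (hℓL : ¬ ℓ ∣ L) (hℓS : ℓ ∉ (↑S : Set ℕ)), ℓ ∉ S' →
      ∀ A : ValuationSubring (AlgebraicClosure ℚ), A.LiesOverPrime ℓ →
        ∀ σ : Γℚ, A.IsFrobeniusAt σ ℓ →
          LinearMap.trace (ResidueField O) ρbar.V (ρbar.ρ σ) =
            θ (heckeAlgebra.T hℓ hℓL hℓS)) :
    ∃ φ : D.R →ₐ[O] heckeLocal L (↑S : Set ℕ) O θ, Function.Surjective φ ∧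
      ∃ hφ : IsLocalHom (φ : D.R →+* heckeLocal L (↑S : Set ℕ) O θ),
        (∀ (ℓ : ℕ) (hℓ : ℓ.Prime) (hℓL : ¬ ℓ ∣ L) (hℓS : ℓ ∉ (↑S : Set ℕ)),
          ∀ A : ValuationSubring (AlgebraicClosure ℚ), A.LiesOverPrime ℓ →
            ∀ σ : Γℚ, A.IsFrobeniusAt σ ℓ →
              φ (trAt D.ρ σ) = heckeLocal.π L (↑S : Set ℕ) O θ (heckeAlgebra.T hℓ hℓL hℓS)) ∧
        (∀ q : ℕ, q.Prime → q ≠ p → q ∣ L → ¬ q ^ 2 ∣ L →
          (D.ρ.baseChangeAlong (φ : D.R →+* heckeLocal L (↑S : Set ℕ) O θ) hφ).IsUnipotentOnInertiaAt q) ∧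
        ∀ q : ℕ, q.Prime → q ∉ S →
          (D.ρ.baseChangeAlong (φ : D.R →+* heckeLocal L (↑S : Set ℕ) O θ) hφ).IsUnramifiedAt q := by
  have hpp : p.Prime := Fact.out
  obtain ⟨H, hπ, hres⟩ := Datum.exists_heckeGaloisRepDatum_of_specializationExists
    (N := L) (S := (↑S : Set ℕ)) (p := p) (𝒪 := O) (inp.specialization L p) hp2 hp
    (Finset.mem_coe.mpr hpS) (Finset.finite_toSet _) θ ρbar habs S'
    fun ℓ hℓ hℓL hℓS hℓS' A hA σ hσ => by
      rw [charpoly_frob_of_detIsCyclotomic ρbar hdet hℓ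
        (fun h => hℓS (Finset.mem_coe.mpr (h ▸ hpS))) hA hσ, hθ ℓ hℓ hℓL hℓS hℓS' A hA σ hσ]
  obtain ⟨⟨hH1, hH2⟩, hunr⟩ : R59.cond k O p S' Smin H.ρ ∧
      ∀ q : ℕ, q.Prime → q ∉ S → H.ρ.IsUnramifiedAt q := by
    have h := cond_of_datum inp.unramified inp.flatAt inp.ordinary inp.unipotent hp2 hp ρbar k hk
      hpN hpNs hpS hLS Smin hmin H hres
    refine ⟨⟨?_, h.2⟩, inp.unramified hpp hp hpS hLS H⟩
    have hdetH : H.ρ.DetIsCyclotomic p := by cases k <;> exact h.1.1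
    have hout : ∀ q : ℕ, q.Prime → q ∉ S' → H.ρ.IsUnramifiedAt q := fun q hq hqS => by
      by_cases hm : q ∈ S
      · rcases hSS' q hm hq with h' | ⟨hqp, hqL, hq2, hu, hq1, htr⟩
        · exact absurd h' hqS
        · exact isUnramifiedAt_of_harmless_lift hp H.ρ hdetH hres hq hqp
            (inp.unipotent hpp hp hpS hLS H q hq hqp hqL hq2) hu hq1 htr
      · exact inp.unramified hpp hp hpS hLS H q hq hm
    cases k <;> exact ⟨h.1.1, h.1.2.1, hout⟩
  obtain ⟨φ, hsurj, hφ, he⟩ := S54.result D H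
    (fun q hq hd => Finset.mem_coe.mpr (hLS q hq hd)) ⟨hH1, hH2⟩ hres
  have he' : H.ρ.IsEquiv (D.ρ.baseChangeAlong (φ : D.R →+* heckeLocal L (↑S : Set ℕ) O θ) hφ) :=
    he.map GaloisRepAdic.Equiv.symm
  refine ⟨φ, hsurj, hφ, fun ℓ hℓ hℓL hℓS A hA σ hσ => ?_, fun q hq hqp hqL hq2 => ?_,
    fun q hq hqS => Tangent.isUnramifiedAt_of_isEquiv he' (hunr q hq hqS)⟩
  · obtain ⟨e⟩ := he
    have hc : (D.ρ.baseChangeAlong (φ : D.R →+* heckeLocal L (↑S : Set ℕ) O θ) hφ).ρ σ =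
        e.toLinearEquiv.symm.conj (H.ρ.ρ σ) := by
      refine LinearMap.ext fun x => e.toLinearEquiv.injective ?_
      rw [LinearEquiv.conj_apply_apply, LinearEquiv.symm_symm, LinearEquiv.apply_symm_apply]
      exact e.map_apply σ x
    have h := congrArg (LinearMap.trace _ _) hc
    rw [R59.trace_baseChangeAlong, LinearMap.trace_conj',
      R59.trace_eq_of_charpoly (H.charpoly_frob ℓ hℓ hℓL hℓS A hA σ hσ), hπ] at h
    exact h
  · exact Tangent.isUnipotentOnInertiaAt_of_isEquiv he'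
      (inp.unipotent hpp hp hpS hLS H q hq hqp hqL hq2)

end Fermat.Agent.LL.Pair

namespace Fermat.Agent.LL.Setting

local notation "Γℚ" => (AlgebraicClosure ℚ ≃ₐ[ℚ] AlgebraicClosure ℚ)

open CuspForm in
/-- A level of the setting receives the deformation ring. -/
theorem exists_levelMap (U : Setting) (inp : Pair.Inputs) {R : ℕ} (qv : Fin R → ℕ)
    (D : GaloisRep.DeformationRingData U.O U.ρbar (U.defCond qv))
    (L : ℕ) [NeZero L] [Fact (HasIntegralStructure L 2)]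
    (hpL : U.kind = .flat → ¬ U.p ∣ L) (hpLs : U.kind = .strict → U.p ∣ L ∧ ¬ U.p ^ 2 ∣ L)
    (hram : ∀ q ∈ U.ram ∪ U.aux, q ∣ L ∧ ¬ q ^ 2 ∣ L) (S : Finset ℕ) (hpS : U.p ∈ S)
    (hLS : ∀ q : ℕ, q.Prime → q ∣ L → q ∈ S) (hS : S ⊆ U.auxSet qv)
    (θ : heckeAlgebra L 2 (↑S : Set ℕ) →+* ResidueField U.O)
    (hθ : ∀ (ℓ : ℕ) (hℓ : ℓ.Prime) (hℓL : ¬ ℓ ∣ L) (hℓS : ℓ ∉ (↑S : Set ℕ)), ℓ ∉ U.auxSet qv →
      ∀ A : ValuationSubring (AlgebraicClosure ℚ), A.LiesOverPrime ℓ →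
        ∀ σ : Γℚ, A.IsFrobeniusAt σ ℓ →
          LinearMap.trace (ResidueField U.O) U.ρbar.V (U.ρbar.ρ σ) =
            θ (heckeAlgebra.T hℓ hℓL hℓS)) :
    ∃ φ : D.R →ₐ[U.O] heckeLocal L (↑S : Set ℕ) U.O θ, Function.Surjective φ ∧
      ∃ hφ : IsLocalHom (φ : D.R →+* heckeLocal L (↑S : Set ℕ) U.O θ),
        (∀ (ℓ : ℕ) (hℓ : ℓ.Prime) (hℓL : ¬ ℓ ∣ L) (hℓS : ℓ ∉ (↑S : Set ℕ)),
          ∀ A : ValuationSubring (AlgebraicClosure ℚ), A.LiesOverPrime ℓ →
            ∀ σ : Γℚ, A.IsFrobeniusAt σ ℓ →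
              φ (trAt D.ρ σ) = heckeLocal.π L (↑S : Set ℕ) U.O θ (heckeAlgebra.T hℓ hℓL hℓS)) ∧
        (∀ q : ℕ, q.Prime → q ≠ U.p → q ∣ L → ¬ q ^ 2 ∣ L →
          (D.ρ.baseChangeAlong (φ : D.R →+* heckeLocal L (↑S : Set ℕ) U.O θ) hφ).IsUnipotentOnInertiaAt q) ∧
        ∀ q : ℕ, q.Prime → q ∉ S →
          (D.ρ.baseChangeAlong (φ : D.R →+* heckeLocal L (↑S : Set ℕ) U.O θ) hφ).IsUnramifiedAt q :=
  Pair.exists_levelMap inp U.two_ne_p U.p_mem U.ρbar U.absIrr U.detCyc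
    U.kind (fun h => by rcases U.kind_eq with h' | h' <;> rw [h'] at h <;> cases h) _ _ D L hpL
    (fun h => ⟨hpLs h, by
      rcases U.atP with ⟨h', -⟩ | ⟨-, -, hs, hf⟩
      · exact absurd (h'.symm.trans h) (by decide)
      · exact ⟨hs.isOrdinaryAt, hf⟩⟩)
    (fun q hq _ hqp => hram q (Finset.mem_union_left _ ((Finset.mem_insert.mp hq).resolve_left hqp)))
    S hpS hLS (fun q hq hqp => (U.mem_defSet_or_aux (hS hq)).imp_right fun ha => by
      have hne := (U.mem_primeFactors (Finset.mem_union_right _ ha)).1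
      obtain ⟨h1, h2⟩ := hram q (Finset.mem_union_right _ ha)
      exact ⟨hne, h1, h2, U.isUnramifiedAt_of_notMem hqp (fun h => (Finset.mem_insert.mp h).elim hne
        fun hr => Finset.disjoint_right.mp U.disjoint_aux ha (Finset.mem_union_left _ hr)),
        U.aux_spec q ha⟩)
    θ (fun ℓ hℓ hℓL hℓS hℓS' => hθ ℓ hℓ hℓL hℓS fun h => (U.mem_defSet_or_aux h).elim hℓS' fun ha =>
      hℓL (hram ℓ (Finset.mem_union_right _ ha)).1)

end Fermat.Agent.LL.Setting
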