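import Fermat.Agent.LL.Setting
import Fermat.Agent.LL.Pair.LevelRep
import Fermat.Agent.R59.NonEis

/-!
# Primes `ℓ ≡ 1 (mod p L)` at which a setting is not Eisenstein
-/

set_option autoImplicit false

noncomputable section

open IsLocalRing Polynomial

namespace Fermat.Agent.LL.Pair

local notation "Γℚ" => (AlgebraicClosure ℚ ≃ₐ[ℚ] AlgebraicClosure ℚ)

/-- An absolutely irreducible plane representation with cyclotomic determinant has a prime
`ℓ ≡ 1 (mod p L)` at which the trace of Frobenius is not `ℓ + 1`. -/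
theorem exists_prime_one_mod {k : Type} [Field k] {p : ℕ} [Fact p.Prime]
    (ρbar : ResidualGaloisRep k) (habs : ρbar.IsAbsolutelyIrreducible)
    (hdet : (GaloisRepAdic.ofResidualGaloisRep ρbar).DetIsCyclotomic p) (L : ℕ) [NeZero L]
    (S : Finset ℕ) :
    ∃ ℓ : ℕ, ℓ.Prime ∧ ℓ ∉ S ∧ L * p ∣ ℓ - 1 ∧
      ∃ A : ValuationSubring (AlgebraicClosure ℚ), A.LiesOverPrime ℓ ∧
        ∃ σ : Γℚ, A.IsFrobeniusAt σ ℓ ∧
          LinearMap.trace k ρbar.V (ρbar.ρ σ) ≠ (ℓ : k) + 1 := by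
  classical
  have hp : p.Prime := Fact.out
  by_contra hcon
  push Not at hcon
  have : NeZero p := ⟨hp.ne_zero⟩
  set L' := L * p
  have hL' : NeZero L' := ⟨mul_ne_zero (NeZero.ne L) hp.ne_zero⟩
  obtain ⟨ζ, hζ⟩ := HasEnoughRootsOfUnity.exists_primitiveRoot (AlgebraicClosure ℚ) L'
  obtain ⟨F, hF, hF1⟩ := ρbar.factorsThroughFiniteLevel
  have : FiniteDimensional ℚ ↥(IntermediateField.adjoin ℚ {ζ}) :=
    IntermediateField.adjoin.finiteDimensional
      (IsIntegral.of_pow (NeZero.pos L') (by rw [hζ.pow_eq_one]; exact isIntegral_one))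
  set M := IntermediateField.normalClosure ℚ ↥(F ⊔ IntermediateField.adjoin ℚ {ζ})
    (AlgebraicClosure ℚ)
  have : Normal ℚ (AlgebraicClosure ℚ) := Density.normal_qbar
  have : Normal ℚ M := normalClosure.normal ℚ _ _
  have hFM : F ≤ M := le_trans le_sup_left (IntermediateField.le_normalClosure _)
  have hζM : ζ ∈ M := le_trans le_sup_right (IntermediateField.le_normalClosure _)
    (IntermediateField.mem_adjoin_simple_self ℚ ζ)
  let K := AlgebraicClosure k
  have hu : ∀ g : Γℚ, g ζ = ζ →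
      ((ρbar.baseChange K).ρ g - 1) * ((ρbar.baseChange K).ρ g - 1) = 0 := by
    intro g hg
    obtain ⟨ℓ, hℓ, hℓS, A, hA, σ, hσ, hz⟩ := Density.exists_frobenius_zpowers_restrictNormal M g
      (S ∪ {p} ∪ L'.primeFactors)
    simp only [Finset.mem_union, not_or] at hℓS
    have hℓL : ¬ ℓ ∣ L' := fun h => hℓS.2 (Nat.mem_primeFactors.mpr ⟨hℓ, h, NeZero.ne L'⟩)
    have hres : ∀ τ : Γℚ, ∀ x (hx : x ∈ M), ((τ.restrictNormal M) ⟨x, hx⟩ : AlgebraicClosure ℚ) =
        τ x := fun τ x hx => AlgEquiv.restrictNormal_commutes τ M ⟨x, hx⟩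
    -- the Frobenius element fixes `ζ`
    obtain ⟨i, hi⟩ := Subgroup.mem_zpowers_iff.mp
      (hz ▸ Subgroup.mem_zpowers (σ.restrictNormal M) :
        σ.restrictNormal M ∈ Subgroup.zpowers (g.restrictNormal M))
    have hσζ : σ ζ = ζ := by
      have hgζ : (g.restrictNormal M) ⟨ζ, hζM⟩ = ⟨ζ, hζM⟩ :=
        Subtype.ext ((hres g ζ hζM).trans hg)
      have hmem : g.restrictNormal M ∈
          MulAction.stabilizer (↥M ≃ₐ[ℚ] ↥M) (⟨ζ, hζM⟩ : M) := hgζ
      have hσmem := Subgroup.zpow_mem _ hmem i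
      rw [hi] at hσmem
      rw [← hres σ ζ hζM]
      exact congrArg Subtype.val hσmem
    have hℓ1 : L' ∣ ℓ - 1 := by
      have := Galois.isFrobeniusAt_apply_rootOfUnity hA hℓ hσ hℓL hζ.pow_eq_one
      rw [hσζ] at this
      refine hζ.dvd_of_pow_eq_one (ℓ - 1) ?_
      refine mul_right_cancel₀ (hζ.ne_zero (NeZero.ne L')) ?_
      rw [← pow_succ, Nat.sub_add_cancel hℓ.one_le, one_mul, ← this]
    have hℓk : (ℓ : k) = 1 := by
      have hp0 : ((p : ℕ) : k) = 0 := by simpa using hdet.1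
      obtain ⟨t, ht⟩ := (dvd_mul_left p L).trans hℓ1
      have h' : ℓ = p * t + 1 := by have := hℓ.one_le; omega
      rw [h']
      simp [hp0]
    have hchar := charpoly_frob_of_detIsCyclotomic ρbar hdet hℓ
      (fun h => hℓS.1.2 (Finset.mem_singleton.mpr h)) hA hσ
    rw [hcon ℓ hℓ hℓS.1.1 hℓ1 A hA σ hσ, hℓk] at hchar
    have hK : ((ρbar.baseChange K).ρ σ - 1) * ((ρbar.baseChange K).ρ σ - 1) = 0 := by
      have hc : LinearMap.charpoly ((ρbar.baseChange K).ρ σ) = (X - C (1 : K)) * (X - C 1) := by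
        show LinearMap.charpoly ((ρbar.ρ σ).baseChange K) = _
        rw [LinearMap.charpoly_baseChange, hchar]
        simp only [Polynomial.map_add, Polynomial.map_sub, Polynomial.map_mul, Polynomial.map_pow,
          Polynomial.map_X, Polynomial.map_one, map_one, map_add]
        ring
      have := LinearMap.aeval_self_charpoly ((ρbar.baseChange K).ρ σ)
      rw [hc] at this
      simpa using this
    -- `g` is a power of it at the level `M`
    obtain ⟨j, hj⟩ := mem_powers_iff_mem_zpowers.mpr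
      (hz ▸ Subgroup.mem_zpowers (g.restrictNormal M) :
        g.restrictNormal M ∈ Subgroup.zpowers (σ.restrictNormal M))
    have hρ : ρbar.ρ g = ρbar.ρ σ ^ j := by
      have h1 : ρbar.ρ ((σ ^ j)⁻¹ * g) = 1 := hF1 _ fun x hx => by
        have hx' := hFM hx
        have e1 := hres g x hx'
        rw [← hj] at e1
        have e2 : ((σ ^ j).restrictNormal M) = σ.restrictNormal M ^ j :=
          map_pow (AlgEquiv.restrictNormalHom M) σ j
        have e3 := hres (σ ^ j) x hx'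
        rw [e2] at e3
        show (σ ^ j)⁻¹ (g x) = x
        rw [← e1]
        simp only at e3 ⊢
        rw [e3]
        exact (σ ^ j).symm_apply_apply x
      calc ρbar.ρ g = ρbar.ρ (σ ^ j * ((σ ^ j)⁻¹ * g)) := by rw [mul_inv_cancel_left]
        _ = ρbar.ρ σ ^ j := by rw [map_mul, h1, mul_one, map_pow]
    have hρK : (ρbar.baseChange K).ρ g = (ρbar.baseChange K).ρ σ ^ j := by
      show (ρbar.ρ g).baseChange K = ((ρbar.ρ σ).baseChange K) ^ j
      rw [hρ, LinearMap.baseChange_pow]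
    rw [hρK]
    set f := (ρbar.baseChange K).ρ σ
    obtain ⟨q, hq⟩ : ∃ q, f ^ j - 1 = (f - 1) * q :=
      ⟨_, (mul_geom_sum f j).symm⟩
    have hc : Commute (f ^ j - 1) (f - 1) :=
      (((Commute.refl f).pow_left j).sub_left (Commute.one_left _)).sub_right (Commute.one_right _)
    conv_lhs => arg 2; rw [hq]
    rw [← mul_assoc, hc.eq, hq, ← mul_assoc, hK, zero_mul, zero_mul]
  obtain ⟨Z, h0, h1, hst⟩ := R59.exists_stable_of_unipotent (ρbar.baseChange K).finrank_eq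
    (ρbar.baseChange K).ρ hζ hu
  exact (habs Z hst).elim h0 h1

end Fermat.Agent.LL.Pair

namespace Fermat.Agent.LL.Setting

local notation "Γℚ" => (AlgebraicClosure ℚ ≃ₐ[ℚ] AlgebraicClosure ℚ)

/-- The trace of Frobenius is the eigenvalue of the setting. -/
theorem trace_frob_eq_theta (U : Setting) {ℓ : ℕ} (hℓ : ℓ.Prime) (hℓM : ¬ ℓ ∣ U.M)
    (hℓS : ℓ ∉ (↑(insert U.p U.M.primeFactors) : Set ℕ))
    {A : ValuationSubring (AlgebraicClosure ℚ)} (hA : A.LiesOverPrime ℓ) {σ : Γℚ}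
    (hσ : A.IsFrobeniusAt σ ℓ) :
    LinearMap.trace (ResidueField U.O) U.ρbar.V (U.ρbar.ρ σ) =
      U.θ (CuspForm.heckeAlgebra.T hℓ hℓM hℓS) :=
  R59.trace_eq_of_charpoly (ρ := GaloisRepAdic.ofResidualGaloisRep U.ρbar)
    (U.θ_charpoly ℓ hℓ hℓM hℓS A hA σ hσ)

/-- There is a prime `ℓ ≡ 1 (mod p L)` at which the setting is not Eisenstein. -/
theorem exists_prime_one_mod (U : Setting) (L : ℕ) [NeZero L] (S : Finset ℕ) :
    ∃ (ℓ : ℕ) (hℓ : ℓ.Prime) (hℓM : ¬ ℓ ∣ U.M)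
      (hℓS : ℓ ∉ (↑(insert U.p U.M.primeFactors) : Set ℕ)),
      ℓ ∉ S ∧ U.p * L ∣ ℓ - 1 ∧
      U.θ (CuspForm.heckeAlgebra.T hℓ hℓM hℓS) ≠ (ℓ : ResidueField U.O) + 1 ∧
      ∀ A : ValuationSubring (AlgebraicClosure ℚ), A.LiesOverPrime ℓ →
        ∀ σ : Γℚ, A.IsFrobeniusAt σ ℓ →
          LinearMap.trace (ResidueField U.O) U.ρbar.V (U.ρbar.ρ σ) ≠
            (ℓ : ResidueField U.O) + 1 := by
  classical
  obtain ⟨ℓ, hℓ, hS, hdvd, A, hA, σ, hσ, hne⟩ := Pair.exists_prime_one_mod U.ρbar U.absIrr U.detCyc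
    L (S ∪ insert U.p U.M.primeFactors)
  simp only [Finset.mem_union, not_or] at hS
  have hℓS : ℓ ∉ (↑(insert U.p U.M.primeFactors) : Set ℕ) := fun h => hS.2 (Finset.mem_coe.mp h)
  have hℓM : ¬ ℓ ∣ U.M := fun h => hS.2 (Finset.mem_insert_of_mem
    (Nat.mem_primeFactors.mpr ⟨hℓ, h, NeZero.ne _⟩))
  refine ⟨ℓ, hℓ, hℓM, hℓS, hS.1, mul_comm L U.p ▸ hdvd, U.trace_frob_eq_theta hℓ hℓM hℓS hA hσ ▸ hne,
    fun B hB τ hτ => ?_⟩
  rw [U.trace_frob_eq_theta hℓ hℓM hℓS hB hτ, ← U.trace_frob_eq_theta hℓ hℓM hℓS hA hσ]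
  exact hne

end Fermat.Agent.LL.Setting
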