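/-
The residual system at the minimal level with `U_{i₀}`, and its extension to the auxiliary levels
(owner: helper61).
-/
import Fermat.Agent.LL.Pair.Data
import Fermat.Agent.LL.Pair.CongPart
import Fermat.Agent.LL.Pair.NonEis

set_option autoImplicit false
set_option synthInstance.maxHeartbeats 400000

noncomputable section

open IsLocalRing Fermat.Agent.TW.Mod

namespace Fermat.Agent.LL.Pair

variable (U : Setting) (i₀ : U.Idx)

instance instNeZeroPrime : NeZero U.p := ⟨(Fact.out : U.p.Prime).ne_zero⟩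

instance instIsLocalRingCoeff (n R : ℕ) : IsLocalRing (Coeff U n R) :=
  R59.isLocalRing_twAlg U.O U.p n R U.p_mem

instance instFiniteCoeff (n R : ℕ) : Module.Finite U.O (Coeff U n R) :=
  R59.instFiniteTWAlg U.O U.p n R

/-- `p` and the primes of the minimal level other than `i₀`. -/
abbrev lowSet : Set ℕ := (↑(insert U.p (U.M.primeFactors.erase i₀.1)) : Set ℕ)

theorem notMem_lowSet {l : ℕ} (h : l ∉ baseSet U) : l ∉ lowSet U i₀ := fun h' =>
  h (Finset.mem_coe.mpr ((Finset.insert_subset_insert _ (Finset.erase_subset _ _))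
    (Finset.mem_coe.mp h')))

theorem hard_ne_p' : i₀.1 ≠ U.p := U.hard_ne_p i₀

theorem hard_notMem_lowSet : i₀.1 ∉ lowSet U i₀ := fun h => by
  rcases Finset.mem_insert.mp (Finset.mem_coe.mp h) with h | h
  · exact hard_ne_p' U i₀ h
  · exact (Finset.ne_of_mem_erase h) rfl

/-- The index of `i₀`. -/
def hardIdx : PrimeIdx (lowSet U i₀) := ⟨i₀.1, hard_prime' U i₀, hard_notMem_lowSet U i₀⟩

theorem natCast_hard_eq_one : ((i₀.1 : ℕ) : ResidueField U.O) = 1 := by
  have h := (ZMod.natCast_eq_natCast_iff i₀.1 1 U.p).2 (U.one_mod _ i₀.2)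
  have hdvd : U.p ∣ i₀.1 - 1 :=
    (Nat.modEq_iff_dvd' (hard_prime' U i₀).one_lt.le).1 (U.one_mod _ i₀.2).symm
  obtain ⟨c, hc⟩ := hdvd
  have hp0 : (U.p : ResidueField U.O) = 0 := by
    rw [← map_natCast (residue U.O), residue_eq_zero_iff]
    exact U.p_mem
  rw [show i₀.1 = U.p * c + 1 by have := (hard_prime' U i₀).one_lt; omega]
  simp [hp0]

/-- The residual system at the minimal level with `U_{i₀}` in it. -/
structure Base : Type where
  lam : PrimeIdx (lowSet U i₀) → ResidueField U.O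
  lam_eq : ∀ i : PrimeIdx (baseSet U),
    lam ⟨i.1, i.2.1, notMem_lowSet U i₀ i.2.2⟩ = lamM U i
  occurs : Occurs U.O (heckeFam U.O U.M (lowSet U i₀)) lam
  lam_hard : lam (hardIdx U i₀) ≠ 0
  /-- Nothing below `i₀` has the system. -/
  low : ∀ (Q : Finset ℕ) (α : ℕ → ResidueField U.O),
    (∀ q ∈ Q, ∃ (hp : q.Prime) (hS : q ∉ baseSet U), (q : ResidueField U.O) = 1 ∧
      α q ^ 2 - lamM U ⟨q, hp, hS⟩ * α q + 1 = 0 ∧ α q ^ 2 ≠ 1) →
    ∀ w : LR.Hom1 (U.M / i₀.1 * ∏ q ∈ Q, q) (ResidueField U.O),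
      (∀ j : PrimeIdx (lowSet U i₀), j.1 ≠ i₀.1 →
        HK.heckeHom (U.M / i₀.1 * ∏ q ∈ Q, q) j.1 (ResidueField U.O) (ResidueField U.O) w =
          raiseLam Q α lam j • w) → w = 0

variable {U i₀} (B : Base U i₀) {n R : ℕ} {qv : Fin R → ℕ}

instance instNeZeroLowBase : NeZero (U.M / i₀.1) :=
  ⟨(Nat.div_pos (Nat.le_of_dvd (Nat.pos_of_ne_zero (NeZero.ne U.M)) (hard_dvd U i₀))
    (hard_prime' U i₀).pos).ne'⟩

theorem coprime_hard_low : i₀.1.Coprime (U.M / i₀.1) :=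
  (hard_prime' U i₀).coprime_iff_not_dvd.2 fun h =>
    (hard_prime' U i₀).not_isUnit ((U.squarefree i₀.1)
      ((mul_dvd_mul_right h i₀.1).trans (Nat.div_mul_cancel (hard_dvd U i₀)).dvd))

variable (qv)

/-- The residual system at the auxiliary level. -/
abbrev sys : PrimeIdx (lowSet U i₀) → ResidueField U.O :=
  raiseLam (auxPrimes qv) (rootAt U) B.lam

variable {qv}

theorem sys_apply_of_notMem (hl : PrimeIdx (baseSet U)) (h : hl.1 ∉ auxPrimes qv) :
    sys B qv ⟨hl.1, hl.2.1, notMem_lowSet U i₀ hl.2.2⟩ = lamM U hl :=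
  (if_neg h).trans (B.lam_eq hl)

theorem sys_hard (hq : U.IsAux n qv) : sys B qv (hardIdx U i₀) ≠ 0 := by
  rw [show sys B qv (hardIdx U i₀) = B.lam (hardIdx U i₀) from if_neg (hard_notMem_aux hq)]
  exact B.lam_hard

theorem exists_sys_aux (hq : U.IsAux n qv) {q : ℕ} (h : q ∈ auxPrimes qv) :
    ∃ (hp : q.Prime) (hS : q ∉ lowSet U i₀), sys B qv ⟨q, hp, hS⟩ ^ 2 ≠ 1 ∧
      q ∉ baseSet U ∧ (q : ResidueField U.O) = 1 ∧ q ≠ U.p := by
  obtain ⟨i, rfl⟩ := mem_auxPrimes.1 h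
  refine ⟨hq.prime i, notMem_lowSet U i₀ (notMem_baseSet_aux hq i), ?_, notMem_baseSet_aux hq i,
    natCast_aux_eq_one hq i, fun e => hq.not_mem i (e ▸ Finset.mem_insert_self _ _)⟩
  rw [sys, raiseLam, if_pos h]
  exact (rootAt_spec hq i).2

theorem coprime_of_notMem_baseSet {q : ℕ} (hp : q.Prime) (h : q ∉ baseSet U) : q.Coprime U.M :=
  hp.coprime_iff_not_dvd.2 (not_dvd_of_notMem_baseSet U hp h)

theorem low_sys (hq : U.IsAux n qv) (w : LR.Hom1 (lowLevel U i₀ qv) (ResidueField U.O))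
    (hw : ∀ j : PrimeIdx (lowSet U i₀), j.1 ≠ i₀.1 →
      HK.heckeHom (lowLevel U i₀ qv) j.1 (ResidueField U.O) (ResidueField U.O) w =
        sys B qv j • w) : w = 0 :=
  B.low _ _ (fun q h => by
    obtain ⟨i, rfl⟩ := mem_auxPrimes.1 h
    exact ⟨hq.prime i, notMem_baseSet_aux hq i, natCast_aux_eq_one hq i, rootAt_spec hq i⟩) w hw

theorem resHom_eta (q : ℕ) (u : (ZMod q)ˣ) :
    resHom (R59.twAug U.O U.p n R) (eta U i₀ n qv q u : Coeff U n R) = 1 :=
  residue_eta q u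

theorem resHom_char₀ (u : (ZMod (lev U i₀ qv))ˣ) :
    resHom (R59.twAug U.O U.p n R) (char₀ U i₀ n qv u : Coeff U n R) = 1 :=
  f_chiTot _ _ _ (fun u => by simp) resHom_eta _ _ u

theorem resHom_char₁ (u : (ZMod (lev U i₀ qv))ˣ) :
    resHom (R59.twAug U.O U.p n R) (char₁ U i₀ n qv u : Coeff U n R) = 1 :=
  f_chiTot _ _ _ (fun u => by simp) resHom_eta _ _ u

variable (U n R)

/-- The congruence ideal. -/
abbrev congIdeal : Ideal (Coeff U n R) := (maximalIdeal U.O).map (algebraMap U.O (Coeff U n R))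

theorem congIdeal_le : congIdeal U n R ≤ maximalIdeal (Coeff U n R) := by
  rw [Ideal.map_le_iff_le_comap]
  intro c hc
  rw [Ideal.mem_comap, ← resHom_eq_zero_iff (aug := R59.twAug U.O U.p n R), RingHom.comp_apply,
    AlgHom.toRingHom_eq_coe, RingHom.coe_coe, AlgHom.commutes]
  exact (residue_eq_zero_iff _).2 hc

variable {U n R}

/-- The system occurs in twisted `H¹` for the first character. -/
theorem occurs₀ (hq : U.IsAux n qv) :
    Occurs U.O (twFam (char₀ U i₀ n qv) (lowSet U i₀)) (sys B qv) := by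
  have := neZero_lev (i₀ := i₀) hq
  obtain ⟨h, -, -⟩ := exists_levelRaise_finset U.M (lowSet U i₀) B.occurs (rootAt U) (auxPrimes qv)
    (fun q h => by
      obtain ⟨i, rfl⟩ := mem_auxPrimes.1 h
      refine ⟨hq.prime i, notMem_lowSet U i₀ (notMem_baseSet_aux hq i),
        coprime_of_notMem_baseSet (hq.prime i) (notMem_baseSet_aux hq i),
        natCast_aux_eq_one hq i, ?_⟩
      rw [B.lam_eq ⟨qv i, hq.prime i, notMem_baseSet_aux hq i⟩]
      exact rootAt_spec hq i)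
    (lev U i₀ qv) (lev_eq U i₀ qv)
  exact occurs_twFam admissible_char₀ (twAug_char₀ hq) h

/-- The system occurs in twisted `H¹` for the second character. -/
theorem occurs₁ (hq : U.IsAux n qv) :
    Occurs U.O (twFam (char₁ U i₀ n qv) (lowSet U i₀)) (sys B qv) :=
  haveI := neZero_lev (i₀ := i₀) hq
  (occurs_congr admissible_char₀ admissible_char₁ (congIdeal U n R) (char₀_sub_char₁_mem hq)
    (congIdeal_le U n R) (occurs₀ B hq)).2

/-- A prime congruent to one modulo `p L` where the system is not Eisenstein. -/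
theorem exists_nonEis (L : ℕ) [NeZero L] :
    ∃ i : PrimeIdx (lowSet U i₀), (i.1 : ZMod L) = 1 ∧ ¬ i.1 ∣ L ∧ i.1 ∉ U.auxSet qv ∧
      sys B qv i ≠ (i.1 : ResidueField U.O) + 1 := by
  obtain ⟨l, hl, hlM, hlS, hlaux, hdvd, hne, -⟩ := U.exists_prime_one_mod L (U.auxSet qv)
  have h1 : ((l : ℕ) : ZMod L) = 1 := by
    obtain ⟨c, hc⟩ := (dvd_mul_left L U.p).trans hdvd
    rw [show l = L * c + 1 by have := hl.one_lt; omega]
    simp
  refine ⟨⟨l, hl, notMem_lowSet U i₀ hlS⟩, h1, fun hd => ?_, hlaux, ?_⟩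
  · have h2 : L ∣ l - 1 := (dvd_mul_left L U.p).trans hdvd
    have h3 : l ≤ l - 1 := Nat.le_of_dvd (by have := hl.one_lt; omega) (hd.trans h2)
    have := hl.one_lt
    omega
  · rw [sys_apply_of_notMem B ⟨l, hl, hlS⟩
      (fun h => hlaux (Finset.mem_union_right _ h))]
    exact hne

end Fermat.Agent.LL.Pair
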