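/-
A level of the setting acting on a part of twisted `H¹`: the deformation ring acts through the
local Hecke algebra (owner: helper61).
-/
import Fermat.Agent.LL.Pair.Base
import Fermat.Agent.LL.Pair.LevelRep
import Fermat.Agent.R59.LocalModule
import Fermat.Agent.R59.TWLevel.Hecke

set_option autoImplicit false
set_option synthInstance.maxHeartbeats 400000

noncomputable section

open IsLocalRing Fermat.Agent.TW.Mod CuspForm

namespace Fermat.Agent.LL.Pair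

local notation "Γℚ" => (AlgebraicClosure ℚ ≃ₐ[ℚ] AlgebraicClosure ℚ)

variable {U : Setting} {i₀ : U.Idx} {n R : ℕ} {qv : Fin R → ℕ}

theorem notMem_baseSet_of_notMem_auxSet {l : ℕ} (h : l ∉ (↑(U.auxSet qv) : Set ℕ)) :
    l ∉ baseSet U := fun h' =>
  h (Finset.mem_coe.mpr (Finset.mem_union_left _ (Finset.mem_coe.mp h')))

theorem notMem_auxPrimes_of_notMem_auxSet {l : ℕ} (h : l ∉ (↑(U.auxSet qv) : Set ℕ)) :
    l ∉ auxPrimes qv := fun h' => h (Finset.mem_coe.mpr (Finset.mem_union_right _ h'))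

variable (D : GaloisRep.DeformationRingData U.O U.ρbar (U.defCond qv))

/-- The deformation ring acts on the part of a system through the Hecke algebra of a level, the
Frobenius traces acting as `W_ℓ⁻¹ T_ℓ`. -/
structure Act (L : ℕ) [NeZero L] [Fact (HasIntegralStructure L 2)]
    [NeZero (lev U i₀ qv)] {χ : (ZMod (lev U i₀ qv))ˣ →* (Coeff U n R)ˣ}
    (hadm : Admissible (epsOf χ)) {lam : PrimeIdx (lowSet U i₀) → ResidueField U.O}
    (h : Occurs U.O (twFam χ (lowSet U i₀)) lam) (W : ℕ → (Coeff U n R)ˣ) : Type where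
  θ : heckeAlgebra L 2 (↑(U.auxSet qv) : Set ℕ) →+* ResidueField U.O
  toHecke : D.R →ₐ[U.O] heckeLocal L (↑(U.auxSet qv) : Set ℕ) U.O θ
  toHecke_surjective : Function.Surjective toHecke
  toHecke_local : IsLocalHom (toHecke : D.R →+* heckeLocal L (↑(U.auxSet qv) : Set ℕ) U.O θ)
  /-- The Hecke algebra on the part. -/
  toEnd : heckeLocal L (↑(U.auxSet qv) : Set ℕ) U.O θ →ₐ[U.O]
    Module.End (Coeff U n R) (genPart hadm h)
  toEnd_T : ∀ (ℓ : ℕ) (hℓ : ℓ.Prime) (hℓL : ¬ ℓ ∣ L) (hℓS : ℓ ∉ (↑(U.auxSet qv) : Set ℕ)),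
    toEnd (heckeLocal.π L (↑(U.auxSet qv) : Set ℕ) U.O θ (heckeAlgebra.T hℓ hℓL hℓS)) =
      (((W ℓ)⁻¹ : (Coeff U n R)ˣ) : Coeff U n R) •
        genOp hadm h ⟨ℓ, hℓ, notMem_lowSet U i₀ (notMem_baseSet_of_notMem_auxSet hℓS)⟩
  dvd_mem : ∀ q : ℕ, q.Prime → q ∣ L → q ∈ U.auxSet qv
  trace : ∀ (ℓ : ℕ) (hℓ : ℓ.Prime) (hℓL : ¬ ℓ ∣ L) (hℓS : ℓ ∉ (↑(U.auxSet qv) : Set ℕ)),
    ∀ A : ValuationSubring (AlgebraicClosure ℚ), A.LiesOverPrime ℓ →
      ∀ σ : Γℚ, A.IsFrobeniusAt σ ℓ → toHecke (trAt D.ρ σ) =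
        heckeLocal.π L (↑(U.auxSet qv) : Set ℕ) U.O θ (heckeAlgebra.T hℓ hℓL hℓS)
  unipotent : ∀ q : ℕ, q.Prime → q ≠ U.p → q ∣ L → ¬ q ^ 2 ∣ L →
    (D.ρ.baseChangeAlong (toHecke : D.R →+* heckeLocal L (↑(U.auxSet qv) : Set ℕ) U.O θ)
      toHecke_local).IsUnipotentOnInertiaAt q

namespace Act

variable {D} {L : ℕ} [NeZero L] [Fact (HasIntegralStructure L 2)] [NeZero (lev U i₀ qv)]
  {χ : (ZMod (lev U i₀ qv))ˣ →* (Coeff U n R)ˣ} {hadm : Admissible (epsOf χ)}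
  {lam : PrimeIdx (lowSet U i₀) → ResidueField U.O}
  {h : Occurs U.O (twFam χ (lowSet U i₀)) lam} {W : ℕ → (Coeff U n R)ˣ}
  (a : Act D L hadm h W)

/-- The action of the deformation ring. -/
def act : D.R →ₐ[U.O] Module.End (Coeff U n R) (genPart hadm h) := a.toEnd.comp a.toHecke

/-- Frobenius traces act as the untwisted Hecke operators. -/
theorem act_trace {ℓ : ℕ} (hℓ : ℓ.Prime) (hℓS : ℓ ∉ (↑(U.auxSet qv) : Set ℕ))
    {A : ValuationSubring (AlgebraicClosure ℚ)} (hA : A.LiesOverPrime ℓ) {σ : Γℚ}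
    (hσ : A.IsFrobeniusAt σ ℓ) :
    a.act (trAt D.ρ σ) = (((W ℓ)⁻¹ : (Coeff U n R)ˣ) : Coeff U n R) •
      genOp hadm h ⟨ℓ, hℓ, notMem_lowSet U i₀ (notMem_baseSet_of_notMem_auxSet hℓS)⟩ := by
  have hℓL : ¬ ℓ ∣ L := fun hd => hℓS (Finset.mem_coe.mpr (a.dvd_mem ℓ hℓ hd))
  rw [act, AlgHom.comp_apply, a.trace ℓ hℓ hℓL hℓS A hA σ hσ, a.toEnd_T ℓ hℓ hℓL hℓS]

theorem mem_range (x : D.R) : a.act x ∈ a.toEnd.range := ⟨a.toHecke x, rfl⟩

/-- What holds for the untwisted operators holds on the image. -/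
theorem toEnd_mem (S' : Subalgebra U.O (Module.End (Coeff U n R) (genPart hadm h)))
    (hS' : ∀ (ℓ : ℕ) (hℓ : ℓ.Prime) (hℓS : ℓ ∉ (↑(U.auxSet qv) : Set ℕ)),
      (((W ℓ)⁻¹ : (Coeff U n R)ˣ) : Coeff U n R) •
        genOp hadm h ⟨ℓ, hℓ, notMem_lowSet U i₀ (notMem_baseSet_of_notMem_auxSet hℓS)⟩ ∈ S')
    (z : heckeLocal L (↑(U.auxSet qv) : Set ℕ) U.O a.θ) : a.toEnd z ∈ S' := by
  have hS : ∀ q : ℕ, q.Prime → q ∣ L → q ∈ (↑(U.auxSet qv) : Set ℕ) := fun q hq hd =>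
    Finset.mem_coe.mpr (a.dvd_mem q hq hd)
  have key := R59.TWLevel.mem_of_forall_T (E := Module.End (Coeff U n R) (genPart hadm h)) (θ := a.θ) hS a.toEnd S' (fun ℓ hℓ hℓL hℓS => by
    rw [a.toEnd_T ℓ hℓ hℓL hℓS]; exact hS' ℓ hℓ hℓS) z
  exact key

end Act

set_option maxHeartbeats 1600000 in
/-- An action of the Hecke algebra of a level gives an action of the deformation ring. -/
theorem nonempty_act (inp : Inputs) (B : Base U i₀) (L : ℕ) [NeZero L]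
    [Fact (HasIntegralStructure L 2)] (hpL : U.kind = .flat → ¬ U.p ∣ L)
    (hpLs : U.kind = .strict → U.p ∣ L ∧ ¬ U.p ^ 2 ∣ L)
    (hram : ∀ q ∈ U.ram ∪ U.aux, q ∣ L ∧ ¬ q ^ 2 ∣ L)
    (hLS : ∀ q : ℕ, q.Prime → q ∣ L → q ∈ U.auxSet qv) [NeZero (lev U i₀ qv)]
    {χ : (ZMod (lev U i₀ qv))ˣ →* (Coeff U n R)ˣ} {hadm : Admissible (epsOf χ)}
    (hf : ∀ u, resHom (R59.twAug U.O U.p n R) (χ u : Coeff U n R) = 1)
    (h : Occurs U.O (twFam χ (lowSet U i₀)) (sys B qv)) (W : ℕ → (Coeff U n R)ˣ)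
    (hW : ∀ ℓ, resHom (R59.twAug U.O U.p n R) (W ℓ : Coeff U n R) = 1)
    (hne : ∃ i : PrimeIdx (lowSet U i₀), ¬ i.1 ∣ lev U i₀ qv ∧
      sys B qv i ≠ (i.1 : ResidueField U.O) + 1)
    (hΦ : ∃ Φ : ↥(heckeAlgebra L 2 (↑(U.auxSet qv) : Set ℕ)) →+*
        Module.End (Coeff U n R) (genPart hadm h),
      ∀ (ℓ : ℕ) (hℓ : ℓ.Prime) (hℓL : ¬ ℓ ∣ L) (hℓS : ℓ ∉ (↑(U.auxSet qv) : Set ℕ)),
        Φ (heckeAlgebra.T hℓ hℓL hℓS) = (((W ℓ)⁻¹ : (Coeff U n R)ˣ) : Coeff U n R) •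
          genOp hadm h ⟨ℓ, hℓ, notMem_lowSet U i₀ (notMem_baseSet_of_notMem_auxSet hℓS)⟩) :
    Nonempty (Act D L hadm h W) := by
  classical
  obtain ⟨Φ, hΦ⟩ := hΦ
  have := finite_end_h1 (𝒪 := U.O) hadm
  obtain ⟨hfree, hfin⟩ := free_genPart hadm h hf hne
  haveI : Module.Finite U.O (genPart hadm h) := Module.Finite.trans (Coeff U n R) _
  haveI : Nontrivial (genPart hadm h) := by
    rw [Submodule.nontrivial_iff_ne_bot, Ne, LinearMap.range_eq_bot]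
    intro h0
    have h1 := h.char_idem (twFam_comm χ (lowSet U i₀))
    rw [show (⟨h.idem (twFam_comm χ (lowSet U i₀)), h.idem_mem _⟩ : famAlg U.O _) = 0 from
      Subtype.ext h0, map_zero] at h1
    exact zero_ne_one h1
  let lamN : ℕ → ResidueField U.O := fun l =>
    if hl : l.Prime ∧ l ∉ lowSet U i₀ then sys B qv ⟨l, hl⟩ else 0
  obtain ⟨θ, hθ, Ψ, hΨ⟩ := R59.exists_heckeLocal_action (𝒪 := U.O)
    (fun q hq hd => Finset.mem_coe.mpr (hLS q hq hd)) Φ lamN fun ℓ hℓ hℓL hℓS => by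
      set i : PrimeIdx (lowSet U i₀) :=
        ⟨ℓ, hℓ, notMem_lowSet U i₀ (notMem_baseSet_of_notMem_auxSet hℓS)⟩
      obtain ⟨c, hc⟩ := residue_surjective (sys B qv i)
      have hlam : lamN ℓ = sys B qv i :=
        dif_pos (⟨hℓ, i.2.2⟩ : ℓ.Prime ∧ ℓ ∉ lowSet U i₀)
      refine ⟨c, hc.trans hlam.symm, ?_⟩
      rw [hΦ ℓ hℓ hℓL hℓS]
      refine R59.TWLevel.nilpModM_smul_sub ?_
        (R59.TWLevel.nilpModM_restrict (twFam_comm χ (lowSet U i₀)) h i c hc _)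
      rw [← resHom_eq_zero_iff (aug := R59.twAug U.O U.p n R), map_sub, map_one, sub_eq_zero]
      have h2 : (Units.map (resHom (R59.twAug U.O U.p n R)).toMonoidHom (W ℓ)) = 1 :=
        Units.ext (hW ℓ)
      have h3 := congrArg Units.val (congrArg (·⁻¹) h2)
      rw [← map_inv] at h3
      simpa using h3
  obtain ⟨g, hg, hgl, htr, huni, -⟩ := U.exists_levelMap inp qv D L hpL hpLs hram (U.auxSet qv)
    (Finset.mem_union_left _ (Finset.mem_insert_self _ _)) hLS (Finset.Subset.refl _) θ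
    fun ℓ hℓ hℓL hℓS _ A hA σ hσ => by
      have hb := notMem_baseSet_of_notMem_auxSet hℓS
      rw [hθ ℓ hℓ hℓL hℓS, show lamN ℓ = sys B qv ⟨ℓ, hℓ, notMem_lowSet U i₀ hb⟩ from
        dif_pos ⟨hℓ, notMem_lowSet U i₀ hb⟩,
        sys_apply_of_notMem B ⟨ℓ, hℓ, hb⟩ (notMem_auxPrimes_of_notMem_auxSet hℓS),
        U.trace_frob_eq_theta hℓ (not_dvd_of_notMem_baseSet U hℓ hb) hb hA hσ]
      rfl
  exact ⟨{ θ := θ, toHecke := g, toHecke_surjective := hg, toHecke_local := hgl, toEnd := Ψ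
           toEnd_T := fun ℓ hℓ hℓL hℓS => by rw [hΨ, hΦ ℓ hℓ hℓL hℓS]
           dvd_mem := hLS, trace := htr, unipotent := huni }⟩

end Fermat.Agent.LL.Pair
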