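/-
The twists of the two congruent parts are injective modulo the maximal ideal on eigen vectors
(owner: helper61).
-/
import Fermat.Agent.LL.Pair.GenPart

set_option autoImplicit false
set_option synthInstance.maxHeartbeats 400000

noncomputable section

namespace Fermat.Agent.LL.Pair

open CongruenceSubgroup IsLocalRing Fermat.Agent.TW.Mod
open Fermat.Agent.HK (heckeHom)
open Fermat.Agent.LR (Hom1 res res₂ cor)

section Kernel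

variable {k : Type} [Field k] {p : ℕ} [hp : Fact p.Prime] {r : ℕ} [hr : Fact r.Prime]
  {N : ℕ} [NeZero N] {S : Set ℕ}

/-- A class killed by both degeneracy maps at a prime `r ≡ 1` is zero. -/
theorem eq_zero_of_res_eq_zero (hp2 : p ≠ 2) (hk : ∀ a : k, p • a = 0) (hrN : r.Coprime N)
    (hr1 : (r : k) = 1) (w : Hom1 N k) (h : res N r w = 0) : w = 0 := by
  haveI : NeZero r := ⟨hr.out.ne_zero⟩
  have h1 := LR.cor_res N r hr.out hrN w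
  rw [h, map_zero] at h1
  have h2 : ((r : k) + 1) • w = 0 := by
    refine AddMonoidHom.ext fun g => ?_
    have h3 : (((r : ℤ) + 1) • w) g = 0 := by rw [← h1]; rfl
    simpa [zsmul_eq_mul] using h3
  refine (smul_eq_zero.1 h2).resolve_left ?_
  have : CharP k p := (CharP.charP_iff_prime_eq_zero hp.out).2 (by simpa using hk 1)
  rw [hr1, one_add_one_eq_two]
  exact Ring.two_ne_zero (by rw [ringChar.eq k p]; exact hp2)

/-- An eigen vector killed by the trivial twist at `r` vanishes when nothing of level `N` has its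
system. -/
theorem eq_zero_of_twist_of_low (hp2 : p ≠ 2) (hpr : p ≠ r) (hrN : r.Coprime N)
    (hk : ∀ a : k, p • a = 0) (hr1 : (r : k) = 1) (hrS : r ∉ S) (lam : PrimeIdx S → k)
    (hlow : ∀ w : Hom1 N k, (∀ j : PrimeIdx S, j.1 ≠ r → heckeHom N j.1 k k w = lam j • w) → w = 0)
    {i : PrimeIdx S} (hi : ¬ i.1 ∣ N * r) (hne : lam i ≠ (i.1 : k) + 1) (φ : Hom1 (N * r) k)
    (heig : ∀ j : PrimeIdx S, heckeHom (N * r) j.1 k k φ = lam j • φ)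
    (htw : ∀ g, ∑ u : (ZMod r)ˣ, φ (Additive.ofMul (twistCoc g u)) = 0) : φ = 0 := by
  haveI : NeZero r := ⟨hr.out.ne_zero⟩
  obtain ⟨w, hφ, hw⟩ := exists_res₂_of_twist_eq_zero hp2 hpr hrN hk hr1 φ htw hi (heig i) hne
    (heig ⟨r, hr.out, hrS⟩)
  set a := lam ⟨r, hr.out, hrS⟩
  have hres₂ : ∀ (x : k) (v : Hom1 N k), res₂ N r (x • v) = x • res₂ N r v := fun x v => rfl
  have hres : ∀ (x : k) (v : Hom1 N k), res N r (x • v) = x • res N r v := fun x v => rfl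
  rw [hφ, hlow w fun j hj => ?_, map_zero]
  have hcop : j.1.Coprime r := (Nat.coprime_primes j.2.1 hr.out).2 hj
  refine sub_eq_zero.1 (eq_zero_of_res_eq_zero hp2 hk hrN hr1 _ ?_)
  rw [map_sub, ← LR.heckeHom_res N r hcop, hw, map_smul, LR.heckeHom_res₂ N r hcop, hres, hw,
    ← LR.heckeHom_res₂ N r hcop, ← hφ, heig, smul_comm, sub_self]

end Kernel

variable {𝒪 : Type} [CommRing 𝒪] [IsDomain 𝒪] [IsDiscreteValuationRing 𝒪]
  [IsAdicComplete (maximalIdeal 𝒪) 𝒪]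
variable {R : Type} [CommRing R] [Algebra 𝒪 R] {aug : R →ₐ[𝒪] 𝒪} {S : Set ℕ}
  {η : ∀ q : ℕ, (ZMod q)ˣ →* Rˣ} (hη : ∀ q u, resHom aug (η q u : R) = 1)
  {p : ℕ} [Fact p.Prime] (hp2 : p ≠ 2) (hk : ∀ a : ResidueField 𝒪, p • a = 0)
  {lam : PrimeIdx S → ResidueField 𝒪} {Q : Finset ℕ}
include hη hp2 hk

omit [IsAdicComplete (maximalIdeal 𝒪) 𝒪] hp2 hk in
theorem resHom_etaAt (q ℓ : ℕ) : resHom aug (etaAt η q ℓ : R) = 1 := by
  unfold etaAt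
  split_ifs
  · exact hη q _
  · simp

/-- The twist at the auxiliary primes. -/
theorem exists_tw_aux {N : ℕ} [NeZero N]
    (hQ : ∀ q ∈ Q, ∃ (hq : q.Prime) (hS : q ∉ S), q.Coprime N ∧ q ≠ p ∧
      (q : ResidueField 𝒪) = 1 ∧ lam ⟨q, hq, hS⟩ ^ 2 ≠ 1)
    {M L : ℕ} (hM : M = N * ∏ q ∈ Q, q) (hL : L = M * ∏ q ∈ Q, q)
    (hne : ∃ i : PrimeIdx S, ¬ i.1 ∣ L ∧ lam i ≠ (i.1 : ResidueField 𝒪) + 1)
    (hf : ∀ u, resHom aug (chiTot (1 : (ZMod N)ˣ →* Rˣ) η M Q u : R) = 1)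
    (hf' : ∀ u, resHom aug (dPart (1 : (ZMod N)ˣ →* Rˣ) L u : R) = 1) :
    ∃ tw : H1 (epsOf (chiTot (1 : (ZMod N)ˣ →* Rˣ) η M Q)) R →ₗ[R]
        H1 (epsOf (dPart (1 : (ZMod N)ˣ →* Rˣ) L)) R,
      (∀ (ℓ : ℕ) [Fact ℓ.Prime], ℓ ∉ Q → ∀ x,
        ((∏ q ∈ Q, etaAt η q ℓ : Rˣ) : R) • h1T (dPart (1 : (ZMod N)ˣ →* Rˣ) L) R ℓ (tw x) =
          tw (h1T (chiTot (1 : (ZMod N)ˣ →* Rˣ) η M Q) R ℓ x)) ∧
      InjOnFullEigen (hf := hf) tw hf' lam := by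
  classical
  obtain ⟨tw, htw, hinj⟩ := exists_twistChain η (resHom aug) hp2 hk hη Q (1 : (ZMod N)ˣ →* Rˣ)
    (fun q hq => by obtain ⟨h1, -, h2, h3, h4, -⟩ := hQ q hq; exact ⟨h1, h2, h3, h4⟩)
    (fun u => by simp) M L hM hL
  refine ⟨tw, htw, fun x heig hx => ?_⟩
  obtain ⟨i, hiL, hi⟩ := hne
  refine hinj i.1 hiL (lam i) (fun q => if h : q.Prime ∧ q ∉ S then lam ⟨q, h.1, h.2⟩ else 0) hi
    (fun q hq => ?_) x ⟨fun {_} => heig i, fun q hq _ => ?_⟩ hx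
  · obtain ⟨h1, h2, -, -, -, h5⟩ := hQ q hq
    rw [dif_pos ⟨h1, h2⟩]
    exact h5
  · obtain ⟨h1, h2, -⟩ := hQ q hq
    show _ = (if h : q.Prime ∧ q ∉ S then lam ⟨q, h.1, h.2⟩ else 0) • _
    rw [dif_pos ⟨h1, h2⟩]
    exact heig ⟨q, h1, h2⟩

/-- The twist at a hard prime `r` followed by the twist at the auxiliary primes. -/
theorem exists_tw_hard {N r : ℕ} [NeZero N] [hr : Fact r.Prime] (hpr : p ≠ r) (hrN : r.Coprime N)
    (hrQ : r ∉ Q) (hrS : r ∉ S) (hr1 : (r : ResidueField 𝒪) = 1)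
    (hQ : ∀ q ∈ Q, ∃ (hq : q.Prime) (hS : q ∉ S), q.Coprime N ∧ q ≠ p ∧
      (q : ResidueField 𝒪) = 1 ∧ lam ⟨q, hq, hS⟩ ^ 2 ≠ 1)
    {L : ℕ} (hL : L = N * (∏ q ∈ Q, q) * r * r * ∏ q ∈ Q, q)
    (hne : ∃ i : PrimeIdx S, ¬ i.1 ∣ L ∧ lam i ≠ (i.1 : ResidueField 𝒪) + 1)
    (hlow : ∀ w : Hom1 (N * ∏ q ∈ Q, q) (ResidueField 𝒪), (∀ j : PrimeIdx S, j.1 ≠ r →
      heckeHom (N * ∏ q ∈ Q, q) j.1 (ResidueField 𝒪) (ResidueField 𝒪) w = lam j • w) → w = 0)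
    (hf : ∀ u, resHom aug
      (chiTot (1 : (ZMod N)ˣ →* Rˣ) η (N * (∏ q ∈ Q, q) * r) (insert r Q) u : R) = 1)
    (hf' : ∀ u, resHom aug (dPart (1 : (ZMod (N * r * r))ˣ →* Rˣ) L u : R) = 1) :
    ∃ tw : H1 (epsOf (chiTot (1 : (ZMod N)ˣ →* Rˣ) η (N * (∏ q ∈ Q, q) * r) (insert r Q))) R →ₗ[R]
        H1 (epsOf (dPart (1 : (ZMod (N * r * r))ˣ →* Rˣ) L)) R,
      (∀ (ℓ : ℕ) [Fact ℓ.Prime], ℓ ∉ insert r Q → ∀ x,
        ((∏ q ∈ insert r Q, etaAt η q ℓ : Rˣ) : R) •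
            h1T (dPart (1 : (ZMod (N * r * r))ˣ →* Rˣ) L) R ℓ (tw x) =
          tw (h1T (chiTot (1 : (ZMod N)ˣ →* Rˣ) η (N * (∏ q ∈ Q, q) * r) (insert r Q)) R ℓ x)) ∧
      InjOnFullEigen (hf := hf) tw hf' lam := by
  classical
  set N' := N * ∏ q ∈ Q, q with hN'
  have hprime : ∀ q ∈ Q, q.Prime := fun q hq => (hQ q hq).1
  have hrQ' : r.Coprime (∏ q ∈ Q, q) := Nat.Coprime.prod_right fun q hq =>
    (Nat.coprime_primes hr.out (hprime q hq)).2 fun e => hrQ (e ▸ hq)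
  have hcop : r.Coprime N' := hrN.mul_right hrQ'
  haveI : NeZero N' :=
    ⟨mul_ne_zero (NeZero.ne N) (Finset.prod_ne_zero_iff.2 fun q hq => (hprime q hq).ne_zero)⟩
  haveI : NeZero (N * r * r) :=
    ⟨mul_ne_zero (mul_ne_zero (NeZero.ne N) hr.out.ne_zero) hr.out.ne_zero⟩
  have hQd : ∀ q ∈ Q, q ∣ N' := fun q hq => (Finset.dvd_prod_of_mem _ hq).mul_left N
  obtain ⟨i, hiL, hi⟩ := hne
  have hiN : ¬ i.1 ∣ N' * r := fun h => hiL (hL ▸ (h.mul_right r).mul_right _)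
  have hQr : ∀ q ∈ Q, ∃ (hq : q.Prime) (hS : q ∉ S), q.Coprime (N * r * r) ∧ q ≠ p ∧
      (q : ResidueField 𝒪) = 1 ∧ lam ⟨q, hq, hS⟩ ^ 2 ≠ 1 := fun q hq => by
    obtain ⟨h1, h2, h3, h4, h5, h6⟩ := hQ q hq
    have := (Nat.coprime_primes h1 hr.out).2 fun e => hrQ (e ▸ hq)
    exact ⟨h1, h2, (h3.mul_right this).mul_right this, h4, h5, h6⟩
  have hfm : ∀ u, resHom aug
      (chiTot (1 : (ZMod (N * r * r))ˣ →* Rˣ) η (N' * r * r) Q u : R) = 1 :=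
    f_chiTot _ η (resHom aug) (fun u => by simp) hη _ _
  obtain ⟨tw2, htw2, hinj2⟩ := exists_twistChain η (resHom aug) hp2 hk hη Q
    (1 : (ZMod (N * r * r))ˣ →* Rˣ)
    (fun q hq => by obtain ⟨h1, -, h2, h3, h4, -⟩ := hQr q hq; exact ⟨h1, h2, h3, h4⟩)
    (fun u => by simp) (N' * r * r) L (by rw [hN']; ring) hL
  have hmid : tgtChar (chiTot (1 : (ZMod N)ˣ →* Rˣ) η N' Q) r =
      chiTot (1 : (ZMod (N * r * r))ˣ →* Rˣ) η (N' * r * r) Q := by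
    rw [chiTot_tgt (1 : (ZMod N)ˣ →* Rˣ) η (dvd_mul_right _ _) hQd, liftChar, MonoidHom.one_comp]
  suffices H : ∀ χs (_ : χs = srcChar (chiTot (1 : (ZMod N)ˣ →* Rˣ) η N' Q) (η r))
      (hs : ∀ u, resHom aug (χs u : R) = 1)
      χm (_ : χm = tgtChar (chiTot (1 : (ZMod N)ˣ →* Rˣ) η N' Q) r)
      (hm : ∀ u, resHom aug (χm u : R) = 1)
      (tw2 : H1 (epsOf χm) R →ₗ[R] H1 (epsOf (dPart (1 : (ZMod (N * r * r))ˣ →* Rˣ) L)) R),
      (∀ (ℓ : ℕ) [Fact ℓ.Prime], ℓ ∉ Q → ∀ x,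
        ((∏ q ∈ Q, etaAt η q ℓ : Rˣ) : R) •
            h1T (dPart (1 : (ZMod (N * r * r))ˣ →* Rˣ) L) R ℓ (tw2 x) = tw2 (h1T χm R ℓ x)) →
      (∀ (ℓ : ℕ) [Fact ℓ.Prime], ¬ ℓ ∣ L → ∀ (c : ResidueField 𝒪) (α : ℕ → ResidueField 𝒪),
        c ≠ (ℓ : ResidueField 𝒪) + 1 → (∀ q ∈ Q, α q ^ 2 ≠ 1) → ∀ x,
          IsTwEigen Q ℓ c α (redMap χm (resHom aug) hm x) →
            redMap _ (resHom aug) hf' (tw2 x) = 0 → redMap χm (resHom aug) hm x = 0) →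
      ∃ tw : H1 (epsOf χs) R →ₗ[R] H1 (epsOf (dPart (1 : (ZMod (N * r * r))ˣ →* Rˣ) L)) R,
        (∀ (ℓ : ℕ) [Fact ℓ.Prime], ℓ ∉ insert r Q → ∀ x,
          ((∏ q ∈ insert r Q, etaAt η q ℓ : Rˣ) : R) •
              h1T (dPart (1 : (ZMod (N * r * r))ˣ →* Rˣ) L) R ℓ (tw x) = tw (h1T χs R ℓ x)) ∧
        InjOnFullEigen (hf := hs) tw hf' lam from
    H _ (chiTot_insert (1 : (ZMod N)ˣ →* Rˣ) η hrQ (dvd_mul_right _ _) hQd) hf _ hmid.symm hfm tw2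
      htw2 hinj2
  rintro χs rfl hs χm rfl hm tw htw hinj
  refine ⟨tw ∘ₗ genTwistH1 _ (η r) R, fun ℓ hℓ hℓQ x => ?_, fun x heig hx => ?_⟩
  · rw [Finset.mem_insert, not_or] at hℓQ
    show _ = tw (genTwistH1 _ (η r) R (h1T _ R ℓ x))
    rw [← genTwistH1_h1T hℓQ.1, map_smul, ← htw ℓ hℓQ.2, Finset.prod_insert hrQ, Units.val_mul,
      smul_smul, show etaAt η r ℓ = η r (primeUnit hℓQ.1) from
        dif_pos (coprime_of_ne hℓQ.1)]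
    rfl
  · let y := genTwistH1 (chiTot (1 : (ZMod N)ˣ →* Rˣ) η N' Q) (η r) R x
    have hdeg := redMap_genTwistH1 (chiTot (1 : (ZMod N)ˣ →* Rˣ) η N' Q) (η r) (resHom aug) (hη r) hs hm x
    have hTy : ∀ j : PrimeIdx S, j.1 ≠ r →
        heckeHom (N' * r * r) j.1 (ResidueField 𝒪) (ResidueField 𝒪) (redMap _ (resHom aug) hm y) =
          lam j • redMap _ (resHom aug) hm y := by
      intro j hj
      have h1 := congrArg (redMap _ (resHom aug) hm) (genTwistH1_h1T hj (chiTot (1 : (ZMod N)ˣ →* Rˣ) η N' Q) (η r) x)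
      rw [redMap_smul, hη, one_smul, redMap_h1T] at h1
      rw [h1]
      refine AddMonoidHom.ext fun g => ?_
      obtain ⟨g, rfl⟩ := Additive.ofMul.surjective g
      rw [AddMonoidHom.smul_apply, hdeg, redMap_genTwistH1 _ _ (resHom aug) (hη r) hs hm,
        Finset.smul_sum, redMap_h1T, heig]
      rfl
    have hy : redMap _ (resHom aug) hm y = 0 := by
      refine hinj i.1 hiL (lam i) (fun q => if h : q.Prime ∧ q ∉ S then lam ⟨q, h.1, h.2⟩ else 0) hi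
        (fun q hq => ?_) y ⟨fun {_} => hTy i fun e => hiN (e ▸ dvd_mul_left r N'), fun q hq _ => ?_⟩
        hx
      · obtain ⟨h1, h2, -, -, -, h5⟩ := hQ q hq
        rw [dif_pos ⟨h1, h2⟩]
        exact h5
      · obtain ⟨h1, h2, -⟩ := hQ q hq
        show _ = (if h : q.Prime ∧ q ∉ S then lam ⟨q, h.1, h.2⟩ else 0) • _
        rw [dif_pos ⟨h1, h2⟩]
        exact hTy ⟨q, h1, h2⟩ fun e => hrQ (e ▸ hq)
    refine eq_zero_of_twist_of_low hp2 hpr hcop hk hr1 hrS lam hlow hiN hi _ heig fun g => ?_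
    rw [← hdeg, hy, AddMonoidHom.zero_apply]

end Fermat.Agent.LL.Pair
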