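/-
The two levels of the congruent modules and the deformation ring acting on them (owner: helper61).
-/
import Fermat.Agent.LL.Pair.Act
import Fermat.Agent.LL.Pair.Twist
import Fermat.Agent.MF.IntStruct.Main

set_option autoImplicit false
set_option synthInstance.maxHeartbeats 400000

noncomputable section

open IsLocalRing Fermat.Agent.TW.Mod CuspForm

namespace Fermat.Agent.LL.Pair

variable (U : Setting) (i₀ : U.Idx) (n : ℕ) {R : ℕ} (qv : Fin R → ℕ)

/-- The level of the first module. -/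
abbrev levelZero : ℕ := lev U i₀ qv * ∏ q ∈ auxPrimes qv, q

/-- The level of the second module. -/
abbrev levelOne : ℕ := lowLevel U i₀ qv * i₀.1 * i₀.1 * ∏ q ∈ auxPrimes qv, q

/-- The twist weights of the first module. -/
def weight₀ (ℓ : ℕ) : (Coeff U n R)ˣ := ∏ q ∈ auxPrimes qv, etaAt (eta U i₀ n qv) q ℓ

/-- The twist weights of the second module. -/
def weight₁ (ℓ : ℕ) : (Coeff U n R)ˣ :=
  ∏ q ∈ insert i₀.1 (auxPrimes qv), etaAt (eta U i₀ n qv) q ℓ

variable {U i₀ n qv}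

theorem resHom_prod_etaAt (s : Finset ℕ) (ℓ : ℕ) :
    resHom (R59.twAug U.O U.p n R)
      ((∏ q ∈ s, etaAt (eta U i₀ n qv) q ℓ : (Coeff U n R)ˣ) : Coeff U n R) = 1 := by
  rw [Units.coe_prod, map_prod]
  exact Finset.prod_eq_one fun q _ => resHom_etaAt (η := eta U i₀ n qv) resHom_eta q ℓ

theorem resHom_weight₀ (ℓ : ℕ) :
    resHom (R59.twAug U.O U.p n R) (weight₀ U i₀ n qv ℓ : Coeff U n R) = 1 :=
  resHom_prod_etaAt _ ℓ

theorem resHom_weight₁ (ℓ : ℕ) :
    resHom (R59.twAug U.O U.p n R) (weight₁ U i₀ n qv ℓ : Coeff U n R) = 1 :=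
  resHom_prod_etaAt _ ℓ

theorem residue_natCast_p : ∀ a : ResidueField U.O, U.p • a = 0 := fun a => by
  rw [nsmul_eq_mul, show (U.p : ResidueField U.O) = 0 by
    rw [← map_natCast (residue U.O), residue_eq_zero_iff]; exact U.p_mem, zero_mul]

theorem prime_of_mem_auxPrimes (hq : U.IsAux n qv) {q : ℕ} (h : q ∈ auxPrimes qv) : q.Prime := by
  obtain ⟨i, rfl⟩ := mem_auxPrimes.1 h
  exact hq.prime i

theorem mem_primeFactors_or_of_dvd_lev (hq : U.IsAux n qv) {q : ℕ} (hqp : q.Prime)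
    (h : q ∣ lev U i₀ qv) : q ∈ U.M.primeFactors ∨ q ∈ auxPrimes qv := by
  rw [lev_eq] at h
  rcases hqp.dvd_mul.1 h with h | h
  · exact Or.inl (Nat.mem_primeFactors.mpr ⟨hqp, h, NeZero.ne _⟩)
  · obtain ⟨q', hq', h'⟩ := (Prime.dvd_finsetProd_iff hqp.prime _).1 h
    exact Or.inr ((Nat.prime_dvd_prime_iff_eq hqp (prime_of_mem_auxPrimes hq hq')).1 h' ▸ hq')

theorem mem_auxSet_of_dvd_levelZero (hq : U.IsAux n qv) {q : ℕ} (hqp : q.Prime)
    (h : q ∣ levelZero U i₀ qv) : q ∈ U.auxSet qv := by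
  rcases hqp.dvd_mul.1 h with h | h
  · rcases mem_primeFactors_or_of_dvd_lev hq hqp h with h | h
    · exact Finset.mem_union_left _ (Finset.mem_insert_of_mem h)
    · exact Finset.mem_union_right _ h
  · obtain ⟨q', hq', h'⟩ := (Prime.dvd_finsetProd_iff hqp.prime _).1 h
    exact Finset.mem_union_right _
      ((Nat.prime_dvd_prime_iff_eq hqp (prime_of_mem_auxPrimes hq hq')).1 h' ▸ hq')

theorem mem_auxSet_of_dvd_levelOne (hq : U.IsAux n qv) {q : ℕ} (hqp : q.Prime)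
    (h : q ∣ levelOne U i₀ qv) : q ∈ U.auxSet qv := by
  have h' : q ∣ levelZero U i₀ qv * i₀.1 := by
    convert h using 1
    ring
  rcases hqp.dvd_mul.1 h' with h | h
  · exact mem_auxSet_of_dvd_levelZero hq hqp h
  · rw [(Nat.prime_dvd_prime_iff_eq hqp (hard_prime' U i₀)).1 h]
    exact Finset.mem_union_left _ (Finset.mem_insert_of_mem (Nat.mem_primeFactors.mpr
      ⟨hard_prime' U i₀, hard_dvd U i₀, NeZero.ne _⟩))

/-- A prime of `p` or of the minimal level is not an auxiliary prime. -/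
theorem not_dvd_prod_aux (hq : U.IsAux n qv) {q : ℕ} (hqp : q.Prime)
    (h : q ∈ insert U.p U.M.primeFactors) : ¬ q ∣ ∏ q' ∈ auxPrimes qv, q' := fun hd => by
  obtain ⟨q', hq', hd'⟩ := (Prime.dvd_finsetProd_iff hqp.prime _).1 hd
  obtain ⟨i, rfl⟩ := mem_auxPrimes.1 hq'
  exact hq.not_mem i ((Nat.prime_dvd_prime_iff_eq hqp (hq.prime i)).1 hd' ▸ h)

theorem dvd_of_dvd_lev_mul (hq : U.IsAux n qv) {q m : ℕ} (hqp : q.Prime)
    (h : q ∈ insert U.p U.M.primeFactors) (hm : ¬ q ∣ m) (hd : q ∣ lev U i₀ qv * m) : q ∣ U.M := by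
  rw [lev_eq, mul_assoc] at hd
  exact (hqp.dvd_mul.1 hd).resolve_right fun h' =>
    (hqp.dvd_mul.1 h').elim (not_dvd_prod_aux hq hqp h) hm

theorem not_sq_dvd_lev_mul (hq : U.IsAux n qv) {q m : ℕ} (hqp : q.Prime)
    (h : q ∈ insert U.p U.M.primeFactors) (hm : ¬ q ∣ m) : ¬ q ^ 2 ∣ lev U i₀ qv * m := fun hd => by
  rw [lev_eq, mul_assoc] at hd
  have hQ : ¬ q ∣ (∏ q' ∈ auxPrimes qv, q') * m := fun h' =>
    (hqp.dvd_mul.1 h').elim (not_dvd_prod_aux hq hqp h) hm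
  have h2 := ((hqp.coprime_iff_not_dvd.2 hQ).pow_left 2).dvd_of_dvd_mul_right hd
  exact Nat.squarefree_iff_prime_squarefree.mp U.squarefree q hqp (by rwa [← sq])

/-- The local conditions on a level `lev * m` at `p`, at the ramified and at the harmless primes. -/
theorem level_conditions (hq : U.IsAux n qv) {m : ℕ}
    (hm : ∀ q : ℕ, q.Prime → q = U.p ∨ q ∈ U.ram ∪ U.aux → ¬ q ∣ m) :
    (U.kind = .flat → ¬ U.p ∣ lev U i₀ qv * m) ∧
      (U.kind = .strict → U.p ∣ lev U i₀ qv * m ∧ ¬ U.p ^ 2 ∣ lev U i₀ qv * m) ∧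
      ∀ q ∈ U.ram ∪ U.aux, q ∣ lev U i₀ qv * m ∧ ¬ q ^ 2 ∣ lev U i₀ qv * m := by
  have hp := (Fact.out : U.p.Prime)
  have hpmem : U.p ∈ insert U.p U.M.primeFactors := Finset.mem_insert_self _ _
  refine ⟨fun hk hd => ?_, fun hk => ⟨?_, ?_⟩, fun q hqm => ?_⟩
  · have := U.dvd_iff_strict.mp (dvd_of_dvd_lev_mul hq hp hpmem (hm _ hp (Or.inl rfl)) hd)
    rw [hk] at this
    exact absurd this (by decide)
  · exact ((U.dvd_iff_strict.mpr hk).trans (M_dvd_lev U i₀ qv)).mul_right _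
  · exact not_sq_dvd_lev_mul hq hp hpmem (hm _ hp (Or.inl rfl))
  · have hM : q ∈ U.M.primeFactors := (U.mem_primeFactors (by
      rcases Finset.mem_union.mp hqm with h | h
      · exact Finset.mem_union_left _ (Finset.mem_union_left _ h)
      · exact Finset.mem_union_right _ h)).2
    have hqp := Nat.prime_of_mem_primeFactors hM
    exact ⟨((Nat.dvd_of_mem_primeFactors hM).trans (M_dvd_lev U i₀ qv)).mul_right _,
      not_sq_dvd_lev_mul hq hqp (Finset.mem_insert_of_mem hM) (hm _ hqp (Or.inr hqm))⟩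

theorem level_conditions₀ (hq : U.IsAux n qv) :
    (U.kind = .flat → ¬ U.p ∣ levelZero U i₀ qv) ∧
      (U.kind = .strict → U.p ∣ levelZero U i₀ qv ∧ ¬ U.p ^ 2 ∣ levelZero U i₀ qv) ∧
      ∀ q ∈ U.ram ∪ U.aux, q ∣ levelZero U i₀ qv ∧ ¬ q ^ 2 ∣ levelZero U i₀ qv :=
  level_conditions hq fun q hqp hmem => not_dvd_prod_aux hq hqp (mem_insert_of_cases hmem)
where
  mem_insert_of_cases {q : ℕ} (h : q = U.p ∨ q ∈ U.ram ∪ U.aux) :
      q ∈ insert U.p U.M.primeFactors := by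
    rcases h with rfl | h
    · exact Finset.mem_insert_self _ _
    · refine Finset.mem_insert_of_mem (U.mem_primeFactors ?_).2
      rcases Finset.mem_union.mp h with h | h
      · exact Finset.mem_union_left _ (Finset.mem_union_left _ h)
      · exact Finset.mem_union_right _ h

theorem level_conditions₁ (hq : U.IsAux n qv) :
    (U.kind = .flat → ¬ U.p ∣ levelOne U i₀ qv) ∧
      (U.kind = .strict → U.p ∣ levelOne U i₀ qv ∧ ¬ U.p ^ 2 ∣ levelOne U i₀ qv) ∧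
      ∀ q ∈ U.ram ∪ U.aux, q ∣ levelOne U i₀ qv ∧ ¬ q ^ 2 ∣ levelOne U i₀ qv := by
  have h : levelOne U i₀ qv = lev U i₀ qv * (i₀.1 * ∏ q ∈ auxPrimes qv, q) := by ring
  rw [h]
  refine level_conditions hq fun q hqp hmem hd => (hqp.dvd_mul.1 hd).elim (fun hd => ?_)
    (not_dvd_prod_aux hq hqp (level_conditions₀.mem_insert_of_cases hmem))
  have e := (Nat.prime_dvd_prime_iff_eq hqp (hard_prime' U i₀)).1 hd
  rcases hmem with h' | h'
  · exact U.hard_ne_p i₀ (e ▸ h')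
  · rcases Finset.mem_union.mp h' with h' | h'
    · exact U.hard_notMem_ram i₀ (e ▸ h')
    · exact Finset.disjoint_left.mp U.disjoint_aux (Finset.mem_union_right _ i₀.2) (e ▸ h')

theorem aux_data (B : Base U i₀) (hq : U.IsAux n qv) {N : ℕ}
    (hN : ∀ q ∈ auxPrimes qv, q.Coprime N) :
    ∀ q ∈ auxPrimes qv, ∃ (hp : q.Prime) (hS : q ∉ lowSet U i₀), q.Coprime N ∧ q ≠ U.p ∧
      (q : ResidueField U.O) = 1 ∧ sys B qv ⟨q, hp, hS⟩ ^ 2 ≠ 1 := fun q h => by
  obtain ⟨hp, hS, h1, -, h3, h4⟩ := exists_sys_aux B hq h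
  exact ⟨hp, hS, hN q h, h4, h3, h1⟩

theorem aux_coprime_M (hq : U.IsAux n qv) {q : ℕ} (h : q ∈ auxPrimes qv) : q.Coprime U.M := by
  obtain ⟨i, rfl⟩ := mem_auxPrimes.1 h
  exact coprime_of_notMem_baseSet (hq.prime i) (notMem_baseSet_aux hq i)

theorem neZero_levelZero (hq : U.IsAux n qv) : NeZero (levelZero U i₀ qv) :=
  ⟨mul_ne_zero (neZero_lev hq).ne (Finset.prod_ne_zero_iff.2 fun q h =>
    (prime_of_mem_auxPrimes hq h).ne_zero)⟩

theorem neZero_levelOne (hq : U.IsAux n qv) : NeZero (levelOne U i₀ qv) :=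
  ⟨mul_ne_zero (mul_ne_zero (neZero_lev hq).ne (hard_prime' U i₀).ne_zero)
    (Finset.prod_ne_zero_iff.2 fun q h => (prime_of_mem_auxPrimes hq h).ne_zero)⟩

variable [NeZero (lev U i₀ qv)] (B : Base U i₀) (hq : U.IsAux n qv)
  (D : GaloisRep.DeformationRingData U.O U.ρbar (U.defCond qv))

set_option maxHeartbeats 1600000 in
/-- The deformation ring acts on the first module. -/
theorem nonempty_act₀ (inp : Inputs) [NeZero (levelZero U i₀ qv)]
    [Fact (HasIntegralStructure (levelZero U i₀ qv) 2)] :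
    Nonempty (Act D (levelZero U i₀ qv) admissible_char₀ (occurs₀ B hq)
      (weight₀ U i₀ n qv)) := by
  obtain ⟨i, hi1, hiL, -, hi⟩ := exists_nonEis B (qv := qv) (levelZero U i₀ qv)
  have hilev : ¬ i.1 ∣ lev U i₀ qv := fun h => hiL (h.mul_right _)
  have hdp : ∀ u, (dPart (1 : (ZMod U.M)ˣ →* (Coeff U n R)ˣ) (levelZero U i₀ qv) u :
      Coeff U n R) = 1 := fun u => by
    rw [dPart_of_dvd _ ((M_dvd_lev U i₀ qv).mul_right _)]
    rfl
  obtain ⟨tw, htw, hinj⟩ := exists_tw_aux (η := eta U i₀ n qv) resHom_eta (p_ne_two U)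
    residue_natCast_p (lam := sys B qv) (aux_data B hq fun q h => aux_coprime_M hq h)
    (lev_eq U i₀ qv) (L := levelZero U i₀ qv) rfl ⟨i, hiL, hi⟩ resHom_char₀
    (fun u => by rw [hdp, map_one])
  obtain ⟨hpL, hpLs, hram⟩ := level_conditions₀ (i₀ := i₀) hq
  refine nonempty_act D inp B _ hpL hpLs hram
    (fun q hqp h => mem_auxSet_of_dvd_levelZero hq hqp h)
    resHom_char₀ _ _ resHom_weight₀ ⟨i, hilev, hi⟩ ?_
  · refine exists_genHecke admissible_char₀ (occurs₀ B hq) resHom_char₀ hdp tw hinj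
      (weight₀ U i₀ n qv) resHom_weight₀ (fun ℓ hℓ hℓL x => htw ℓ (fun h => hℓL ?_) x)
      ⟨i, hi1, hiL, hilev, hi⟩ _
      (fun q hqp h => Finset.mem_coe.mpr (mem_auxSet_of_dvd_levelZero hq hqp h))
      (fun ℓ _ h => notMem_lowSet U i₀ (notMem_baseSet_of_notMem_auxSet h))
    exact (Finset.dvd_prod_of_mem _ h).mul_left _

set_option maxHeartbeats 1600000 in
/-- The deformation ring acts on the second module. -/
theorem nonempty_act₁ (inp : Inputs) [NeZero (levelOne U i₀ qv)]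
    [Fact (HasIntegralStructure (levelOne U i₀ qv) 2)] :
    Nonempty (Act D (levelOne U i₀ qv) admissible_char₁ (occurs₁ B hq)
      (weight₁ U i₀ n qv)) := by
  obtain ⟨i, hi1, hiL, -, hi⟩ := exists_nonEis B (qv := qv) (levelOne U i₀ qv)
  have hilev : ¬ i.1 ∣ lev U i₀ qv := fun h => hiL ((h.mul_right _).mul_right _)
  haveI : Fact i₀.1.Prime := ⟨hard_prime' U i₀⟩
  have hdvd : U.M / i₀.1 * i₀.1 * i₀.1 ∣ levelOne U i₀ qv :=
    ⟨(∏ q ∈ auxPrimes qv, q) * ∏ q ∈ auxPrimes qv, q, by ring⟩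
  have hdp : ∀ u, (dPart (1 : (ZMod (U.M / i₀.1 * i₀.1 * i₀.1))ˣ →* (Coeff U n R)ˣ)
      (levelOne U i₀ qv) u : Coeff U n R) = 1 := fun u => by
    rw [dPart_of_dvd _ hdvd]
    rfl
  obtain ⟨tw, htw, hinj⟩ := exists_tw_hard (η := eta U i₀ n qv) resHom_eta (p_ne_two U)
    residue_natCast_p (lam := sys B qv) (N := U.M / i₀.1) (hard_ne_p' U i₀).symm coprime_hard_low
    (hard_notMem_aux hq) (hard_notMem_lowSet U i₀) (natCast_hard_eq_one U i₀)
    (aux_data B hq fun q h => Nat.Coprime.coprime_dvd_right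
      (Nat.div_dvd_of_dvd (hard_dvd U i₀)) (aux_coprime_M hq h))
    (L := levelOne U i₀ qv) rfl ⟨i, hiL, hi⟩
    (low_sys B hq) resHom_char₁ (fun u => by rw [hdp, map_one])
  obtain ⟨hpL, hpLs, hram⟩ := level_conditions₁ (i₀ := i₀) hq
  refine nonempty_act D inp B _ hpL hpLs hram (fun q hqp h => mem_auxSet_of_dvd_levelOne hq hqp h)
    resHom_char₁ _ _ resHom_weight₁ ⟨i, hilev, hi⟩ ?_
  · refine exists_genHecke admissible_char₁ (occurs₁ B hq) resHom_char₁ hdp tw hinj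
      (weight₁ U i₀ n qv) resHom_weight₁ (fun ℓ hℓ hℓL x => htw ℓ (fun h => hℓL ?_) x)
      ⟨i, hi1, hiL, hilev, hi⟩ _
      (fun q hqp h => Finset.mem_coe.mpr (mem_auxSet_of_dvd_levelOne hq hqp h))
      (fun ℓ _ h => notMem_lowSet U i₀ (notMem_baseSet_of_notMem_auxSet h))
    rcases Finset.mem_insert.1 h with rfl | h
    · exact (dvd_mul_left _ _).mul_right _
    · exact (Finset.dvd_prod_of_mem _ h).mul_left _

end Fermat.Agent.LL.Pair
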