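/-
Congruent parts carry congruent actions of the deformation ring (owner: helper61).
-/
import Fermat.Agent.LL.Pair.Levels
import Fermat.Agent.R59.TWLevel.Galois
import Fermat.Agent.R59.TWLevel.GroupQuot

set_option autoImplicit false
set_option synthInstance.maxHeartbeats 400000

noncomputable section

open IsLocalRing Fermat.Agent.TW.Mod CuspForm
open Fermat.Agent.R59.TWLevel (descend descend_mk)

namespace Fermat.Agent.LL.Pair

local notation "Γℚ" => (AlgebraicClosure ℚ ≃ₐ[ℚ] AlgebraicClosure ℚ)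

section Abstract

variable {O A : Type} [CommRing O] [CommRing A] [Algebra O A] {X Y : Type} [AddCommGroup X]
  [Module A X] [AddCommGroup Y] [Module A Y] [Module O X] [IsScalarTower O A X] [Module O Y]
  [IsScalarTower O A Y] (I : Ideal A) (f : X →ₗ[A] Y ⧸ (I • ⊤ : Submodule A Y))
  (hfs : Function.Surjective f) (hfk : LinearMap.ker f = (I • ⊤ : Submodule A X))

/-- Endomorphisms of the source seen on the target modulo the ideal. -/
def transferEnd : Module.End A X →ₐ[O] Module.End A (Y ⧸ (I • ⊤ : Submodule A Y)) :=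
  (((LinearEquiv.conjAlgEquiv A ((Submodule.quotEquivOfEq _ _ hfk.symm).trans
    (f.quotKerEquivOfSurjective hfs))).toAlgHom.comp (descend I)).restrictScalars O)

theorem transferEnd_apply (g : Module.End A X) (z : X) :
    transferEnd (O := O) I f hfs hfk g (f z) = f (g z) := by
  set e := (Submodule.quotEquivOfEq _ _ hfk.symm).trans (f.quotKerEquivOfSurjective hfs)
  have he : ∀ z, e (Submodule.Quotient.mk z) = f z := fun z => rfl
  show LinearEquiv.conjAlgEquiv A e (descend I g) (f z) = f (g z)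
  rw [LinearEquiv.conjAlgEquiv_apply, LinearMap.comp_apply, LinearMap.comp_apply,
    LinearEquiv.coe_coe, LinearEquiv.coe_coe, ← he z, e.symm_apply_apply, descend_mk, he]

/-- Endomorphisms of the target modulo the ideal. -/
def descendEnd : Module.End A Y →ₐ[O] Module.End A (Y ⧸ (I • ⊤ : Submodule A Y)) :=
  (descend I).restrictScalars O

theorem descendEnd_mk (g : Module.End A Y) (z : Y) :
    descendEnd (O := O) I g (Submodule.Quotient.mk z) = Submodule.Quotient.mk (g z) := rfl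

end Abstract

variable {U : Setting} {i₀ : U.Idx} {n R : ℕ} {qv : Fin R → ℕ}
  {D : GaloisRep.DeformationRingData U.O U.ρbar (U.defCond qv)}
  {L L' : ℕ} [NeZero L] [Fact (HasIntegralStructure L 2)] [NeZero L']
  [Fact (HasIntegralStructure L' 2)] [NeZero (lev U i₀ qv)]
  {χ χ' : (ZMod (lev U i₀ qv))ˣ →* (Coeff U n R)ˣ} {hadm : Admissible (epsOf χ)}
  {hadm' : Admissible (epsOf χ')} {lam : PrimeIdx (lowSet U i₀) → ResidueField U.O}
  {h : Occurs U.O (twFam χ (lowSet U i₀)) lam} {h' : Occurs U.O (twFam χ' (lowSet U i₀)) lam}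
  {W W' : ℕ → (Coeff U n R)ˣ}

theorem algHom_eq_of_trAt {T : Type} [CommRing T] [IsLocalRing T] [IsNoetherianRing T]
    [IsAdicComplete (maximalIdeal T) T] [Algebra U.O T] [IsLocalHom (algebraMap U.O T)]
    (hres : Function.Surjective (residue T ∘ algebraMap U.O T))
    {E : Type} [Ring E] [Nontrivial E] [Algebra U.O E] (φ : T →ₐ[U.O] E) (f g : D.R →ₐ[U.O] E)
    (hf : ∀ x, f x ∈ φ.range) (hg : ∀ x, g x ∈ φ.range)
    (hF : ∀ ℓ : ℕ, ℓ.Prime → ℓ ∉ U.auxSet qv → ∀ P : ValuationSubring (AlgebraicClosure ℚ),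
      P.LiesOverPrime ℓ → ∀ σ : Γℚ, P.IsFrobeniusAt σ ℓ → f (trAt D.ρ σ) = g (trAt D.ρ σ)) :
    f = g :=
  R59.TWLevel.algHom_eq_of_frobenius (p_ne_two U) (k := U.kind) (S := U.defSet qv)
    (Smin := insert U.p U.ram) D hres φ f g hf hg (U.auxSet qv) hF

theorem nontrivial_genPart (hadm : Admissible (epsOf χ))
    (h : Occurs U.O (twFam χ (lowSet U i₀)) lam) : Nontrivial (genPart hadm h) := by
  have := finite_end_h1 (𝒪 := U.O) hadm
  rw [Submodule.nontrivial_iff_ne_bot, Ne, LinearMap.range_eq_bot]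
  intro h0
  have h1 := h.char_idem (twFam_comm χ (lowSet U i₀))
  rw [show (⟨h.idem (twFam_comm χ (lowSet U i₀)), h.idem_mem _⟩ : famAlg U.O _) = 0 from
    Subtype.ext h0, map_zero] at h1
  exact zero_ne_one h1

set_option maxHeartbeats 1600000 in
/-- Two actions which agree on the untwisted operators in a common ring agree. -/
theorem Act.comp_eq_comp (a : Act D L hadm h W) (a' : Act D L' hadm' h' W') {E : Type} [Ring E]
    [Algebra U.O E] [Nontrivial E] (tr : Module.End (Coeff U n R) (genPart hadm h) →ₐ[U.O] E)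
    (de : Module.End (Coeff U n R) (genPart hadm' h') →ₐ[U.O] E)
    (hop : ∀ (ℓ : ℕ) (hℓ : ℓ.Prime) (hℓS : ℓ ∉ (↑(U.auxSet qv) : Set ℕ)),
      tr ((((W ℓ)⁻¹ : (Coeff U n R)ˣ) : Coeff U n R) •
          genOp hadm h ⟨ℓ, hℓ, notMem_lowSet U i₀ (notMem_baseSet_of_notMem_auxSet hℓS)⟩) =
      de ((((W' ℓ)⁻¹ : (Coeff U n R)ˣ) : Coeff U n R) •
          genOp hadm' h' ⟨ℓ, hℓ, notMem_lowSet U i₀ (notMem_baseSet_of_notMem_auxSet hℓS)⟩))
    (x : D.R) : tr (a.act x) = de (a'.act x) := by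
  let φ : heckeLocal L' (↑(U.auxSet qv) : Set ℕ) U.O a'.θ →ₐ[U.O] E := de.comp a'.toEnd
  have hmem : ∀ z, (tr.comp a.act) z ∈ φ.range := by
    intro z
    have key := a.toEnd_mem (φ.range.comap tr) (fun ℓ hℓ hℓS => by
      refine ⟨heckeLocal.π L' (↑(U.auxSet qv) : Set ℕ) U.O a'.θ (heckeAlgebra.T hℓ
        (fun hd => hℓS (Finset.mem_coe.mpr (a'.dvd_mem ℓ hℓ hd))) hℓS), ?_⟩
      show de (a'.toEnd _) = tr _
      rw [a'.toEnd_T, hop ℓ hℓ hℓS]) (a.toHecke z)
    exact key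
  have key : tr.comp a.act = de.comp a'.act := by
    refine algHom_eq_of_trAt (T := heckeLocal L' (↑(U.auxSet qv) : Set ℕ) U.O a'.θ) (E := E)
      (Datum.residue_comp_algebraMap_surjective _ _ _ _) φ _ _ hmem
      (fun z => ⟨a'.toHecke z, rfl⟩) fun ℓ hℓ hℓS A hA σ hσ => ?_
    have hS : ℓ ∉ (↑(U.auxSet qv) : Set ℕ) := fun h0 => hℓS (Finset.mem_coe.mp h0)
    show tr (a.act (trAt D.ρ σ)) = de (a'.act (trAt D.ρ σ))
    rw [a.act_trace hℓ hS hA hσ, a'.act_trace hℓ hS hA hσ, hop ℓ hℓ hS]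
  exact AlgHom.congr_fun key x

set_option maxHeartbeats 1600000 in
/-- A Hecke compatible isomorphism modulo an ideal intertwines the actions of the deformation
ring. -/
theorem Act.congr_act (a : Act D L hadm h W) (a' : Act D L' hadm' h' W') (I : Ideal (Coeff U n R))
    (hI : I ≤ maximalIdeal (Coeff U n R)) (hf' : ∀ u, resHom (R59.twAug U.O U.p n R)
      (χ' u : Coeff U n R) = 1)
    (hne : ∃ i : PrimeIdx (lowSet U i₀), ¬ i.1 ∣ lev U i₀ qv ∧
      lam i ≠ (i.1 : ResidueField U.O) + 1)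
    (hW : ∀ ℓ : ℕ, ℓ.Prime → ℓ ∉ (↑(U.auxSet qv) : Set ℕ) →
      (((W ℓ)⁻¹ : (Coeff U n R)ˣ) : Coeff U n R) - (((W' ℓ)⁻¹ : (Coeff U n R)ˣ) : Coeff U n R) ∈ I)
    (f : genPart hadm h →ₗ[Coeff U n R]
      genPart hadm' h' ⧸ (I • ⊤ : Submodule (Coeff U n R) (genPart hadm' h')))
    (hfs : Function.Surjective f)
    (hfk : LinearMap.ker f = (I • ⊤ : Submodule (Coeff U n R) (genPart hadm h)))
    (hgen : ∀ (i : PrimeIdx (lowSet U i₀)) (x : genPart hadm h) (y : genPart hadm' h'),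
      f x = Submodule.Quotient.mk y →
        f (genOp hadm h i x) = Submodule.Quotient.mk (genOp hadm' h' i y))
    (x : D.R) (m : genPart hadm h) (m' : genPart hadm' h')
    (hm : f m = Submodule.Quotient.mk m') :
    f (a.act x m) = Submodule.Quotient.mk (a'.act x m') := by
  classical
  have : Module.Finite (Coeff U n R) (genPart hadm' h') := (free_genPart hadm' h' hf' hne).2
  have := nontrivial_genPart hadm' h'
  have := R59.TWLevel.nontrivial_quotient (M := genPart hadm' h') hI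
  have hop : ∀ (ℓ : ℕ) (hℓ : ℓ.Prime) (hℓS : ℓ ∉ (↑(U.auxSet qv) : Set ℕ)),
      transferEnd (O := U.O) I f hfs hfk ((((W ℓ)⁻¹ : (Coeff U n R)ˣ) : Coeff U n R) •
          genOp hadm h ⟨ℓ, hℓ, notMem_lowSet U i₀ (notMem_baseSet_of_notMem_auxSet hℓS)⟩) =
      descendEnd (O := U.O) I ((((W' ℓ)⁻¹ : (Coeff U n R)ˣ) : Coeff U n R) •
          genOp hadm' h' ⟨ℓ, hℓ, notMem_lowSet U i₀ (notMem_baseSet_of_notMem_auxSet hℓS)⟩) := by
    intro ℓ hℓ hℓS
    refine LinearMap.ext fun z => ?_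
    refine Exists.elim (hfs z) fun w hw => ?_
    refine Exists.elim (Submodule.Quotient.mk_surjective _ z) fun y hy => ?_
    have hgy := hgen ⟨ℓ, hℓ, notMem_lowSet U i₀ (notMem_baseSet_of_notMem_auxSet hℓS)⟩ w y
      (hw.trans hy.symm)
    refine (congrArg _ hw.symm).trans ?_
    refine (transferEnd_apply (O := U.O) I f hfs hfk _ w).trans ?_
    refine Eq.trans ?_ (congrArg _ hy)
    refine Eq.trans ?_ (descendEnd_mk (O := U.O) I _ y).symm
    refine (f.map_smul _ _).trans ((congrArg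
      ((((W ℓ)⁻¹ : (Coeff U n R)ˣ) : Coeff U n R) • ·) hgy).trans ?_)
    refine (Submodule.Quotient.mk_smul _ _ _).symm.trans ((Submodule.Quotient.eq _).2 ?_)
    refine (congrArg (· ∈ _) (sub_smul _ _ _).symm).mpr ?_
    exact Submodule.smul_mem_smul (hW ℓ hℓ hℓS) Submodule.mem_top
  have h1 := LinearMap.congr_fun (Act.comp_eq_comp a a' (transferEnd (O := U.O) I f hfs hfk)
    (descendEnd (O := U.O) I) hop x) (f m)
  exact ((transferEnd_apply (O := U.O) I f hfs hfk (a.act x) m).symm.trans h1).trans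
    ((congrArg _ hm).trans (descendEnd_mk (O := U.O) I (a'.act x) m'))

end Fermat.Agent.LL.Pair
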