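/-
The congruence between the two modules, compatible with the deformation ring, and the equality of
their ranks (owner: helper79).
-/
import Fermat.Agent.LL.Pair.CongPart
import Fermat.Agent.LL.Pair.Rigid

set_option autoImplicit false
set_option linter.style.haveILetI false
set_option synthInstance.maxHeartbeats 400000

noncomputable section

open IsLocalRing Fermat.Agent.TW.Mod CuspForm

namespace Fermat.Agent.LL.Pair

section Rank

variable {A X Y : Type} [CommRing A] [Nontrivial A] [AddCommGroup X] [Module A X] [AddCommGroup Y]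
  [Module A Y] [Module.Free A X] [Module.Finite A X] [Module.Finite A Y] {I : Ideal A}

/-- A map onto the reduction of a finite module bounds its rank. -/
theorem finrank_le_of_surjective_quotient (hI : I ≤ Ideal.jacobson ⊥)
    (f : X →ₗ[A] Y ⧸ (I • ⊤ : Submodule A Y)) (hf : Function.Surjective f) :
    Module.finrank A Y ≤ Module.finrank A X := by
  obtain ⟨g, hg⟩ := Module.projective_lifting_property (I • ⊤ : Submodule A Y).mkQ f
    (Submodule.mkQ_surjective _)
  have hgs : LinearMap.range g = ⊤ := by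
    refine top_unique (Submodule.le_of_le_smul_of_le_jacobson_bot Module.Finite.fg_top hI
      fun y _ => ?_)
    obtain ⟨x, hx⟩ := hf (Submodule.Quotient.mk y)
    have hmem := (Submodule.Quotient.eq _).1 ((LinearMap.congr_fun hg x).trans hx)
    rw [show y = g x - (g x - y) by abel]
    exact sub_mem (Submodule.mem_sup_left ⟨x, rfl⟩) (Submodule.mem_sup_right hmem)
  have h := LinearMap.finrank_range_le g
  rwa [hgs, finrank_top] at h

/-- Free modules with isomorphic reductions have the same rank. -/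
theorem finrank_eq_of_congr [Module.Free A Y] (hI : I ≤ Ideal.jacobson ⊥)
    (f : X →ₗ[A] Y ⧸ (I • ⊤ : Submodule A Y)) (hfs : Function.Surjective f)
    (hfk : LinearMap.ker f = (I • ⊤ : Submodule A X)) :
    Module.finrank A Y = Module.finrank A X := by
  refine le_antisymm (finrank_le_of_surjective_quotient hI f hfs) ?_
  let e := (Submodule.quotEquivOfEq _ _ hfk.symm).trans (f.quotKerEquivOfSurjective hfs)
  exact finrank_le_of_surjective_quotient hI (e.symm.toLinearMap ∘ₗ (I • ⊤ : Submodule A Y).mkQ)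
    (e.symm.surjective.comp (Submodule.mkQ_surjective _))

end Rank

variable {U : Setting} {i₀ : U.Idx} {n R : ℕ} {qv : Fin R → ℕ}

/-- The twist at the hard prime is congruent to one. -/
theorem etaAt_hard_sub_one_mem (hq : U.IsAux n qv) (ℓ : ℕ) :
    (etaAt (eta U i₀ n qv) i₀.1 ℓ : Coeff U n R) - 1 ∈ congIdeal U n R := by
  rw [etaAt]
  split_ifs with h
  · rw [eta_hard hq, ← map_one (algebraMap U.O (Coeff U n R)), ← map_sub]
    refine Ideal.mem_map_of_mem _ ?_
    rw [← residue_eq_zero_iff, map_sub, map_one, residue_eq_one_of_pow U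
      (v := padicValNat U.p (i₀.1 - 1))
      (by rw [← Units.val_pow_eq_pow_val, hardChar_pow, Units.val_one]), sub_self]
  · rw [Units.val_one, sub_self]
    exact zero_mem _

/-- The weights of the two modules are congruent. -/
theorem weight₀_inv_sub_weight₁_inv_mem (hq : U.IsAux n qv) (ℓ : ℕ) :
    (((weight₀ U i₀ n qv ℓ)⁻¹ : (Coeff U n R)ˣ) : Coeff U n R) -
      (((weight₁ U i₀ n qv ℓ)⁻¹ : (Coeff U n R)ˣ) : Coeff U n R) ∈ congIdeal U n R := by
  set u := etaAt (eta U i₀ n qv) i₀.1 ℓ
  have h1 : weight₁ U i₀ n qv ℓ = u * weight₀ U i₀ n qv ℓ := by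
    rw [weight₁, weight₀, Finset.prod_insert (hard_notMem_aux hq)]
  rw [h1, mul_inv, Units.val_mul]
  have e : (((weight₀ U i₀ n qv ℓ)⁻¹ : (Coeff U n R)ˣ) : Coeff U n R) -
      ((u⁻¹ : (Coeff U n R)ˣ) : Coeff U n R) *
        (((weight₀ U i₀ n qv ℓ)⁻¹ : (Coeff U n R)ˣ) : Coeff U n R) =
      (((u⁻¹ : (Coeff U n R)ˣ) : Coeff U n R) *
        (((weight₀ U i₀ n qv ℓ)⁻¹ : (Coeff U n R)ˣ) : Coeff U n R)) *
        ((u : Coeff U n R) - 1) := by
    have hu : ((u⁻¹ : (Coeff U n R)ˣ) : Coeff U n R) * u = 1 := u.inv_mul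
    linear_combination -(((weight₀ U i₀ n qv ℓ)⁻¹ : (Coeff U n R)ˣ) : Coeff U n R) * hu
  rw [e]
  exact Ideal.mul_mem_left _ _ (etaAt_hard_sub_one_mem hq ℓ)

variable {D : GaloisRep.DeformationRingData U.O U.ρbar (U.defCond qv)} [NeZero (lev U i₀ qv)]

set_option maxHeartbeats 1600000 in
-- unification of the twisted parts
/-- **The congruence of the two modules commutes with the deformation ring.** -/
theorem exists_congr_acts (B : Base U i₀) (hq : U.IsAux n qv) {L L' : ℕ} [NeZero L]
    [Fact (HasIntegralStructure L 2)] [NeZero L'] [Fact (HasIntegralStructure L' 2)]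
    (a₀ : Act D L admissible_char₀ (occurs₀ B hq) (weight₀ U i₀ n qv))
    (a₁ : Act D L' admissible_char₁ (occurs₁ B hq) (weight₁ U i₀ n qv)) :
    ∃ f : genPart admissible_char₀ (occurs₀ B hq) →ₗ[Coeff U n R]
        genPart admissible_char₁ (occurs₁ B hq) ⧸ (congIdeal U n R •
          (⊤ : Submodule (Coeff U n R) (genPart admissible_char₁ (occurs₁ B hq)))),
      Function.Surjective f ∧
      LinearMap.ker f = congIdeal U n R •
        (⊤ : Submodule (Coeff U n R) (genPart admissible_char₀ (occurs₀ B hq))) ∧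
      ∀ (x : D.R) (m : genPart admissible_char₀ (occurs₀ B hq))
        (m' : genPart admissible_char₁ (occurs₁ B hq)), f m = Submodule.Quotient.mk m' →
        f (a₀.act x m) = Submodule.Quotient.mk (a₁.act x m') := by
  obtain ⟨f, hfs, hfk, hgen⟩ := exists_congr_part (𝒪 := U.O) admissible_char₀ admissible_char₁
    (congIdeal U n R) (char₀_sub_char₁_mem hq) (congIdeal_le U n R) (occurs₀ B hq) (occurs₁ B hq)
  obtain ⟨i, -, hiL, -, hi⟩ := exists_nonEis B (qv := qv) (lev U i₀ qv)
  exact ⟨f, hfs, hfk, fun x m m' hm => Act.congr_act a₀ a₁ (congIdeal U n R) (congIdeal_le U n R)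
    resHom_char₁ ⟨i, hiL, hi⟩ (fun ℓ _ _ => weight₀_inv_sub_weight₁_inv_mem hq ℓ) f hfs hfk hgen
    x m m' hm⟩


set_option maxHeartbeats 1600000 in
-- unification of the twisted parts
/-- **The two modules have the same rank.** -/
theorem finrank_genPart₁ (B : Base U i₀) (hq : U.IsAux n qv) :
    Module.finrank (Coeff U n R) (genPart admissible_char₁ (occurs₁ B hq)) =
      Module.finrank (Coeff U n R) (genPart admissible_char₀ (occurs₀ B hq)) := by
  obtain ⟨f, hfs, hfk, -⟩ := exists_congr_part (𝒪 := U.O) admissible_char₀ admissible_char₁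
    (congIdeal U n R) (char₀_sub_char₁_mem hq) (congIdeal_le U n R) (occurs₀ B hq) (occurs₁ B hq)
  obtain ⟨i, -, hiL, -, hi⟩ := exists_nonEis B (qv := qv) (lev U i₀ qv)
  obtain ⟨_, _⟩ := free_genPart admissible_char₀ (occurs₀ B hq) resHom_char₀ ⟨i, hiL, hi⟩
  obtain ⟨_, _⟩ := free_genPart admissible_char₁ (occurs₁ B hq) resHom_char₁ ⟨i, hiL, hi⟩
  exact finrank_eq_of_congr ((congIdeal_le U n R).trans (maximalIdeal_le_jacobson ⊥)) f hfs hfk

end Fermat.Agent.LL.Pair
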