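/-
The diamond operators at the auxiliary primes over a deformation ring of a setting, and their shape
on a part on which they are unipotent modulo `g_i - 1` (owner: helper4).
-/
import Fermat.Agent.LL.Pair.Act
import Fermat.Agent.R59.TWLevel.Diamond
import Fermat.Agent.R59.TWLevel.Galois
import Fermat.Agent.TWGal.RQ

set_option autoImplicit false
set_option synthInstance.maxHeartbeats 400000

noncomputable section

open IsLocalRing Fermat.Agent.TW.Mod CuspForm
open Fermat.Agent.R59.TWLevel (descend)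

namespace Fermat.Agent.LL.Pair

variable {U : Setting} {i₀ : U.Idx} {n R : ℕ} {qv : Fin R → ℕ}

/-- The diamond operators at an auxiliary prime exist. -/
theorem exists_diamond (hq : U.IsAux n qv)
    (D : GaloisRep.DeformationRingData U.O U.ρbar (U.defCond qv)) (i : Fin R) [NeZero (qv i)] :
    Nonempty (TWGal.Diamond D.ρ U.p (qv i)) :=
  TWGal.exists_diamond_universal D Fact.out (hq.prime i)
    ((dvd_pow_self U.p (Nat.succ_ne_zero n)).trans (hq.dvd i))
    (R59.TWLevel.detIsCyclotomic_of_cond D.isOfType)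
    (U.isUnramifiedAt_of_notMem (hq.prime i) fun h => hq.not_mem i (by
      rcases Finset.mem_insert.mp h with h | h
      · exact h ▸ Finset.mem_insert_self _ _
      · exact Finset.mem_insert_of_mem (U.mem_primeFactors
          (Finset.mem_union_left _ (Finset.mem_union_left _ h))).2))
    (hq.distinct i)

variable {D : GaloisRep.DeformationRingData U.O U.ρbar (U.defCond qv)}

/-- A diamond operator minus one lies in the maximal ideal. -/
theorem diamond_sub_one_mem {q : ℕ} [NeZero q] (Dm : TWGal.Diamond D.ρ U.p q) (g : (ZMod q)ˣ) :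
    (Dm.δ g : D.R) - 1 ∈ maximalIdeal D.R := by
  rw [← residue_eq_zero_iff, map_sub, Dm.δ_residue, map_one, sub_self]

variable [NeZero (lev U i₀ qv)] {L : ℕ} [NeZero L] [Fact (HasIntegralStructure L 2)]
  {χ : (ZMod (lev U i₀ qv))ˣ →* (Coeff U n R)ˣ} {hadm : Admissible (epsOf χ)}
  {lam : PrimeIdx (lowSet U i₀) → ResidueField U.O}
  {h : Occurs U.O (twFam χ (lowSet U i₀)) lam} {W : ℕ → (Coeff U n R)ˣ}

set_option maxHeartbeats 1600000 in
/-- A diamond operator unipotent modulo `g_i - 1` acts as `1 + (g_i - 1) x`. -/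
theorem Act.exists_eq_one_add (a : Act D L hadm h W)
    (hf : ∀ u, resHom (R59.twAug U.O U.p n R) (χ u : Coeff U n R) = 1)
    (hne : ∃ j : PrimeIdx (lowSet U i₀), ¬ j.1 ∣ lev U i₀ qv ∧
      lam j ≠ (j.1 : ResidueField U.O) + 1)
    (i : Fin R) [NeZero (qv i)] (Dm : TWGal.Diamond D.ρ U.p (qv i)) (g : (ZMod (qv i))ˣ)
    (h2 : (descend (Ideal.span {R59.twGen U.O U.p n R i - 1}) (a.act (Dm.δ g : D.R)) - 1) ^ 2 = 0) :
    ∃ x : Module.End (Coeff U n R) (genPart hadm h),
      a.act (Dm.δ g : D.R) =
        1 + algebraMap (Coeff U n R) _ (R59.twGen U.O U.p n R i - 1) * x := by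
  obtain ⟨hfree, hfin⟩ := free_genPart hadm h hf hne
  refine R59.TWLevel.exists_eq_one_add i _ h2 (v := padicValNat U.p (qv i - 1)) ?_
  rw [← map_pow, ← Units.val_pow_eq_pow_val, Dm.δ_pow, Units.val_one, map_one]

end Fermat.Agent.LL.Pair
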