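import Fermat.Agent.LL.Pair.PointFacts
import Fermat.Agent.LL.Mazur.Consequences
import Fermat.Agent.Eigen.Unconditional
import Fermat.Agent.TWLoc.TwistInertia
import Fermat.Prelude.Def_CuspForm_HeckeGaloisRepDatum

/-!
# Inertia at a hard prime is nowhere trivial at the minimal level
-/

set_option autoImplicit false
set_option linter.style.haveILetI false

noncomputable section

open IsLocalRing Fermat.Agent.Deform
open scoped IsMulCommutative

namespace Fermat.Agent.LL.Pair

/-- Specialisations of a residually absolutely irreducible representation are residually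
absolutely irreducible. -/
theorem residual_isAbsolutelyIrreducible_baseChangeAlong {T B : Type} [CommRing T] [IsLocalRing T]
    [CommRing B] [IsLocalRing B] (f : T →+* B) (hf : IsLocalHom f) (ρ : GaloisRepAdic T)
    (h : ρ.residual.IsAbsolutelyIrreducible) :
    (ρ.baseChangeAlong f hf).residual.IsAbsolutelyIrreducible := by
  classical
  obtain ⟨b⟩ := finBasisV ρ
  letI : Algebra T B := f.toAlgebra
  let k := ResidueField B
  let K := AlgebraicClosure k
  let b' : Module.Basis (Fin 2) B (ρ.baseChangeAlong f hf).V := Algebra.TensorProduct.basis B b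
  let bK : Module.Basis (Fin 2) K ((ρ.baseChangeAlong f hf).residual.baseChange K).V :=
    Algebra.TensorProduct.basis K (Algebra.TensorProduct.basis k b')
  let g : T →+* K := ((algebraMap k K).comp (algebraMap B k)).comp f
  let W := ((ρ.baseChangeAlong f hf).residual.baseChange K)
  have hmat : ∀ σ, LinearMap.toMatrix bK bK (W.ρ σ) =
      (LinearMap.toMatrix b b (ρ.ρ σ)).map g := by
    intro σ
    refine (LinearMap.toMatrix_baseChange (A := K) (((ρ.baseChangeAlong f hf).ρ σ).baseChange k)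
      (Algebra.TensorProduct.basis k b') (Algebra.TensorProduct.basis k b')).trans ?_
    refine (congrArg (fun X : Matrix (Fin 2) (Fin 2) k => X.map (algebraMap k K))
      ((LinearMap.toMatrix_baseChange (A := k) ((ρ.baseChangeAlong f hf).ρ σ) b' b').trans
        (congrArg (fun X : Matrix (Fin 2) (Fin 2) B => X.map (algebraMap B k))
          (LinearMap.toMatrix_baseChange (A := B) (ρ.ρ σ) b b)))).trans ?_
    rfl
  have hspan : Submodule.span K (Set.range fun σ => (LinearMap.toMatrix b b (ρ.ρ σ)).map g) = ⊤ := by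
    have key : ∀ X : Matrix (Fin 2) (Fin 2) T, X.map g ∈
        Submodule.span K (Set.range fun σ => (LinearMap.toMatrix b b (ρ.ρ σ)).map g) := by
      intro X
      have hX : X ∈ Submodule.span T (Set.range fun σ => LinearMap.toMatrix b b (ρ.ρ σ)) := by
        rw [TraceFn.span_range_toMatrix_eq_top ρ h b]; trivial
      induction hX using Submodule.span_induction with
      | mem Y hY => obtain ⟨σ, rfl⟩ := hY; exact Submodule.subset_span ⟨σ, rfl⟩
      | zero => rw [Matrix.map_zero _ (map_zero g)]; exact zero_mem _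
      | add Y Z _ _ hY hZ => rw [Matrix.map_add _ (map_add g)]; exact add_mem hY hZ
      | smul c Y _ hY =>
        rw [show (c • Y).map g = g c • Y.map g by ext; simp]
        exact Submodule.smul_mem _ _ hY
    refine eq_top_iff.mpr fun Y _ => ?_
    rw [Matrix.matrix_eq_sum_single Y]
    refine Submodule.sum_mem _ fun i _ => Submodule.sum_mem _ fun j _ => ?_
    rw [show Matrix.single i j (Y i j) = Y i j • (Matrix.single i j (1 : T)).map g by
      ext a c
      simp [Matrix.single_apply, apply_ite g]]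
    exact Submodule.smul_mem _ _ (key _)
  have hall : ∀ U : Submodule K W.V, (∀ σ, ∀ x ∈ U, W.ρ σ x ∈ U) →
      ∀ (F : Module.End K W.V), ∀ x ∈ U, F x ∈ U := by
    intro U hU F x hx
    have hF : LinearMap.toMatrix bK bK F ∈
        Submodule.span K (Set.range fun σ => LinearMap.toMatrix bK bK (W.ρ σ)) := by
      simp only [hmat]
      rw [hspan]; trivial
    obtain ⟨c, hc⟩ := Finsupp.mem_span_range_iff_exists_finsupp.mp hF
    have hFe : F = c.sum fun σ a => a • W.ρ σ := (LinearMap.toMatrix bK bK).injective (by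
      rw [← hc, map_finsuppSum]
      simp only [map_smul])
    rw [hFe, Finsupp.sum, LinearMap.sum_apply]
    exact Submodule.sum_mem _ fun σ _ => U.smul_mem _ (hU σ x hx)
  intro U hU
  by_cases hU0 : U = ⊥
  · exact Or.inl hU0
  refine Or.inr (eq_top_iff.mpr fun y _ => ?_)
  obtain ⟨x, hx, hx0⟩ := Submodule.exists_mem_ne_zero_of_ne_bot hU0
  obtain ⟨l, hl⟩ := LinearMap.exists_extend_of_notMem (0 : (⊥ : Submodule K W.V) →ₗ[K] W.V)
    (v := x) (by simpa using hx0) y
  obtain ⟨-, hl⟩ := hl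
  exact hl ▸ hall U hU l x hx

/-- A point of level `M' r` not congruent to level `M'` is ramified at `r`. -/
theorem not_isUnramifiedAt_of_point {p : ℕ} [Fact p.Prime] (hp2 : p ≠ 2) {N M' r : ℕ} [NeZero N]
    [NeZero M'] (hN : M' * r = N) (hr : r.Prime) (hrM : ¬ r ∣ M') (hrp : r ≠ p)
    (S : Finset ℕ) (hpS : p ∈ S) (hS : ∀ l : ℕ, l.Prime → l ∣ N → l ∈ S)
    (O' : Type) [CommRing O'] [IsDomain O'] [IsDiscreteValuationRing O']
    [IsAdicComplete (maximalIdeal O') O'] [Finite (ResidueField O')] [CharZero O']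
    (hpO' : (p : O') ∈ maximalIdeal O') (χ : CuspForm.heckeAlgebra N 2 (↑S : Set ℕ) →+* O')
    (hno : ∀ θ : CuspForm.heckeAlgebra M' 2 (↑S : Set ℕ) →+* ResidueField O',
      ∃ (l : ℕ) (hl : l.Prime) (hlM : ¬ l ∣ M') (hlN : ¬ l ∣ N) (hlS : l ∉ (↑S : Set ℕ)),
        θ (CuspForm.heckeAlgebra.T hl hlM hlS) ≠
          residue O' (χ (CuspForm.heckeAlgebra.T hl hlN hlS)))
    (ρ : GaloisRepAdic O')
    (hρ : ∀ (l : ℕ) (hl : l.Prime) (hlN : ¬ l ∣ N) (hlS : l ∉ (↑S : Set ℕ)),
      ∀ A : ValuationSubring (AlgebraicClosure ℚ), A.LiesOverPrime l →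
        ∀ σ : AlgebraicClosure ℚ ≃ₐ[ℚ] AlgebraicClosure ℚ, A.IsFrobeniusAt σ l →
          LinearMap.charpoly (ρ.ρ σ) = Polynomial.X ^ 2 -
            Polynomial.C (χ (CuspForm.heckeAlgebra.T hl hlN hlS)) * Polynomial.X +
              Polynomial.C ((l : O')))
    (hirr : ρ.residual.IsAbsolutelyIrreducible) :
    ¬ ρ.IsUnramifiedAt r := by
  subst hN
  obtain ⟨g, hg, hker⟩ := Eigen.exists_eigenform_ker_eq
    (MF.IntStruct.hasIntegralStructure (M' * r) 2) χ
  let chig := Eigen.eigenChar hg (↑S : Set ℕ)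
  have hker' : ∀ a ∈ RingHom.ker chig, χ a = 0 := fun a ha => by
    rwa [← RingHom.mem_ker, ← hker]
  let iota : chig.range →+* O' :=
    (Ideal.Quotient.lift (RingHom.ker chig) χ hker').comp chig.quotientKerEquivRange.symm.toRingHom
  have hiota : ∀ t, (iota.comp chig.rangeRestrict) t = χ t := fun t => by
    show Ideal.Quotient.lift _ χ hker' (chig.quotientKerEquivRange.symm (chig.rangeRestrict t)) = χ t
    rw [show chig.rangeRestrict t = chig.quotientKerEquivRange (Ideal.Quotient.mk _ t) from rfl,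
      RingEquiv.symm_apply_apply, Ideal.Quotient.lift_mk]
  refine Mazur.not_isUnramifiedAt_of_not_occurs hp2 hr hrM hrp hg S hpS hS O' hpO' chig
    (fun l hl hlM hlS => Eigen.eigenChar_T hg _ hl hlM hlS) iota ?_ ρ ?_ hirr
  · intro θ
    obtain ⟨l, hl, hlM, hlN, hlS, hne⟩ := hno θ
    exact ⟨l, hl, hlN, hlS, by rw [hiota]; exact hne⟩
  · intro l hl hlM hlS A hA σ hσ
    rw [hiota]
    exact hρ l hl hlM hlS A hA σ hσ

/-- A character of the Hecke algebra away from `S` takes values in a subfield containing its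
values on the generators. -/
theorem range_subset_of_generators {N : ℕ} [NeZero N] {S : Set ℕ} {k k' : Type} [CommRing k]
    [CommRing k'] (ι : k →+* k') (hNS : ∀ q : ℕ, q.Prime → q ∣ N → q ∈ S)
    (χ : CuspForm.heckeAlgebra N 2 S →+* k')
    (h : ∀ (ℓ : ℕ) (hℓ : ℓ.Prime) (hℓN : ¬ ℓ ∣ N) (hℓS : ℓ ∉ S),
      χ (CuspForm.heckeAlgebra.T hℓ hℓN hℓS) ∈ ι.range)
    (t : CuspForm.heckeAlgebra N 2 S) : χ t ∈ ι.range := by
  obtain ⟨t, ht⟩ := t
  induction ht using Algebra.adjoin_induction with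
  | mem g hg =>
    rcases hg with ⟨ℓ, hℓ, hℓN, hℓS, rfl⟩ | ⟨q, hqN, hq, hqS, rfl⟩
    · exact h ℓ hℓ hℓN hℓS
    · exact absurd (hNS q hq hqN) hqS
  | algebraMap a =>
    refine ⟨a, ?_⟩
    rw [map_intCast, show (⟨algebraMap ℤ _ a, Subalgebra.algebraMap_mem _ a⟩ :
      CuspForm.heckeAlgebra N 2 S) = (a : CuspForm.heckeAlgebra N 2 S) from Subtype.ext (by simp),
      map_intCast]
  | add a b ha hb iha ihb =>
    rw [show (⟨a + b, add_mem ha hb⟩ : CuspForm.heckeAlgebra N 2 S) = ⟨a, ha⟩ + ⟨b, hb⟩ from rfl,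
      map_add]
    exact add_mem iha ihb
  | mul a b ha hb iha ihb =>
    rw [show (⟨a * b, mul_mem ha hb⟩ : CuspForm.heckeAlgebra N 2 S) = ⟨a, ha⟩ * ⟨b, hb⟩ from rfl,
      map_mul]
    exact mul_mem iha ihb

end Fermat.Agent.LL.Pair

namespace Fermat.Agent.LL.Setting

open Fermat.Agent.LL.Pair

variable (U : Setting)

/-- **Inertia at a hard prime is nowhere trivial on the Hecke ring of minimal level.** -/
theorem exists_pow_mem_trace_ideal (i : U.Idx) {T : Type} [CommRing T] [IsLocalRing T]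
    [IsNoetherianRing T] [IsAdicComplete (maximalIdeal T) T] [Algebra U.O T]
    [IsLocalHom (algebraMap U.O T)] [Module.Finite U.O T] [Module.Free U.O T]
    (H : CuspForm.HeckeGaloisRepDatum U.M (↑(insert U.p U.M.primeFactors) : Set ℕ) U.O U.θ T)
    (hres : H.ρ.residual.IsEquiv (U.ρbar.baseChangeAlong (ResidueField.map (algebraMap U.O T)))) :
    ∃ k : ℕ, algebraMap U.O T (U.p : U.O) ^ k ∈ Ideal.span (Set.range fun σ =>
      trAt H.ρ (U.tame i * σ) - trAt H.ρ σ) := by
  have hrM : i.1 ∣ U.M := U.hard_dvd i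
  obtain ⟨M', hM'⟩ := hrM
  rw [mul_comm] at hM'
  haveI : NeZero M' := ⟨fun h => NeZero.ne U.M (by rw [hM', h, zero_mul])⟩
  have hrM' : ¬ i.1 ∣ M' := fun h => (U.hard_prime i).not_isUnit
    (U.squarefree i.1 ((mul_dvd_mul h dvd_rfl).trans hM'.symm.dvd))
  have hpT : (U.p : T) ∈ maximalIdeal T := by
    rw [← map_natCast (algebraMap U.O T)]
    exact map_nonunit (algebraMap U.O T) _ U.p_mem
  refine Pair.exists_pow_mem_trace_ideal U.p_mem hpT (U.hard_prime i) (U.place_liesOver i)
    (U.frob_spec i) (U.tame_spec i)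
    (fun σ hσ => residual_eq_one_of_isEquiv hres (U.residual_inertia_eq_one i hσ))
    H.residual_absIrr ?_
  intro O' _ _ _ _ _ _ _ _ _ hinj ψ hψ
  have hpO' : (U.p : O') ∈ maximalIdeal O' := by
    rw [← map_natCast (algebraMap U.O O')]
    exact map_nonunit (algebraMap U.O O') _ U.p_mem
  have hψT : ∀ (t : CuspForm.heckeAlgebra U.M 2 (↑(insert U.p U.M.primeFactors) : Set ℕ)),
      residue O' (ψ (H.π t)) = ResidueField.map (algebraMap U.O O') (U.θ t) := by
    intro t
    haveI := hψ
    show residue O' ((ψ : T →+* O') (H.π t)) = _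
    rw [← ResidueField.map_residue (ψ : T →+* O'), H.residue_π, ResidueField.map_map]
    congr 2
    exact AlgHom.comp_algebraMap ψ
  refine not_isUnramifiedAt_of_point U.two_ne_p hM'.symm (U.hard_prime i) hrM' (U.hard_ne_p i)
    (insert U.p U.M.primeFactors)
    (Finset.mem_insert_self _ _)
    (fun l hl hlM => Finset.mem_insert_of_mem (Nat.mem_primeFactors.mpr ⟨hl, hlM, NeZero.ne _⟩))
    O' hpO' ((ψ : T →+* O').comp H.π) ?_ _ ?_
    (residual_isAbsolutelyIrreducible_baseChangeAlong _ hψ H.ρ H.residual_absIrr)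
  · intro θ
    let ι := ResidueField.map (algebraMap U.O O')
    by_contra hcon
    simp only [not_exists, not_not] at hcon
    have hgen : ∀ (l : ℕ) (hl : l.Prime) (hlM : ¬ l ∣ M')
        (hlS : l ∉ (↑(insert U.p U.M.primeFactors) : Set ℕ)),
        ∃ hlN : ¬ l ∣ U.M, θ (CuspForm.heckeAlgebra.T hl hlM hlS) =
          ι (U.θ (CuspForm.heckeAlgebra.T hl hlN hlS)) := by
      intro l hl hlM hlS
      have hlN : ¬ l ∣ U.M := fun hdvd => hlS (Finset.mem_coe.mpr (Finset.mem_insert_of_mem
        (Nat.mem_primeFactors.mpr ⟨hl, hdvd, NeZero.ne _⟩)))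
      exact ⟨hlN, (hcon l hl hlM hlN hlS).trans (hψT _)⟩
    have hrange : ∀ t, θ t ∈ ι.range := range_subset_of_generators ι
      (fun q hq hqM => Finset.mem_coe.mpr (Finset.mem_insert_of_mem (Nat.mem_primeFactors.mpr
        ⟨hq, hM' ▸ hqM.mul_right i.1, NeZero.ne _⟩))) θ fun l hl hlM hlS => by
        obtain ⟨hlN, h⟩ := hgen l hl hlM hlS
        exact ⟨_, h.symm⟩
    let e := RingEquiv.ofBijective ι.rangeRestrict
      ⟨fun x y h => ι.injective (congrArg Subtype.val h), ι.rangeRestrict_surjective⟩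
    let θ' := e.symm.toRingHom.comp (θ.codRestrict ι.range hrange)
    obtain ⟨l, hl, hlM, hlN, hlS, hne⟩ := U.minimal i.1 M' i.2 hM'.symm θ'
    obtain ⟨hlN', h⟩ := hgen l hl hlM hlS
    refine hne (e.injective ?_)
    show e (e.symm _) = _
    rw [e.apply_symm_apply]
    exact Subtype.ext h
  · intro l hl hlM hlS A hA σ hσ
    rw [TWLoc.charpoly_baseChangeAlong, H.charpoly_frob l hl hlM hlS A hA σ hσ]
    simp

end Fermat.Agent.LL.Setting
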