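/-
The first congruent module at level zero: its rank, and inertia at the hard prime is nowhere
trivial on it (owner: helper79).
-/
import Fermat.Agent.LL.Pair.Levels
import Fermat.Agent.LL.Pair.LevelNontriv
import Fermat.Agent.R59.TWLevel.Galois

set_option autoImplicit false
set_option linter.style.haveILetI false
set_option synthInstance.maxHeartbeats 400000

noncomputable section

open IsLocalRing Fermat.Agent.TW.Mod CuspForm

namespace Fermat.Agent.LL.Pair

open Fermat.Agent.LR (Hom1)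

local notation "Γℚ" => (AlgebraicClosure ℚ ≃ₐ[ℚ] AlgebraicClosure ℚ)

section Descend

variable {O R X Y : Type} [CommRing O] [CommRing R] [Algebra O R] [AddCommGroup X] [Module R X]
  [Module O X] [IsScalarTower O R X] [AddCommGroup Y] [Module O Y]

/-- Endomorphisms stabilising the kernel of a surjection act on the target. -/
theorem exists_descend (π : X →ₗ[O] Y) (hs : Function.Surjective π)
    (hker : ∀ (e : Module.End R X) (x : X), π x = 0 → π (e x) = 0) :
    ∃ δ : Module.End R X →ₐ[O] Module.End O Y, ∀ e x, δ e (π x) = π (e x) := by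
  obtain ⟨g, hg⟩ := hs.hasRightInverse
  have key : ∀ (e : Module.End R X) (x : X), π (e (g (π x))) = π (e x) := fun e x => by
    have h := hker e (g (π x) - x) (by rw [map_sub, hg, sub_self])
    rwa [map_sub, map_sub, sub_eq_zero] at h
  let F : Module.End R X → Module.End O Y := fun e =>
    { toFun := fun y => π (e (g y))
      map_add' := fun y z => by
        obtain ⟨x, rfl⟩ := hs y
        obtain ⟨x', rfl⟩ := hs z
        rw [← map_add, key, key, key, map_add, map_add]
      map_smul' := fun c y => by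
        obtain ⟨x, rfl⟩ := hs y
        rw [← map_smul, key, key, LinearMap.map_smul_of_tower, map_smul, RingHom.id_apply] }
  have hF : ∀ e x, F e (π x) = π (e x) := key
  refine ⟨{ toFun := F
            map_one' := LinearMap.ext fun y => ?_
            map_mul' := fun e e' => LinearMap.ext fun y => ?_
            map_zero' := LinearMap.ext fun y => ?_
            map_add' := fun e e' => LinearMap.ext fun y => ?_
            commutes' := fun c => LinearMap.ext fun y => ?_ }, hF⟩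
  all_goals obtain ⟨x, rfl⟩ := hs y
  · rw [hF]; rfl
  · rw [Module.End.mul_apply, hF, hF, hF]; rfl
  · rw [hF]; exact map_zero π
  · rw [LinearMap.add_apply, hF, hF, hF, LinearMap.add_apply, map_add]
  · rw [hF, Module.algebraMap_end_apply, Module.algebraMap_end_apply, map_smul]

/-- A free module and the target of its reduction along a retraction have the same rank. -/
theorem finrank_eq_of_coinvariants [Nontrivial O] [Nontrivial R] (aug : R →ₐ[O] O)
    [Module.Free R X] [Module.Finite R X] (π : X →ₗ[O] Y) (hs : Function.Surjective π)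
    (hker : ∀ x, π x = 0 ↔ x ∈ RingHom.ker aug • (⊤ : Submodule R X))
    (hsmul : ∀ (r : R) x, π (r • x) = aug r • π x) :
    Module.finrank R X = Module.finrank O Y := by
  classical
  let b := Module.Free.chooseBasis R X
  have hli : LinearIndependent O fun i => π (b i) := by
    rw [Fintype.linearIndependent_iff]
    intro c hc i
    have h0 : π (∑ j, algebraMap O R (c j) • b j) = 0 := by
      rw [map_sum, ← hc]
      exact Finset.sum_congr rfl fun j _ => by rw [hsmul, AlgHom.commutes]; rfl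
    have h2 : ∀ x ∈ RingHom.ker aug • (⊤ : Submodule R X), aug (b.repr x i) = 0 := by
      intro x hx
      refine Submodule.smul_induction_on hx (fun r hr y _ => ?_) fun y z hy hz => ?_
      · rw [map_smul, Finsupp.smul_apply, smul_eq_mul, map_mul,
          show aug r = 0 from RingHom.mem_ker.1 hr, zero_mul]
      · rw [map_add, Finsupp.add_apply, map_add, hy, hz, add_zero]
    have h := h2 _ ((hker _).1 h0)
    rwa [b.repr_sum_self, AlgHom.commutes] at h
  have hsp : ⊤ ≤ Submodule.span O (Set.range fun i => π (b i)) := by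
    rintro y -
    obtain ⟨x, rfl⟩ := hs y
    rw [← b.sum_repr x, map_sum]
    refine Submodule.sum_mem _ fun i _ => ?_
    rw [hsmul]
    exact Submodule.smul_mem _ _ (Submodule.subset_span ⟨i, rfl⟩)
  rw [Module.finrank_eq_card_basis b, Module.finrank_eq_card_basis (Module.Basis.mk hli hsp)]

end Descend

section Part

variable {O : Type} [CommRing O] [IsDomain O] [IsDiscreteValuationRing O]
  [IsAdicComplete (maximalIdeal O) O] [IsAddTorsionFree O]
variable {M : ℕ} [NeZero M] [Fact (HasIntegralStructure M 2)] {S S₀ : Set ℕ}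

/-- The part of a non-Eisenstein system in `Hom(Γ₀(M), O)` is not zero. -/
theorem nontrivial_heckePart {lam : PrimeIdx S → ResidueField O}
    (h : Occurs O (heckeFam O M S) lam) :
    Nontrivial (LinearMap.range (h.idem (heckeFam_comm M S))) := by
  rw [Submodule.nontrivial_iff_ne_bot, Ne, LinearMap.range_eq_bot]
  intro h0
  have h1 := h.char_idem (heckeFam_comm M S)
  rw [show (⟨h.idem (heckeFam_comm M S), h.idem_mem _⟩ : famAlg O _) = 0 from Subtype.ext h0,
    map_zero] at h1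
  exact zero_ne_one h1

theorem heckePart_stable {lam : PrimeIdx S → ResidueField O}
    (h : Occurs O (heckeFam O M S) lam) (i : PrimeIdx S) :
    ∀ x ∈ LinearMap.range (h.idem (heckeFam_comm M S)),
      heckeFam O M S i x ∈ LinearMap.range (h.idem (heckeFam_comm M S)) := by
  rintro _ ⟨y, rfl⟩
  exact ⟨heckeFam O M S i y, (LinearMap.congr_fun
    (h.commute_idem (heckeFam_comm M S) (famGen O _ i).2).eq y).symm⟩

/-- The local Hecke algebra acts on the part of a non-Eisenstein system. -/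
theorem exists_heckeLocal_heckePart (hS : ∀ ℓ : ℕ, ℓ.Prime → ℓ ∉ S₀ → ℓ ∉ S)
    (hM : ∀ q : ℕ, q.Prime → q ∣ M → q ∈ S₀) {lam : PrimeIdx S → ResidueField O}
    (h : Occurs O (heckeFam O M S) lam) (θ : heckeAlgebra M 2 S₀ →+* ResidueField O)
    (hθ : ∀ (ℓ : ℕ) (hℓ : ℓ.Prime) (hℓM : ¬ ℓ ∣ M) (hℓS : ℓ ∉ S₀),
      θ (heckeAlgebra.T hℓ hℓM hℓS) = lam ⟨ℓ, hℓ, hS ℓ hℓ hℓS⟩)
    (hne : ∃ i : PrimeIdx S, (i.1 : ZMod M) = 1 ∧ ¬ i.1 ∣ M ∧
      lam i ≠ (i.1 : ResidueField O) + 1) :
    ∃ Ψ : heckeLocal M S₀ O θ →ₐ[O]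
        Module.End O (LinearMap.range (h.idem (heckeFam_comm M S))),
      ∀ (ℓ : ℕ) (hℓ : ℓ.Prime) (hℓM : ¬ ℓ ∣ M) (hℓS : ℓ ∉ S₀)
        (y : LinearMap.range (h.idem (heckeFam_comm M S))),
        (Ψ (heckeLocal.π M S₀ O θ (heckeAlgebra.T hℓ hℓM hℓS)) y : Hom1 M O) =
          heckeFam O M S ⟨ℓ, hℓ, hS ℓ hℓ hℓS⟩ y := by
  classical
  haveI := finite_end_hom1 (𝒪 := O) M
  obtain ⟨i, hi1, hiM, hi⟩ := hne
  haveI : Fact i.1.Prime := ⟨i.2.1⟩
  let J : LinearMap.range (h.idem (heckeFam_comm M S)) →+ (Unit → Hom1 M O) :=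
    AddMonoidHom.mk' (fun y _ => y.1) fun _ _ => rfl
  have hJ : Function.Injective J := fun y z hyz => Subtype.ext (congrFun hyz ())
  have hpar : ∀ y a, ModularCurve.Period.IsParabolicHom (CongruenceSubgroup.Gamma0 M) (J y a) := by
    intro y _
    obtain ⟨hTm, v, hvm, hv⟩ := h.exists_inv_sub_algebraMap (heckeFam_comm M S) i ((i.1 : O) + 1)
      (by rw [map_add, map_natCast, map_one]; exact hi)
    have hy := (mem_range_iff_of_idem (h.idem_mul_idem (heckeFam_comm M S))).1 y.2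
    have h1 := LinearMap.congr_fun hv y.1
    rw [Module.End.mul_apply, hy] at h1
    have h2 := LinearMap.congr_fun (famAlg_commute (heckeFam_comm M S) hvm hTm).eq y.1
    rw [h2, Module.End.mul_apply] at h1
    show ModularCurve.Period.IsParabolicHom (CongruenceSubgroup.Gamma0 M) y.1
    rw [← h1, LinearMap.sub_apply, Module.algebraMap_end_apply,
      show ((i.1 : O) + 1) • v y.1 = ((i.1 : ℤ) + 1) • v y.1 by
        rw [← Int.cast_smul_eq_zsmul O]; push_cast; rfl]
    exact isParabolicHom_heckeHom_sub hi1 hiM _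
  obtain ⟨Φ, hΦ⟩ := exists_heckeAlgebra_action (R₀ := O) hM J hJ hpar
    (fun ℓ hℓ hℓS => (heckeFam O M S ⟨ℓ, hℓ, hS ℓ hℓ hℓS⟩).restrict
      (heckePart_stable h _)) (fun ℓ _ hℓ hℓS x a => rfl)
  haveI := nontrivial_heckePart h
  let lamN : ℕ → ResidueField O := fun l => if hl : l.Prime ∧ l ∉ S then lam ⟨l, hl⟩ else 0
  have hlamN : ∀ (ℓ : ℕ) (hℓ : ℓ.Prime) (hℓS : ℓ ∉ S₀), lamN ℓ = lam ⟨ℓ, hℓ, hS ℓ hℓ hℓS⟩ :=
    fun ℓ hℓ hℓS => dif_pos ⟨hℓ, hS ℓ hℓ hℓS⟩
  obtain ⟨θ', hθ', Ψ, hΨ⟩ := R59.exists_heckeLocal_action (𝒪 := O) hM Φ lamN fun ℓ hℓ hℓM hℓS => by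
    obtain ⟨c, hc⟩ := residue_surjective (lam ⟨ℓ, hℓ, hS ℓ hℓ hℓS⟩)
    refine ⟨c, hc.trans (hlamN ℓ hℓ hℓS).symm, ?_⟩
    rw [hΦ ℓ hℓ hℓM hℓS]
    exact R59.TWLevel.nilpModM_restrict (heckeFam_comm M S) h _ c hc _
  obtain rfl : θ' = θ := RingHom.ext fun t => by
    obtain ⟨x, hx⟩ := R59.TWLevel.map_mem_of_forall_T hM (θ'.prod θ)
      ((RingHom.id (ResidueField O)).prod (RingHom.id (ResidueField O))).range
      (fun ℓ hℓ hℓM hℓS => ⟨lamN ℓ, Prod.ext (hθ' ℓ hℓ hℓM hℓS).symm
        ((hlamN ℓ hℓ hℓS).trans (hθ ℓ hℓ hℓM hℓS).symm)⟩) t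
    exact (congrArg Prod.fst hx).symm.trans (congrArg Prod.snd hx)
  exact ⟨Ψ, fun ℓ hℓ hℓM hℓS y => by rw [hΨ, hΦ ℓ hℓ hℓM hℓS]; rfl⟩

end Part

variable {U : Setting} {i₀ : U.Idx}

/-- The part of the system at the minimal level. -/
abbrev minPart (B : Base U i₀) : Submodule U.O (Hom1 U.M U.O) :=
  LinearMap.range (B.occurs.idem (heckeFam_comm U.M (lowSet U i₀)))

set_option maxHeartbeats 4000000 in
-- unfolding of the twisted part
/-- The coinvariants of the first module are the part at the minimal level. -/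
theorem exists_coinvariants₀ (B : Base U i₀) {n R : ℕ} {qv : Fin R → ℕ} (hq : U.IsAux n qv)
    [NeZero (lev U i₀ qv)] :
    Module.Free (Coeff U n R) (genPart admissible_char₀ (occurs₀ B hq)) ∧
    Module.Finite (Coeff U n R) (genPart admissible_char₀ (occurs₀ B hq)) ∧
    ∃ π : genPart admissible_char₀ (occurs₀ B hq) →ₗ[U.O] minPart B,
      Function.Surjective π ∧
      (∀ x, π x = 0 ↔ x ∈ RingHom.ker (R59.twAug U.O U.p n R) •
        (⊤ : Submodule (Coeff U n R) (genPart admissible_char₀ (occurs₀ B hq)))) ∧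
      (∀ (r : Coeff U n R) x, π (r • x) = R59.twAug U.O U.p n R r • π x) ∧
      ∀ (i : PrimeIdx (lowSet U i₀)), i.1 ∉ auxPrimes qv → ∀ x,
        (π (genOp admissible_char₀ (occurs₀ B hq) i x) : Hom1 U.M U.O) =
          heckeFam U.O U.M (lowSet U i₀) i (π x : Hom1 U.M U.O) := by
  obtain ⟨i, -, hiL, hiaux, hi⟩ := exists_nonEis B (qv := qv) (lev U i₀ qv)
  obtain ⟨hM, h1, h2, π, hs, hk, hr, hT⟩ := exists_freeModule_levelN U.M (auxPrimes qv)
    (lev_eq U i₀ qv) (χ := char₀ U i₀ n qv) admissible_char₀ (twAug_char₀ hq) (lowSet U i₀)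
    B.occurs (rootAt U)
    (fun q h => by
      obtain ⟨i, rfl⟩ := mem_auxPrimes.1 h
      refine ⟨hq.prime i, notMem_lowSet U i₀ (notMem_baseSet_aux hq i),
        coprime_of_notMem_baseSet (hq.prime i) (notMem_baseSet_aux hq i),
        natCast_aux_eq_one hq i, ?_⟩
      rw [B.lam_eq ⟨qv i, hq.prime i, notMem_baseSet_aux hq i⟩]
      exact rootAt_spec hq i)
    ⟨i, hiL, by
      have h : i.1 ∉ auxPrimes qv := fun h => hiL (dvd_lev_of_mem U i₀ qv h)
      rwa [sys, raiseLam, if_neg h] at hi⟩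
  exact ⟨h1, h2, π, hs, hk, hr, fun i hi x => hT i hi x⟩

/-- The rank of the first module is the rank of the part at the minimal level. -/
theorem finrank_genPart₀ (B : Base U i₀) {n R : ℕ} {qv : Fin R → ℕ} (hq : U.IsAux n qv)
    [NeZero (lev U i₀ qv)] :
    Module.finrank (Coeff U n R) (genPart admissible_char₀ (occurs₀ B hq)) =
      Module.finrank U.O (minPart B) := by
  obtain ⟨hfree, hfin, π, hs, hk, hr, -⟩ := exists_coinvariants₀ B hq
  exact finrank_eq_of_coinvariants (R59.twAug U.O U.p n R) π hs hk hr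

/-- The part at the minimal level is not zero. -/
theorem finrank_minPart_pos (B : Base U i₀) : 0 < Module.finrank U.O (minPart B) := by
  haveI : Fact (HasIntegralStructure U.M 2) := ⟨MF.IntStruct.hasIntegralStructure U.M 2⟩
  haveI := nontrivial_heckePart B.occurs
  haveI : Module.Finite U.O (minPart B) :=
    Module.Finite.of_injective (minPart B).subtype Subtype.val_injective
  haveI : Module.IsTorsionFree U.O (Hom1 U.M U.O) :=
    Function.Injective.moduleIsTorsionFree (fun φ : Hom1 U.M U.O => (φ : _ → U.O))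
      DFunLike.coe_injective fun _ _ => rfl
  haveI : Module.IsTorsionFree U.O (minPart B) :=
    Subtype.val_injective.moduleIsTorsionFree (minPart B).subtype fun c m =>
      map_smul (minPart B).subtype c m
  exact Module.finrank_pos

theorem twAug_weight₀ {n R : ℕ} {qv : Fin R → ℕ} (hq : U.IsAux n qv) (ℓ : ℕ) :
    R59.twAug U.O U.p n R ((weight₀ U i₀ n qv ℓ)⁻¹ : (Coeff U n R)ˣ) = 1 := by
  have h : Units.map (R59.twAug U.O U.p n R : Coeff U n R →* U.O) (weight₀ U i₀ n qv ℓ) = 1 := by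
    refine Units.ext ?_
    rw [Units.coe_map, weight₀, Units.coe_prod, map_prod, Units.val_one]
    refine Finset.prod_eq_one fun q hmem => ?_
    rw [etaAt]
    split_ifs
    · exact twAug_eta_aux hq hmem _
    · exact map_one _
  have h' := congrArg Units.val (congrArg (·⁻¹) h)
  rw [← map_inv, inv_one] at h'
  simpa using h'

set_option maxHeartbeats 4000000 in
-- one long construction
/-- **Inertia at the hard prime is nowhere trivial on the first module at level zero.** -/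
theorem exists_pow_nontriv (inp : Inputs) (B : Base U i₀) :
    ∃ k : ℕ, ∀ (n R : ℕ) (qv : Fin R → ℕ) (hq : U.IsAux n qv)
      (D : GaloisRep.DeformationRingData U.O U.ρbar (U.defCond qv)) [NeZero (lev U i₀ qv)]
      (L : ℕ) [NeZero L] [Fact (HasIntegralStructure L 2)]
      (a : Act D L admissible_char₀ (occurs₀ B hq) (weight₀ U i₀ n qv))
      (m : genPart admissible_char₀ (occurs₀ B hq)),
      algebraMap U.O (Coeff U n R) ((U.p : U.O) ^ k) • m ∈
        (⨆ σ, LinearMap.range (a.act (trAt D.ρ (U.tame i₀ * σ) - trAt D.ρ σ))) ⊔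
          RingHom.ker (R59.twAug U.O U.p n R) •
            (⊤ : Submodule (Coeff U n R) (genPart admissible_char₀ (occurs₀ B hq))) := by
  classical
  haveI : Fact (HasIntegralStructure U.M 2) := ⟨MF.IntStruct.hasIntegralStructure U.M 2⟩
  set S₀ : Finset ℕ := insert U.p U.M.primeFactors
  have hMS : ∀ q : ℕ, q.Prime → q ∣ U.M → q ∈ S₀ := fun q hqp hd =>
    Finset.mem_insert_of_mem (Nat.mem_primeFactors.mpr ⟨hqp, hd, NeZero.ne _⟩)
  obtain ⟨H, hπH, hresH⟩ := Datum.exists_heckeGaloisRepDatum_of_specializationExists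
    (N := U.M) (S := baseSet U) (p := U.p) (𝒪 := U.O) (inp.specialization U.M U.p) (p_ne_two U)
    U.p_mem (Finset.mem_coe.mpr (Finset.mem_insert_self _ _)) (Finset.finite_toSet S₀) U.θ U.ρbar
    U.absIrr ∅ fun ℓ hℓ hℓM hℓS _ A hA σ hσ => U.θ_charpoly ℓ hℓ hℓM hℓS A hA σ hσ
  obtain ⟨k, hk⟩ := U.exists_pow_mem_trace_ideal i₀ H hresH
  refine ⟨k, fun n R qv hq D _ L _ _ a m => ?_⟩
  obtain ⟨-, -, π, hs, hker, hsmul, hint⟩ := exists_coinvariants₀ B hq
  obtain ⟨δ, hδ⟩ := exists_descend (R := Coeff U n R) π hs fun e x hx => by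
    rw [hker] at hx ⊢
    refine Submodule.smul_induction_on hx (fun r hr y _ => ?_) fun y z hy hz => ?_
    · rw [map_smul]
      exact Submodule.smul_mem_smul hr Submodule.mem_top
    · rw [map_add]
      exact add_mem hy hz
  have hsq : ∀ r : ℕ, r.Prime → ¬ r ^ 2 ∣ U.M := fun r hr h =>
    Nat.squarefree_iff_prime_squarefree.mp U.squarefree r hr (by rwa [← sq])
  obtain ⟨φ, hφs, hφl, hφtr, -, -⟩ := U.exists_levelMap inp qv D U.M
    (fun hk h => by have h' := U.dvd_iff_strict.mp h; rw [hk] at h'; exact absurd h' (by decide))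
    (fun hk => ⟨U.dvd_iff_strict.mpr hk, hsq _ Fact.out⟩)
    (fun r hr => by
      have hr' : r ∈ U.M.primeFactors := (U.mem_primeFactors (by
        rcases Finset.mem_union.mp hr with h | h
        · exact Finset.mem_union_left _ (Finset.mem_union_left _ h)
        · exact Finset.mem_union_right _ h)).2
      exact ⟨Nat.dvd_of_mem_primeFactors hr', hsq _ (Nat.prime_of_mem_primeFactors hr')⟩) S₀
    (Finset.mem_insert_self _ _) hMS Finset.subset_union_left U.θ
    fun ℓ hℓ hℓM hℓS _ A hA σ hσ => U.trace_frob_eq_theta hℓ hℓM hℓS hA hσ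
  obtain ⟨i, hi1, hiM, hiaux, hi⟩ := exists_nonEis B (qv := qv) U.M
  obtain ⟨Ψ, hΨ⟩ := exists_heckeLocal_heckePart (S₀ := baseSet U)
    (fun ℓ _ h => notMem_lowSet U i₀ h) (fun q hqp hd => Finset.mem_coe.mpr (hMS q hqp hd))
    B.occurs U.θ (fun ℓ hℓ hℓM hℓS => (B.lam_eq ⟨ℓ, hℓ, hℓS⟩).symm)
    ⟨i, hi1, hiM, by
      rwa [sys, raiseLam, if_neg fun (h : i.1 ∈ auxPrimes qv) => hiaux (Finset.mem_union_right _ h)] at hi⟩
  -- the two actions on the part at the minimal level agree
  have hTl : ∀ (ℓ : ℕ) (hℓ : ℓ.Prime) (hℓS : ℓ ∉ (↑(U.auxSet qv) : Set ℕ)),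
      δ ((((weight₀ U i₀ n qv ℓ)⁻¹ : (Coeff U n R)ˣ) : Coeff U n R) •
        genOp admissible_char₀ (occurs₀ B hq)
          ⟨ℓ, hℓ, notMem_lowSet U i₀ (notMem_baseSet_of_notMem_auxSet hℓS)⟩) =
      Ψ (heckeLocal.π U.M (baseSet U) U.O U.θ (heckeAlgebra.T hℓ
        (not_dvd_of_notMem_baseSet U hℓ (notMem_baseSet_of_notMem_auxSet hℓS))
        (notMem_baseSet_of_notMem_auxSet hℓS))) := fun ℓ hℓ hℓS => by
    refine LinearMap.ext fun y => Subtype.ext ?_
    obtain ⟨x, rfl⟩ := hs y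
    rw [hδ, LinearMap.smul_apply, hsmul, twAug_weight₀ hq, one_smul,
      hint _ (notMem_auxPrimes_of_notMem_auxSet hℓS), hΨ]
  haveI := nontrivial_heckePart B.occurs
  have heq : δ.comp a.act = Ψ.comp φ := by
    refine R59.TWLevel.algHom_eq_of_frobenius (E := Module.End U.O (minPart B)) (p_ne_two U) D
      H.residue_surjective Ψ (δ.comp a.act)
      (Ψ.comp φ)
      (fun x => ?_) (fun x => ?_) (U.auxSet qv) fun ℓ hℓ hℓS P hP σ hσ => ?_
    · exact a.toEnd_mem (Ψ.range.comap δ) (fun ℓ hℓ hℓS => ⟨_, (hTl ℓ hℓ hℓS).symm⟩) (a.toHecke x)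
    · exact ⟨φ x, rfl⟩
    · have hℓS' : ℓ ∉ (↑(U.auxSet qv) : Set ℕ) := fun h => hℓS (Finset.mem_coe.mp h)
      show δ (a.act (trAt D.ρ σ)) = Ψ (φ (trAt D.ρ σ))
      rw [a.act_trace hℓ hℓS' hP hσ, hTl ℓ hℓ hℓS',
        hφtr ℓ hℓ (not_dvd_of_notMem_baseSet U hℓ (notMem_baseSet_of_notMem_auxSet hℓS'))
          (notMem_baseSet_of_notMem_auxSet hℓS') P hP σ hσ]
  -- traces of the minimal level
  have htr : ∀ σ : Γℚ, φ (trAt D.ρ σ) = trAt H.ρ σ := fun σ => by
    have h := R59.trace_eq_of_frobenius (p := U.p)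
      (ρ := D.ρ.baseChangeAlong (φ : D.R →+* heckeLocal U.M (baseSet U) U.O U.θ) hφl) (ρ' := H.ρ)
      (Tangent.detIsCyclotomic_baseChangeAlong _ hφl
        (R59.TWLevel.detIsCyclotomic_of_cond D.isOfType))
      (detIsCyclotomic_of_datum U.p_mem hMS H) S₀
      (fun ℓ hℓ hℓS P hP τ hτ => by
        have hℓS' : ℓ ∉ baseSet U := fun h => hℓS (Finset.mem_coe.mp h)
        have hℓM := not_dvd_of_notMem_baseSet U hℓ hℓS'
        rw [R59.trace_baseChangeAlong,
          R59.trace_eq_of_charpoly (H.charpoly_frob ℓ hℓ hℓM hℓS' P hP τ hτ), hπH]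
        exact hφtr ℓ hℓ hℓM hℓS' P hP τ hτ) σ
    rw [R59.trace_baseChangeAlong] at h
    exact h
  -- pull back `p ^ k`
  set I : Ideal D.R := Ideal.span (Set.range fun σ => trAt D.ρ (U.tame i₀ * σ) - trAt D.ρ σ)
  have hIk : algebraMap U.O _ (U.p : U.O) ^ k ∈
      I.map (φ : D.R →+* heckeLocal U.M (baseSet U) U.O U.θ) := by
    rw [Ideal.map_span, ← Set.range_comp]
    refine Ideal.span_mono ?_ hk
    rintro _ ⟨σ, rfl⟩
    exact ⟨σ, by simp [htr]⟩
  obtain ⟨x, hxI, hx⟩ := (Ideal.mem_map_iff_of_surjective _ hφs).1 hIk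
  have hx' : φ x = algebraMap U.O (heckeLocal U.M (baseSet U) U.O U.θ) ((U.p : U.O) ^ k) := by
    rw [map_pow]; exact hx
  have h' : δ (a.act x) = Ψ (φ x) := AlgHom.congr_fun heq x
  have hact : π (a.act x m) = ((U.p : U.O) ^ k) • π m := by
    rw [← hδ, h', hx', AlgHom.commutes, Module.algebraMap_end_apply]
  have hrange : ∀ z ∈ I, LinearMap.range (a.act z) ≤
      ⨆ σ, LinearMap.range (a.act (trAt D.ρ (U.tame i₀ * σ) - trAt D.ρ σ)) := by
    intro z hz
    induction hz using Submodule.span_induction with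
    | mem z hz =>
      obtain ⟨σ, rfl⟩ := hz
      exact le_iSup (fun σ => LinearMap.range (a.act (trAt D.ρ (U.tame i₀ * σ) - trAt D.ρ σ))) σ
    | zero => simp
    | add z w _ _ hz hw =>
      rw [map_add]
      rintro _ ⟨y, rfl⟩
      exact add_mem (hz ⟨y, rfl⟩) (hw ⟨y, rfl⟩)
    | smul r z _ hz =>
      rw [smul_eq_mul, mul_comm, map_mul]
      exact (LinearMap.range_comp_le_range _ _).trans hz
  rw [show algebraMap U.O (Coeff U n R) ((U.p : U.O) ^ k) • m =
    a.act x m + (algebraMap U.O (Coeff U n R) ((U.p : U.O) ^ k) • m - a.act x m) by abel]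
  refine Submodule.add_mem_sup (hrange x hxI ⟨m, rfl⟩) ((hker _).1 ?_)
  rw [map_sub, hsmul, AlgHom.commutes, hact]
  exact sub_self _

end Fermat.Agent.LL.Pair
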