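/-
No point of an algebra acting faithfully on a localised part with nebentypus `χ²` at `q` is
unipotent on inertia at `q` (owner: helper87; wrapper of helper43's point core).
-/
import Fermat.Agent.LL.Pair.GenPart
import Fermat.Agent.LL.Pair.PointFacts
import Fermat.Agent.R59.TWRamified.Core

set_option autoImplicit false
set_option synthInstance.maxHeartbeats 400000

noncomputable section

namespace Fermat.Agent.LL.Pair

open CongruenceSubgroup IsLocalRing Fermat.Agent.TW.Mod

local notation "GQ" => AlgebraicClosure ℚ ≃ₐ[ℚ] AlgebraicClosure ℚ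

variable {O : Type} [CommRing O] [IsDomain O] [IsDiscreteValuationRing O]
  [IsAdicComplete (maximalIdeal O) O] [IsAddTorsionFree O]
variable {M : ℕ} [NeZero M] {χ : (ZMod M)ˣ →* Oˣ} {S₀ : Set ℕ}
  (hadm : Admissible (epsOf χ)) {lam : PrimeIdx S₀ → ResidueField O}
  (h : Occurs O (twFam χ S₀) lam)

/-- All Hecke operators preserve the part. -/
theorem h1T_mem_genPart (l : ℕ) [Fact l.Prime] {x : H1 (epsOf χ) O} (hx : x ∈ genPart hadm h) :
    h1T χ O l x ∈ genPart hadm h := by
  have := finite_end_h1 (𝒪 := O) hadm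
  have hmem : genIdem hadm h ∈
      Subalgebra.centralizer O ({h1T χ O l} : Set (Module.End O (H1 (epsOf χ) O))) := by
    refine (Algebra.adjoin_le ?_ : famAlg O (twFam χ S₀) ≤ _) (Occurs.idem_mem _ _)
    rintro _ ⟨j, rfl⟩
    rw [SetLike.mem_coe, Subalgebra.mem_centralizer_iff]
    rintro _ rfl
    exact LinearMap.ext fun y => h1T_comm χ l j.1 y
  rw [Subalgebra.mem_centralizer_iff] at hmem
  obtain ⟨y, rfl⟩ := hx
  exact ⟨h1T χ O l y, (LinearMap.congr_fun (hmem _ rfl) y).symm⟩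

/-- An operator with nonzero residual eigenvalue is injective on the part. -/
theorem eq_zero_of_twFam_eq_zero {i : PrimeIdx S₀} (hi : lam i ≠ 0) {x : H1 (epsOf χ) O}
    (hx : x ∈ genPart hadm h) (hTx : twFam χ S₀ i x = 0) : x = 0 := by
  have := finite_end_h1 (𝒪 := O) hadm
  obtain ⟨-, v, -, hv⟩ := h.exists_inv_sub_algebraMap (twFam_comm χ S₀) i 0
    (by rwa [map_zero])
  have h1 := LinearMap.congr_fun hv x
  rw [map_zero, sub_zero, Module.End.mul_apply, Module.End.mul_apply] at h1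
  rw [show h.idem (twFam_comm χ S₀) x = x from genIdem_apply_self hadm h hx, hTx, map_zero] at h1
  exact h1.symm

omit [IsAddTorsionFree O] in
/-- If `T - c` has a left inverse on a nonzero part, `c` does not reduce to the eigenvalue. -/
theorem occurs_ne_of_left_inverse {H : Type} [AddCommGroup H] [Module O H] [Module.Finite O H]
    [Module.Finite O (Module.End O H)] {ι : Type} {F : ι → Module.End O H}
    (hF : ∀ i j, Commute (F i) (F j)) {lam : ι → ResidueField O} (h : Occurs O F lam)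
    (hne : LinearMap.range (h.idem hF) ≠ ⊥) {i : ι} {c : O}
    (op G : Module.End O (LinearMap.range (h.idem hF))) (hop : ∀ x, (op x : H) = F i x.1)
    (hG : ∀ x, G (op x - c • x) = x) : lam i ≠ residue O c := by
  intro hc
  let P := maximalIdeal O • (⊤ : Submodule O (LinearMap.range (h.idem hF)))
  let g : H →+ ((LinearMap.range (h.idem hF)) ⧸ P) := (P.mkQ ∘ₗ (h.idem hF).rangeRestrict).toAddMonoidHom
  have hfix : ∀ y ∈ (LinearMap.range (h.idem hF)), h.idem hF y = y := fun y hy =>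
    (mem_range_iff_of_idem (h.idem_mul_idem hF)).1 hy
  have hg : ∀ x : (LinearMap.range (h.idem hF)), g x.1 = Submodule.Quotient.mk x := fun x =>
    congrArg Submodule.Quotient.mk (Subtype.ext (hfix x.1 x.2))
  obtain ⟨x₀, hx₀⟩ : ∃ x₀ : (LinearMap.range (h.idem hF)), g x₀.1 ≠ 0 := by
    by_contra hall
    push Not at hall
    refine hne ((Submodule.eq_bot_iff _).2 fun x hx => ?_)
    have htop : (⊤ : Submodule O (LinearMap.range (h.idem hF))) = ⊥ :=
      Submodule.eq_bot_of_le_smul_of_le_jacobson_bot (maximalIdeal O) ⊤ Module.Finite.fg_top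
        (fun y _ => (Submodule.Quotient.mk_eq_zero P).1 ((hg y).symm.trans (hall y)))
        (IsLocalRing.maximalIdeal_le_jacobson ⊥)
    exact congrArg Subtype.val ((Submodule.eq_bot_iff _).1 htop ⟨x, hx⟩ Submodule.mem_top)
  obtain ⟨y, hyK, hy, hyeig⟩ := h.exists_eigen hF g
    (fun r hr z => by
      show P.mkQ ((h.idem hF).rangeRestrict (r • z)) = 0
      rw [map_smul, Submodule.mkQ_apply, Submodule.Quotient.mk_eq_zero]
      exact Submodule.smul_mem_smul hr Submodule.mem_top)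
    (LinearMap.range (h.idem hF)) (fun j x hx => by
      rw [← hfix x hx]
      exact ⟨F j x, (LinearMap.congr_fun (h.commute_idem hF (famGen O F j).2).eq x).symm⟩)
    hfix x₀.2 hx₀
  have h1 := hyeig i c hc.symm
  rw [← hop ⟨y, hyK⟩, show c • y = (c • (⟨y, hyK⟩ : (LinearMap.range (h.idem hF)))).1 from rfl, hg, hg,
    Submodule.Quotient.eq] at h1
  refine hy ?_
  rw [show y = (⟨y, hyK⟩ : (LinearMap.range (h.idem hF))).1 from rfl, hg, Submodule.Quotient.mk_eq_zero, ← hG ⟨y, hyK⟩]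
  have h2 := Submodule.mem_map_of_mem (f := G) h1
  rw [Submodule.map_smul''] at h2
  exact Submodule.smul_mono le_rfl le_top h2

omit [IsDiscreteValuationRing O] [IsAdicComplete (maximalIdeal O) O] [IsAddTorsionFree O]
  [IsDomain O] in
/-- An element acting as `op` with unit difference from `n + 1` inverts `op - (n + 1)`. -/
theorem exists_left_inverse_of_unit {T : Type} [CommRing T] [Algebra O T] {X : Type}
    [AddCommGroup X] [Module O X] (act : T →ₐ[O] Module.End O X) {t : T} {n : ℕ}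
    (hu : IsUnit (t - ((n : T) + 1))) (op : Module.End O X) (hop : ∀ x, act t x = op x) :
    ∃ G : Module.End O X, ∀ x, G (op x - ((n : O) + 1) • x) = x := by
  obtain ⟨w, hw⟩ := hu.exists_left_inv
  refine ⟨act w, fun x => ?_⟩
  have h1 : act (t - ((n : T) + 1)) x = op x - ((n : O) + 1) • x := by
    rw [map_sub, LinearMap.sub_apply, map_add, map_natCast, map_one, LinearMap.add_apply,
      Module.End.natCast_apply, Module.End.one_apply, add_smul, one_smul,
      Nat.cast_smul_eq_nsmul, hop]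
  rw [← h1, ← Module.End.mul_apply, ← map_mul, hw, map_one, Module.End.one_apply]

/-- An algebra generated by elements acting as multiples of Hecke operators commutes with all
Hecke operators. -/
theorem h1T_act_comm_of_adjoin {T : Type} [CommRing T] [Algebra O T]
    (act : T →ₐ[O] Module.End O (genPart hadm h)) {gens : Set T}
    (hgen : Algebra.adjoin O gens = ⊤)
    (hg : ∀ t ∈ gens, ∃ (c : O) (l' : ℕ) (_ : Fact l'.Prime), ∀ x : genPart hadm h,
      (act t x : H1 (epsOf χ) O) = c • h1T χ O l' (x : H1 (epsOf χ) O))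
    (l : ℕ) [Fact l.Prime] (a : T) (x : genPart hadm h) :
    h1T χ O l (act a x : H1 (epsOf χ) O) =
      (act a ⟨h1T χ O l x, h1T_mem_genPart hadm h l x.2⟩ : H1 (epsOf χ) O) := by
  let op : Module.End O (genPart hadm h) :=
    (h1T χ O l).restrict fun y hy => h1T_mem_genPart hadm h l hy
  have hle : Algebra.adjoin O gens ≤ (Subalgebra.centralizer O {op}).comap act :=
    Algebra.adjoin_le fun t ht => by
      obtain ⟨c, l', _, hc⟩ := hg t ht
      rw [SetLike.mem_coe, Subalgebra.mem_comap, Subalgebra.mem_centralizer_iff]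
      rintro _ rfl
      refine LinearMap.ext fun y => Subtype.ext ?_
      show h1T χ O l (act t y : H1 (epsOf χ) O) = (act t (op y) : H1 (epsOf χ) O)
      rw [hc, hc, map_smul, h1T_comm χ l l']
      rfl
  have ha : act a ∈ Subalgebra.centralizer O {op} := hle (hgen ▸ Algebra.mem_top)
  rw [Subalgebra.mem_centralizer_iff] at ha
  exact congrArg Subtype.val (LinearMap.congr_fun (ha op rfl) x)

variable {p : ℕ} [Fact p.Prime] [Finite (ResidueField O)] [CharZero O]

set_option maxHeartbeats 800000 in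
/-- No point is unipotent on inertia at `q`. -/
theorem not_isUnipotentOnInertiaAt_of_part (h36 : CondLevel.CarayolNotUnipotent) (hp2 : p ≠ 2)
    {N q : ℕ} [NeZero N] [NeZero (N * q)] [Fact q.Prime] (hqN : ¬ q ∣ N) (hqp : q ≠ p)
    (η : (ZMod q)ˣ →* Oˣ) (hη : ∃ u, η u ^ 2 ≠ 1) (hη1 : ∀ u, residue O (η u : O) = 1)
    {S' : Set ℕ} (hadm : Admissible (epsOf (sqTwistChar N η)))
    {lam : PrimeIdx S' → ResidueField O} (h : Occurs O (twFam (sqTwistChar N η) S') lam)
    (hq : q ∉ S') (hlamq : lam ⟨q, Fact.out, hq⟩ ≠ 0)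
    (S : Finset ℕ) (hpS : p ∈ S) (hqS : q ∈ S) (hNS : ∀ l : ℕ, l.Prime → l ∣ N → l ∈ S)
    (hS' : ∀ l : ℕ, l.Prime → l ∉ S → l ∉ S')
    {T : Type} [CommRing T] [IsLocalRing T] [Algebra O T] [Module.Finite O T]
    (act : T →ₐ[O] Module.End O (genPart hadm h)) (hact : Function.Injective act)
    (hcomm : ∀ (l : ℕ) [Fact l.Prime] (a : T) (x : genPart hadm h),
      h1T (sqTwistChar N η) O l (act a x : H1 (epsOf (sqTwistChar N η)) O) =
        (act a ⟨h1T (sqTwistChar N η) O l x, h1T_mem_genPart hadm h l x.2⟩ :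
          H1 (epsOf (sqTwistChar N η)) O))
    (ρ : GaloisRepAdic T) (hirr : ρ.residual.IsAbsolutelyIrreducible)
    (hdet : ρ.DetIsCyclotomic p)
    (hρ : ∀ (l : ℕ) [Fact l.Prime], l ∉ S → ∀ A : ValuationSubring (AlgebraicClosure ℚ),
      A.LiesOverPrime l → ∀ σ : GQ, A.IsFrobeniusAt σ l → ∀ x : genPart hadm h,
        (act (trAt ρ σ) x : H1 (epsOf (sqTwistChar N η)) O) =
          extChar η⁻¹ (l : ZMod q) • h1T (sqTwistChar N η) O l x)
    (O' : Type) [CommRing O'] [IsDomain O'] [IsDiscreteValuationRing O']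
    [IsAdicComplete (maximalIdeal O') O'] [Finite (ResidueField O')] [CharZero O']
    [Algebra O O'] (hinj : Function.Injective (algebraMap O O')) (ψ : T →ₐ[O] O')
    (hψ : IsLocalHom (ψ : T →+* O')) :
    ¬ (ρ.baseChangeAlong (ψ : T →+* O') hψ).IsUnipotentOnInertiaAt q := by
  classical
  have : NeZero (N * q * q * p) :=
    ⟨mul_ne_zero (mul_ne_zero (NeZero.ne _) (Fact.out : q.Prime).ne_zero)
      (Fact.out : p.Prime).ne_zero⟩
  obtain ⟨ℓ₀, hℓ₀, hℓ₀S, hℓ₀n, hℓ₀1, A₀, hA₀, σ₀, hσ₀, htr⟩ :=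
    R59.TWRam.exists_frobenius_one_mod_trace_ne ρ.residual hirr p
      (fun σ hσ => by
        rw [R59.TWRam.residual_det_eq_natCast ρ hdet σ 1
          (fun μ hμ => by rw [pow_one]; exact hσ μ hμ), Nat.cast_one])
      (N * q * q * p) (dvd_mul_left p _) S
  haveI : Fact ℓ₀.Prime := ⟨hℓ₀⟩
  have hq1 : (ℓ₀ : ZMod q) = 1 := by
    have h2 : ((q : ℕ) : ℤ) ∣ (ℓ₀ : ℤ) - 1 := Int.natCast_dvd_natCast.2
      ((dvd_mul_left q (N * q)).trans (dvd_mul_right _ p)) |>.trans hℓ₀1
    rw [← ZMod.intCast_zmod_eq_zero_iff_dvd] at h2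
    push_cast at h2
    exact sub_eq_zero.1 h2
  -- the trace minus `ℓ + 1` is a unit
  have hunit : IsUnit (trAt ρ σ₀ - ((ℓ₀ : T) + 1)) := by
    by_contra hu
    have h0 : residue T (trAt ρ σ₀ - ((ℓ₀ : T) + 1)) = 0 :=
      (residue_eq_zero_iff _).2 ((mem_maximalIdeal _).2 hu)
    rw [map_sub, map_add, map_natCast, map_one, sub_eq_zero] at h0
    have hp1 : (ℓ₀ : ResidueField T) = 1 := by
      obtain ⟨c, hc⟩ : (p : ℤ) ∣ (ℓ₀ : ℤ) - 1 :=
        Int.natCast_dvd_natCast.2 (dvd_mul_left p (N * q * q)) |>.trans hℓ₀1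
      have h1 : ((p : ℕ) : ResidueField T) = 0 := by
        rw [← map_natCast (residue T), residue_eq_zero_iff]
        exact hdet.1
      have h2 := congrArg (Int.cast : ℤ → ResidueField T) hc
      push_cast at h2
      rw [h1, zero_mul] at h2
      exact sub_eq_zero.1 h2
    refine htr ((LinearMap.trace_baseChange _ _).trans ?_)
    show residue T (trAt ρ σ₀) = 2
    rw [h0, hp1]
    norm_num
  have hop : ∀ x : genPart hadm h,
      act (trAt ρ σ₀) x = genOp hadm h ⟨ℓ₀, hℓ₀, hS' ℓ₀ hℓ₀ hℓ₀S⟩ x := fun x => by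
    refine Subtype.ext ((hρ ℓ₀ hℓ₀S A₀ hA₀ σ₀ hσ₀ x).trans ?_)
    rw [hq1, show extChar η⁻¹ (1 : ZMod q) = (1 : O) by
      rw [← Units.val_one, extChar_coe, map_one, Units.val_one], one_smul]
    rfl
  obtain ⟨G, hG⟩ := exists_left_inverse_of_unit act hunit _ hop
  have hne₀ : ∀ x ∈ genPart hadm h,
      h1T (sqTwistChar N η) O ℓ₀ x = ((ℓ₀ : O) + 1) • x → x = 0 := by
    intro x hx hTx
    have h1 := hG ⟨x, hx⟩
    rw [show genOp hadm h ⟨ℓ₀, hℓ₀, hS' ℓ₀ hℓ₀ hℓ₀S⟩ ⟨x, hx⟩ =
      ((ℓ₀ : O) + 1) • (⟨x, hx⟩ : genPart hadm h) from Subtype.ext hTx, sub_self, map_zero] at h1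
    exact (congrArg Subtype.val h1).symm
  have hf : ∀ u, resHom (AlgHom.id O O) (sqTwistChar N η u : O) = 1 := fun u => by
    show residue O (sqTwistChar N η u : O) = 1
    rw [sqTwistChar_apply, Units.val_pow_eq_pow_val, map_pow, hη1, one_pow]
  have hℓM : ¬ ℓ₀ ∣ N * q * q := fun hd => hℓ₀n (hd.mul_right p)
  have hℓN : ¬ ℓ₀ ∣ N * q := fun hd => hℓM (hd.mul_right q)
  have hfree : Module.Free O (genPart hadm h) ∧ Module.Finite O (genPart hadm h) := by
    by_cases hbot : genPart hadm h = ⊥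
    · haveI : Subsingleton (genPart hadm h) := ⟨fun a b => Subtype.ext (by
        rw [(Submodule.eq_bot_iff _).1 hbot a a.2, (Submodule.eq_bot_iff _).1 hbot b b.2])⟩
      exact ⟨Module.Free.of_subsingleton O _, inferInstance⟩
    · refine free_genPart hadm h hf ⟨⟨ℓ₀, hℓ₀, hS' ℓ₀ hℓ₀ hℓ₀S⟩, hℓN, fun heq => ?_⟩
      have := hadm.finite_der (A := O)
      have := finite_end_h1 (𝒪 := O) hadm
      exact occurs_ne_of_left_inverse (twFam_comm _ S') h hbot (c := (ℓ₀ : O) + 1) _ G
        (fun x => coe_genOp hadm h ⟨ℓ₀, hℓ₀, hS' ℓ₀ hℓ₀ hℓ₀S⟩ x) hG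
        (heq.trans (by rw [map_add, map_natCast, map_one]))
  haveI := hfree.1
  haveI := hfree.2
  exact R59.TWRam.not_isUnipotentOnInertiaAt_of_point η h36 hqN hp2 hqp hη (genPart hadm h)
    (fun l _ x hx => h1T_mem_genPart hadm h l hx)
    (fun x hx hx0 => eq_zero_of_twFam_eq_zero hadm h (i := ⟨q, Fact.out, hq⟩) hlamq hx hx0)
    hℓM ((Int.natCast_dvd_natCast.2 (dvd_mul_right _ p)).trans hℓ₀1) hne₀ act hact hcomm ρ hirr
    hdet S hpS hqS hNS hρ hinj ψ hψ

end Fermat.Agent.LL.Pair
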