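/-
Change of coefficients in twisted `H¹` along a surjection (owner: helper61).
-/
import Fermat.Agent.LL.Pair.Congr
import Fermat.Agent.TW.Mod.Packaged

set_option autoImplicit false

noncomputable section

namespace Fermat.Agent.LL.Pair

open Fermat.Agent.TW.Mod CongruenceSubgroup
open Fermat.Agent.HK (heckeCoc HeckeIdx)

variable {𝒪 : Type} [CommRing 𝒪] {R R' : Type} [CommRing R] [CommRing R'] [Algebra 𝒪 R]
  [Algebra 𝒪 R'] {M : ℕ} (χ : (ZMod M)ˣ →* Rˣ) (χ' : (ZMod M)ˣ →* R'ˣ) (f : R →ₐ[𝒪] R')
  (hχ : ∀ u, f (χ u : R) = χ' u)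

/-- A derivation pushed along `f`. -/
def pushDer (c : Der (epsOf χ) R) : Der (epsOf χ') R' :=
  ⟨fun g => f ((c : Gamma0 M → R) g), fun g h => by
    simp only [Der.map_mul c g h, smul_eq_mul, map_add, map_mul, epsOf_apply, hχ]⟩

theorem pushDer_apply (c : Der (epsOf χ) R) (g : Gamma0 M) :
    (pushDer χ χ' f hχ c : Gamma0 M → R') g = f ((c : Gamma0 M → R) g) := rfl

theorem pushDer_cobound (a : R) :
    pushDer χ χ' f hχ (cobound (epsOf χ) R a) = cobound (epsOf χ') R' (f a) := by
  refine Subtype.ext (funext fun g => ?_)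
  rw [pushDer_apply, cobound_apply, cobound_apply, smul_eq_mul, smul_eq_mul, map_sub, map_mul,
    epsOf_apply, epsOf_apply, hχ]

/-- Change of coefficients on `H¹`. -/
def pushMap : H1 (epsOf χ) R →ₗ[𝒪] H1 (epsOf χ') R' where
  toFun x := Quotient.liftOn' x (fun c => Submodule.Quotient.mk (pushDer χ χ' f hχ c))
    fun c d hcd => by
    rw [Submodule.quotientRel_def] at hcd
    obtain ⟨a, ha⟩ := hcd
    rw [Submodule.Quotient.eq]
    refine ⟨f a, ?_⟩
    rw [← pushDer_cobound χ χ' f hχ a, ha]
    exact Subtype.ext (funext fun g => map_sub f _ _)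
  map_add' x y := by
    induction x using Submodule.Quotient.induction_on with
    | _ c =>
      induction y using Submodule.Quotient.induction_on with
      | _ d =>
        refine congrArg Submodule.Quotient.mk (Subtype.ext (funext fun g => ?_))
        exact map_add f _ _
  map_smul' r x := by
    induction x using Submodule.Quotient.induction_on with
    | _ c =>
      refine congrArg Submodule.Quotient.mk (Subtype.ext (funext fun g => ?_))
      exact map_smul f r _

theorem pushMap_mk (c : Der (epsOf χ) R) :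
    pushMap χ χ' f hχ (Submodule.Quotient.mk c) = Submodule.Quotient.mk (pushDer χ χ' f hχ c) :=
  rfl

theorem pushMap_smul (r : R) (x : H1 (epsOf χ) R) :
    pushMap χ χ' f hχ (r • x) = f r • pushMap χ χ' f hχ x := by
  induction x using Submodule.Quotient.induction_on with
  | _ c =>
    refine congrArg Submodule.Quotient.mk (Subtype.ext (funext fun g => ?_))
    exact map_mul f r _

theorem pushMap_h1T (p : ℕ) [Fact p.Prime] (x : H1 (epsOf χ) R) :
    pushMap χ χ' f hχ (h1T χ R p x) = h1T χ' R' p (pushMap χ χ' f hχ x) := by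
  induction x using Submodule.Quotient.induction_on with
  | _ c =>
    rw [h1T_mk, pushMap_mk, pushMap_mk, h1T_mk]
    refine congrArg Submodule.Quotient.mk (Subtype.ext (funext fun g => ?_))
    show f (∑ j : HeckeIdx M p, heckeWeight χ j • (c : Gamma0 M → R) (heckeCoc g j)) =
      ∑ j : HeckeIdx M p, heckeWeight χ' j • f ((c : Gamma0 M → R) (heckeCoc g j))
    rw [map_sum]
    refine Finset.sum_congr rfl fun j _ => ?_
    rw [smul_eq_mul, map_mul, smul_eq_mul]
    congr 1
    induction j using HeckeIdx.cases_upper_diag with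
    | h1 k => rw [heckeWeight_upper, heckeWeight_upper, map_one]
    | h2 hM =>
      rw [heckeWeight_diag, heckeWeight_diag, chiPrime, chiPrime]
      split_ifs <;> simp [hχ]

theorem pushMap_twFam (S : Set ℕ) (i : PrimeIdx S) (x : H1 (epsOf χ) R) :
    pushMap χ χ' f hχ (twFam χ S i x) = twFam χ' S i (pushMap χ χ' f hχ x) :=
  pushMap_h1T χ χ' f hχ i.1 x

variable {χ χ'} [NeZero M] (hadm : Admissible (epsOf χ)) (hf : Function.Surjective f)
include hadm hf

omit [NeZero M] in
theorem pushMap_surjective [IsAddTorsionFree R'] :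
    Function.Surjective (pushMap χ χ' f hχ) := by
  letI : Module R R' := Module.compHom R' (f : R →+* R')
  let π : R →ₗ[R] R' := { toFun := f, map_add' := map_add f, map_smul' := map_mul f }
  intro y
  induction y using Submodule.Quotient.induction_on with
  | _ d =>
    let d' : Der (epsOf χ) R' := ⟨fun g => (d : Gamma0 M → R') g, fun g h => by
      show (d : Gamma0 M → R') (g * h) = (d : Gamma0 M → R') g + f (epsOf χ g : R) * (d : Gamma0 M → R') h
      rw [Der.map_mul d g h, smul_eq_mul, epsOf_apply, epsOf_apply, hχ]⟩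
    obtain ⟨c, hc⟩ := hadm.der_map_surjective (π := π) hf d'
    exact ⟨Submodule.Quotient.mk c, congrArg Submodule.Quotient.mk
      (Subtype.ext (funext fun g => congrFun (congrArg Subtype.val hc) g))⟩

theorem pushMap_eq_zero_iff [IsAddTorsionFree R] (x : H1 (epsOf χ) R) :
    pushMap χ χ' f hχ x = 0 ↔
      x ∈ RingHom.ker f • (⊤ : Submodule R (H1 (epsOf χ) R)) := by
  constructor
  · intro hx
    induction x using Submodule.Quotient.induction_on with
    | _ c =>
      rw [pushMap_mk, Submodule.Quotient.mk_eq_zero] at hx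
      obtain ⟨a', ha'⟩ := hx
      obtain ⟨a, rfl⟩ := hf a'
      rw [show (Submodule.Quotient.mk c : H1 (epsOf χ) R) =
        Submodule.Quotient.mk (c - cobound (epsOf χ) R a) by
          rw [Submodule.Quotient.eq, sub_sub_cancel]; exact LinearMap.mem_range_self _ a]
      refine mk_mem_smul_top _ hadm fun g => RingHom.mem_ker.2 ?_
      have := congrFun (congrArg Subtype.val ha') g
      rw [pushDer_apply, cobound_apply, smul_eq_mul, epsOf_apply] at this
      show f ((c : Gamma0 M → R) g - (cobound (epsOf χ) R a : Gamma0 M → R) g) = 0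
      rw [map_sub, ← this, cobound_apply, smul_eq_mul, map_sub, map_mul, epsOf_apply, hχ, sub_self]
  · intro hx
    refine Submodule.smul_induction_on hx (fun r hr y _ => ?_) (fun y z hy hz => ?_)
    · rw [pushMap_smul, show f r = 0 from RingHom.mem_ker.1 hr, zero_smul]
    · rw [map_add, hy, hz, add_zero]

end Fermat.Agent.LL.Pair
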