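/-
Change of coefficients on the localised parts of twisted `H¹`, and the Hecke operators on
such parts (owner: helper87).
-/
import Fermat.Agent.LL.Pair.Specialise
import Fermat.Agent.LL.Pair.Transfer
import Fermat.Agent.LL.Pair.GenPart

set_option autoImplicit false
set_option synthInstance.maxHeartbeats 400000

noncomputable section

namespace Fermat.Agent.LL.Pair

open CongruenceSubgroup IsLocalRing Fermat.Agent.TW.Mod

variable {O : Type} [CommRing O] [IsDomain O] [IsDiscreteValuationRing O]
  [IsAdicComplete (maximalIdeal O) O] [IsAddTorsionFree O]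
variable {R : Type} [CommRing R] [Algebra O R] [IsLocalRing R] [Module.Finite O R]
  [IsAddTorsionFree R]
variable {R' : Type} [CommRing R'] [Algebra O R'] [IsLocalRing R'] [Module.Finite O R']
  [IsAddTorsionFree R']
variable {M : ℕ} [NeZero M] {χ : (ZMod M)ˣ →* Rˣ} {χ' : (ZMod M)ˣ →* R'ˣ} {S : Set ℕ}
  {lam : PrimeIdx S → ResidueField O}

section Push

variable (f : R →ₐ[O] R') (hχ : ∀ u, f (χ u : R) = χ' u)
  (hadm : Admissible (epsOf χ)) (hf : Function.Surjective f)
include hadm hf

omit [IsAddTorsionFree O] [Module.Finite O R'] [IsAddTorsionFree R'] in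
include hχ in
/-- A system survives a surjective change of coefficients. -/
theorem occurs_push (h : Occurs O (twFam χ S) lam) : Occurs O (twFam χ' S) lam := by
  have := finite_end_h1 (𝒪 := O) hadm
  have := hadm.finite_der (A := R)
  refine occurs_of_ker_le (twFam_comm χ S) (g := pushMap χ χ' f hχ)
    (fun i x => pushMap_twFam χ χ' f hχ S i x) (I := RingHom.ker f)
    (IsLocalRing.le_maximalIdeal (RingHom.ker_ne_top f)) ?_ h
  exact fun x hx => (pushMap_eq_zero_iff f hχ hadm hf x).1 hx

variable (hadm' : Admissible (epsOf χ')) (h : Occurs O (twFam χ S) lam)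
  (h' : Occurs O (twFam χ' S) lam)

omit hf in
/-- Change of coefficients between the parts. -/
def pushPart : genPart hadm h →ₗ[O] genPart hadm' h' :=
  haveI := finite_end_h1 (𝒪 := O) hadm
  haveI := finite_end_h1 (𝒪 := O) hadm'
  partMap (fun i x => pushMap_twFam χ χ' f hχ S i x) (twFam_comm χ S) (twFam_comm χ' S) h h'

omit hf [IsAddTorsionFree O] [IsLocalRing R'] [IsLocalRing R] in
theorem coe_pushPart (x : genPart hadm h) :
    (pushPart f hχ hadm hadm' h h' x : H1 (epsOf χ') R') = pushMap χ χ' f hχ x.1 := rfl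

omit [IsAddTorsionFree O] in
theorem pushPart_surjective : Function.Surjective (pushPart f hχ hadm hadm' h h') := by
  have := finite_end_h1 (𝒪 := O) hadm
  have := finite_end_h1 (𝒪 := O) hadm'
  exact partMap_surjective (fun i x => pushMap_twFam χ χ' f hχ S i x) (twFam_comm χ S)
    (twFam_comm χ' S) h h' (pushMap_surjective f hχ hadm hf)

omit [IsAddTorsionFree O] in
theorem pushPart_eq_zero_iff (x : genPart hadm h) :
    pushPart f hχ hadm hadm' h h' x = 0 ↔
      x ∈ RingHom.ker f • (⊤ : Submodule R (genPart hadm h)) := by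
  have := finite_end_h1 (𝒪 := O) hadm
  have := finite_end_h1 (𝒪 := O) hadm'
  exact partMap_eq_zero_iff (fun i x => pushMap_twFam χ χ' f hχ S i x) (twFam_comm χ S)
    (twFam_comm χ' S) h h' (fun x => pushMap_eq_zero_iff f hχ hadm hf x) x

omit hf [IsAddTorsionFree O] in
theorem pushPart_smul (r : R) (x : genPart hadm h) :
    pushPart f hχ hadm hadm' h h' (r • x) = f r • pushPart f hχ hadm hadm' h h' x :=
  Subtype.ext (pushMap_smul χ χ' f hχ r x.1)

omit hf [IsAddTorsionFree O] in
theorem pushPart_genOp (i : PrimeIdx S) (x : genPart hadm h) :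
    pushPart f hχ hadm hadm' h h' (genOp hadm h i x) =
      genOp hadm' h' i (pushPart f hχ hadm hadm' h h' x) :=
  Subtype.ext (pushMap_twFam χ χ' f hχ S i x.1)

end Push

section Operators

variable (hadm : Admissible (epsOf χ)) (h : Occurs O (twFam χ S) lam)

omit [IsAddTorsionFree O] in
/-- All Hecke operators preserve the part, for any coefficients. -/
theorem h1T_mem_genPart' (l : ℕ) [Fact l.Prime] {x : H1 (epsOf χ) R}
    (hx : x ∈ genPart hadm h) : h1T χ R l x ∈ genPart hadm h := by
  have := finite_end_h1 (𝒪 := O) hadm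
  have hmem : genIdem hadm h ∈
      Subalgebra.centralizer O ({h1T χ R l} : Set (Module.End R (H1 (epsOf χ) R))) := by
    refine (Algebra.adjoin_le ?_ : famAlg O (twFam χ S) ≤ _) (Occurs.idem_mem _ _)
    rintro _ ⟨j, rfl⟩
    rw [SetLike.mem_coe, Subalgebra.mem_centralizer_iff]
    rintro _ rfl
    exact LinearMap.ext fun y => h1T_comm χ l j.1 y
  rw [Subalgebra.mem_centralizer_iff] at hmem
  obtain ⟨y, rfl⟩ := hx
  exact ⟨h1T χ R l y, (LinearMap.congr_fun (hmem _ rfl) y).symm⟩

omit [IsAddTorsionFree O] in
/-- A shifted operator with nonzero residual value is injective on the part. -/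
theorem eq_zero_of_twFam_eq_smul {i : PrimeIdx S} {c : O}
    (hi : lam i ≠ algebraMap O (ResidueField O) c) {x : H1 (epsOf χ) R}
    (hx : x ∈ genPart hadm h) (hTx : twFam χ S i x = algebraMap O R c • x) : x = 0 := by
  have := finite_end_h1 (𝒪 := O) hadm
  obtain ⟨-, v, -, hv⟩ := h.exists_inv_sub_algebraMap (twFam_comm χ S) i c hi
  have h1 := LinearMap.congr_fun hv x
  rw [Module.End.mul_apply, Module.End.mul_apply, LinearMap.sub_apply,
    Module.algebraMap_end_apply, show h.idem (twFam_comm χ S) x = x from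
      genIdem_apply_self hadm h hx, hTx, algebraMap_smul, sub_self, map_zero] at h1
  exact h1.symm

omit [IsAddTorsionFree O] in
/-- An operator with nonzero residual value is injective on the part. -/
theorem eq_zero_of_twFam_eq_zero' {i : PrimeIdx S} (hi : lam i ≠ 0) {x : H1 (epsOf χ) R}
    (hx : x ∈ genPart hadm h) (hTx : twFam χ S i x = 0) : x = 0 :=
  eq_zero_of_twFam_eq_smul hadm h (c := 0) (by rwa [map_zero]) hx
    (by rw [hTx, map_zero, zero_smul])

omit [IsAddTorsionFree O] in
/-- `T - (ℓ + 1)` is injective on the part away from Eisenstein. -/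
theorem eq_zero_of_twFam_eq_succ_smul {i : PrimeIdx S}
    (hi : lam i ≠ (i.1 : ResidueField O) + 1) {x : H1 (epsOf χ) R}
    (hx : x ∈ genPart hadm h) (hTx : twFam χ S i x = ((i.1 : R) + 1) • x) : x = 0 :=
  eq_zero_of_twFam_eq_smul hadm h (c := (i.1 : O) + 1)
    (by rwa [map_add, map_natCast, map_one]) hx
    (by rw [hTx, map_add, map_natCast, map_one])

end Operators

end Fermat.Agent.LL.Pair
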