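/-
The pushed part at a point of the coefficient ring: diamond operators and the finite order
relation (owner: helper61).
-/
import Fermat.Agent.LL.Pair.Act
import Fermat.Agent.LL.Pair.PushPart
import Fermat.Agent.LL.Pair.NotUnipotent
import Fermat.Agent.LL.Pair.LevelNontriv
import Fermat.Agent.R59.TWLevel.Galois
import Fermat.Agent.LL.Pair.LevelZero

set_option autoImplicit false
set_option linter.style.haveILetI false
set_option synthInstance.maxHeartbeats 400000

noncomputable section

open IsLocalRing Fermat.Agent.TW.Mod CuspForm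

namespace Fermat.Agent.LL.Pair

local notation "Γℚ" => (AlgebraicClosure ℚ ≃ₐ[ℚ] AlgebraicClosure ℚ)

variable {U : Setting} {i₀ : U.Idx} {n R : ℕ} {qv : Fin R → ℕ}
  {D : GaloisRep.DeformationRingData U.O U.ρbar (U.defCond qv)}

/-- The hypotheses on a specialisation of the coefficients at which `q` has nebentypus `η²`. -/
structure IsPushPoint (W : ℕ → (Coeff U n R)ˣ)
    (χ : (ZMod (lev U i₀ qv))ˣ →* (Coeff U n R)ˣ) (f : Coeff U n R →ₐ[U.O] U.O)
    (lam : PrimeIdx (lowSet U i₀) → ResidueField U.O) (N q : ℕ) (η : (ZMod q)ˣ →* U.Oˣ) : Prop where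
  lev_eq : lev U i₀ qv = N * q
  prime : q.Prime
  not_dvd : ¬ q ∣ N
  ne_p : q ≠ U.p
  mem : q ∈ U.auxSet qv
  primes : ∀ l : ℕ, l.Prime → l ∣ N → l ∈ U.auxSet qv
  eta_sq : ∃ u, η u ^ 2 ≠ 1
  eta_res : ∀ u, residue U.O (η u : U.O) = 1
  char : ∀ u, f (χ u : Coeff U n R) =
    ((η (ZMod.unitsMap (lev_eq ▸ dvd_mul_left q N) u) ^ 2 : U.Oˣ) : U.O)
  weight : ∀ ℓ : ℕ, ℓ.Prime → ℓ ∉ (↑(U.auxSet qv) : Set ℕ) → ∀ hℓ : ℓ.Coprime q,
    f (((W ℓ)⁻¹ : (Coeff U n R)ˣ) : Coeff U n R) = ((η (ZMod.unitOfCoprime ℓ hℓ))⁻¹ : U.Oˣ)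
  notMem_low : q ∉ lowSet U i₀
  lam_ne : lam ⟨q, prime, notMem_low⟩ ≠ 0

variable [NeZero (lev U i₀ qv)] {L : ℕ} [NeZero L] [Fact (HasIntegralStructure L 2)]
  {χ : (ZMod (lev U i₀ qv))ˣ →* (Coeff U n R)ˣ} {hadm : Admissible (epsOf χ)}
  {lam : PrimeIdx (lowSet U i₀) → ResidueField U.O}
  {h : Occurs U.O (twFam χ (lowSet U i₀)) lam} {W : ℕ → (Coeff U n R)ˣ}

/-- The residual representation of a deformation with coefficients in any local algebra is
absolutely irreducible. -/
theorem residual_absIrr_of_isEquiv {T : Type} [CommRing T] [IsLocalRing T] [Algebra U.O T]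
    [IsLocalHom (algebraMap U.O T)] (ρ : GaloisRepAdic T)
    (h : ρ.residual.IsEquiv (U.ρbar.baseChangeAlong (ResidueField.map (algebraMap U.O T))))
    (hdet : ρ.DetIsCyclotomic U.p) : ρ.residual.IsAbsolutelyIrreducible := by
  obtain ⟨e⟩ := h
  set κ := ResidueField.map (algebraMap U.O T) with hκ
  letI : Algebra (ResidueField U.O) (ResidueField T) := κ.toAlgebra
  have h2 : (2 : ResidueField T) ≠ 0 := fun h2 => by
    have : CharP (ResidueField T) U.p := (CharP.charP_iff_prime_eq_zero Fact.out).2 (by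
      rw [← map_natCast (residue T), residue_eq_zero_iff]; exact hdet.1)
    exact Ring.two_ne_zero (by rw [ringChar.eq (ResidueField T) U.p]; exact U.two_ne_p) h2
  have hconj : ∀ σ : Γℚ, (U.ρbar.baseChangeAlong κ).ρ σ =
      e.toLinearEquiv.conj (ρ.residual.ρ σ) := fun σ => by
    refine LinearMap.ext fun x => ?_
    obtain ⟨y, rfl⟩ := e.toLinearEquiv.surjective x
    rw [LinearEquiv.conj_apply_apply, LinearEquiv.symm_apply_apply]
    exact (e.map_apply σ y).symm
  refine CondLevel.isAbsolutelyIrreducible_of_trace_det h2 κ U.ρbar.finrank_eq U.ρbar.ρ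
    (R59.TWRam.isIrreducible_of_absIrr U.ρbar U.absIrr) complexConjugation
    complexConjugation_mul_self
    (R59.det_complexConjugation (ρ := GaloisRepAdic.ofResidualGaloisRep U.ρbar) U.detCyc)
    ρ.residual (fun σ => ?_) fun σ => ?_
  · rw [← LinearMap.trace_conj' (ρ.residual.ρ σ) e.toLinearEquiv, ← hconj]
    exact LinearMap.trace_baseChange (U.ρbar.ρ σ) (ResidueField T)
  · rw [show LinearMap.det (ρ.residual.ρ σ) = LinearMap.det ((U.ρbar.baseChangeAlong κ).ρ σ) by
      rw [hconj, LinearEquiv.conj_apply, LinearMap.comp_assoc, LinearMap.det_conj]]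
    exact LinearMap.det_baseChange (A := ResidueField T) (U.ρbar.ρ σ)

/-- A character pushed along the specialisation. -/
def pushChar (χ : (ZMod (lev U i₀ qv))ˣ →* (Coeff U n R)ˣ) (f : Coeff U n R →ₐ[U.O] U.O) :
    (ZMod (lev U i₀ qv))ˣ →* U.Oˣ :=
  (Units.map (f : Coeff U n R →* U.O)).comp χ

omit [NeZero (lev U i₀ qv)] in
theorem pushChar_apply (f : Coeff U n R →ₐ[U.O] U.O) (u : (ZMod (lev U i₀ qv))ˣ) :
    f (χ u : Coeff U n R) = pushChar χ f u := rfl

omit [NeZero (lev U i₀ qv)] in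
theorem admissible_pushChar (hadm : Admissible (epsOf χ)) (f : Coeff U n R →ₐ[U.O] U.O) :
    Admissible (epsOf (pushChar χ f)) :=
  ⟨hadm.neg_one_mem, fun γ hγ => by
    have h1 := congrArg (Units.map (f : Coeff U n R →* U.O)) (hadm.trivial_of_finOrder γ hγ)
    rw [map_one] at h1
    exact h1⟩

omit [NeZero (lev U i₀ qv)] in
theorem isSurjective_point (f : Coeff U n R →ₐ[U.O] U.O) : Function.Surjective f :=
  fun c => ⟨algebraMap U.O _ c, f.commutes c⟩

/-- The specialised part with a finite algebra through which the deformation ring acts, nowhere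
unipotent at `q`. -/
structure PushCore (a : Act D L hadm h W) (f : Coeff U n R →ₐ[U.O] U.O) (q : ℕ) : Type 1 where
  T : Type
  [instCommRing : CommRing T]
  [instLocal : IsLocalRing T]
  [instAlgebra : Algebra U.O T]
  [instFinite : Module.Finite U.O T]
  [instTorsionFree : Module.IsTorsionFree U.O T]
  [instNoetherian : IsNoetherianRing T]
  toT : D.R →ₐ[U.O] T
  toT_local : IsLocalHom (toT : D.R →+* T)
  residual : (D.ρ.baseChangeAlong (toT : D.R →+* T) toT_local).residual.IsAbsolutelyIrreducible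
  nowhere : ∀ (O' : Type) [CommRing O'] [IsDomain O'] [IsDiscreteValuationRing O']
    [IsAdicComplete (maximalIdeal O') O'] [Finite (ResidueField O')] [CharZero O']
    [Algebra U.O O'] [Module.Finite U.O O'] [IsLocalHom (algebraMap U.O O')],
    Function.Injective (algebraMap U.O O') → ∀ (ψ : T →ₐ[U.O] O')
      (hψ : IsLocalHom (ψ : T →+* O')),
      ¬ ((D.ρ.baseChangeAlong (toT : D.R →+* T) toT_local).baseChangeAlong
        (ψ : T →+* O') hψ).IsUnipotentOnInertiaAt q
  X : Type
  [instAddCommGroup : AddCommGroup X]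
  [instModule : Module U.O X]
  [instModuleT : Module T X]
  [instTower : IsScalarTower U.O T X]
  [instFree : Module.Free U.O X]
  [instFiniteX : Module.Finite U.O X]
  π : genPart hadm h →ₗ[U.O] X
  π_eq_zero : ∀ y, π y = 0 ↔ y ∈ RingHom.ker f • (⊤ : Submodule (Coeff U n R) (genPart hadm h))
  π_act : ∀ (x : D.R) y, π (a.act x y) = toT x • π y
  rank : Module.finrank U.O X = Module.finrank (Coeff U n R) (genPart hadm h)

attribute [instance] PushCore.instCommRing PushCore.instLocal PushCore.instAlgebra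
  PushCore.instFinite PushCore.instTorsionFree PushCore.instNoetherian PushCore.instAddCommGroup
  PushCore.instModule PushCore.instModuleT PushCore.instTower PushCore.instFree
  PushCore.instFiniteX

set_option maxHeartbeats 4000000 in
-- one long construction
theorem Act.nonempty_pushCore (inp : Inputs) (a : Act D L hadm h W)
    (hf : ∀ u, resHom (R59.twAug U.O U.p n R) (χ u : Coeff U n R) = 1)
    (hne : ∃ i : PrimeIdx (lowSet U i₀), ¬ i.1 ∣ lev U i₀ qv ∧
      lam i ≠ (i.1 : ResidueField U.O) + 1)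
    {f : Coeff U n R →ₐ[U.O] U.O} {N q : ℕ} {η : (ZMod q)ˣ →* U.Oˣ}
    (P : IsPushPoint W χ f lam N q η) : Nonempty (PushCore a f q) := by
  classical
  have hadm' := admissible_pushChar hadm f
  have hfs := isSurjective_point f
  have h' := occurs_push f (pushChar_apply f) hadm hfs h
  obtain ⟨hfree, hfin⟩ := free_genPart hadm h hf hne
  haveI : Fact q.Prime := ⟨P.prime⟩
  let π := pushPart f (pushChar_apply f) hadm hadm' h h'
  have hs : Function.Surjective π := pushPart_surjective f (pushChar_apply f) hadm hfs hadm' h h'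
  have hker := pushPart_eq_zero_iff f (pushChar_apply f) hadm hfs hadm' h h'
  have hsmul := pushPart_smul f (pushChar_apply f) hadm hadm' h h'
  have hfin' : Module.Finite U.O (genPart hadm h) := Module.Finite.trans (Coeff U n R) _
  have hfinX : Module.Finite U.O (genPart hadm' h') := Module.Finite.of_surjective π hs
  obtain ⟨de, hde⟩ := exists_descend (R := Coeff U n R) π hs fun e x hx => by
    rw [hker] at hx ⊢
    refine Submodule.smul_induction_on hx (fun r hr y _ => ?_) fun y z hy hz => ?_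
    · rw [map_smul]
      exact Submodule.smul_mem_smul hr Submodule.mem_top
    · rw [map_add]
      exact add_mem hy hz
  -- the residual system of the specialisation is not Eisenstein, so its part is free and non zero
  have hf' : ∀ u, resHom (AlgHom.id U.O U.O) (pushChar χ f u : U.O) = 1 := fun u => by
    show residue U.O (f (χ u : Coeff U n R)) = 1
    rw [P.char, Units.val_pow_eq_pow_val, map_pow, P.eta_res, one_pow]
  obtain ⟨hfreeX, -⟩ := free_genPart hadm' h' hf' hne
  haveI hntX : Nontrivial (genPart hadm' h') := by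
    have := finite_end_h1 (𝒪 := U.O) hadm'
    rw [Submodule.nontrivial_iff_ne_bot, Ne, LinearMap.range_eq_bot]
    intro h0
    have h1 := h'.char_idem (twFam_comm _ (lowSet U i₀))
    rw [show (⟨h'.idem (twFam_comm _ (lowSet U i₀)), h'.idem_mem _⟩ : famAlg U.O _) = 0 from
      Subtype.ext h0, map_zero] at h1
    exact zero_ne_one h1
  let Φ : heckeLocal L (↑(U.auxSet qv) : Set ℕ) U.O a.θ →ₐ[U.O]
      Module.End U.O (genPart hadm' h') := de.comp a.toEnd
  let J := RingHom.ker (Φ : heckeLocal L (↑(U.auxSet qv) : Set ℕ) U.O a.θ →+*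
    Module.End U.O (genPart hadm' h'))
  have hJ : J ≠ ⊤ := RingHom.ker_ne_top _
  let T : Type := heckeLocal L (↑(U.auxSet qv) : Set ℕ) U.O a.θ ⧸ J
  haveI : Nontrivial T := Ideal.Quotient.nontrivial_iff.mpr hJ
  have hmks : Function.Surjective (Ideal.Quotient.mk J) := Ideal.Quotient.mk_surjective
  haveI : IsLocalRing T := IsLocalRing.of_surjective' _ hmks
  let ι : T →ₐ[U.O] Module.End U.O (genPart hadm' h') := Ideal.kerLiftAlg Φ
  have hι : Function.Injective ι := Ideal.kerLiftAlg_injective Φ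
  have hmkl : IsLocalHom (Ideal.Quotient.mk J) := IsLocalHom.of_surjective _ hmks
  let toT : D.R →ₐ[U.O] T := (Ideal.Quotient.mkₐ U.O J).comp a.toHecke
  have htoT : IsLocalHom (toT : D.R →+* T) :=
    ⟨fun x hx => a.toHecke_local.map_nonunit x (hmkl.map_nonunit _ hx)⟩
  haveI : Module.Finite U.O (heckeLocal L (↑(U.auxSet qv) : Set ℕ) U.O a.θ) := inferInstance
  haveI : Module.Finite U.O T :=
    Module.Finite.of_surjective (Ideal.Quotient.mkₐ U.O J).toLinearMap hmks
  haveI : IsNoetherianRing T := isNoetherianRing_of_surjective _ _ _ hmks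
  haveI : Module.IsTorsionFree U.O T := hι.moduleIsTorsionFree ι (fun c x => map_smul ι c x)
  haveI : IsLocalHom (algebraMap U.O T) := by
    rw [← toT.comp_algebraMap]
    exact RingHom.isLocalHom_comp _ _
  let ρT := D.ρ.baseChangeAlong (toT : D.R →+* T) htoT
  have hdet : ρT.DetIsCyclotomic U.p := Tangent.detIsCyclotomic_baseChangeAlong _ htoT
    (R59.TWLevel.detIsCyclotomic_of_cond D.isOfType)
  have hirr : ρT.residual.IsAbsolutelyIrreducible := residual_absIrr_of_isEquiv ρT
    (TWGal.residual_baseChangeAlong_isEquiv D.ρ D.residual_isEquiv toT htoT) hdet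
  letI : Module T (genPart hadm' h') := Module.compHom _ ι.toRingHom
  haveI : IsScalarTower U.O T (genPart hadm' h') := IsScalarTower.of_algebraMap_smul fun c x => by
    show ι (algebraMap U.O T c) x = c • x
    rw [AlgHom.commutes, Module.algebraMap_end_apply]
  have hact : ∀ (x : D.R) y, π (a.act x y) = ι (toT x) (π y) := fun x y => (hde _ y).symm
  refine ⟨{ T := T, toT := toT, toT_local := htoT, residual := hirr
            X := genPart hadm' h', π := π, π_eq_zero := hker, π_act := hact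
            rank := (finrank_eq_of_coinvariants f π hs hker hsmul).symm
            nowhere := fun O' _ _ _ _ _ _ _ _ _ hinj ψ hψ => ?_ }⟩
  -- the key input
  have key : ∀ (M : ℕ) [NeZero M] (hM : M = N * q) (χ₁ : (ZMod M)ˣ →* U.Oˣ)
      (hχ₁ : ∀ u, (χ₁ u : U.O) =
        ((η (ZMod.unitsMap (hM ▸ dvd_mul_left q N) u) ^ 2 : U.Oˣ) : U.O))
      (hadm₁ : Admissible (epsOf χ₁)) (h₁ : Occurs U.O (twFam χ₁ (lowSet U i₀)) lam)
      (act : T →ₐ[U.O] Module.End U.O (genPart hadm₁ h₁)), Function.Injective act →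
      (∀ (l : ℕ) [Fact l.Prime] (z : T) (x : genPart hadm₁ h₁),
        h1T χ₁ U.O l (act z x : H1 (epsOf χ₁) U.O) =
          (act z ⟨h1T χ₁ U.O l x, h1T_mem_genPart hadm₁ h₁ l x.2⟩ : H1 (epsOf χ₁) U.O)) →
      (∀ (l : ℕ) [Fact l.Prime], l ∉ U.auxSet qv → ∀ A : ValuationSubring (AlgebraicClosure ℚ),
        A.LiesOverPrime l → ∀ σ : Γℚ, A.IsFrobeniusAt σ l → ∀ x : genPart hadm₁ h₁,
          (act (trAt ρT σ) x : H1 (epsOf χ₁) U.O) =
            extChar η⁻¹ (l : ZMod q) • h1T χ₁ U.O l x) →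
      ¬ (ρT.baseChangeAlong (ψ : T →+* O') hψ).IsUnipotentOnInertiaAt q := by
    rintro M _ rfl χ₁ hχ₁ hadm₁ h₁ act hinjact hcomm hρ
    obtain rfl : χ₁ = sqTwistChar N η := MonoidHom.ext fun u => Units.ext (by
      rw [hχ₁, sqTwistChar_apply])
    haveI : Fact q.Prime := ⟨P.prime⟩
    haveI : NeZero N := ⟨fun h0 => NeZero.ne (N * q) (by rw [h0, zero_mul])⟩
    exact not_isUnipotentOnInertiaAt_of_part inp.carayol U.two_ne_p P.not_dvd P.ne_p η P.eta_sq
      P.eta_res hadm₁ h₁ P.notMem_low P.lam_ne (U.auxSet qv)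
      (Finset.mem_union_left _ (Finset.mem_insert_self _ _)) P.mem P.primes
      (fun l _ hl => notMem_lowSet U i₀
        (notMem_baseSet_of_notMem_auxSet fun h => hl (Finset.mem_coe.mp h)))
      act hinjact hcomm ρT hirr hdet hρ O' hinj ψ hψ
  refine key _ P.lev_eq (pushChar χ f) (fun u => (pushChar_apply f u).symm.trans (P.char u)) hadm' h'
    ι hι (fun l _ z x => ?_) fun l _ hl A hA σ hσ x => ?_
  · let op : Module.End U.O (genPart hadm' h') :=
      (h1T (pushChar χ f) U.O l).restrict fun y hy => h1T_mem_genPart hadm' h' l hy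
    obtain ⟨t, rfl⟩ := hmks z
    have hmem := a.toEnd_mem ((Subalgebra.centralizer U.O {op}).comap de) (fun ℓ hℓ hℓS => by
      rw [Subalgebra.mem_comap, Subalgebra.mem_centralizer_iff]
      rintro _ rfl
      refine LinearMap.ext fun y => ?_
      obtain ⟨y, rfl⟩ := hs y
      haveI : Fact ℓ.Prime := ⟨hℓ⟩
      rw [Module.End.mul_apply, Module.End.mul_apply, hde, LinearMap.smul_apply, hsmul,
        pushPart_genOp f (pushChar_apply f) hadm hadm' h h', map_smul]
      obtain ⟨z, hz⟩ := hs (op (π y))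
      rw [← hz, hde, LinearMap.smul_apply, hsmul,
        pushPart_genOp f (pushChar_apply f) hadm hadm' h h', hz]
      refine congrArg (_ • ·) (Subtype.ext ?_)
      exact h1T_comm (pushChar χ f) l ℓ _) t
    rw [Subalgebra.mem_comap, Subalgebra.mem_centralizer_iff] at hmem
    exact congrArg Subtype.val (LinearMap.congr_fun (hmem op rfl) x)
  · have hl' : l ∉ (↑(U.auxSet qv) : Set ℕ) := fun h => hl (Finset.mem_coe.mp h)
    obtain ⟨y, rfl⟩ := hs x
    have hlq : l.Coprime q := (Nat.coprime_primes Fact.out P.prime).2 fun e => hl (e ▸ P.mem)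
    rw [trAt_baseChangeAlong, show ι ((toT : D.R →+* T) (trAt D.ρ σ)) (π y) =
      π (a.act (trAt D.ρ σ) y) from (hact _ y).symm, a.act_trace Fact.out hl' hA hσ,
      LinearMap.smul_apply, hsmul, P.weight l Fact.out hl' hlq]
    haveI : Fact q.Prime := ⟨P.prime⟩
    rw [show extChar η⁻¹ (l : ZMod q) = ((η (ZMod.unitOfCoprime l hlq))⁻¹ : U.Oˣ) by
      rw [← ZMod.coe_unitOfCoprime l hlq, extChar_coe, MonoidHom.inv_apply]]
    refine congrArg (_ • ·) ?_
    exact congrArg Subtype.val (pushPart_genOp f (pushChar_apply f) hadm hadm' h h' _ y)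

/-- Nowhere unipotent: the diamond generator minus one is injective on the specialised part. -/
theorem Act.mem_of_diamond_sub_one (inp : Inputs) (a : Act D L hadm h W)
    (hf : ∀ u, resHom (R59.twAug U.O U.p n R) (χ u : Coeff U n R) = 1)
    (hne : ∃ i : PrimeIdx (lowSet U i₀), ¬ i.1 ∣ lev U i₀ qv ∧
      lam i ≠ (i.1 : ResidueField U.O) + 1)
    {f : Coeff U n R →ₐ[U.O] U.O} {N q : ℕ} [NeZero q] {η : (ZMod q)ˣ →* U.Oˣ}
    (P : IsPushPoint W χ f lam N q η) (Dm : TWGal.Diamond D.ρ U.p q) (g : (ZMod q)ˣ)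
    (hg : ∀ u, u ∈ Subgroup.zpowers g) (y : genPart hadm h)
    (hy : a.act ((Dm.δ g : D.R) - 1) y ∈
      RingHom.ker f • (⊤ : Submodule (Coeff U n R) (genPart hadm h))) :
    y ∈ RingHom.ker f • (⊤ : Submodule (Coeff U n R) (genPart hadm h)) := by
  obtain ⟨C⟩ := a.nonempty_pushCore inp hf hne P
  let g' : D.R →+* C.T := C.toT
  let DT : TWGal.Diamond (D.ρ.baseChangeAlong g' C.toT_local) U.p q :=
    { P := Dm.P, liesOver := Dm.liesOver, φ := Dm.φ, isFrobenius := Dm.isFrobenius
      split := Dm.split.baseChange g' C.toT_local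
      residue_ne := by
        rw [Dm.split.baseChange_char, Dm.split.baseChange_char]
        intro h0
        rw [← sub_eq_zero, ← map_sub, residue_eq_zero_iff, ← map_sub] at h0
        refine Dm.residue_ne ?_
        rw [← sub_eq_zero, ← map_sub, residue_eq_zero_iff, mem_maximalIdeal]
        exact fun hu => (mem_maximalIdeal _).1 h0 (hu.map g')
      δ := (Units.map g'.toMonoidHom).comp Dm.δ
      char_inertia := fun σ hσ => by
        obtain ⟨h0, h1⟩ := Dm.char_inertia σ hσ
        refine ⟨?_, ?_⟩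
        · show Units.map g'.toMonoidHom (Dm.split.char 0 σ) = _
          rw [h0]; rfl
        · show Units.map g'.toMonoidHom (Dm.split.char 1 σ) = _
          rw [h1, map_inv]; rfl
      δ_pow := fun u => by
        rw [MonoidHom.comp_apply, ← map_pow, Dm.δ_pow, map_one]
      δ_residue := fun u => by
        show residue C.T (g' (Dm.δ u : D.R)) = 1
        rw [← sub_eq_zero, ← map_one (residue C.T), ← map_sub, residue_eq_zero_iff, ← map_one g',
          ← map_sub, mem_maximalIdeal]
        intro hu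
        refine (mem_maximalIdeal _).1 ?_ (C.toT_local.map_nonunit _ hu)
        rw [← residue_eq_zero_iff, map_sub, Dm.δ_residue, map_one, sub_self] }
  haveI : Module.IsTorsionFree U.O C.X := inferInstance
  refine (C.π_eq_zero y).1 (eq_zero_of_diamond_sub_one_smul P.prime Fact.out U.p_mem DT g hg
    (fun O' _ _ _ _ _ _ _ _ _ hinj ψ hψ => C.nowhere O' hinj ψ hψ) C.X ?_)
  have h1 := (C.π_eq_zero _).2 hy
  rw [C.π_act, map_sub, map_one] at h1
  exact h1

/-- Nowhere unipotent: the finite order relation on the specialised part. -/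
theorem Act.finiteOrder_mem (inp : Inputs) (a : Act D L hadm h W)
    (hf : ∀ u, resHom (R59.twAug U.O U.p n R) (χ u : Coeff U n R) = 1)
    (hne : ∃ i : PrimeIdx (lowSet U i₀), ¬ i.1 ∣ lev U i₀ qv ∧
      lam i ≠ (i.1 : ResidueField U.O) + 1)
    (i : U.Idx) {f : Coeff U n R →ₐ[U.O] U.O} {N : ℕ} {η : (ZMod i.1)ˣ →* U.Oˣ}
    (P : IsPushPoint W χ f lam N i.1 η) (y : genPart hadm h) :
    a.act ((∏ᶠ ζ ∈ {ζ : U.O | ζ ^ U.p ^ padicValNat U.p (i.1 - 1) = 1 ∧ ζ ≠ 1},
      (trAt D.ρ (U.tame i) -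
        algebraMap U.O D.R (ζ + ζ ^ (U.p ^ padicValNat U.p (i.1 - 1) - 1)))) ^
          Module.finrank (Coeff U n R) (genPart hadm h)) y ∈
      RingHom.ker f • (⊤ : Submodule (Coeff U n R) (genPart hadm h)) := by
  obtain ⟨C⟩ := a.nonempty_pushCore inp hf hne P
  refine (C.π_eq_zero _).1 ?_
  have hres : ∀ σ ∈ (U.place i).inertiaSubgroupIn ℚ,
      (D.ρ.baseChangeAlong (C.toT : D.R →+* C.T) C.toT_local).residual.ρ σ = 1 := fun σ hσ =>
    residual_baseChangeAlong_eq_one _ C.toT_local (residual_eq_one_of_isEquiv D.residual_isEquiv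
      (U.hard_isUnramifiedAt i _ (U.place_liesOver i) σ hσ))
  have h := finprod_pow_finrank_smul_eq_zero (O := U.O)
    (ρ := D.ρ.baseChangeAlong (C.toT : D.R →+* C.T) C.toT_local) Fact.out U.two_ne_p U.p_mem
    (U.hard_prime i) (U.hard_ne_p i) (U.one_mod i.1 i.2)
    (Tangent.detIsCyclotomic_baseChangeAlong _ C.toT_local
      (R59.TWLevel.detIsCyclotomic_of_cond D.isOfType))
    (U.place_liesOver i) (U.frob_spec i) (U.tame_spec i) hres (U.zeta i.1 i.2).choose_spec
    (fun O' _ _ _ _ _ _ _ _ _ hinj ψ hψ => C.nowhere O' hinj ψ hψ) C.X (C.π y)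
  rw [C.π_act, ← C.rank, map_pow]
  refine Eq.trans ?_ h
  congr 2
  haveI : NeZero (U.p ^ padicValNat U.p (i.1 - 1)) := ⟨pow_ne_zero _ (Fact.out : U.p.Prime).ne_zero⟩
  have hfin : {ζ : U.O | ζ ^ U.p ^ padicValNat U.p (i.1 - 1) = 1 ∧ ζ ≠ 1}.Finite :=
    (Polynomial.nthRootsFinset (U.p ^ padicValNat U.p (i.1 - 1)) (1 : U.O)).finite_toSet.subset
      fun ζ hζ => Finset.mem_coe.2 ((Polynomial.mem_nthRootsFinset (NeZero.pos _) 1).2 hζ.1)
  rw [finprod_mem_eq_finite_toFinset_prod _ hfin, finprod_mem_eq_finite_toFinset_prod _ hfin,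
    map_prod]
  refine Finset.prod_congr rfl fun ζ _ => ?_
  rw [map_sub, AlgHom.commutes, trAt_baseChangeAlong]
  rfl

end Fermat.Agent.LL.Pair
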