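/-
The finite order relation at the hard prime on the second module (owner: helper84).
-/
import Fermat.Agent.LL.Pair.PushPoint
import Fermat.Agent.LL.Pair.CongrField
import Fermat.Agent.LL.Pair.LevelZero
import Fermat.Agent.LL.Pair.Levels

set_option autoImplicit false
set_option synthInstance.maxHeartbeats 400000

noncomputable section

open IsLocalRing Fermat.Agent.TW.Mod CuspForm

namespace Fermat.Agent.LL.Pair

variable {U : Setting} {i₀ : U.Idx} {n R : ℕ} {qv : Fin R → ℕ}

/-- The hard character has a value whose square is not one. -/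
theorem hardChar_sq_ne_one (i₀ : U.Idx) : hardChar U i₀ (unitGen i₀.1) ^ 2 ≠ 1 := by
  have : Fact i₀.1.Prime := ⟨hard_prime' U i₀⟩
  intro h
  rw [hardChar_gen] at h
  have h1 : U.p ^ padicValNat U.p (i₀.1 - 1) ∣ 2 := by
    rw [← orderOf_zetaUnit]
    exact orderOf_dvd_of_pow_eq_one h
  have hv : U.p ∣ i₀.1 - 1 :=
    (Nat.modEq_iff_dvd' (hard_prime' U i₀).one_le).1 (U.one_mod i₀.1 i₀.2).symm
  have hne : padicValNat U.p (i₀.1 - 1) ≠ 0 := by
    have := one_le_padicValNat_of_dvd (by have := (hard_prime' U i₀).two_le; omega) hv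
    omega
  exact U.two_ne_p ((Nat.prime_dvd_prime_iff_eq Fact.out Nat.prime_two).1
    ((dvd_pow_self U.p hne).trans h1))

/-- The augmentation kills the weights of the auxiliary primes. -/
theorem twAug_etaAt_aux (hq : U.IsAux n qv) {q : ℕ} (h : q ∈ auxPrimes qv) (ℓ : ℕ) :
    R59.twAug U.O U.p n R (etaAt (eta U i₀ n qv) q ℓ : Coeff U n R) = 1 := by
  rw [etaAt]
  split_ifs
  · exact twAug_eta_aux hq h _
  · rw [Units.val_one, map_one]

/-- The augmentation of the second character is the square of the hard character. -/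
theorem twAug_char₁ (hq : U.IsAux n qv) (u : (ZMod (lev U i₀ qv))ˣ) :
    R59.twAug U.O U.p n R (char₁ U i₀ n qv u : Coeff U n R) =
      ((hardChar U i₀ (ZMod.unitsMap (dvd_mul_left i₀.1 (lowLevel U i₀ qv)) u) ^ 2 : U.Oˣ) : U.O) := by
  rw [char₁, chiTot, MonoidHom.mul_apply, MonoidHom.finsetProd_apply, Units.val_mul, map_mul,
    dPart_of_dvd _ ((Nat.div_dvd_of_dvd (hard_dvd U i₀)).trans (M_dvd_lev U i₀ qv)),
    Units.coe_prod, map_prod, Finset.prod_insert (hard_notMem_aux hq),
    dPart_of_dvd _ (dvd_mul_left i₀.1 (lowLevel U i₀ qv)),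
    Finset.prod_eq_one fun q hmem => ?_]
  · simp only [liftChar, MonoidHom.one_apply, MonoidHom.comp_apply, MonoidHom.pow_apply,
      Units.val_one, map_one, one_mul, mul_one, Units.val_pow_eq_pow_val, map_pow, eta_hard hq,
      AlgHom.commutes, Algebra.algebraMap_self, RingHom.id_apply]
  · rw [dPart_of_dvd _ (dvd_lev_of_mem U i₀ qv hmem)]
    simp [liftChar, twAug_eta_aux hq hmem]

/-- The augmentation is a push point for the second module. -/
theorem isPushPoint₁ (B : Base U i₀) (hq : U.IsAux n qv) :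
    IsPushPoint (weight₁ U i₀ n qv) (char₁ U i₀ n qv) (R59.twAug U.O U.p n R) (sys B qv)
      (lowLevel U i₀ qv) i₀.1 (hardChar U i₀) where
  lev_eq := rfl
  prime := hard_prime' U i₀
  not_dvd := fun h => (hard_prime' U i₀).not_dvd_one (by
    rcases (hard_prime' U i₀).dvd_mul.1 h with h | h
    · exact ((hard_prime' U i₀).coprime_iff_not_dvd.1 coprime_hard_low h).elim
    · obtain ⟨q, hq', h'⟩ := (Prime.dvd_finsetProd_iff (hard_prime' U i₀).prime _).1 h
      exact absurd ((Nat.prime_dvd_prime_iff_eq (hard_prime' U i₀) (prime_of_mem_auxPrimes hq hq')).1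
        h' ▸ hq') (hard_notMem_aux hq))
  ne_p := hard_ne_p' U i₀
  mem := Finset.mem_union_left _ (Finset.mem_insert_of_mem
    (Nat.mem_primeFactors.mpr ⟨hard_prime' U i₀, hard_dvd U i₀, NeZero.ne _⟩))
  primes := fun l hl hd => by
    rcases mem_primeFactors_or_of_dvd_lev (i₀ := i₀) hq hl (hd.mul_right _) with h | h
    · exact Finset.mem_union_left _ (Finset.mem_insert_of_mem h)
    · exact Finset.mem_union_right _ h
  eta_sq := ⟨_, hardChar_sq_ne_one i₀⟩
  eta_res := fun u => residue_eq_one_of_pow U (v := padicValNat U.p (i₀.1 - 1))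
    (by rw [← Units.val_pow_eq_pow_val, hardChar_pow, Units.val_one])
  char := fun u => twAug_char₁ hq u
  weight := fun ℓ _ _ hco => by
    have h : R59.twAug U.O U.p n R (weight₁ U i₀ n qv ℓ : Coeff U n R) =
        (hardChar U i₀ (ZMod.unitOfCoprime ℓ hco) : U.O) := by
      rw [weight₁, Units.coe_prod, map_prod, Finset.prod_insert (hard_notMem_aux hq),
        Finset.prod_eq_one fun q hmem => twAug_etaAt_aux hq hmem ℓ, mul_one, etaAt, dif_pos hco,
        eta_hard hq, AlgHom.commutes, Algebra.algebraMap_self, RingHom.id_apply]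
    have e : Units.map (R59.twAug U.O U.p n R : Coeff U n R →* U.O) (weight₁ U i₀ n qv ℓ) =
        hardChar U i₀ (ZMod.unitOfCoprime ℓ hco) := Units.ext h
    rw [← e, ← map_inv]
    rfl
  notMem_low := hard_notMem_lowSet U i₀
  lam_ne := sys_hard B hq

variable [NeZero (lev U i₀ qv)] [NeZero (levelOne U i₀ qv)]
  [Fact (HasIntegralStructure (levelOne U i₀ qv) 2)]
  {D : GaloisRep.DeformationRingData U.O U.ρbar (U.defCond qv)}

/-- **Inertia at the hard prime has finite exact order on the second module at level zero.** -/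
theorem finiteOrder₁_mem (inp : Inputs) (B : Base U i₀) (hq : U.IsAux n qv)
    (a : Act D (levelOne U i₀ qv) admissible_char₁ (occurs₁ B hq) (weight₁ U i₀ n qv))
    (m : genPart admissible_char₁ (occurs₁ B hq)) :
    a.act ((∏ᶠ ζ ∈ {ζ : U.O | ζ ^ U.p ^ padicValNat U.p (i₀.1 - 1) = 1 ∧ ζ ≠ 1},
      (trAt D.ρ (U.tame i₀) - algebraMap U.O D.R (ζ + ζ ^ (U.p ^ padicValNat U.p (i₀.1 - 1) - 1))))
        ^ Module.finrank U.O (minPart B)) m ∈
      RingHom.ker (R59.twAug U.O U.p n R) •
        (⊤ : Submodule (Coeff U n R) (genPart admissible_char₁ (occurs₁ B hq))) := by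
  obtain ⟨j, -, hjlev, -, hj⟩ := exists_nonEis B (qv := qv) (lev U i₀ qv)
  rw [show Module.finrank U.O (minPart B) =
    Module.finrank (Coeff U n R) (genPart admissible_char₁ (occurs₁ B hq)) by
      rw [finrank_genPart₁ B hq, finrank_genPart₀ B hq]]
  exact a.finiteOrder_mem inp resHom_char₁ ⟨j, hjlev, hj⟩ i₀ (isPushPoint₁ B hq) m

end Fermat.Agent.LL.Pair
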