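/-
Residual eigen vectors in `Hom(Γ₀(N), k)` and characters of the weight two Hecke algebra
(owner: helper4).
-/
import Fermat.Agent.LL.Pair.Admissible
import Fermat.Agent.TW.Mod.HeckeAction
import Fermat.Agent.TW.Mod.EigenVec
import Fermat.Agent.TW.Mod.LevelRaise
import Mathlib.RingTheory.MatrixAlgebra
import Mathlib.RingTheory.DiscreteValuationRing.Basic
import Mathlib.RingTheory.Flat.TorsionFree

set_option autoImplicit false
set_option synthInstance.maxHeartbeats 400000

noncomputable section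

namespace Fermat.Agent.LL.Pair

open CongruenceSubgroup IsLocalRing
open scoped TensorProduct
open Fermat.Agent.TW.Mod
open Fermat.Agent.HK (heckeHom HSpace heckeAct heckeEnd)
open Fermat.Agent.LR (Hom1 res res₂ cor atkin)

/-- Change of coefficients along a ring homomorphism. -/
def redHom (N : ℕ) {O k : Type} [CommRing O] [CommRing k] (f : O →+* k) : Hom1 N O →+ Hom1 N k where
  toFun φ := f.toAddMonoidHom.comp φ
  map_zero' := AddMonoidHom.ext fun _ => map_zero f
  map_add' _ _ := AddMonoidHom.ext fun _ => map_add f _ _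

theorem redHom_smul (N : ℕ) {O k : Type} [CommRing O] [CommRing k] (f : O →+* k) (c : O)
    (φ : Hom1 N O) : redHom N f (c • φ) = f c • redHom N f φ :=
  AddMonoidHom.ext fun _ => map_mul f _ _

theorem redHom_heckeHom (N : ℕ) {O k : Type} [CommRing O] [CommRing k] (f : O →+* k) (ℓ : ℕ)
    [Fact ℓ.Prime] (φ : Hom1 N O) :
    redHom N f (heckeHom N ℓ O O φ) = heckeHom N ℓ k k (redHom N f φ) :=
  (HK.heckeHom_comp (R := O) (R' := k) f.toAddMonoidHom φ).symm

theorem neg_one_smul_eq {R A : Type*} [CommRing R] [AddCommGroup A] [Module R A] {N : ℕ}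
    (g : Gamma0 N) (a : A) : (epsOf (1 : (ZMod N)ˣ →* Rˣ) g : R) • a = a := one_smul R a

/-- Where `2` and `3` are invertible every homomorphism lifts along a surjection of coefficients. -/
theorem redHom_surjective (N : ℕ) {O k : Type} [CommRing O] [Field k] (f : O →+* k)
    (hf : Function.Surjective f) (h2 : (2 : k) ≠ 0)
    (h3 : (3 : k) ≠ 0 ∨ ∃ l : ℕ, l.Prime ∧ l % 3 = 2 ∧ l ∣ N) :
    Function.Surjective (redHom N f) := by
  intro w
  let := f.toAlgebra
  have h := admissible_one (𝒪 := O) N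
  let d : Der (epsOf (1 : (ZMod N)ˣ →* Oˣ)) k := (Der.homEquiv neg_one_smul_eq).symm w
  let π : O →ₗ[O] k := Algebra.linearMap O k
  have hn : ∀ n : ℕ, (n : k) ≠ 0 → ∀ a : k, n • a = 0 → a = 0 := fun n hn a ha => by
    rw [nsmul_eq_mul] at ha
    exact (mul_eq_zero.1 ha).resolve_left hn
  refine ⟨Der.homEquiv neg_one_smul_eq (genRetract h (fun x => (hf ((genValues d).1 x)).choose,
    fun x => (hf ((genValues d).2 x)).choose)), AddMonoidHom.ext fun g => ?_⟩
  have hd := genRetract_natural h π (fun x => (hf ((genValues d).1 x)).choose,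
    fun x => (hf ((genValues d).2 x)).choose)
  simp only [π, Algebra.linearMap_apply, RingHom.algebraMap_toAlgebra,
    (hf _).choose_spec] at hd
  rw [genRetract_genValues_of_fixed h (hn 2 (by exact_mod_cast h2)) fun g hg =>
    h3.elim (fun h3 => hn 3 (by exact_mod_cast h3)) fun ⟨l, hl, hl3, hlN⟩ =>
      absurd hg (conj_genU_notMem hl hl3 hlN g)] at hd
  exact congrFun (congrArg Subtype.val hd) g.toMul

/-- An eigen vector among the reductions makes a residual system occur. -/
theorem occurs_of_eigen {O : Type} [CommRing O] [IsLocalRing O] {ι : Type*} {H : Type}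
    [AddCommGroup H] [Module O H] {V : Type*} [AddCommGroup V] [Module (ResidueField O) V]
    (F : ι → Module.End O H) (g : H →+ V) (hgs : ∀ (c : O) x, g (c • x) = residue O c • g x)
    (lam : ι → ResidueField O) (op : ι → Module.End (ResidueField O) V)
    (hop : ∀ i x, g (F i x) = op i (g x)) (x : H) (hx : g x ≠ 0)
    (heig : ∀ i, op i (g x) = lam i • g x) : Occurs O F lam := by
  let Q : Module.End O H → ResidueField O → Prop := fun a c =>
    ∀ (y : H) (e : ResidueField O), g y = e • g x → g (a y) = (c * e) • g x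
  have huniq : ∀ a c c', Q a c → Q a c' → c = c' := fun a c c' h h' => by
    have h1 := h x 1 (one_smul _ _).symm
    rw [h' x 1 (one_smul _ _).symm, mul_one, mul_one] at h1
    exact (smul_left_injective _ hx h1).symm
  have hadd : ∀ a a' c c', Q a c → Q a' c' → Q (a + a') (c + c') := fun a a' c c' h h' y e hy => by
    rw [LinearMap.add_apply, map_add, h y e hy, h' y e hy, add_mul, add_smul]
  have hmul : ∀ a a' c c', Q a c → Q a' c' → Q (a * a') (c * c') := fun a a' c c' h h' y e hy => by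
    rw [Module.End.mul_apply, h _ _ (h' y e hy), mul_assoc]
  have halg : ∀ r : O, Q (algebraMap O _ r) (residue O r) := fun r y e hy => by
    rw [Module.algebraMap_end_apply, hgs, hy, smul_smul]
  have hex : ∀ a ∈ famAlg O F, ∃ c, Q a c := by
    intro a ha
    induction ha using Algebra.adjoin_induction with
    | mem y hy =>
      obtain ⟨i, rfl⟩ := hy
      exact ⟨lam i, fun y e hy => by rw [hop, hy, map_smul, heig, smul_smul, mul_comm]⟩
    | algebraMap r => exact ⟨_, halg r⟩
    | add a b _ _ ha hb => exact ⟨_, hadd _ _ _ _ ha.choose_spec hb.choose_spec⟩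
    | mul a b _ _ ha hb => exact ⟨_, hmul _ _ _ _ ha.choose_spec hb.choose_spec⟩
  choose φ hφ using hex
  refine ⟨{ toFun := fun a => φ a.1 a.2
            map_one' := huniq _ _ _ (hφ _ _) (by simpa using halg 1)
            map_zero' := huniq _ _ _ (hφ _ _) (by simpa using halg 0)
            map_add' := fun a b => huniq _ _ _ (hφ _ _) (hadd _ _ _ _ (hφ _ a.2) (hφ _ b.2))
            map_mul' := fun a b => huniq _ _ _ (hφ _ _) (hmul _ _ _ _ (hφ _ a.2) (hφ _ b.2))
            commutes' := fun r => huniq _ _ _ (hφ _ _) (halg r) },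
    fun i => huniq _ _ _ (hφ _ _) fun y e hy => ?_⟩
  show g (F i y) = _
  rw [hop, hy, map_smul, heig, smul_smul, mul_comm]

/-- An occurring system has an eigen vector among the reductions. -/
theorem exists_eigen_redHom {O : Type} [CommRing O] [IsDomain O] [IsDiscreteValuationRing O]
    [IsAdicComplete (maximalIdeal O) O] [IsAddTorsionFree O] {N : ℕ} [NeZero N] {S : Set ℕ}
    {lam : PrimeIdx S → ResidueField O} (h : Occurs O (heckeFam O N S) lam) :
    ∃ x : Hom1 N O, redHom N (residue O) x ≠ 0 ∧ ∀ i : PrimeIdx S,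
      heckeHom N i.1 (ResidueField O) (ResidueField O) (redHom N (residue O) x) =
        lam i • redHom N (residue O) x := by
  let e : Module.End O (Hom1 N O) := h.idem (heckeFam_comm N S)
  have he : e * e = e := h.idem_mul_idem (heckeFam_comm N S)
  have hgm : ∀ r : O, r ∈ maximalIdeal O → ∀ x, redHom N (residue O) (r • x) = 0 :=
    fun r hr x => by rw [redHom_smul, (residue_eq_zero_iff r).2 hr, zero_smul]
  obtain ⟨x, hx⟩ : ∃ x, redHom N (residue O) (e x) ≠ 0 := by
    by_contra! h0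
    obtain ⟨ϖ, hϖ⟩ := IsDiscreteValuationRing.exists_irreducible O
    have hm := hϖ.maximalIdeal_eq
    have hdiv : ∀ y, ∃ z, e y = ϖ • z := fun y => by
      have hd : ∀ g, ∃ c, e y g = ϖ * c := fun g => by
        have := (residue_eq_zero_iff _).1 (DFunLike.congr_fun (h0 y) g)
        rwa [hm, Ideal.mem_span_singleton] at this
      choose c hc using hd
      refine ⟨AddMonoidHom.mk' c fun g g' => mul_left_cancel₀ hϖ.ne_zero ?_,
        AddMonoidHom.ext fun g => hc g⟩
      rw [mul_add, ← hc, ← hc, ← hc, map_add]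
    have h1 : LinearMap.range e = ⊥ := by
      refine Submodule.eq_bot_of_le_smul_of_le_jacobson_bot (maximalIdeal O) _
        ((Module.Finite.fg_top (R := O)).map e |> fun hfg => by
          rwa [Submodule.map_top] at hfg) ?_ (maximalIdeal_le_jacobson ⊥)
      rintro _ ⟨y, rfl⟩
      obtain ⟨z, hz⟩ := hdiv y
      rw [show e y = e (e y) by rw [← Module.End.mul_apply, he], hz, map_smul]
      exact Submodule.smul_mem_smul (hm ▸ Ideal.mem_span_singleton_self ϖ) ⟨z, rfl⟩
    have h2 := h.char_idem (heckeFam_comm N S)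
    rw [show (⟨e, h.idem_mem (heckeFam_comm N S)⟩ : famAlg O (heckeFam O N S)) = 0 from
      Subtype.ext (LinearMap.range_eq_bot.1 h1), map_zero] at h2
    exact zero_ne_one h2
  obtain ⟨y, -, hy, heig⟩ := h.exists_eigen (heckeFam_comm N S) (redHom N (residue O)) hgm
    (LinearMap.range e) (fun i z hz => by
      obtain ⟨z, rfl⟩ := hz
      refine ⟨heckeFam O N S i z, ?_⟩
      exact (LinearMap.congr_fun (h.commute_idem (heckeFam_comm N S)
        (Algebra.subset_adjoin ⟨i, rfl⟩)).eq z).symm)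
    (fun z hz => by
      obtain ⟨z, rfl⟩ := hz
      rw [← Module.End.mul_apply, he]) (LinearMap.mem_range_self e x) hx
  refine ⟨y, hy, fun i => ?_⟩
  obtain ⟨c, hc⟩ := residue_surjective (lam i)
  rw [← redHom_heckeHom, ← hc, ← redHom_smul]
  exact heig i c hc

section Char

variable {N : ℕ} [NeZero N] {S : Set ℕ}

theorem heckeAct_T_eq {O : Type} [CommRing O] [IsAddTorsionFree O] (ℓ : ℕ) [hℓ' : Fact ℓ.Prime]
    (hℓN : ¬ ℓ ∣ N) (hℓS : ℓ ∉ S) :
    heckeAct N O (toFullHecke N S (CuspForm.heckeAlgebra.T hℓ'.out hℓN hℓS)) = heckeEnd N ℓ O := by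
  rw [show toFullHecke N S (CuspForm.heckeAlgebra.T hℓ'.out hℓN hℓS) =
    CuspForm.heckeFormsGen N 2 ⟨ℓ, hℓ'.out⟩ by
      rw [CuspForm.heckeFormsGen_of_not_dvd (show ¬ ((⟨ℓ, hℓ'.out⟩ : Nat.Primes) : ℕ) ∣ N from hℓN)]
      rfl]
  exact HK.heckeAct_heckeFormsGen N O ⟨ℓ, hℓ'.out⟩

/-- A system with an eigen vector among reductions of parabolic homomorphisms is a character of
the Hecke algebra. -/
theorem exists_char_of_eigen (hS : ∀ q : ℕ, q.Prime → q ∣ N → q ∈ S) {O k : Type} [CommRing O]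
    [IsAddTorsionFree O] [Field k] (f : O →+* k) (y : HSpace N O) (hy : redHom N f y.hom ≠ 0)
    (c : PrimeIdx S → k)
    (heig : ∀ i, heckeHom N i.1 k k (redHom N f y.hom) = c i • redHom N f y.hom) :
    ∃ θ' : ↥(CuspForm.heckeAlgebra N 2 S) →+* k, ∀ (ℓ : ℕ) (hℓ : ℓ.Prime) (hℓN : ¬ ℓ ∣ N)
      (hℓS : ℓ ∉ S), θ' (CuspForm.heckeAlgebra.T hℓ hℓN hℓS) = c ⟨ℓ, hℓ, hℓS⟩ := by
  let act := (heckeAct N O).comp (toFullHecke N S)
  let v := redHom N f y.hom
  let Q : ↥(CuspForm.heckeAlgebra N 2 S) → k → Prop := fun t c =>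
    ∀ (z : HSpace N O) (e : k), redHom N f z.hom = e • v → redHom N f (act t z).hom = (c * e) • v
  have huniq : ∀ a c c', Q a c → Q a c' → c = c' := fun a c c' h h' => by
    have h1 := h y 1 (one_smul _ _).symm
    rw [h' y 1 (one_smul _ _).symm, mul_one, mul_one] at h1
    exact (smul_left_injective _ hy h1).symm
  have hadd : ∀ a a' c c', Q a c → Q a' c' → Q (a + a') (c + c') := fun a a' c c' h h' z e hz => by
    rw [map_add, LinearMap.add_apply, HSpace.hom_add, map_add, h z e hz, h' z e hz, add_mul,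
      add_smul]
  have hmul : ∀ a a' c c', Q a c → Q a' c' → Q (a * a') (c * c') := fun a a' c c' h h' z e hz => by
    rw [map_mul, Module.End.mul_apply, h _ _ (h' z e hz), mul_assoc]
  have hint : ∀ n : ℤ, Q (n : ↥(CuspForm.heckeAlgebra N 2 S)) (n : k) := fun n z e hz => by
    rw [map_intCast, Module.End.intCast_apply, ← Int.cast_smul_eq_zsmul O, HSpace.hom_smul,
      redHom_smul, map_intCast, hz, smul_smul]
  have hgen : ∀ (ℓ : ℕ) (hℓ : ℓ.Prime) (hℓN : ¬ ℓ ∣ N) (hℓS : ℓ ∉ S),
      Q (CuspForm.heckeAlgebra.T hℓ hℓN hℓS) (c ⟨ℓ, hℓ, hℓS⟩) := fun ℓ hℓ hℓN hℓS z e hz => by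
    have := Fact.mk hℓ
    show redHom N f (heckeAct N O (toFullHecke N S _) z).hom = _
    rw [heckeAct_T_eq ℓ hℓN hℓS, HK.hom_heckeEnd, redHom_heckeHom, hz, map_smul,
      heig ⟨ℓ, hℓ, hℓS⟩, smul_smul, mul_comm]
  have hex : ∀ t, ∃ c, Q t c := by
    rintro ⟨t, ht⟩
    induction ht using Algebra.adjoin_induction with
    | mem t ht =>
      rcases ht with ⟨ℓ, hℓ, hℓN, hℓS, rfl⟩ | ⟨q, hqN, hq, hqS, rfl⟩
      · exact ⟨_, hgen ℓ hℓ hℓN hℓS⟩
      · exact absurd (hS q hq hqN) hqS
    | algebraMap n =>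
      refine ⟨n, ?_⟩
      convert hint n using 1
      exact Subtype.ext (by simp)
    | add a b ha hb ha' hb' => exact ⟨_, hadd ⟨a, ha⟩ ⟨b, hb⟩ _ _ ha'.choose_spec hb'.choose_spec⟩
    | mul a b ha hb ha' hb' => exact ⟨_, hmul ⟨a, ha⟩ ⟨b, hb⟩ _ _ ha'.choose_spec hb'.choose_spec⟩
  choose θ hθ using hex
  exact ⟨{ toFun := θ
           map_one' := huniq _ _ _ (hθ 1) (by simpa using hint 1)
           map_zero' := huniq _ _ _ (hθ 0) (by simpa using hint 0)
           map_add' := fun a b => huniq _ _ _ (hθ _) (hadd _ _ _ _ (hθ a) (hθ b))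
           map_mul' := fun a b => huniq _ _ _ (hθ _) (hmul _ _ _ _ (hθ a) (hθ b)) },
    fun ℓ hℓ hℓN hℓS => huniq _ _ _ (hθ _) (hgen ℓ hℓ hℓN hℓS)⟩

variable (N S) (O : Type) [CommRing O] [IsAddTorsionFree O]

/-- `O ⊗ T` on parabolic homomorphisms. -/
def tensorAct : O ⊗[ℤ] ↥(CuspForm.heckeAlgebra N 2 S) →ₐ[O] Module.End O (HSpace N O) :=
  Algebra.TensorProduct.lift (Algebra.ofId O _) ((heckeAct N O).comp (toFullHecke N S)).toIntAlgHom
    fun r t => (Algebra.commutes r (heckeAct N O (toFullHecke N S t)))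

theorem tensorAct_tmul (r : O) (t : ↥(CuspForm.heckeAlgebra N 2 S)) :
    tensorAct N S O (r ⊗ₜ t) = r • heckeAct N O (toFullHecke N S t) := by
  refine (Algebra.TensorProduct.lift_tmul _ _ _ r t).trans ?_
  rw [Algebra.smul_def]
  rfl

theorem injective_of_matrix {O T E n : Type} [CommRing O] [IsAddTorsionFree O] [CommRing T]
    [Ring E] [Algebra O E] [Fintype n] [DecidableEq n] (g : T →+* Matrix n n ℤ)
    (hg : Function.Injective g) (A : O ⊗[ℤ] T →ₐ[O] E) (e : E ≃ₐ[O] Matrix n n O)
    (hA : ∀ r t, e (A (r ⊗ₜ t)) = r • (g t).map (Int.castRingHom O)) : Function.Injective A := by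
  have hL := Module.Flat.lTensor_preserves_injective_linearMap (M := O)
    g.toAddMonoidHom.toIntLinearMap hg
  have key : ∀ z, e (A z) =
      (matrixEquivTensor n ℤ O).symm (LinearMap.lTensor O g.toAddMonoidHom.toIntLinearMap z) := by
    intro z
    induction z using TensorProduct.induction_on with
    | zero => simp only [map_zero]
    | tmul r t =>
      rw [hA, LinearMap.lTensor_tmul, matrixEquivTensor_apply_symm]
      rfl
    | add a b ha hb => rw [map_add, map_add, map_add, map_add, ha, hb]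
  intro a b h
  refine hL ((matrixEquivTensor n ℤ O).symm.injective ?_)
  rw [← key, ← key, h]

theorem tensorAct_injective : Function.Injective (tensorAct N S O) := by
  have hι : Function.Injective (toFullHecke N S) := Subalgebra.inclusion_injective _
  exact injective_of_matrix ((HK.heckeRep N).comp (toFullHecke N S))
    ((HK.heckeRep_injective N).comp hι) (tensorAct N S O) (HK.hMatrix N O) fun r t => by
      rw [tensorAct_tmul, map_smul, HK.hMatrix_heckeAct, RingHom.comp_apply]

variable {N S O}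

/-- A residual character of the Hecke algebra occurs in `Hom(Γ₀(N), O)`. -/
theorem occurs_of_char [IsLocalRing O] (hS : ∀ q : ℕ, q.Prime → q ∣ N → q ∈ S)
    (θ : ↥(CuspForm.heckeAlgebra N 2 S) →+* ResidueField O) :
    Occurs O (heckeFam O N S)
      (fun i => θ (CuspForm.heckeAlgebra.T i.2.1 (fun hd => i.2.2 (hS _ i.2.1 hd)) i.2.2)) := by
  let θO : O ⊗[ℤ] ↥(CuspForm.heckeAlgebra N 2 S) →ₐ[O] ResidueField O :=
    Algebra.TensorProduct.lift (Algebra.ofId O _) θ.toIntAlgHom fun r t => Commute.all _ _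
  let Q : Module.End O (Hom1 N O) → O ⊗[ℤ] ↥(CuspForm.heckeAlgebra N 2 S) → Prop := fun a b =>
    ∀ x, (tensorAct N S O b x).hom = a x.hom
  have huniq : ∀ a b b', Q a b → Q a b' → b = b' := fun a b b' h h' =>
    tensorAct_injective N S O (LinearMap.ext fun x => HSpace.hom_injective ((h x).trans (h' x).symm))
  have hadd : ∀ a a' b b', Q a b → Q a' b' → Q (a + a') (b + b') := fun a a' b b' h h' x => by
    rw [map_add, LinearMap.add_apply, HSpace.hom_add, h x, h' x, LinearMap.add_apply]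
  have hmul : ∀ a a' b b', Q a b → Q a' b' → Q (a * a') (b * b') := fun a a' b b' h h' x => by
    rw [map_mul, Module.End.mul_apply, h, h', Module.End.mul_apply]
  have halg : ∀ r : O, Q (algebraMap O _ r) (algebraMap O _ r) := fun r x => by
    rw [AlgHom.commutes, Module.algebraMap_end_apply, Module.algebraMap_end_apply, HSpace.hom_smul]
  have hgen : ∀ i : PrimeIdx S, Q (heckeFam O N S i)
      (1 ⊗ₜ CuspForm.heckeAlgebra.T i.2.1 (fun hd => i.2.2 (hS _ i.2.1 hd)) i.2.2) := fun i x => by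
    rw [tensorAct_tmul, one_smul, heckeAct_T_eq i.1]
    rfl
  have hex : ∀ a ∈ famAlg O (heckeFam O N S), ∃ b, Q a b := by
    intro a ha
    induction ha using Algebra.adjoin_induction with
    | mem y hy => obtain ⟨i, rfl⟩ := hy; exact ⟨_, hgen i⟩
    | algebraMap r => exact ⟨_, halg r⟩
    | add a b _ _ ha hb => exact ⟨_, hadd _ _ _ _ ha.choose_spec hb.choose_spec⟩
    | mul a b _ _ ha hb => exact ⟨_, hmul _ _ _ _ ha.choose_spec hb.choose_spec⟩
  choose b hb using hex
  refine ⟨θO.comp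
    { toFun := fun a : famAlg O (heckeFam O N S) => b a.1 a.2
      map_one' := huniq _ _ _ (hb _ _) (by
        rw [OneMemClass.coe_one]; simpa only [map_one] using halg 1)
      map_zero' := huniq _ _ _ (hb _ _) (by
        rw [ZeroMemClass.coe_zero]; simpa only [map_zero] using halg 0)
      map_add' := fun a a' => huniq _ _ _ (hb _ _) (hadd _ _ _ _ (hb _ a.2) (hb _ a'.2))
      map_mul' := fun a a' => huniq _ _ _ (hb _ _) (hmul _ _ _ _ (hb _ a.2) (hb _ a'.2))
      commutes' := fun r => huniq _ _ _ (hb _ _) (halg r) }, fun i => ?_⟩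
  show θO (b _ _) = _
  rw [huniq _ _ _ (hb _ (famGen O (heckeFam O N S) i).2)
    (show Q ((famGen O (heckeFam O N S) i : famAlg O _) : Module.End O (Hom1 N O)) _ from hgen i),
    Algebra.TensorProduct.lift_tmul, map_one, one_mul]
  rfl

end Char

/-- Away from `U_q ^ 2 = 1` an eigen vector at level `N q` is old, with eigen components. -/
theorem exists_old {k : Type} [Field k] {N q : ℕ} [NeZero N] [hq : Fact q.Prime]
    (hqN : q.Coprime N) (hq1 : (q : k) = 1) (x : Hom1 (N * q) k) :
    ∃ a b : Hom1 N k,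
      degenMap (R := k) N q (a, b) =
        ((((id (heckeHom (N * q) q k k) : Module.End k (Hom1 (N * q) k)) *
          id (heckeHom (N * q) q k k) - 1) ^ 2 : Module.End k (Hom1 (N * q) k))) x ∧
      (∀ (ℓ : ℕ) [Fact ℓ.Prime] (c : k), ℓ.Coprime q → heckeHom (N * q) ℓ k k x = c • x →
        heckeHom N ℓ k k a = c • a ∧ heckeHom N ℓ k k b = c • b) ∧
      (∀ α : k, heckeHom (N * q) q k k x = α • x →
        heckeHom N q k k a + b = α • a ∧ -a = α • b) := by
  haveI : NeZero q := ⟨hq.out.ne_zero⟩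
  obtain ⟨d1, d2, d3, d4, d5, d6⟩ := degenMap_identities (R := k) (A := k) N q hqN
  simp only [id]
  set U : Module.End k (Hom1 (N * q) k) := heckeHom (N * q) q k k
  set T := heckeHom N q k k
  set D := degenMap (R := k) (A := k) N q
  let U₀ : Module.End k (Hom1 N k × Hom1 N k) :=
    (T ∘ₗ LinearMap.fst k _ _ + LinearMap.snd k _ _).prod (-LinearMap.fst k _ _)
  have hU₀ : ∀ a b, U₀ (a, b) = (T a + b, -a) := fun a b => rfl
  have hz : ∀ b : Hom1 N k, (q : ℤ) • b = b := fun b => by
    rw [← Int.cast_smul_eq_zsmul k, Int.cast_natCast, hq1, one_smul]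
  have hDU : ∀ v, D (U₀ v) = U (D v) := fun v => by
    show D (U₀ v) = heckeHom (N * q) q k k (D v)
    rw [heckeHom_q_degenMap (R := k) N q hqN v, hz]
    rfl
  have hker : ∀ v, D v = 0 → U₀ (U₀ v) = v := by
    rintro ⟨a, b⟩ hv
    have hsplit : D (a, b) = D (a, 0) + D (0, b) := by rw [← map_add]; simp
    have e1 : ((q : ℤ) + 1) • a + T b = 0 := by
      have h := congrArg (cor N q) hv
      rwa [hsplit, map_add, map_zero, d1, d2] at h
    have e2 : T a + ((q : ℤ) + 1) • b = 0 := by
      have h := congrArg (fun z => cor N q (atkin N q hqN z)) hv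
      simp only [hsplit, map_add, map_zero, D] at h
      rwa [d3, d4, d2, d1] at h
    rw [add_smul, one_smul, hz] at e1 e2
    rw [hU₀, hU₀]
    have ha : T a = -(b + b) := eq_neg_of_add_eq_zero_left e2
    have hb : T b = -(a + a) := eq_neg_of_add_eq_zero_right e1
    refine Prod.ext ?_ ?_
    · simp only [map_add, ha, map_neg, hb]
      abel
    · simp only [ha]
      abel
  let P : Module.End k (Hom1 N k × Hom1 N k) := U₀ * U₀ - 1
  have hPker : ∀ v, D v = 0 → P v = 0 := fun v hv => sub_eq_zero.2 (hker v hv)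
  obtain ⟨v₀, hv₀⟩ : ∃ v₀, D v₀ = (U * U - 1 : Module.End k _) x := by
    refine ⟨U₀ (cor N q (atkin N q hqN x), 0) - (cor N q x, 0), ?_⟩
    show D (U₀ _ - _) = U (U x) - x
    rw [map_sub, hDU, d5, d5, map_add, d6]
    abel
  have hDP : ∀ v, D (P v) = (U * U - 1 : Module.End k _) (D v) := fun v => by
    show D (U₀ (U₀ v) - v) = U (U (D v)) - D v
    rw [map_sub, hDU, hDU]
  refine ⟨(P v₀).1, (P v₀).2, ?_, fun ℓ _ c hℓ hx => ?_, fun α hx => ?_⟩
  · rw [sq, Module.End.mul_apply, ← hv₀, ← hDP]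
  · let T' : Module.End k (Hom1 N k × Hom1 N k) :=
      (heckeHom N ℓ k k).prodMap (heckeHom N ℓ k k)
    have hcomm : ∀ v, T' (U₀ v) = U₀ (T' v) := fun ⟨a, b⟩ => by
      show (heckeHom N ℓ k k (T a + b), heckeHom N ℓ k k (-a)) =
        (T (heckeHom N ℓ k k a) + heckeHom N ℓ k k b, -heckeHom N ℓ k k a)
      rw [map_add, map_neg, heckeHom_comm]
    have hU : ∀ y, heckeHom (N * q) ℓ k k (U y) = U (heckeHom (N * q) ℓ k k y) :=
      fun y => heckeHom_comm (N * q) ℓ q y
    have h0 : D (T' v₀ - c • v₀) = 0 := by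
      rw [map_sub, map_smul, show D (T' v₀) = heckeHom (N * q) ℓ k k (D v₀) from
        (heckeHom_degenMap (R := k) N q ℓ hℓ v₀).symm, hv₀]
      show heckeHom (N * q) ℓ k k (U (U x) - x) - c • (U (U x) - x) = 0
      rw [map_sub, hU, hU, hx, map_smul, map_smul, smul_sub]
      abel
    have h1 := hPker _ h0
    rw [map_sub, map_smul, sub_eq_zero, show P (T' v₀) = T' (P v₀) by
      show U₀ (U₀ (T' v₀)) - T' v₀ = T' (U₀ (U₀ v₀) - v₀)
      rw [map_sub, hcomm, hcomm]] at h1
    exact ⟨congrArg Prod.fst h1, congrArg Prod.snd h1⟩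
  · have h0 : D (U₀ v₀ - α • v₀) = 0 := by
      rw [map_sub, map_smul, hDU, hv₀]
      show U (U (U x) - x) - α • (U (U x) - x) = 0
      simp only [map_sub, map_smul, hx, smul_sub, sub_self]
    have h1 := hPker _ h0
    rw [map_sub, map_smul, sub_eq_zero, show P (U₀ v₀) = U₀ (P v₀) by
      show U₀ (U₀ (U₀ v₀)) - U₀ v₀ = U₀ (U₀ (U₀ v₀) - v₀)
      rw [map_sub]] at h1
    exact ⟨congrArg Prod.fst h1, congrArg Prod.snd h1⟩

end Fermat.Agent.LL.Pair
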