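/-
The residual system at the minimal level: it occurs with a sign at a hard prime, and it has no
eigen vector at the levels below it (owner: helper4).
-/
import Fermat.Agent.LL.Pair.HeckeChar
import Fermat.Agent.LL.Pair.Base
import Fermat.Agent.LL.Pair.Parabolic

set_option autoImplicit false
set_option synthInstance.maxHeartbeats 400000

noncomputable section

namespace Fermat.Agent.LL.Pair

open CongruenceSubgroup IsLocalRing ModularCurve.Period
open Fermat.Agent.TW.Mod
open Fermat.Agent.HK (heckeHom HSpace)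
open Fermat.Agent.LR (Hom1)

variable (U : Setting)

theorem natCast_residue_ne_zero {n : ℕ} (hn : ¬ U.p ∣ n) : (n : ResidueField U.O) ≠ 0 := by
  haveI : CharP (ResidueField U.O) U.p := (CharP.charP_iff_prime_eq_zero Fact.out).2 (by
    rw [← map_natCast (residue U.O), residue_eq_zero_iff]
    exact U.p_mem)
  exact fun h => hn ((CharP.cast_eq_zero_iff _ U.p n).1 h)

/-- No eigen vector of the residual system at a level `M / r`, `r` a hard prime. -/
theorem eq_zero_of_lower_eigen_base (i₀ : U.Idx) {N : ℕ} [NeZero N] (hN : N * i₀.1 = U.M)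
    (w : Hom1 N (ResidueField U.O))
    (heig : ∀ i : PrimeIdx (baseSet U),
      heckeHom N i.1 (ResidueField U.O) (ResidueField U.O) w = lamM U i • w) : w = 0 := by
  by_contra hw
  have h2 : (2 : ResidueField U.O) ≠ 0 := by
    exact_mod_cast natCast_residue_ne_zero U (n := 2) fun h => by
      have := Nat.le_of_dvd (by norm_num) h
      have := U.two_lt
      omega
  have h3 : (3 : ResidueField U.O) ≠ 0 ∨ ∃ l : ℕ, l.Prime ∧ l % 3 = 2 ∧ l ∣ N := by
    by_cases hp3 : U.p = 3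
    · obtain ⟨l, hl, hlM, hl3⟩ := U.three hp3
      refine Or.inr ⟨l, hl, hl3, (hl.dvd_mul.mp (hN.symm ▸ hlM : l ∣ N * i₀.1)).resolve_right
        fun hd => ?_⟩
      have h1 := U.one_mod i₀.1 i₀.2
      rw [hp3, ← (Nat.prime_dvd_prime_iff_eq hl (U.hard_prime i₀)).mp hd, Nat.ModEq] at h1
      omega
    · refine Or.inl ?_
      exact_mod_cast natCast_residue_ne_zero U (n := 3) fun h =>
        hp3 ((Nat.prime_dvd_prime_iff_eq Fact.out Nat.prime_three).mp h)
  obtain ⟨x, hx⟩ := redHom_surjective N (residue U.O) residue_surjective h2 h3 w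
  obtain ⟨ℓ, hℓ, hℓM, hℓS, -, hdvd', hne, -⟩ := U.exists_prime_one_mod N ∅
  obtain ⟨i, rfl⟩ : ∃ i : PrimeIdx (baseSet U), i.1 = ℓ := ⟨⟨ℓ, hℓ, hℓS⟩, rfl⟩
  have hdvd : N ∣ i.1 - 1 := (dvd_mul_left N U.p).trans hdvd'
  have hiN : ¬ i.1 ∣ N := fun h =>
    not_dvd_of_notMem_baseSet U i.2.1 i.2.2 (h.trans ⟨i₀.1, hN.symm⟩)
  have hi1 : (i.1 : ZMod N) = 1 := by
    obtain ⟨c, hc⟩ := hdvd
    have h : i.1 = N * c + 1 := by have := i.2.1.one_le; omega
    rw [h]
    simp
  let y : HSpace N U.O := HK.HSpace.mk _ (isParabolicHom_heckeHom_sub (R := U.O) hi1 hiN x)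
  have hy : redHom N (residue U.O) y.hom =
      (lamM U i - ((i.1 : ResidueField U.O) + 1)) • w := by
    show redHom N (residue U.O) (heckeHom N i.1 U.O U.O x - ((i.1 : ℤ) + 1) • x) = _
    rw [map_sub, map_zsmul, redHom_heckeHom, hx, heig, sub_smul,
      ← Int.cast_smul_eq_zsmul (ResidueField U.O)]
    push_cast
    rfl
  obtain ⟨θ', hθ'⟩ := exists_char_of_eigen (N := N) (S := baseSet U)
    (fun q hq hqN => Finset.mem_coe.mpr (Finset.mem_insert_of_mem
      (Nat.mem_primeFactors.mpr ⟨hq, hqN.trans ⟨i₀.1, hN.symm⟩, NeZero.ne _⟩)))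
    (residue U.O) y (by rw [hy]; exact smul_ne_zero (sub_ne_zero.2 (show lamM U i ≠ _ from hne)) hw) (lamM U)
    fun j => by rw [hy, map_smul, heig, smul_comm]
  obtain ⟨l, hl, hlN, hlM, hlS, hne'⟩ := U.minimal i₀.1 N i₀.2 hN θ'
  exact hne' (hθ' l hl hlN hlS)

/-- No eigen vector of the residual system, with roots at auxiliary primes `q ≡ 1`, at a level
`M / r * ∏ q`. -/
theorem eq_zero_of_lower_eigen (i₀ : U.Idx) (α : ℕ → ResidueField U.O) (Q : Finset ℕ)
    (hQ : ∀ q ∈ Q, ∃ (hp : q.Prime) (hS : q ∉ baseSet U), (q : ResidueField U.O) = 1 ∧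
      α q ^ 2 - lamM U ⟨q, hp, hS⟩ * α q + 1 = 0 ∧ α q ^ 2 ≠ 1)
    (N : ℕ) [NeZero N] (hN : N = U.M / i₀.1 * ∏ q ∈ Q, q) (w : Hom1 N (ResidueField U.O))
    (heig : ∀ i : PrimeIdx (baseSet U), i.1 ∉ Q →
      heckeHom N i.1 (ResidueField U.O) (ResidueField U.O) w = lamM U i • w)
    (heigQ : ∀ i : PrimeIdx (baseSet U), i.1 ∈ Q →
      heckeHom N i.1 (ResidueField U.O) (ResidueField U.O) w = α i.1 • w) : w = 0 := by
  classical
  induction Q using Finset.induction_on generalizing N with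
  | empty =>
    refine eq_zero_of_lower_eigen_base U i₀ ?_ w fun i => heig i (Finset.notMem_empty _)
    rw [hN, Finset.prod_empty, mul_one, Nat.div_mul_cancel (hard_dvd U i₀)]
  | @insert q Q hqQ ih =>
    obtain ⟨hp, hS, hq1, hroot, hα⟩ := hQ q (Finset.mem_insert_self q Q)
    haveI : Fact q.Prime := ⟨hp⟩
    have hQ' := fun r hr => hQ r (Finset.mem_insert_of_mem hr)
    obtain ⟨N', hN'⟩ : ∃ N', N' = U.M / i₀.1 * ∏ r ∈ Q, r := ⟨_, rfl⟩
    have : NeZero N' := ⟨hN' ▸ mul_ne_zero (NeZero.ne (U.M / i₀.1))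
      (Finset.prod_ne_zero_iff.2 fun r hr => (hQ' r hr).1.ne_zero)⟩
    have hcop : q.Coprime N' := by
      rw [hN']
      refine Nat.Coprime.mul_right (hp.coprime_iff_not_dvd.2 fun h => ?_)
        (Nat.Coprime.prod_right fun r hr => (Nat.coprime_primes hp (hQ' r hr).1).2
          fun e => hqQ (e ▸ hr))
      exact not_dvd_of_notMem_baseSet U hp hS (h.trans (Nat.div_dvd_of_dvd (hard_dvd U i₀)))
    have hNN : N = N' * q := by rw [hN, hN', Finset.prod_insert hqQ]; ring
    subst hNN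
    have hU : heckeHom (N' * q) q (ResidueField U.O) (ResidueField U.O) w = α q • w :=
      heigQ ⟨q, hp, hS⟩ (Finset.mem_insert_self q Q)
    obtain ⟨a, b, hab, hT, hUab⟩ := exists_old hcop hq1 w
    obtain ⟨h1, h2⟩ := hUab (α q) hU
    have hother : ∀ i : PrimeIdx (baseSet U), i.1 ≠ q → ∀ c : ResidueField U.O,
        heckeHom (N' * q) i.1 (ResidueField U.O) (ResidueField U.O) w = c • w →
        heckeHom N' i.1 (ResidueField U.O) (ResidueField U.O) a = c • a ∧
        heckeHom N' i.1 (ResidueField U.O) (ResidueField U.O) b = c • b :=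
      fun i hi c hc => hT i.1 c ((Nat.coprime_primes i.2.1 hp).2 hi) hc
    have ha : a = -(α q • b) := by rw [← h2, neg_neg]
    have hα0 : α q ≠ 0 := fun h0 => by
      rw [h0] at hroot
      simp at hroot
    have hbq : heckeHom N' q (ResidueField U.O) (ResidueField U.O) b =
        lamM U ⟨q, hp, hS⟩ • b := by
      refine smul_right_injective _ hα0 ?_
      show α q • _ = α q • _
      rw [ha, map_neg, map_smul, smul_neg, smul_smul, neg_add_eq_iff_eq_add] at h1
      rw [eq_add_neg_iff_add_eq] at h1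
      rw [smul_smul,
        show α q * lamM U ⟨q, hp, hS⟩ = α q * α q + 1 by linear_combination -hroot, add_smul,
        one_smul, ← h1, add_comm]
    have hb0 : b = 0 := by
      refine ih hQ' N' hN' b (fun i hi => ?_) fun i hi => ?_
      · by_cases hiq : i.1 = q
        · obtain ⟨l, hl⟩ := i
          obtain rfl : l = q := hiq
          exact hbq
        · exact (hother i hiq _ (heig i (by simp [hiq, hi]))).2
      · exact (hother i (fun e => hqQ (e ▸ hi)) _ (heigQ i (Finset.mem_insert_of_mem hi))).2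
    rw [ha, hb0, smul_zero, neg_zero] at hab
    have h0 : (α q ^ 2 - 1) ^ 2 • w = 0 := by
      rw [← map_zero (degenMap (R := ResidueField U.O) N' q), ← Prod.mk_zero_zero, hab]
      simp only [sq, Module.End.mul_apply, LinearMap.sub_apply, Module.End.one_apply, id, hU,
        map_sub, map_smul, smul_sub, mul_smul, sub_smul, one_smul]
    exact (smul_eq_zero.1 h0).resolve_left (pow_ne_zero _ (sub_ne_zero.2 hα))

/-- On a system without eigen vectors at level `N`, `U_r ^ 2 = 1` up to nilpotents at level `N r`. -/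
theorem sq_sub_one_sq_eq_zero {k : Type} [Field k] {M N r : ℕ} [NeZero N] [Fact r.Prime]
    (hM : M = N * r) (hrN : r.Coprime N) (hr1 : (r : k) = 1) {ι : Type*} (l : ι → ℕ)
    [∀ i, Fact (l i).Prime] (hlr : ∀ i, (l i).Coprime r) (c : ι → k)
    (hN : ∀ a : Hom1 N k, (∀ i, heckeHom N (l i) k k a = c i • a) → a = 0)
    (v : Hom1 M k) (hv : ∀ i, heckeHom M (l i) k k v = c i • v) :
    heckeHom M r k k (heckeHom M r k k (heckeHom M r k k (heckeHom M r k k v) - v)) -
      (heckeHom M r k k (heckeHom M r k k v) - v) = 0 := by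
  subst hM
  obtain ⟨a, b, hab, hT, -⟩ := exists_old hrN hr1 v
  rw [hN a fun i => (hT (l i) (c i) (hlr i) (hv i)).1,
    hN b fun i => (hT (l i) (c i) (hlr i) (hv i)).2, Prod.mk_zero_zero, map_zero] at hab
  simpa only [sq, Module.End.mul_apply, LinearMap.sub_apply, Module.End.one_apply, id] using hab.symm

/-- The residual system occurs at the minimal level, with a sign at the hard prime. -/
theorem exists_occurs_sign (i₀ : U.Idx) :
    ∃ lam₁ : PrimeIdx (↑(insert U.p (U.M.primeFactors.erase i₀.1)) : Set ℕ) → ResidueField U.O,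
      Occurs U.O (heckeFam U.O U.M (↑(insert U.p (U.M.primeFactors.erase i₀.1)) : Set ℕ)) lam₁ ∧
      (∀ i (h : i.1 ∉ baseSet U), lam₁ i = lamM U ⟨i.1, i.2.1, h⟩) ∧
      ∀ i, i.1 = i₀.1 → lam₁ i ≠ 0 ∧ lam₁ i ^ 2 = 1 := by
  classical
  haveI : Fact i₀.1.Prime := ⟨hard_prime' U i₀⟩
  have hrS : i₀.1 ∈ baseSet U := Finset.mem_coe.mpr
    (Finset.mem_insert_of_mem (Nat.mem_primeFactors.mpr ⟨U.hard_prime i₀, U.hard_dvd i₀, NeZero.ne _⟩))
  have hS : ∀ q : ℕ, q.Prime → q ∣ U.M → q ∈ baseSet U := fun q hq hd =>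
    Finset.mem_coe.mpr (Finset.mem_insert_of_mem (Nat.mem_primeFactors.mpr ⟨hq, hd, NeZero.ne _⟩))
  obtain ⟨x, hx, heig⟩ := exists_eigen_redHom (occurs_of_char hS U.θ)
  let T := heckeHom U.M i₀.1 (ResidueField U.O) (ResidueField U.O)
  let g := redHom U.M (residue U.O)
  let Eig : Hom1 U.M (ResidueField U.O) → Prop := fun v => ∀ i : PrimeIdx (baseSet U),
    heckeHom U.M i.1 (ResidueField U.O) (ResidueField U.O) v = lamM U i • v
  have hEigT : ∀ v, Eig v → Eig (T v) := fun v hv i => by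
    rw [heckeHom_comm, hv i, map_smul]
  have hgT : ∀ z, g (heckeHom U.M i₀.1 U.O U.O z) = T (g z) := fun z => redHom_heckeHom _ _ _ z
  -- a vector with `U_r ^ 2 = 1`
  obtain ⟨z, hz, hzE, hzT⟩ : ∃ z, g z ≠ 0 ∧ Eig (g z) ∧ T (T (g z)) = g z := by
    have hEig : Eig (g x) := heig
    by_cases h1 : T (T (g x)) = g x
    · exact ⟨x, hx, hEig, h1⟩
    refine ⟨heckeHom U.M i₀.1 U.O U.O (heckeHom U.M i₀.1 U.O U.O x) - x, ?_, ?_, ?_⟩
    · rw [map_sub, hgT, hgT]
      exact sub_ne_zero.2 h1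
    · intro i
      rw [map_sub g, hgT, hgT, map_sub, hEigT _ (hEigT _ hEig) i, hEig i, smul_sub]
    · rw [map_sub g, hgT, hgT]
      refine sub_eq_zero.1 (sq_sub_one_sq_eq_zero
        (N := U.M / i₀.1) (Nat.div_mul_cancel (hard_dvd U i₀)).symm coprime_hard_low
        (natCast_hard_eq_one U i₀) (fun i : PrimeIdx (baseSet U) => i.1)
        (fun i => (Nat.coprime_primes i.2.1 (hard_prime' U i₀)).2 fun e => i.2.2 (e ▸ hrS))
        (lamM U) (fun a ha => eq_zero_of_lower_eigen_base U i₀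
          (Nat.div_mul_cancel (hard_dvd U i₀)) a ha) (g x) hEig)
  -- an eigen vector of `U_r` with eigenvalue a sign
  obtain ⟨v, u, hu, hv, hvE, hvT⟩ : ∃ (v : Hom1 U.M U.O) (u : ResidueField U.O),
      u ^ 2 = 1 ∧ g v ≠ 0 ∧ Eig (g v) ∧ T (g v) = u • g v := by
    by_cases h1 : g z + T (g z) = 0
    · exact ⟨z, -1, by ring, hz, hzE, by rw [neg_one_smul, eq_neg_of_add_eq_zero_right h1]⟩
    refine ⟨z + heckeHom U.M i₀.1 U.O U.O z, 1, one_pow 2, ?_, ?_, ?_⟩
    · rw [map_add, hgT]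
      exact h1
    · intro i
      rw [map_add g, hgT, map_add, hzE i, hEigT _ hzE i, smul_add]
    · rw [map_add g, hgT, map_add, hzT, one_smul, add_comm]
  have hmem : ∀ i : PrimeIdx (↑(insert U.p (U.M.primeFactors.erase i₀.1)) : Set ℕ),
      i.1 ∈ baseSet U → i.1 = i₀.1 := fun i hi => by
    by_contra hne
    refine i.2.2 (Finset.mem_coe.mpr ?_)
    rcases Finset.mem_insert.1 (Finset.mem_coe.mp hi) with h | h
    · exact Finset.mem_insert.2 (Or.inl h)
    · exact Finset.mem_insert.2 (Or.inr (Finset.mem_erase.2 ⟨hne, h⟩))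
  refine ⟨fun i => if h : i.1 ∈ baseSet U then u else lamM U ⟨i.1, i.2.1, h⟩,
    occurs_of_eigen (heckeFam U.O U.M _) g (redHom_smul U.M (residue U.O)) _
      (fun i => heckeHom U.M i.1 (ResidueField U.O) (ResidueField U.O))
      (fun i y => redHom_heckeHom _ _ _ y) v hv (fun i => ?_),
    fun i h => dif_neg h, fun i hi => ?_⟩
  · by_cases h : i.1 ∈ baseSet U
    · simp only [dif_pos h]
      obtain ⟨⟨l, hl⟩, hle⟩ : ∃ j, j = i := ⟨i, rfl⟩
      subst hle
      obtain rfl : l = i₀.1 := hmem _ h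
      exact hvT
    · simp only [dif_neg h]
      exact hvE ⟨i.1, i.2.1, h⟩
  · have h : i.1 ∈ baseSet U := by rw [hi]; exact hrS
    simp only [dif_pos h]
    exact ⟨fun h0 => by simp [h0] at hu, hu⟩

/-- The residual system at the minimal level with `U_{i₀}` exists. -/
theorem nonempty_base (i₀ : U.Idx) : Nonempty (Base U i₀) := by
  obtain ⟨lam, hocc, hlam, hsign⟩ := exists_occurs_sign U i₀
  refine ⟨{ lam := lam, lam_eq := fun i => hlam _ i.2.2, occurs := hocc,
            lam_hard := (hsign (hardIdx U i₀) rfl).1, low := fun Q α hQ w hw => ?_ }⟩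
  have hr : ∀ i : PrimeIdx (baseSet U), i.1 ≠ i₀.1 := fun i e => i.2.2 (e ▸ Finset.mem_coe.mpr
    (Finset.mem_insert_of_mem (Nat.mem_primeFactors.mpr ⟨U.hard_prime i₀, U.hard_dvd i₀, NeZero.ne _⟩)))
  haveI : NeZero (U.M / i₀.1 * ∏ q ∈ Q, q) := ⟨mul_ne_zero (NeZero.ne _)
    (Finset.prod_ne_zero_iff.2 fun q hq => (hQ q hq).1.ne_zero)⟩
  refine eq_zero_of_lower_eigen U i₀ α Q hQ _ rfl w (fun i hi => ?_) (fun i hi => ?_)
  · refine (hw ⟨i.1, i.2.1, notMem_lowSet U i₀ i.2.2⟩ (hr i)).trans ?_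
    rw [raiseLam, if_neg (by exact hi), hlam _ i.2.2]
  · refine (hw ⟨i.1, i.2.1, notMem_lowSet U i₀ i.2.2⟩ (hr i)).trans ?_
    rw [raiseLam, if_pos (by exact hi)]

end Fermat.Agent.LL.Pair
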