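/-
Surjectivity of the diamond derivative passes through a congruence (helper93).
-/
import Fermat.Agent.LL.Pair.DiamondGlue
import Fermat.Agent.LL.Pair.Levels

set_option autoImplicit false
set_option linter.style.haveILetI false
set_option synthInstance.maxHeartbeats 400000

noncomputable section

open IsLocalRing Fermat.Agent.TW.Mod CuspForm

namespace Fermat.Agent.LL.Pair

section Abstract

variable {O : Type} [CommRing O] [IsLocalRing O] {p n R : ℕ}

/-- A generator minus one is no congruence zero. -/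
theorem twGen_sub_one_notMem [NeZero p] [Fact p.Prime] (hn : n ≠ 0) (i : Fin R) :
    R59.twGen O p n R i - 1 ∉
      (maximalIdeal O).map (algebraMap O (R59.TWAlg O p n R)) := by
  intro h
  set π := MonoidAlgebra.mapRingHom (R59.TWGroup p n R) (residue O)
  have hle : (maximalIdeal O).map (algebraMap O (R59.TWAlg O p n R)) ≤ RingHom.ker π := by
    rw [Ideal.map_le_iff_le_comap]
    intro c hc
    rw [Ideal.mem_comap, RingHom.mem_ker]
    simp [π, MonoidAlgebra.coe_algebraMap, (residue_eq_zero_iff c).mpr hc]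
  have h1 := RingHom.mem_ker.mp (hle h)
  rw [map_sub, map_one, sub_eq_zero, R59.twGen] at h1
  have e : π (MonoidAlgebra.of O (R59.TWGroup p n R) (Pi.mulSingle i (Multiplicative.ofAdd 1))) =
      MonoidAlgebra.of (ResidueField O) _ (Pi.mulSingle i (Multiplicative.ofAdd 1)) := by
    simp [π, MonoidAlgebra.of_apply]
  have h2 := e.symm.trans (h1.trans (map_one (MonoidAlgebra.of (ResidueField O) _)).symm)
  have h3 := congrArg Multiplicative.toAdd (congrFun (MonoidAlgebra.of_injective h2) i)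
  rw [Pi.mulSingle_eq_same, toAdd_ofAdd, Pi.one_apply, toAdd_one] at h3
  haveI : Fact (1 < p ^ n) := ⟨Nat.one_lt_pow hn (Fact.out : p.Prime).one_lt⟩
  exact one_ne_zero h3

/-- If `e₁ = (g - 1) x` on a free module congruent to one on which the corresponding endomorphism
hits all multiples of `g - 1`, then so does `e₁`. -/
theorem exists_apply_eq_gen_smul_of_congr [NeZero p] [Fact p.Prime] (hp : (p : O) ∈ maximalIdeal O)
    {X₀ X₁ : Type} [AddCommGroup X₀] [Module (R59.TWAlg O p n R) X₀] [AddCommGroup X₁]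
    [Module (R59.TWAlg O p n R) X₁] [Module.Free (R59.TWAlg O p n R) X₁]
    [Module.Finite (R59.TWAlg O p n R) X₁]
    (f : X₀ →ₗ[R59.TWAlg O p n R] X₁ ⧸ ((maximalIdeal O).map (algebraMap O (R59.TWAlg O p n R)) •
      (⊤ : Submodule (R59.TWAlg O p n R) X₁)))
    (hf : Function.Surjective f) (i : Fin R) (e₀ : X₀ → X₀)
    (e₁ x : Module.End (R59.TWAlg O p n R) X₁)
    (hcomm : ∀ m m', f m = Submodule.Quotient.mk m' → f (e₀ m) = Submodule.Quotient.mk (e₁ m'))
    (hgen₀ : ∀ y, ∃ z, e₀ z = (R59.twGen O p n R i - 1) • y)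
    (hdiv : ∀ m, e₁ m = (R59.twGen O p n R i - 1) • x m) (y : X₁) :
    ∃ z, e₁ z = (R59.twGen O p n R i - 1) • y := by
  classical
  rcases eq_or_ne n 0 with rfl | hn
  · refine ⟨0, ?_⟩
    have hg : R59.twGen O p 0 R i = 1 := (pow_one _).symm.trans (R59.twGen_pow O p 0 R i)
    rw [map_zero, hg, sub_self, zero_smul]
  haveI := R59.isLocalRing_twAlg O p n R hp
  suffices htop : (⊤ : Submodule (R59.TWAlg O p n R) X₁) ≤ LinearMap.range x by
    obtain ⟨z, hz⟩ := htop (show y ∈ ⊤ from Submodule.mem_top)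
    exact ⟨z, by rw [hdiv, hz]⟩
  refine Submodule.le_of_le_smul_of_le_jacobson_bot (I := maximalIdeal (R59.TWAlg O p n R))
    Module.Finite.fg_top (IsLocalRing.maximalIdeal_le_jacobson ⊥) fun y' _ => ?_
  obtain ⟨y₀, hy₀⟩ := hf (Submodule.Quotient.mk y')
  obtain ⟨z, hz⟩ := hgen₀ y₀
  obtain ⟨z', hz'⟩ := Submodule.Quotient.mk_surjective _ (f z)
  have h1 := hcomm z z' hz'.symm
  rw [hz, map_smul, hy₀, ← Submodule.Quotient.mk_smul, Submodule.Quotient.eq, hdiv, ← smul_sub] at h1
  refine Submodule.mem_sup.mpr ⟨x z', ⟨z', rfl⟩, y' - x z', ?_, by abel⟩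
  let b := Module.Free.chooseBasis (R59.TWAlg O p n R) X₁
  rw [← b.sum_repr (y' - x z')]
  refine sum_mem fun j _ => Submodule.smul_mem_smul ?_ Submodule.mem_top
  refine (mem_maximalIdeal _).mpr fun hu => twGen_sub_one_notMem (O := O) (p := p) hn i ?_
  have h2 : b.repr ((R59.twGen O p n R i - 1) • (y' - x z')) j ∈
      (maximalIdeal O).map (algebraMap O (R59.TWAlg O p n R)) := by
    refine Submodule.smul_induction_on (p := fun m => b.repr m j ∈
      (maximalIdeal O).map (algebraMap O (R59.TWAlg O p n R))) h1 (fun a ha m _ => ?_)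
      fun u v hu' hv' => ?_
    · rw [map_smul, Finsupp.smul_apply, smul_eq_mul]
      exact Ideal.mul_mem_right _ _ ha
    · rw [map_add, Finsupp.add_apply]
      exact add_mem hu' hv'
  rw [map_smul, Finsupp.smul_apply, smul_eq_mul, mul_comm] at h2
  exact (Ideal.unit_mul_mem_iff_mem _ hu).mp h2

end Abstract

variable {U : Setting} {i₀ : U.Idx} {n R : ℕ} {qv : Fin R → ℕ} [NeZero (lev U i₀ qv)]
  {D : GaloisRep.DeformationRingData U.O U.ρbar (U.defCond qv)}
  {B : Base U i₀} {hq : U.IsAux n qv}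
  [NeZero (levelZero U i₀ qv)] [Fact (HasIntegralStructure (levelZero U i₀ qv) 2)]
  [NeZero (levelOne U i₀ qv)] [Fact (HasIntegralStructure (levelOne U i₀ qv) 2)]

set_option maxHeartbeats 1600000 in
/-- The diamond derivative on the second module hits every multiple of `g - 1`. -/
theorem surj₁_of_surj₀
    (a₀ : Act D (levelZero U i₀ qv) admissible_char₀ (occurs₀ B hq) (weight₀ U i₀ n qv))
    (a₁ : Act D (levelOne U i₀ qv) admissible_char₁ (occurs₁ B hq) (weight₁ U i₀ n qv))
    (i : Fin R) (δ : D.R)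
    (hgen₀ : ∀ y, ∃ z, a₀.act (δ - 1) z = (R59.twGen U.O U.p n R i - 1) • y)
    (hdiv₁ : ∃ x : Module.End (Coeff U n R) (genPart admissible_char₁ (occurs₁ B hq)),
      a₁.act δ = 1 + algebraMap (Coeff U n R) _ (R59.twGen U.O U.p n R i - 1) * x)
    (f : genPart admissible_char₀ (occurs₀ B hq) →ₗ[Coeff U n R]
      genPart admissible_char₁ (occurs₁ B hq) ⧸ (congIdeal U n R •
        (⊤ : Submodule (Coeff U n R) (genPart admissible_char₁ (occurs₁ B hq)))))
    (hf : Function.Surjective f)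
    (hcomm : ∀ (x : D.R) (m : genPart admissible_char₀ (occurs₀ B hq))
      (m' : genPart admissible_char₁ (occurs₁ B hq)), f m = Submodule.Quotient.mk m' →
        f (a₀.act x m) = Submodule.Quotient.mk (a₁.act x m'))
    (y : genPart admissible_char₁ (occurs₁ B hq)) :
    ∃ z, a₁.act (δ - 1) z = (R59.twGen U.O U.p n R i - 1) • y := by
  obtain ⟨j, -, hjlev, -, hj⟩ := exists_nonEis B (qv := qv) (lev U i₀ qv)
  obtain ⟨hfree, hfin⟩ := free_genPart admissible_char₁ (occurs₁ B hq) resHom_char₁ ⟨j, hjlev, hj⟩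
  obtain ⟨x, hx⟩ := hdiv₁
  refine exists_apply_eq_gen_smul_of_congr U.p_mem f hf i (a₀.act (δ - 1)) (a₁.act (δ - 1)) x
    (hcomm (δ - 1)) hgen₀ (fun m => ?_) y
  rw [map_sub, map_one, hx, LinearMap.sub_apply, LinearMap.add_apply, add_sub_cancel_left]
  rfl

end Fermat.Agent.LL.Pair
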