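/-
The points of the component of order `p` of the group ring (owner: helper61).
-/
import Fermat.Agent.R59.TWLevel.GroupQuot
import Mathlib.RingTheory.RootsOfUnity.PrimitiveRoots

set_option autoImplicit false

noncomputable section

namespace Fermat.Agent.LL.Pair

open Fermat.Agent.R59

/-- With `μ_p ⊆ O` the component of order `p` at `i` is cut out by its points. -/
theorem mem_ramSpan_of_points {O : Type} [CommRing O] [IsDomain O] {p m r : ℕ} [Fact p.Prime]
    (hm : 0 < m) {ζ : O} (hζ : IsPrimitiveRoot ζ p) (i : Fin r) (a : TWAlg O p m r)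
    (h : ∀ f : TWAlg O p m r →ₐ[O] O, IsPrimitiveRoot (f (twGen O p m r i)) p →
      (∀ j, j ≠ i → f (twGen O p m r j) = 1) → f a = 0) :
    a ∈ Ideal.span ({∑ j ∈ Finset.range p, twGen O p m r i ^ j} ∪
      (fun j => twGen O p m r j - 1) '' {j | j ≠ i}) := by
  classical
  have hp := (Fact.out : p.Prime)
  have : NeZero p := ⟨hp.ne_zero⟩
  let f : Polynomial O := ∑ j ∈ Finset.range p, Polynomial.X ^ j
  have hmon : f.Monic := Polynomial.monic_geom_sum_X hp.ne_zero
  have hz : ∑ j ∈ Finset.range p, AdjoinRoot.root f ^ j = 0 := by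
    have h := AdjoinRoot.eval₂_root f
    simpa [f, Polynomial.eval₂_finsetSum] using h
  have hy : ∀ j, Function.update (1 : Fin r → AdjoinRoot f) i (AdjoinRoot.root f) j ^ p ^ m = 1 :=
    fun j => by
      rcases eq_or_ne j i with rfl | h
      · rw [Function.update_self]
        have h1 : AdjoinRoot.root f ^ p = 1 := by
          rw [← sub_eq_zero, ← geom_sum_mul, hz, zero_mul]
        rw [← Nat.sub_add_cancel hm, pow_succ', pow_mul, h1, one_pow]
      · rw [Function.update_of_ne h, Pi.one_apply, one_pow]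
  set I := Ideal.span ({∑ j ∈ Finset.range p, twGen O p m r i ^ j} ∪
      (fun j => twGen O p m r j - 1) '' {j | j ≠ i})
  have hroot : Polynomial.aeval (Ideal.Quotient.mk I (twGen O p m r i)) f = 0 := by
    simp only [f, map_sum, map_pow, Polynomial.aeval_X]
    rw [← (Ideal.Quotient.mk I).map_zero]
    simp only [← map_pow, ← map_sum]
    rw [Ideal.Quotient.eq, sub_zero]
    exact Ideal.subset_span (Or.inl rfl)
  refine (TWLevel.ker_eq_of_hom (TWLevel.twLift _ hy)
    (AdjoinRoot.liftAlgHom f _ (Ideal.Quotient.mk I (twGen O p m r i))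
      (show Polynomial.eval₂ (↑(Algebra.ofId O (TWAlg O p m r ⧸ I)) : O →+* TWAlg O p m r ⧸ I) _ f
        = 0 from hroot)) (fun a ha => ?_) (fun j => ?_) a).2 ?_
  · refine (Ideal.span_le (I := RingHom.ker (TWLevel.twLift (𝒪 := O) _ hy).toRingHom)).mpr ?_ ha
    rintro x (rfl | ⟨j, hj, rfl⟩)
    · simpa [TWLevel.twLift_twGen] using hz
    · simp [TWLevel.twLift_twGen, Function.update_of_ne (show j ≠ i from hj)]
  · rw [TWLevel.twLift_twGen]
    rcases eq_or_ne j i with rfl | h
    · rw [Function.update_self, AdjoinRoot.liftAlgHom_root]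
    · rw [Function.update_of_ne h, Pi.one_apply, map_one, eq_comm, ← map_one (Ideal.Quotient.mk I),
        Ideal.Quotient.eq]
      exact Ideal.subset_span (Or.inr ⟨j, h, rfl⟩)
  -- the image vanishes at all the primitive roots, so it is zero
  obtain ⟨q, hq⟩ := AdjoinRoot.mk_surjective (g := f) (TWLevel.twLift _ hy a)
  have hq' : AdjoinRoot.mk f (q %ₘ f) = TWLevel.twLift _ hy a := by
    rw [← hq, AdjoinRoot.mk_eq_mk]
    exact ⟨-(q /ₘ f), by rw [mul_neg, eq_neg_iff_add_eq_zero, sub_add_eq_add_sub,
      Polynomial.modByMonic_add_div, sub_self]⟩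
  rw [← hq']
  suffices q %ₘ f = 0 by rw [this, map_zero]
  have hdeg : f.natDegree = p - 1 := by
    have h1 : (Polynomial.cyclotomic p O).natDegree = Nat.totient p :=
      Polynomial.natDegree_cyclotomic p O
    rwa [Polynomial.cyclotomic_prime, Nat.totient_prime hp] at h1
  refine Polynomial.eq_zero_of_natDegree_lt_card_of_eval_eq_zero _ (f := fun k : Fin (p - 1) => ζ ^ (k.1 + 1))
    (fun k l hkl => ?_) (fun k => ?_) ?_
  · have := k.isLt; have := l.isLt
    exact Fin.ext (Nat.succ_injective (hζ.pow_inj (by omega) (by omega) hkl))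
  · have := k.isLt
    have hk : IsPrimitiveRoot (ζ ^ (k.1 + 1)) p := hζ.pow_of_coprime _
      ((hp.coprime_iff_not_dvd.2 fun hd => absurd (Nat.le_of_dvd k.1.succ_pos hd) (by omega)).symm)
    let ψ : AdjoinRoot f →ₐ[O] O := AdjoinRoot.liftAlgHom f _ (ζ ^ (k.1 + 1))
      (show Polynomial.eval₂ (↑(Algebra.ofId O O) : O →+* O) _ f = 0 by
        simpa [f, Polynomial.eval₂_finsetSum] using hk.geom_sum_eq_zero hp.one_lt)
    have h0 := h (ψ.comp (TWLevel.twLift _ hy))
      (by rw [AlgHom.comp_apply, TWLevel.twLift_twGen, Function.update_self,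
        AdjoinRoot.liftAlgHom_root]; exact hk)
      (fun j hj => by rw [AlgHom.comp_apply, TWLevel.twLift_twGen, Function.update_of_ne hj,
        Pi.one_apply, map_one])
    rw [AlgHom.comp_apply, ← hq', AdjoinRoot.liftAlgHom_mk] at h0
    exact h0
  · rw [Fintype.card_fin, ← hdeg]
    exact Polynomial.natDegree_modByMonic_lt _ hmon fun h1 => by
      have := congrArg Polynomial.natDegree h1
      rw [hdeg, Polynomial.natDegree_one] at this
      have := hp.two_le
      omega

end Fermat.Agent.LL.Pair
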