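/-
On the first congruent module a diamond generator minus one reaches every multiple of `g_i - 1`
(owner: helper85).
-/
import Fermat.Agent.LL.Pair.Levels
import Fermat.Agent.LL.Pair.DiamondGlue
import Fermat.Agent.LL.Pair.PushPoint
import Fermat.Agent.LL.Pair.RamPoints

set_option autoImplicit false
set_option synthInstance.maxHeartbeats 400000

noncomputable section

open IsLocalRing Fermat.Agent.TW.Mod CuspForm
open Fermat.Agent.R59.TWLevel (descend)

namespace Fermat.Agent.LL.Pair

variable {U : Setting}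

/-- The coefficients contain the `p`-th roots of unity. -/
theorem exists_primitiveRoot_p (i₀ : U.Idx) : ∃ ζ : U.O, IsPrimitiveRoot ζ U.p := by
  have hp : U.p.Prime := Fact.out
  have h := (hard_prime' U i₀).two_le
  have hdvd : U.p ∣ i₀.1 - 1 :=
    (Nat.modEq_iff_dvd' (hard_prime' U i₀).one_lt.le).1 (U.one_mod _ i₀.2).symm
  obtain ⟨v, hv⟩ := Nat.exists_eq_add_of_le
    (one_le_padicValNat_of_dvd (show i₀.1 - 1 ≠ 0 by omega) hdvd)
  refine ⟨zetaAt U i₀ ^ U.p ^ v, (zetaAt_spec U i₀).pow (pow_pos hp.pos _) ?_⟩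
  rw [hv, pow_add, pow_one, mul_comm]

theorem sub_one_apply_of_eq {A M : Type} [CommRing A] [AddCommGroup M] [Module A M]
    {u x : Module.End A M} {c : A} (h : u = 1 + algebraMap A (Module.End A M) c * x) (z : M) :
    (u - 1) z = c • x z := by
  subst h
  simp

variable {i₀ : U.Idx} {n R : ℕ} {qv : Fin R → ℕ}
  {D : GaloisRep.DeformationRingData U.O U.ρbar (U.defCond qv)}

/-- The character at `q` specialised at a point of the coefficients. -/
def pointEta (f : Coeff U n R →ₐ[U.O] U.O) (i₀ : U.Idx) (qv : Fin R → ℕ) (q : ℕ) :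
    (ZMod q)ˣ →* U.Oˣ :=
  (Units.map (f : Coeff U n R →* U.O)).comp (eta U i₀ n qv q)

variable {f : Coeff U n R →ₐ[U.O] U.O}

theorem coe_pointEta (q : ℕ) (u : (ZMod q)ˣ) :
    (pointEta f i₀ qv q u : U.O) = f (eta U i₀ n qv q u : Coeff U n R) := rfl

theorem residue_pointEta (q : ℕ) (u : (ZMod q)ˣ) :
    residue U.O (pointEta f i₀ qv q u : U.O) = 1 :=
  residue_eq_one_of_pow U (v := n + padicValNat U.p (i₀.1 - 1)) (by
    rw [coe_pointEta, ← map_pow, ← Units.val_pow_eq_pow_val, eta_pow, Units.val_one, map_one])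

variable (hq : U.IsAux n qv)
include hq

theorem pointEta_gen (j : Fin R) :
    (pointEta f i₀ qv (qv j) (unitGen (qv j)) : U.O) = f (R59.twGen U.O U.p n R j) := by
  rw [coe_pointEta, eta_aux_gen hq j]

theorem pointEta_eq_one {j : Fin R} (hj : f (R59.twGen U.O U.p n R j) = 1) :
    pointEta f i₀ qv (qv j) = 1 := by
  refine MonoidHom.ext fun u => ?_
  obtain ⟨k, rfl⟩ := Subgroup.mem_zpowers_iff.1 (mem_zpowers_unitGen (hq.prime j) u)
  rw [map_zpow, show pointEta f i₀ qv (qv j) (unitGen (qv j)) = 1 from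
    Units.ext ((pointEta_gen hq j).trans hj), one_zpow, MonoidHom.one_apply]

/-- Away from the point's prime the character is specialised to one. -/
theorem pointEta_eq_one_of_ne {i : Fin R} (hf1 : ∀ j, j ≠ i → f (R59.twGen U.O U.p n R j) = 1)
    {q : ℕ} (h : q ∈ auxPrimes qv) (hne : q ≠ qv i) : pointEta f i₀ qv q = 1 := by
  obtain ⟨j, rfl⟩ := mem_auxPrimes.1 h
  exact pointEta_eq_one hq (hf1 j fun e => hne (e ▸ rfl))

variable [NeZero (lev U i₀ qv)]

omit hq [NeZero (lev U i₀ qv)] in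
theorem lev_eq_mul (i : Fin R) :
    lev U i₀ qv = U.M * (∏ q ∈ (auxPrimes qv).erase (qv i), q) * qv i := by
  rw [lev_eq, mul_assoc, Finset.prod_erase_mul _ (fun q => q) (mem_auxPrimes.2 ⟨i, rfl⟩)]

omit [NeZero (lev U i₀ qv)] in
/-- A point of the component of order `p` at `i` gives nebentypus `η²` at `qv i`. -/
theorem isPushPoint₀ (B : Base U i₀) (i : Fin R)
    (hf : IsPrimitiveRoot (f (R59.twGen U.O U.p n R i)) U.p)
    (hf1 : ∀ j, j ≠ i → f (R59.twGen U.O U.p n R j) = 1) :
    IsPushPoint (weight₀ U i₀ n qv) (char₀ U i₀ n qv) f (sys B qv)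
      (U.M * ∏ q ∈ (auxPrimes qv).erase (qv i), q) (qv i) (pointEta f i₀ qv (qv i)) := by
  classical
  have hi : qv i ∈ auxPrimes qv := mem_auxPrimes.2 ⟨i, rfl⟩
  refine
    { lev_eq := lev_eq_mul i
      prime := hq.prime i
      not_dvd := fun h => ?_
      ne_p := fun e => hq.not_mem i (e ▸ Finset.mem_insert_self _ _)
      mem := Finset.mem_union_right _ hi
      primes := fun l hl hd => mem_auxSet_of_dvd_levelZero hq hl
        ((hd.trans (Dvd.intro _ (lev_eq_mul (i₀ := i₀) i).symm)).mul_right _)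
      eta_sq := ⟨unitGen (qv i), fun h => ?_⟩
      eta_res := residue_pointEta _
      char := fun u => ?_
      weight := fun ℓ hℓ hℓS hc => ?_
      notMem_low := notMem_lowSet U i₀ (notMem_baseSet_aux hq i)
      lam_ne := fun h => ?_ }
  · rcases (hq.prime i).dvd_mul.1 h with h | h
    · exact not_dvd_of_notMem_baseSet U (hq.prime i) (notMem_baseSet_aux hq i) h
    · obtain ⟨q, hq', hd⟩ := (Prime.dvd_finsetProd_iff (hq.prime i).prime _).1 h
      exact Finset.ne_of_mem_erase hq' ((Nat.prime_dvd_prime_iff_eq (hq.prime i)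
        (prime_of_mem_auxPrimes hq (Finset.mem_of_mem_erase hq'))).1 hd).symm
  · have h' := congrArg Units.val h
    rw [Units.val_pow_eq_pow_val, pointEta_gen hq, Units.val_one] at h'
    exact U.two_ne_p ((Nat.prime_dvd_prime_iff_eq Fact.out Nat.prime_two).1
      (hf.dvd_of_pow_eq_one 2 h'))
  · suffices H : Units.map (f : Coeff U n R →* U.O) (char₀ U i₀ n qv u) =
        pointEta f i₀ qv (qv i) (ZMod.unitsMap
          ((lev_eq_mul (i₀ := i₀) i).symm ▸ dvd_mul_left (qv i) _) u) ^ 2 from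
      congrArg Units.val H
    rw [char₀, chiTot, MonoidHom.mul_apply, MonoidHom.finsetProd_apply, map_mul, map_prod,
      dPart_of_dvd _ (M_dvd_lev U i₀ qv), Finset.prod_eq_single (qv i) (fun q hq' hne => ?_)
        fun hn => absurd hi hn, dPart_of_dvd _ (dvd_lev_of_mem U i₀ qv hi)]
    · simp [liftChar, pointEta]
    · rw [dPart_of_dvd _ (dvd_lev_of_mem U i₀ qv hq'), liftChar, MonoidHom.comp_apply,
        MonoidHom.pow_apply, map_pow]
      exact (congrArg (· ^ 2) (DFunLike.congr_fun (pointEta_eq_one_of_ne hq hf1 hq' hne) _)).trans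
        (one_pow 2)
  · suffices H : Units.map (f : Coeff U n R →* U.O) (weight₀ U i₀ n qv ℓ)⁻¹ =
        (pointEta f i₀ qv (qv i) (ZMod.unitOfCoprime ℓ hc))⁻¹ from congrArg Units.val H
    rw [map_inv, weight₀, map_prod, Finset.prod_eq_single (qv i) (fun q hq' hne => ?_)
      fun hn => absurd hi hn, etaAt, dif_pos hc]
    · rfl
    · rw [etaAt]
      split_ifs with hcq
      · exact DFunLike.congr_fun (pointEta_eq_one_of_ne hq hf1 hq' hne) _
      · exact map_one _
  · rw [sys, raiseLam, if_pos hi] at h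
    have h1 := (rootAt_spec hq i).1
    rw [h] at h1
    simp at h1

set_option maxHeartbeats 1600000 in
/-- A diamond generator minus one reaches every multiple of `g_i - 1` on the first module. -/
theorem surj₀ (inp : Inputs) (B : Base U i₀) {L : ℕ} [NeZero L]
    [Fact (HasIntegralStructure L 2)]
    (a : Act D L admissible_char₀ (occurs₀ B hq) (weight₀ U i₀ n qv)) (i : Fin R) [NeZero (qv i)]
    (Dm : TWGal.Diamond D.ρ U.p (qv i))
    (hsq : (descend (Ideal.span {R59.twGen U.O U.p n R i - 1})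
      (a.act (Dm.δ (unitGen (qv i)) : D.R)) - 1) ^ 2 = 0)
    (y : genPart admissible_char₀ (occurs₀ B hq)) :
    ∃ z, a.act ((Dm.δ (unitGen (qv i)) : D.R) - 1) z = (R59.twGen U.O U.p n R i - 1) • y := by
  classical
  rcases Nat.eq_zero_or_pos n with rfl | hn
  · have h : R59.twGen U.O U.p 0 R i = 1 := by simpa using R59.twGen_pow U.O U.p 0 R i
    exact ⟨0, by rw [h, map_zero, sub_self, zero_smul]⟩
  obtain ⟨j, -, hjlev, -, hj⟩ := exists_nonEis B (qv := qv) (lev U i₀ qv)
  obtain ⟨hfree, hfin⟩ := free_genPart admissible_char₀ (occurs₀ B hq) resHom_char₀ ⟨j, hjlev, hj⟩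
  obtain ⟨x, hx⟩ := a.exists_eq_one_add resHom_char₀ ⟨j, hjlev, hj⟩ i Dm _ hsq
  have hv : a.act (Dm.δ (unitGen (qv i)) : D.R) ^ U.p ^ padicValNat U.p (qv i - 1) = 1 := by
    rw [← map_pow, ← Units.val_pow_eq_pow_val, Dm.δ_pow, Units.val_one, map_one]
  obtain ⟨ζ, hζ⟩ := exists_primitiveRoot_p i₀
  let b := Module.Free.chooseBasis (Coeff U n R) (genPart admissible_char₀ (occurs₀ B hq))
  have hsurj : Function.Surjective x := by
    refine R59.TWLevel.surjective_of_ramified U.two_ne_p U.p_mem hn i _ x hx hv _ rfl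
      fun m hm => ?_
    refine (R59.TWLevel.mem_smul_top_iff_repr b _ m).2 fun k =>
      mem_ramSpan_of_points hn hζ i _ fun f hfi hf1 => ?_
    have hle : Ideal.span ({∑ s ∈ Finset.range U.p, R59.twGen U.O U.p n R i ^ s} ∪
        (fun s => R59.twGen U.O U.p n R s - 1) '' {s | s ≠ i}) ≤ RingHom.ker f := by
      rw [Ideal.span_le]
      rintro _ (rfl | ⟨s, hs, rfl⟩)
      · rw [SetLike.mem_coe, RingHom.mem_ker, map_sum]
        simp only [map_pow]
        exact hfi.geom_sum_eq_zero (Fact.out : U.p.Prime).one_lt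
      · rw [SetLike.mem_coe, RingHom.mem_ker, map_sub, map_one, hf1 s hs, sub_self]
    exact RingHom.mem_ker.1 ((R59.TWLevel.mem_smul_top_iff_repr b _ m).1
      (a.mem_of_diamond_sub_one inp resHom_char₀ ⟨j, hjlev, hj⟩ (isPushPoint₀ hq B i hfi hf1) Dm _
        (mem_zpowers_unitGen (hq.prime i)) m (by
          rw [map_sub, map_one, LinearMap.sub_apply, Module.End.one_apply]
          exact Submodule.smul_mono hle le_rfl hm)) k)
  obtain ⟨z, rfl⟩ := hsurj y
  refine ⟨z, ?_⟩
  rw [map_sub, map_one]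
  exact sub_one_apply_of_eq hx z

end Fermat.Agent.LL.Pair
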