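/-
Inertia at the hard primes on the two parts (helper93): where the level is exactly divisible by the
prime, the trace of the tame generator acts as two.
-/
import Fermat.Agent.LL.Pair.Levels
import Fermat.Agent.LL.Pair.PointFacts

set_option autoImplicit false
set_option synthInstance.maxHeartbeats 400000

noncomputable section

open IsLocalRing Fermat.Agent.TW.Mod CuspForm

namespace Fermat.Agent.LL.Pair

variable {U : Setting} {i₀ : U.Idx} {n R : ℕ} {qv : Fin R → ℕ}
  {D : GaloisRep.DeformationRingData U.O U.ρbar (U.defCond qv)}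

/-- Inertia of trace two where the level is exactly divisible by a hard prime. -/
theorem Act.act_trAt_sub_two {L : ℕ} [NeZero L] [Fact (HasIntegralStructure L 2)]
    [NeZero (lev U i₀ qv)] {χ : (ZMod (lev U i₀ qv))ˣ →* (Coeff U n R)ˣ}
    {hadm : Admissible (epsOf χ)} {lam : PrimeIdx (lowSet U i₀) → ResidueField U.O}
    {h : Occurs U.O (twFam χ (lowSet U i₀)) lam} {W : ℕ → (Coeff U n R)ˣ}
    (a : Act D L hadm h W) (i : U.Idx) (hi : i.1 ∣ L) (hi2 : ¬ i.1 ^ 2 ∣ L) :
    a.act (trAt D.ρ (U.tame i) - 2) = 0 := by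
  have hne : i.1 ≠ U.p := hard_ne_p' U i
  have h0 := trAt_sub_two_eq_zero (U.place_liesOver i) (U.tame_spec i)
    (a.unipotent i.1 (hard_prime' U i) hne hi hi2)
  rw [trAt_baseChangeAlong] at h0
  have h1 : a.toHecke (trAt D.ρ (U.tame i) - 2) = 0 := by
    rw [map_sub, map_ofNat]
    exact h0
  rw [Act.act, AlgHom.comp_apply, h1, map_zero]

theorem hard_not_dvd_prod_aux (hq : U.IsAux n qv) (i : U.Idx) : ¬ i.1 ∣ ∏ q ∈ auxPrimes qv, q :=
  fun h => by
    obtain ⟨q, hq', h'⟩ := (Prime.dvd_finsetProd_iff (hard_prime' U i).prime _).1 h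
    exact hard_notMem_aux hq
      ((Nat.prime_dvd_prime_iff_eq (hard_prime' U i) (prime_of_mem_auxPrimes hq hq')).1 h' ▸ hq')

theorem not_sq_dvd_M_mul (i : U.Idx) {a : ℕ} (ha : ¬ i.1 ∣ a) : ¬ i.1 ^ 2 ∣ U.M * a := fun h => by
  have h2 : i.1 ^ 2 ∣ U.M :=
    (((hard_prime' U i).coprime_iff_not_dvd.2 ha).pow_left 2).dvd_of_dvd_mul_right h
  exact (hard_prime' U i).not_isUnit (U.squarefree i.1 (by rwa [← sq]))

/-- At level zero every hard prime divides the first level exactly. -/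
theorem Act.act_trAt_sub_two₀ [NeZero (levelZero U i₀ qv)]
    [Fact (HasIntegralStructure (levelZero U i₀ qv) 2)] [NeZero (lev U i₀ qv)]
    {χ : (ZMod (lev U i₀ qv))ˣ →* (Coeff U n R)ˣ} {hadm : Admissible (epsOf χ)}
    {lam : PrimeIdx (lowSet U i₀) → ResidueField U.O}
    {h : Occurs U.O (twFam χ (lowSet U i₀)) lam} {W : ℕ → (Coeff U n R)ˣ}
    (a : Act D (levelZero U i₀ qv) hadm h W) (hq : U.IsAux n qv) (i : U.Idx) :
    a.act (trAt D.ρ (U.tame i) - 2) = 0 := by
  refine a.act_trAt_sub_two i ((hard_dvd U i).trans ((M_dvd_lev U i₀ qv).mul_right _)) ?_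
  rw [levelZero, lev_eq, mul_assoc]
  exact not_sq_dvd_M_mul i fun h =>
    ((hard_prime' U i).dvd_mul.1 h).elim (hard_not_dvd_prod_aux hq i) (hard_not_dvd_prod_aux hq i)

/-- At level zero the hard primes other than `i₀` divide the second level exactly. -/
theorem Act.act_trAt_sub_two₁ [NeZero (levelOne U i₀ qv)]
    [Fact (HasIntegralStructure (levelOne U i₀ qv) 2)] [NeZero (lev U i₀ qv)]
    {χ : (ZMod (lev U i₀ qv))ˣ →* (Coeff U n R)ˣ} {hadm : Admissible (epsOf χ)}
    {lam : PrimeIdx (lowSet U i₀) → ResidueField U.O}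
    {h : Occurs U.O (twFam χ (lowSet U i₀)) lam} {W : ℕ → (Coeff U n R)ˣ}
    (a : Act D (levelOne U i₀ qv) hadm h W) (hq : U.IsAux n qv)
    (i : U.Idx) (hi : i ≠ i₀) :
    a.act (trAt D.ρ (U.tame i) - 2) = 0 := by
  have he : levelOne U i₀ qv = levelZero U i₀ qv * i₀.1 := by ring
  refine a.act_trAt_sub_two i
    (he ▸ ((hard_dvd U i).trans ((M_dvd_lev U i₀ qv).mul_right _)).mul_right _) ?_
  rw [he, levelZero, lev_eq, mul_assoc, mul_assoc]
  refine not_sq_dvd_M_mul i fun h => ?_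
  rcases (hard_prime' U i).dvd_mul.1 h with h | h
  · exact hard_not_dvd_prod_aux hq i h
  rcases (hard_prime' U i).dvd_mul.1 h with h | h
  · exact hard_not_dvd_prod_aux hq i h
  · exact hi (Subtype.ext ((Nat.prime_dvd_prime_iff_eq (hard_prime' U i) (hard_prime' U i₀)).1 h))

end Fermat.Agent.LL.Pair
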