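/-
The congruent modules: assembly (owner: helper61).
-/
import Fermat.Agent.LL.Pair.Assembly
import Fermat.Agent.LL.Pair.CongrField
import Fermat.Agent.LL.Pair.DiamondGlue
import Fermat.Agent.LL.Pair.FiniteOrderField
import Fermat.Agent.LL.Pair.LevelZero
import Fermat.Agent.LL.Pair.Minimal
import Fermat.Agent.LL.Pair.Rigid
import Fermat.Agent.LL.Pair.SurjTransfer
import Fermat.Agent.LL.Pair.Surjective0
import Fermat.Agent.LL.Pair.TraceFields
import Fermat.Agent.LL.Pair.Unipotent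

set_option autoImplicit false
set_option linter.style.haveILetI false
set_option synthInstance.maxHeartbeats 400000

noncomputable section

open IsLocalRing Fermat.Agent.TW.Mod CuspForm
open Fermat.Agent.R59.TWLevel (descend)

namespace Fermat.Agent.LL.Pair

local notation "Γℚ" => (AlgebraicClosure ℚ ≃ₐ[ℚ] AlgebraicClosure ℚ)

variable {U : Setting} {i₀ : U.Idx} {n R : ℕ} {qv : Fin R → ℕ} [NeZero (lev U i₀ qv)]
  {D : GaloisRep.DeformationRingData U.O U.ρbar (U.defCond qv)}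
  (B : Base U i₀) (hq : U.IsAux n qv)
  [NeZero (levelZero U i₀ qv)] [Fact (HasIntegralStructure (levelZero U i₀ qv) 2)]
  [NeZero (levelOne U i₀ qv)] [Fact (HasIntegralStructure (levelOne U i₀ qv) 2)]

variable (D)

set_option maxHeartbeats 2000000 in
theorem nonempty_pair (inp : Inputs) {k : ℕ}
    (hk : ∀ (a : Act D (levelZero U i₀ qv) admissible_char₀ (occurs₀ B hq) (weight₀ U i₀ n qv))
      (m : genPart admissible_char₀ (occurs₀ B hq)),
      algebraMap U.O (Coeff U n R) ((U.p : U.O) ^ k) • m ∈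
        (⨆ σ : Γℚ, LinearMap.range (a.act (trAt D.ρ (U.tame i₀ * σ) - trAt D.ρ σ))) ⊔
          RingHom.ker (R59.twAug U.O U.p n R) •
            (⊤ : Submodule (Coeff U n R) (genPart admissible_char₀ (occurs₀ B hq)))) :
    Nonempty (Pair U i₀ (Module.finrank U.O (minPart B)) (Module.finrank U.O (minPart B)) k n D) := by
  classical
  haveI : ∀ i, NeZero (qv i) := fun i => ⟨(hq.prime i).ne_zero⟩
  obtain ⟨a₀⟩ := nonempty_act₀ B hq D inp
  obtain ⟨a₁⟩ := nonempty_act₁ B hq D inp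
  obtain ⟨j, -, hjlev, -, hj⟩ := exists_nonEis B (qv := qv) (lev U i₀ qv)
  obtain ⟨hfree₀, hfin₀⟩ := free_genPart admissible_char₀ (occurs₀ B hq) resHom_char₀ ⟨j, hjlev, hj⟩
  obtain ⟨hfree₁, hfin₁⟩ := free_genPart admissible_char₁ (occurs₁ B hq) resHom_char₁ ⟨j, hjlev, hj⟩
  let Dm := fun i => (exists_diamond hq D i).some
  obtain ⟨f, hfs, hfk, hfc⟩ := exists_congr_acts B hq a₀ a₁
  have hdiv₁ : ∀ i, ∃ x, a₁.act ((Dm i).δ (unitGen (qv i)) : D.R) =
      1 + algebraMap (Coeff U n R) _ (R59.twGen U.O U.p n R i - 1) * x := fun i =>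
    a₁.exists_eq_one_add resHom_char₁ ⟨j, hjlev, hj⟩ i (Dm i) _ (descend_act_sq_zero₁ inp B hq a₁ i (Dm i) _)
  refine nonempty_pair_of_acts D (finrank_minPart_pos B) a₀.act a₁.act
    (fun i => ((Dm i).δ (unitGen (qv i)) : D.R) - 1) (fun i => diamond_sub_one_mem (Dm i) _)
    (fun i => ⟨padicValNat U.p (qv i - 1), ?_⟩)
    (fun i y => surj₀ hq inp B a₀ i (Dm i) (descend_act_sq_zero₀ inp B hq a₀ i (Dm i) _) y) (fun i y => surj₁_of_surj₀ (hq := hq) (i := i) a₀ a₁ _ (fun y => surj₀ hq inp B a₀ i (Dm i) (descend_act_sq_zero₀ inp B hq a₀ i (Dm i) _) y)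
      (hdiv₁ i) f hfs hfc y)
    (fun i => ?_) (fun i => ?_) (finrank_genPart₀ B hq) ((finrank_genPart₁ B hq).trans (finrank_genPart₀ B hq))
    ⟨f, hfs, hfk, hfc⟩ (fun i => a₀.act_trAt_sub_two₀ hq i)
    (fun i hi => a₁.act_trAt_sub_two₁ hq i hi) (hk a₀) (fun m => finiteOrder₁_mem inp B hq a₁ m)
  · rw [add_sub_cancel, ← Units.val_pow_eq_pow_val, (Dm i).δ_pow, Units.val_one]
  · rw [add_sub_cancel]
    exact a₀.exists_eq_one_add resHom_char₀ ⟨j, hjlev, hj⟩ i (Dm i) _
      (descend_act_sq_zero₀ inp B hq a₀ i (Dm i) _)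
  · rw [add_sub_cancel]
    exact hdiv₁ i

omit [NeZero (lev U i₀ qv)] [NeZero (levelZero U i₀ qv)] [Fact (HasIntegralStructure (levelZero U i₀ qv) 2)]
  [NeZero (levelOne U i₀ qv)] [Fact (HasIntegralStructure (levelOne U i₀ qv) 2)] in
set_option maxHeartbeats 1000000 in
/-- **The congruent modules exist.** -/
theorem stmtPair_of (inp : Inputs) : StmtPair := by
  intro U i₀
  obtain ⟨B⟩ := nonempty_base U i₀
  obtain ⟨k, hk⟩ := exists_pow_nontriv inp B
  refine ⟨Module.finrank U.O (minPart B), Module.finrank U.O (minPart B), k, finrank_minPart_pos B,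
    fun n R qv hq D => ?_⟩
  haveI := neZero_lev (i₀ := i₀) hq
  haveI := neZero_levelZero (i₀ := i₀) hq
  haveI := neZero_levelOne (i₀ := i₀) hq
  haveI : Fact (HasIntegralStructure (levelZero U i₀ qv) 2) :=
    ⟨MF.IntStruct.hasIntegralStructure _ 2⟩
  haveI : Fact (HasIntegralStructure (levelOne U i₀ qv) 2) :=
    ⟨MF.IntStruct.hasIntegralStructure _ 2⟩
  exact nonempty_pair D B hq inp fun a m => hk n R qv hq D _ a m

end Fermat.Agent.LL.Pair
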