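import Fermat.Agent.R59.TopRep.Residual

/-!
# The condition at `p` of a lift, from the residual representation

For `ρ` over `T` with residual representation `ρbar`: ordinarity of `ρbar` passes to the residual
representation, flatness descends, and an ordinary lift with cyclotomic determinant of a
non-flat `ρbar` is strict ordinary.
-/

set_option autoImplicit false
set_option linter.unusedSectionVars false

noncomputable section

open IsLocalRing Fermat.Agent.R59.TopRep

namespace Fermat.Agent.LL.Pair

variable {p : ℕ} {O : Type} [CommRing O] [IsLocalRing O]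
  {ρbar : ResidualGaloisRep (ResidueField O)}
  {T : Type} [CommRing T] [IsLocalRing T] [Algebra O T] [IsLocalHom (algebraMap O T)]
  {ρ : GaloisRepAdic T}

/-- Ordinarity of `ρbar` passes to the residual representation of a lift. -/
theorem residual_isOrdinaryAt_of_rhoBar
    (hord : (GaloisRepAdic.ofResidualGaloisRep ρbar).IsOrdinaryAt p)
    (hres : ρ.residual.IsEquiv (ρbar.baseChangeAlong (ResidueField.map (algebraMap O T)))) :
    (GaloisRepAdic.ofResidualGaloisRep ρ.residual).IsOrdinaryAt p := by
  have h2 : HasOrdLines p (ResidueField O) fun σ => ρbar.ρ σ := hord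
  letI : Algebra (ResidueField O) (ResidueField T) :=
    (ResidueField.map (algebraMap O T)).toAlgebra
  obtain ⟨e3⟩ := hres
  exact (h2.baseChange (ResidueField T)).of_equiv e3.symm.toLinearEquiv
    fun σ v => e3.symm.map_apply σ v

/-- Flatness of the residual representation of a lift descends to `ρbar`. -/
theorem rhoBar_isFlatAt_of_residual
    (hsurj : Function.Surjective (residue T ∘ algebraMap O T))
    (hres : ρ.residual.IsEquiv (ρbar.baseChangeAlong (ResidueField.map (algebraMap O T))))
    (hflat : (GaloisRepAdic.ofResidualGaloisRep ρ.residual).IsFlatAt p) :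
    (GaloisRepAdic.ofResidualGaloisRep ρbar).IsFlatAt p := by
  have hg : Function.Bijective (ResidueField.map (algebraMap O T)) := by
    refine ⟨RingHom.injective _, fun y => ?_⟩
    obtain ⟨c, rfl⟩ := hsurj y
    exact ⟨residue O c, ResidueField.map_residue _ c⟩
  set g := ResidueField.map (algebraMap O T) with hgdef
  let gi : ResidueField T →+* ResidueField O := ((RingEquiv.ofBijective g hg).symm : _ ≃+* _)
  have hcomp : gi.comp g = RingHom.id _ :=
    RingHom.ext fun x => (RingEquiv.ofBijective g hg).symm_apply_apply x
  have hgl : IsLocalHom g := inferInstance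
  have hil : IsLocalHom gi := ⟨fun x hx => by
    refine isUnit_iff_ne_zero.mpr fun h0 => ?_
    rw [h0, map_zero] at hx
    exact not_isUnit_zero hx⟩
  have hcl : IsLocalHom (gi.comp g) := @RingHom.isLocalHom_comp _ _ _ _ _ _ gi g hil hgl
  obtain ⟨e⟩ := hres
  have h1 : ((GaloisRepAdic.ofResidualGaloisRep ρbar).baseChangeAlong g hgl).IsFlatAt p :=
    Tangent.isFlatAt_of_isEquiv
      (ρ' := (GaloisRepAdic.ofResidualGaloisRep ρbar).baseChangeAlong g hgl)
      ⟨{ toLinearEquiv := e.toLinearEquiv, map_apply := e.map_apply }⟩ hflat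
  have h2 := Tangent.isFlatAt_baseChangeAlong gi hil (RingEquiv.surjective _) h1
  have e2 := R59.baseChangeAlong_comp_isEquiv g hgl gi hil hcl (GaloisRepAdic.ofResidualGaloisRep ρbar)
  obtain ⟨e3⟩ := baseChangeAlong_id_isEquiv hcomp ρbar
  exact Tangent.isFlatAt_of_isEquiv
    ⟨{ toLinearEquiv := e3.toLinearEquiv, map_apply := e3.map_apply }⟩
    (Tangent.isFlatAt_of_isEquiv e2 h2)

/-- An ordinary lift with cyclotomic determinant of a non-flat `ρbar` is strict ordinary. -/
theorem isStrictOrdinaryAt_of_rhoBar_not_flat [Fact p.Prime] [IsNoetherianRing T]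
    [Finite (ResidueField O)]
    (hsurj : Function.Surjective (residue T ∘ algebraMap O T))
    (hres : ρ.residual.IsEquiv (ρbar.baseChangeAlong (ResidueField.map (algebraMap O T))))
    (hdet : ρ.DetIsCyclotomic p) (hord : ρ.IsOrdinaryAt p)
    (hnf : ¬ (GaloisRepAdic.ofResidualGaloisRep ρbar).IsFlatAt p) :
    ρ.IsStrictOrdinaryAt p := by
  haveI : Finite (ResidueField T) :=
    Finite.of_surjective (ResidueField.map (algebraMap O T)) fun y => by
      obtain ⟨c, rfl⟩ := hsurj y
      exact ⟨residue O c, ResidueField.map_residue _ c⟩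
  exact (isStrictOrdinaryAt_or_residual_isFlatAt hdet hord).resolve_right fun h =>
    hnf (rhoBar_isFlatAt_of_residual hsurj hres h)

end Fermat.Agent.LL.Pair
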