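import Fermat.Agent.LL.Galois.Relations
import Fermat.Agent.GAL.PointExtend
import Fermat.Agent.TraceFn.Burnside
import Fermat.Agent.CondLevel.TwoDim
import Mathlib.RingTheory.Nilpotent.Basic

/-!
# Points of finite algebras and traces of tame inertia

* A finite torsion free algebra over a complete discrete valuation ring has enough points with
  values in discrete valuation rings (`isNilpotent_of_points`, `exists_pow_mem_of_points`).
* At a point, tame inertia `τ` detects ramification through the trace function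
  (`exists_trace_ne`), and its eigenvalues are roots of unity of `p`-power order dividing `r - 1`,
  nontrivial when inertia is not unipotent (`finprod_trace_eq_zero`).
-/

set_option autoImplicit false
set_option linter.style.haveILetI false

noncomputable section

open IsLocalRing Fermat.Agent.Deform Fermat.Agent.R59.CotGrowth

namespace Fermat.Agent.LL.Pair

section Points

variable {O : Type} [CommRing O] [IsDomain O] [IsDiscreteValuationRing O]
  [IsAdicComplete (maximalIdeal O) O] [Finite (ResidueField O)] [CharZero O]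
  {T : Type} [CommRing T] [Algebra O T] [Module.Finite O T]

/-- A prime meeting `O` in zero is the kernel of a point in a finite extension of `O`. -/
theorem exists_point_of_prime (P : Ideal T) [hP : P.IsPrime]
    (hPO : ∀ c : O, algebraMap O T c ∈ P → c = 0) :
    ∃ (O' : Type) (_ : CommRing O') (_ : IsDomain O') (_ : IsDiscreteValuationRing O')
      (_ : IsAdicComplete (maximalIdeal O') O') (_ : Finite (ResidueField O')) (_ : CharZero O')
      (_ : Algebra O O') (_ : Module.Finite O O') (_ : IsLocalHom (algebraMap O O'))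
      (ψ : T →ₐ[O] O'), Function.Injective (algebraMap O O') ∧
        RingHom.ker (ψ : T →+* O') = P := by
  classical
  let K := FractionRing O
  let Kb := AlgebraicClosure K
  have hi : Function.Injective (algebraMap O (T ⧸ P)) := (injective_iff_map_eq_zero _).mpr
    fun c hc => hPO c (Ideal.Quotient.eq_zero_iff_mem.mp hc)
  haveI : Algebra.IsIntegral O (T ⧸ P) := Algebra.IsIntegral.of_finite O (T ⧸ P)
  haveI : FaithfulSMul O (T ⧸ P) := (faithfulSMul_iff_algebraMap_injective _ _).mpr hi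
  have hOK : Function.Injective (algebraMap O Kb) := by
    rw [IsScalarTower.algebraMap_eq O K Kb]
    exact (algebraMap K Kb).injective.comp (IsFractionRing.injective O K)
  haveI : FaithfulSMul O Kb := (faithfulSMul_iff_algebraMap_injective _ _).mpr hOK
  let g₀ : T ⧸ P →ₐ[O] Kb := IsAlgClosed.lift
  have hg₀ : Function.Injective g₀ := by
    rw [injective_iff_map_eq_zero]
    intro x hx
    by_contra hne
    have hzero : (RingHom.ker g₀).comap (algebraMap O (T ⧸ P)) = ⊥ := by
      rw [show RingHom.ker g₀ = RingHom.ker (g₀ : T ⧸ P →+* Kb) from rfl, RingHom.comap_ker,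
        AlgHom.comp_algebraMap]
      exact (RingHom.injective_iff_ker_eq_bot _).mp hOK
    exact Ideal.comap_ne_bot_of_integral_mem hne hx (Algebra.IsIntegral.isIntegral x) hzero
  let g : T →ₐ[O] Kb := g₀.comp (Ideal.Quotient.mkₐ O P)
  obtain ⟨s, hs⟩ := (Module.Finite.fg_top : (⊤ : Submodule O T).FG)
  let E := IntermediateField.adjoin K (g '' (s : Set T))
  haveI : FiniteDimensional K E := IntermediateField.finiteDimensional_adjoin
    fun x _ => ((AlgebraicClosure.isAlgebraic K).isAlgebraic x).isIntegral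
  have hgE : ∀ t, g t ∈ E := by
    intro t
    have ht : t ∈ Submodule.span O (s : Set T) := by rw [hs]; trivial
    induction ht using Submodule.span_induction with
    | mem x hx => exact IntermediateField.subset_adjoin _ _ ⟨x, hx, rfl⟩
    | zero => rw [map_zero]; exact zero_mem _
    | add x y _ _ hx hy => rw [map_add]; exact add_mem hx hy
    | smul a x _ hx =>
      rw [Algebra.smul_def, map_mul, AlgHom.commutes, IsScalarTower.algebraMap_apply O K Kb]
      exact mul_mem (E.algebraMap_mem _) hx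
  haveI : CharZero K := charZero_of_injective_algebraMap (IsFractionRing.injective O K)
  haveI : Algebra.IsSeparable K E := inferInstance
  haveI : IsScalarTower O K E := inferInstance
  let O' := integralClosure O E
  haveI : Module.Finite O O' := IsIntegralClosure.finite O K E O'
  haveI : IsDedekindDomain O' := IsIntegralClosure.isDedekindDomain O K E O'
  have hOE : Function.Injective (algebraMap O E) := by
    rw [IsScalarTower.algebraMap_eq O K E]
    exact (algebraMap K E).injective.comp (IsFractionRing.injective O K)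
  have hinj : Function.Injective (algebraMap O O') := fun x y hxy =>
    hOE (congrArg Subtype.val hxy)
  haveI : FaithfulSMul O O' := (faithfulSMul_iff_algebraMap_injective _ _).mpr hinj
  haveI : IsLocalRing O' := GAL.isLocalRing_of_finite_of_isDomain (O := O) O'
  haveI hloc : IsLocalHom (algebraMap O O') :=
    RingHom.IsIntegral.isLocalHom (fun x => (Algebra.IsIntegral.of_finite O O').isIntegral x) hinj
  have hnf : ¬ IsField O' := fun h =>
    IsDiscreteValuationRing.not_isField O
      (haveI : Algebra.IsIntegral O O' := Algebra.IsIntegral.of_finite O O'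
      isField_of_isIntegral_of_isField hinj h)
  haveI : IsDiscreteValuationRing O' :=
    ((IsDiscreteValuationRing.TFAE O' hnf).out 0 2 :
      IsDiscreteValuationRing O' ↔ IsDedekindDomain O').mpr inferInstance
  haveI : IsAdicComplete (maximalIdeal O') O' :=
    IsLocalRing.isAdicComplete_of_module_finite (𝒪 := O)
  haveI : Finite (ResidueField O') := Module.finite_of_finite (ResidueField O)
  haveI : CharZero O' := charZero_of_injective_algebraMap hinj
  have hint : ∀ t, (⟨g t, hgE t⟩ : E) ∈ O' := fun t =>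
    (isIntegral_algHom_iff (E.val.restrictScalars O) Subtype.val_injective).mp
      ((IsIntegral.of_finite O t).map g)
  let ψ : T →ₐ[O] O' :=
    { toFun := fun t => ⟨⟨g t, hgE t⟩, hint t⟩
      map_one' := Subtype.ext (Subtype.ext (map_one g))
      map_mul' := fun a b => Subtype.ext (Subtype.ext (map_mul g a b))
      map_zero' := Subtype.ext (Subtype.ext (map_zero g))
      map_add' := fun a b => Subtype.ext (Subtype.ext (map_add g a b))
      commutes' := fun c => Subtype.ext (Subtype.ext (g.commutes c)) }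
  refine ⟨O', inferInstance, inferInstance, inferInstance, inferInstance, inferInstance,
    inferInstance, inferInstance, inferInstance, hloc, ψ, hinj, ?_⟩
  ext t
  rw [RingHom.mem_ker, ← Ideal.Quotient.eq_zero_iff_mem, ← map_eq_zero_iff g₀ hg₀]
  constructor
  · intro h
    exact congrArg Subtype.val (congrArg Subtype.val h)
  · intro h
    exact Subtype.ext (Subtype.ext h)

omit [IsAdicComplete (maximalIdeal O) O] [Finite (ResidueField O)] [CharZero O]
  [Module.Finite O T] in
lemma algebraMap_mem_imp_eq_zero {p : ℕ} (hp : (p : O) ∈ maximalIdeal O) {P : Ideal T}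
    [P.IsPrime] (hpP : algebraMap O T (p : O) ∉ P) {c : O} (hc : algebraMap O T c ∈ P) :
    c = 0 := by
  by_contra hne
  have hb : P.comap (algebraMap O T) ≠ ⊥ := fun h => hne (by
    rwa [← Ideal.mem_comap, h, Ideal.mem_bot] at hc)
  exact hpP (Ideal.mem_comap.mp ((Ideal.IsPrime.isMaximal inferInstance hb |>
    eq_maximalIdeal).symm ▸ hp))

/-- An element vanishing at every point of a finite free algebra is nilpotent. -/
theorem isNilpotent_of_points [Module.IsTorsionFree O T] {p : ℕ} (hp0 : (p : O) ≠ 0)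
    (hp : (p : O) ∈ maximalIdeal O) (x : T)
    (h : ∀ (O' : Type) [CommRing O'] [IsDomain O'] [IsDiscreteValuationRing O']
      [IsAdicComplete (maximalIdeal O') O'] [Finite (ResidueField O')] [CharZero O']
      [Algebra O O'] [Module.Finite O O'] [IsLocalHom (algebraMap O O')],
      Function.Injective (algebraMap O O') → ∀ ψ : T →ₐ[O] O', ψ x = 0) : IsNilpotent x := by
  by_contra hx
  obtain ⟨P, hP, -, hdis⟩ := Ideal.exists_le_prime_disjoint (⊥ : Ideal T)
    (Submonoid.powers x ⊔ Submonoid.powers (algebraMap O T (p : O))) (by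
      rw [Set.disjoint_left]
      rintro t ht hmem
      obtain ⟨a, ⟨i, rfl⟩, b, ⟨j, rfl⟩, rfl⟩ := Submonoid.mem_sup.mp hmem
      have ht' : x ^ i * algebraMap O T (p : O) ^ j = 0 := ht
      rw [← map_pow, mul_comm, ← Algebra.smul_def] at ht'
      rcases smul_eq_zero.mp ht' with h1 | h1
      · exact pow_ne_zero j hp0 h1
      · exact hx ⟨i, h1⟩)
  rw [Set.disjoint_left] at hdis
  have hpP : algebraMap O T (p : O) ∉ P := fun h' => hdis h'
    (Submonoid.mem_sup_right (Submonoid.mem_powers _))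
  obtain ⟨O', _, _, _, _, _, _, _, _, _, ψ, hinj, hker⟩ :=
    exists_point_of_prime P fun c => algebraMap_mem_imp_eq_zero hp hpP
  exact hdis (show x ∈ P by rw [← hker]; exact h O' hinj ψ)
    (Submonoid.mem_sup_left (Submonoid.mem_powers _))

/-- An ideal which vanishes at no point contains a power of `p`. -/
theorem exists_pow_mem_of_points {p : ℕ} (hp : (p : O) ∈ maximalIdeal O) (J : Ideal T)
    (h : ∀ (O' : Type) [CommRing O'] [IsDomain O'] [IsDiscreteValuationRing O']
      [IsAdicComplete (maximalIdeal O') O'] [Finite (ResidueField O')] [CharZero O']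
      [Algebra O O'] [Module.Finite O O'] [IsLocalHom (algebraMap O O')],
      Function.Injective (algebraMap O O') → ∀ ψ : T →ₐ[O] O', ∃ x ∈ J, ψ x ≠ 0) :
    ∃ k : ℕ, algebraMap O T (p : O) ^ k ∈ J := by
  by_contra hk
  simp only [not_exists] at hk
  obtain ⟨P, hP, hJP, hdis⟩ := Ideal.exists_le_prime_disjoint J
    (Submonoid.powers (algebraMap O T (p : O))) (by
      rw [Set.disjoint_left]
      rintro t ht ⟨j, rfl⟩
      exact hk j ht)
  rw [Set.disjoint_left] at hdis
  have hpP : algebraMap O T (p : O) ∉ P := fun h' => hdis h' (Submonoid.mem_powers _)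
  obtain ⟨O', _, _, _, _, _, _, _, _, _, ψ, hinj, hker⟩ :=
    exists_point_of_prime P fun c => algebraMap_mem_imp_eq_zero hp hpP
  obtain ⟨x, hxJ, hx⟩ := h O' hinj ψ
  exact hx (show x ∈ RingHom.ker (ψ : T →+* O') by rw [hker]; exact hJP hxJ)

/-- A nilpotent endomorphism of a free module of rank `d` has `d`-th power zero. -/
theorem pow_finrank_eq_zero {R M : Type} [CommRing R] [IsDomain R] [AddCommGroup M] [Module R M]
    [Module.Free R M] [Module.Finite R M] {f : Module.End R M} (hf : IsNilpotent f) :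
    f ^ Module.finrank R M = 0 := by
  have h := f.aeval_self_charpoly
  rwa [hf.charpoly_eq_X_pow_finrank, map_pow, Polynomial.aeval_X] at h

end Points

section Trace

variable {A : Type} [CommRing A] [IsLocalRing A]

/-- The trace of a unipotent endomorphism of rank two is `2`. -/
theorem trace_eq_two_of_charpoly (ρ : GaloisRepAdic A)
    {σ : AlgebraicClosure ℚ ≃ₐ[ℚ] AlgebraicClosure ℚ}
    (h : LinearMap.charpoly (ρ.ρ σ) = (Polynomial.X - 1) ^ 2) :
    LinearMap.trace A ρ.V (ρ.ρ σ) = 2 := by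
  refine (CondLevel.trace_det_of_charpoly ρ.finrank_eq (ρ.ρ σ) (t := 2) (d := 1) ?_).1
  rw [h, map_one, map_ofNat]
  ring

variable [IsNoetherianRing A] {p r : ℕ} {P : ValuationSubring (AlgebraicClosure ℚ)}
  {φ τ : AlgebraicClosure ℚ ≃ₐ[ℚ] AlgebraicClosure ℚ} {ρ : GaloisRepAdic A}

omit [IsNoetherianRing A] in
/-- Modulo every power of the maximal ideal the inertia image is generated by `τ`. -/
theorem exists_zpow_eq (hpA : (p : A) ∈ maximalIdeal A) (hφ : P.IsFrobeniusAt φ r)
    (hτ : IsTameGen p r P φ τ) (hres : ∀ σ ∈ P.inertiaSubgroupIn ℚ, ρ.residual.ρ σ = 1)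
    (b : Module.Basis (Fin 2) A ρ.V) (n : ℕ) {σ : AlgebraicClosure ℚ ≃ₐ[ℚ] AlgebraicClosure ℚ}
    (hσ : σ ∈ P.inertiaSubgroupIn ℚ) :
    ∃ (u : (Matrix (Fin 2) (Fin 2) (A ⧸ maximalIdeal A ^ (n + 1)))ˣ) (z : ℤ),
      u.val = (Ideal.Quotient.mk (maximalIdeal A ^ (n + 1))).mapMatrix (matOf ρ b τ) ∧
      (u ^ z).val = (Ideal.Quotient.mk (maximalIdeal A ^ (n + 1))).mapMatrix (matOf ρ b σ) := by
  obtain ⟨L, hL, hfix⟩ := isContRep_matOf ρ b (n + 1)
  let mk : A →+* A ⧸ maximalIdeal A ^ (n + 1) := Ideal.Quotient.mk _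
  have hker : ∀ X : Matrix (Fin 2) (Fin 2) A,
      (∀ a b, (X - 1) a b ∈ maximalIdeal A ^ (n + 1)) → mk.mapMatrix X = 1 := by
    intro X hX
    rw [← sub_eq_zero, ← map_one mk.mapMatrix, ← map_sub]
    ext a b
    exact Ideal.Quotient.eq_zero_iff_mem.mpr (hX a b)
  let f : P.decompositionSubgroup ℚ →* (Matrix (Fin 2) (Fin 2) (A ⧸ maximalIdeal A ^ (n + 1)))ˣ :=
    ((mapRep mk (matOf ρ b)).comp (P.decompositionSubgroup ℚ).subtype).toHomUnits
  let τ' : P.decompositionSubgroup ℚ := ⟨τ, Galois.inertia_le_decomposition P hτ.mem⟩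
  let σ' : P.decompositionSubgroup ℚ := ⟨σ, Galois.inertia_le_decomposition P hσ⟩
  obtain ⟨z, hz⟩ := Subgroup.mem_zpowers_iff.mp
    ((hτ.gen _ f L hL (fun σ hσ => Units.ext (hker _ (hfix σ.1 hσ)))
      (fun σ hσ => ⟨n, Units.ext (by
        rw [Units.val_pow_eq_pow_val]
        show mk.mapMatrix (matOf ρ b σ.1) ^ p ^ n = 1
        rw [← map_pow]
        exact hker _ (pow_pow_sub_one_mem hpA
          (matOf_sub_one_mem_of_residual b (hres σ.1 hσ)) n))⟩) τ' ⟨φ, hφ.1⟩ rfl rfl).1 σ' hσ)
  exact ⟨f τ', z, rfl, congrArg Units.val hz⟩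

/-- If the tame generator acts trivially then so does inertia. -/
theorem inertia_eq_one_of_tame_eq_one (hpA : (p : A) ∈ maximalIdeal A)
    (hφ : P.IsFrobeniusAt φ r) (hτ : IsTameGen p r P φ τ)
    (hres : ∀ σ ∈ P.inertiaSubgroupIn ℚ, ρ.residual.ρ σ = 1) (h : ρ.ρ τ = 1)
    {σ : AlgebraicClosure ℚ ≃ₐ[ℚ] AlgebraicClosure ℚ} (hσ : σ ∈ P.inertiaSubgroupIn ℚ) :
    ρ.ρ σ = 1 := by
  obtain ⟨b⟩ := finBasisV ρ
  have hb : matOf ρ b σ = 1 := by
    ext i j
    refine DefCond.eq_of_forall_mk_eq fun n => ?_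
    obtain ⟨u, z, hu, hz⟩ := exists_zpow_eq hpA hφ hτ hres b n hσ
    have hu1 : u = 1 := Units.ext (by rw [hu, matOf_apply, h, LinearMap.toMatrix_one, map_one]; rfl)
    rw [hu1, one_zpow, Units.val_one] at hz
    rw [show Ideal.Quotient.mk (maximalIdeal A ^ (n + 1)) (matOf ρ b σ i j) =
      (Ideal.Quotient.mk (maximalIdeal A ^ (n + 1))).mapMatrix (matOf ρ b σ) i j from rfl, ← hz]
    rcases eq_or_ne i j with rfl | hij
    · simp
    · simp [hij]
  exact (LinearMap.toMatrix b b).injective (hb.trans (LinearMap.toMatrix_one b).symm)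

omit [IsNoetherianRing A] in
/-- Being unramified may be checked at one place. -/
theorem isUnramifiedAt_of_place (hr : r.Prime) (hP : P.LiesOverPrime r)
    (h : ∀ σ ∈ P.inertiaSubgroupIn ℚ, ρ.ρ σ = 1) : ρ.IsUnramifiedAt r := by
  intro Q hQ σ hσ
  obtain ⟨g, rfl⟩ := Galois.exists_smul_eq hP hQ hr
  rw [Galois.mem_inertia_smul_iff] at hσ
  have h1 := h _ hσ
  calc ρ.ρ σ = ρ.ρ g * ρ.ρ (g⁻¹ * σ * g) * ρ.ρ g⁻¹ := by
        rw [← map_mul, ← map_mul]; congr 1; group
    _ = 1 := by rw [h1, mul_one, ← map_mul, mul_inv_cancel, map_one]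

omit [IsNoetherianRing A] in
/-- Unipotence of inertia may be checked at one place. -/
theorem isUnipotentOnInertiaAt_of_place (hr : r.Prime) (hP : P.LiesOverPrime r)
    (h : ∀ σ ∈ P.inertiaSubgroupIn ℚ, LinearMap.charpoly (ρ.ρ σ) = (Polynomial.X - 1) ^ 2) :
    ρ.IsUnipotentOnInertiaAt r := by
  intro Q hQ σ hσ
  obtain ⟨g, rfl⟩ := Galois.exists_smul_eq hP hQ hr
  rw [Galois.mem_inertia_smul_iff] at hσ
  rw [← h _ hσ]
  let e : ρ.V ≃ₗ[A] ρ.V := LinearEquiv.ofLinearMap (ρ.ρ g⁻¹) (ρ.ρ g)
    (by show ρ.ρ g⁻¹ * ρ.ρ g = 1; rw [← map_mul, inv_mul_cancel, map_one])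
    (by show ρ.ρ g * ρ.ρ g⁻¹ = 1; rw [← map_mul, mul_inv_cancel, map_one])
  rw [← LinearEquiv.charpoly_conj e (ρ.ρ σ)]
  congr 1
  refine LinearMap.ext fun x => ?_
  show ρ.ρ g⁻¹ (ρ.ρ σ (ρ.ρ g x)) = _
  rw [map_mul, map_mul, Module.End.mul_apply, Module.End.mul_apply]

/-- A tame generator with unipotent image makes inertia unipotent. -/
theorem isUnipotentOnInertiaAt_of_tame (hpA : (p : A) ∈ maximalIdeal A) (hr : r.Prime)
    (hP : P.LiesOverPrime r) (hφ : P.IsFrobeniusAt φ r) (hτ : IsTameGen p r P φ τ)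
    (hres : ∀ σ ∈ P.inertiaSubgroupIn ℚ, ρ.residual.ρ σ = 1)
    (ht : LinearMap.trace A ρ.V (ρ.ρ τ) = 2) (hd : LinearMap.det (ρ.ρ τ) = 1) :
    ρ.IsUnipotentOnInertiaAt r := by
  refine isUnipotentOnInertiaAt_of_place hr hP fun σ hσ => ?_
  obtain ⟨b⟩ := finBasisV ρ
  have key : (matOf ρ b σ).trace = 2 ∧ (matOf ρ b σ).det = 1 := by
    refine ⟨DefCond.eq_of_forall_mk_eq fun n => ?_, DefCond.eq_of_forall_mk_eq fun n => ?_⟩ <;>
    · obtain ⟨u, z, hu, hz⟩ := exists_zpow_eq hpA hφ hτ hres b n hσ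
      set mk := Ideal.Quotient.mk (maximalIdeal A ^ (n + 1))
      have htr : u.val.trace = 2 := by
        rw [hu, RingHom.mapMatrix_apply, ← AddMonoidHom.map_trace, matOf_apply,
          ← LinearMap.trace_eq_matrix_trace, ht, map_ofNat]
      have hdet : u.val.det = 1 := by
        rw [hu, ← RingHom.map_det, matOf_apply, LinearMap.det_toMatrix, hd, map_one]
      rw [Matrix.trace_fin_two] at htr
      rw [Matrix.det_fin_two] at hdet
      have hY : (u.val - 1) * (u.val - 1) = 0 := by
        ext i j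
        fin_cases i <;> fin_cases j <;>
          simp [Matrix.mul_apply, Fin.sum_univ_two]
        · linear_combination u.val 0 0 * htr - hdet
        · linear_combination u.val 0 1 * htr
        · linear_combination u.val 1 0 * htr
        · linear_combination u.val 1 1 * htr - hdet
      rw [unit_zpow_val u hY] at hz
      first
      | (rw [AddMonoidHom.map_trace, ← RingHom.mapMatrix_apply, ← hz, Matrix.trace_fin_two,
            map_ofNat]
         simp
         linear_combination (z : A ⧸ maximalIdeal A ^ (n + 1)) * htr)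
      | (rw [RingHom.map_det, ← hz, Matrix.det_fin_two, map_one]
         simp
         linear_combination ((z : A ⧸ maximalIdeal A ^ (n + 1)) -
           (z : A ⧸ maximalIdeal A ^ (n + 1)) ^ 2) * htr +
           (z : A ⧸ maximalIdeal A ^ (n + 1)) ^ 2 * hdet)
  rw [CondLevel.charpoly_eq_of_finrank_two ρ.finrank_eq, LinearMap.trace_eq_matrix_trace A b,
    ← matOf_apply, key.1, ← LinearMap.det_toMatrix b, ← matOf_apply, key.2, map_one, map_ofNat]
  ring

/-- **A ramified residually irreducible representation sees tame inertia in its traces.** -/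
theorem exists_trace_ne (hpA : (p : A) ∈ maximalIdeal A) (hr : r.Prime) (hP : P.LiesOverPrime r)
    (hφ : P.IsFrobeniusAt φ r) (hτ : IsTameGen p r P φ τ)
    (hres : ∀ σ ∈ P.inertiaSubgroupIn ℚ, ρ.residual.ρ σ = 1)
    (hirr : ρ.residual.IsAbsolutelyIrreducible) (hram : ¬ ρ.IsUnramifiedAt r) :
    ∃ σ, trAt ρ (τ * σ) ≠ trAt ρ σ := by
  by_contra hcon
  simp only [not_exists, not_not] at hcon
  refine hram (isUnramifiedAt_of_place hr hP fun σ hσ =>
    inertia_eq_one_of_tame_eq_one hpA hφ hτ hres ?_ hσ)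
  refine sub_eq_zero.mp (TraceFn.eq_zero_of_forall_trace_mul_eq_zero ρ hirr (ρ.ρ τ - 1) fun g => ?_)
  rw [mul_sub, mul_one, map_sub, LinearMap.trace_mul_comm, ← map_mul, sub_eq_zero]
  exact hcon g

end Trace

section FiniteOrder

variable {A : Type} [CommRing A] [IsLocalRing A] [IsDomain A] [IsNoetherianRing A]
  {O : Type} [CommRing O] [IsDomain O] [Algebra O A] {p r : ℕ}
  {P : ValuationSubring (AlgebraicClosure ℚ)}
  {φ τ : AlgebraicClosure ℚ ≃ₐ[ℚ] AlgebraicClosure ℚ} {ρ : GaloisRepAdic A}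

/-- Roots of unity congruent to `1` have no part of order prime to `p`. -/
theorem eq_one_of_pow_eq_one {B : Type} [CommRing B] [IsDomain B] (𝔐 : Ideal B) [𝔐.IsPrime]
    (hp : (p : B) ∈ 𝔐) {e : ℕ} (he : Nat.Coprime p e) {μ : B} (hμ : μ ^ e = 1)
    (hμ1 : μ - 1 ∈ 𝔐) : μ = 1 := by
  by_contra hne
  have hsum : ∑ i ∈ Finset.range e, μ ^ i = 0 := by
    have h := mul_geom_sum μ e
    rw [hμ, sub_self, mul_eq_zero] at h
    exact h.resolve_left (sub_ne_zero.mpr hne)
  have he' : (e : B) ∈ 𝔐 := by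
    rw [← Ideal.Quotient.eq_zero_iff_mem, map_natCast]
    have h := congrArg (Ideal.Quotient.mk 𝔐) hsum
    have h1 : Ideal.Quotient.mk 𝔐 μ = 1 := by
      rw [← map_one (Ideal.Quotient.mk 𝔐), Ideal.Quotient.eq]; exact hμ1
    simpa [h1] using h
  obtain ⟨a, b, hab⟩ := Nat.isCoprime_iff_coprime.mpr he
  refine ‹𝔐.IsPrime›.ne_top ((Ideal.eq_top_iff_one _).mpr ?_)
  have h1 : (a : B) * (p : B) + (b : B) * (e : B) = 1 := by
    exact_mod_cast congrArg (Int.cast : ℤ → B) hab
  rw [← h1]
  exact Ideal.add_mem _ (Ideal.mul_mem_left _ _ hp) (Ideal.mul_mem_left _ _ he')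

/-- **Tame inertia which is not unipotent has eigenvalues nontrivial roots of unity of order
dividing `p ^ v_p(r - 1)`.** -/
theorem finprod_trace_eq_zero (hp : p.Prime) (hp2 : p ≠ 2) (hr : r.Prime) (hrp : r ≠ p)
    (hr1 : r ≡ 1 [MOD p]) (hd : ρ.DetIsCyclotomic p) (hP : P.LiesOverPrime r)
    (hφ : P.IsFrobeniusAt φ r) (hτ : IsTameGen p r P φ τ)
    (hres : ∀ σ ∈ P.inertiaSubgroupIn ℚ, ρ.residual.ρ σ = 1)
    (hinj : Function.Injective (algebraMap O A)) {ζ₀ : O}
    (hζ : IsPrimitiveRoot ζ₀ (p ^ padicValNat p (r - 1))) (hnu : ¬ ρ.IsUnipotentOnInertiaAt r) :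
    (∏ᶠ ζ ∈ {ζ : O | ζ ^ p ^ padicValNat p (r - 1) = 1 ∧ ζ ≠ 1},
      (trAt ρ τ - algebraMap O A (ζ + ζ ^ (p ^ padicValNat p (r - 1) - 1)))) = 0 := by
  classical
  haveI := Fact.mk hp
  set a := padicValNat p (r - 1)
  obtain ⟨hdφ, hdτ, hrel⟩ :=
    relations_of_residual_unramified hp hr hrp ρ hd hP hres hφ hτ
  obtain ⟨b⟩ := finBasisV ρ
  let K := AlgebraicClosure (FractionRing A)
  have hAK : Function.Injective (algebraMap A K) := by
    rw [IsScalarTower.algebraMap_eq A (FractionRing A) K]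
    exact (algebraMap (FractionRing A) K).injective.comp (IsFractionRing.injective A _)
  let f := algebraMap A K
  set t := trAt ρ τ
  set S := f.mapMatrix (matOf ρ b τ)
  set Φ := f.mapMatrix (matOf ρ b φ)
  have hSdet : S.det = 1 := by
    rw [← RingHom.map_det, matOf_apply, LinearMap.det_toMatrix, hdτ, map_one]
  have hStr : S.trace = f t := by
    show (f.mapMatrix (matOf ρ b τ)).trace = f t
    rw [RingHom.mapMatrix_apply, ← AddMonoidHom.map_trace, matOf_apply,
      ← LinearMap.trace_eq_matrix_trace]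
    rfl
  have hΦ : Φ.det ≠ 0 := by
    rw [← RingHom.map_det, matOf_apply, LinearMap.det_toMatrix, Ne, map_eq_zero_iff _ hAK]
    intro h0
    have h := congrArg LinearMap.det ((map_mul ρ.ρ φ φ⁻¹).symm.trans (by rw [mul_inv_cancel]))
    rw [map_mul, h0, zero_mul, map_one, map_one] at h
    exact zero_ne_one h
  have hSΦ : Φ * S = S ^ r * Φ := by
    have h := congrArg (LinearMap.toMatrixAlgEquiv b) hrel
    rw [map_mul, map_mul, map_pow] at h
    have h' := congrArg f.mapMatrix h
    rwa [map_mul, map_mul, map_pow] at h'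
  obtain ⟨l, hl⟩ := IsAlgClosed.exists_eval₂_eq_zero (RingHom.id K) S.charpoly
    (by rw [Matrix.charpoly_degree_eq_dim]; simp)
  rw [Matrix.charpoly_fin_two, hSdet, hStr] at hl
  simp at hl
  have hl0 : l ≠ 0 := by rintro rfl; simp at hl
  -- `l ^ r` is again an eigenvalue
  have hdet0 : (S - l • 1).det = 0 := by
    rw [Matrix.det_fin_two] at hSdet ⊢
    rw [Matrix.trace_fin_two] at hStr
    simp
    linear_combination hl + hSdet - l * hStr
  have hdiv : (S ^ r - l ^ r • 1).det = 0 := by
    have hc : Commute S (l • 1 : Matrix (Fin 2) (Fin 2) K) := (Commute.one_right S).smul_right l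
    have h1 : (l • 1 : Matrix (Fin 2) (Fin 2) K) ^ r = l ^ r • 1 := by rw [smul_pow, one_pow]
    rw [← h1, ← hc.geom_sum₂_mul r, Matrix.det_mul, hdet0, mul_zero]
  have hμ : (S - l ^ r • 1).det = 0 := by
    have e : (S ^ r - l ^ r • 1) * Φ = Φ * (S - l ^ r • 1) := by
      rw [sub_mul, mul_sub, hSΦ, smul_mul_assoc, one_mul, mul_smul_comm, mul_one]
    have := congrArg Matrix.det e
    rw [Matrix.det_mul, Matrix.det_mul, hdiv, zero_mul] at this
    exact (mul_eq_zero.mp this.symm).resolve_left hΦ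
  have hroot : (l ^ r - l) * (l ^ r * l - 1) = 0 := by
    rw [Matrix.det_fin_two] at hμ hSdet
    rw [Matrix.trace_fin_two] at hStr
    simp at hμ
    linear_combination l * hμ - l ^ r * hl - l * hSdet + l * l ^ r * hStr
  -- `l` is congruent to `1`
  let B := integralClosure A K
  haveI : Algebra.IsIntegral A B := inferInstance
  have hlint : IsIntegral A l := by
    refine ⟨Polynomial.X ^ 2 - Polynomial.C t * Polynomial.X + Polynomial.C 1, ?_, ?_⟩
    · monicity!
    · simp
      linear_combination hl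
  let lB : B := ⟨l, hlint⟩
  obtain ⟨𝔐, h𝔐max, h𝔐⟩ := Ideal.exists_ideal_over_maximal_of_isIntegral (S := B)
    (maximalIdeal A) (by
      rw [(RingHom.injective_iff_ker_eq_bot (algebraMap A B)).mp
        fun x y h => hAK (congrArg Subtype.val h)]
      exact bot_le)
  have h2 : (lB - 1) ^ 2 = algebraMap A B (t - 2) * lB := Subtype.ext (by
    show (l - 1) ^ 2 = f (t - 2) * l
    rw [map_sub, map_ofNat]
    linear_combination hl)
  have hover : ∀ x ∈ maximalIdeal A, algebraMap A B x ∈ 𝔐 := fun x hx => by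
    rwa [← Ideal.mem_comap, h𝔐]
  have ht2 : t - 2 ∈ maximalIdeal A := by
    have hm := matOf_sub_one_mem_of_residual b (hres τ hτ.mem)
    have he : t - 2 = (matOf ρ b τ - 1) 0 0 + (matOf ρ b τ - 1) 1 1 := by
      rw [show t = (matOf ρ b τ).trace from LinearMap.trace_eq_matrix_trace A b _,
        Matrix.trace_fin_two]
      simp
      ring
    rw [he]
    exact Ideal.add_mem _ (hm 0 0) (hm 1 1)
  haveI : 𝔐.IsMaximal := ‹_›
  have hl1 : lB - 1 ∈ 𝔐 := Ideal.IsPrime.mem_of_pow_mem inferInstance 2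
    (h2 ▸ Ideal.mul_mem_right _ _ (hover _ ht2))
  have hpB : (p : B) ∈ 𝔐 := by
    rw [← map_natCast (algebraMap A B)]
    exact hover _ hd.1
  have key : ∀ N : ℕ, N ≠ 0 → l ^ N = 1 → l ^ p ^ padicValNat p N = 1 := by
    intro N hN hlN
    obtain ⟨e, he⟩ := pow_padicValNat_dvd (p := p) (n := N)
    have hcop : Nat.Coprime p e := hp.coprime_iff_not_dvd.mpr fun hdvd =>
      pow_succ_padicValNat_not_dvd hN (by
        rw [pow_succ]
        conv_rhs => rw [he]
        exact mul_dvd_mul_left _ hdvd)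
    have h := eq_one_of_pow_eq_one (p := p) 𝔐 hpB hcop (μ := lB ^ p ^ padicValNat p N)
      (by rw [← pow_mul, ← he]; exact Subtype.ext hlN) (by
        rw [← Ideal.Quotient.eq, map_one, map_pow,
          (Ideal.Quotient.eq (x := lB) (y := 1)).mpr hl1, map_one, one_pow])
    exact congrArg Subtype.val h
  have hla : l ^ p ^ a = 1 := by
    rcases mul_eq_zero.mp hroot with h1 | h1
    · refine key (r - 1) (by have := hr.two_le; omega) (mul_right_cancel₀ hl0 ?_)
      rw [← pow_succ, show r - 1 + 1 = r by have := hr.one_le; omega, one_mul, sub_eq_zero.mp h1]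
    · have h := key (r + 1) (by omega) (by rw [pow_succ]; exact sub_eq_zero.mp h1)
      have h0 : padicValNat p (r + 1) = 0 := padicValNat.eq_zero_of_not_dvd fun hdvd => by
        have h2 : (2 : ℕ) ≡ 0 [MOD p] :=
          ((hr1.add_right 1).symm).trans (Nat.modEq_zero_iff_dvd.mpr hdvd)
        exact hp2 ((Nat.prime_dvd_prime_iff_eq hp Nat.prime_two).mp (Nat.modEq_zero_iff_dvd.mp h2))
      rw [h0, pow_zero, pow_one] at h
      rw [h, one_pow]
  haveI : NeZero (p ^ a) := ⟨pow_ne_zero _ hp.ne_zero⟩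
  obtain ⟨j, -, hj⟩ := (hζ.map_of_injective (f := f.comp (algebraMap O A))
    (hAK.comp hinj)).eq_pow_of_pow_eq_one hla
  rw [← map_pow] at hj
  have hne : ζ₀ ^ j ≠ 1 := fun h => hnu (by
    have hl1' : l = 1 := by rw [← hj, h, map_one]
    refine isUnipotentOnInertiaAt_of_tame hd.1 hr hP hφ hτ hres (hAK ?_) hdτ
    show f t = f 2
    rw [hl1'] at hl
    rw [map_ofNat]
    linear_combination -hl)
  have hfin : {ζ : O | ζ ^ p ^ a = 1 ∧ ζ ≠ 1}.Finite := by
    refine ((Finset.range (p ^ a)).image (ζ₀ ^ ·)).finite_toSet.subset fun ζ hζ' => ?_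
    obtain ⟨i, hi, rfl⟩ := hζ.eq_pow_of_pow_eq_one hζ'.1
    exact Finset.mem_image.mpr ⟨i, Finset.mem_range.mpr hi, rfl⟩
  rw [finprod_mem_eq_finite_toFinset_prod _ hfin]
  refine Finset.prod_eq_zero (i := ζ₀ ^ j) (hfin.mem_toFinset.mpr
    ⟨by rw [← pow_mul, mul_comm, pow_mul, hζ.pow_eq_one, one_pow], hne⟩) (hAK ?_)
  rw [map_sub, map_zero, map_add, map_add, map_pow (algebraMap O A) (ζ₀ ^ j),
    map_pow (algebraMap A K) (algebraMap O A (ζ₀ ^ j)),
    show algebraMap A K (algebraMap O A (ζ₀ ^ j)) = l from hj]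
  have hinv : l * l ^ (p ^ a - 1) = 1 := by
    rw [← pow_succ', show p ^ a - 1 + 1 = p ^ a by have := Nat.one_le_pow a p hp.pos; omega, hla]
  refine mul_left_cancel₀ hl0 ?_
  show l * (f t - (l + l ^ (p ^ a - 1))) = l * 0
  linear_combination -hinv - hl

end FiniteOrder

end Fermat.Agent.LL.Pair
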