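/-
Elements of `p`-power order congruent to `1`, and the unit `(u - 1) / (ζ - 1)`
(owner: helper61).
-/
import Mathlib

set_option autoImplicit false

noncomputable section

namespace Fermat.Agent.LL.Pair

open IsLocalRing

/-- The geometric sum at `1 + t`. -/
theorem geom_sum_one_add {A : Type*} [CommRing A] {p : ℕ} (hp : p.Prime) (t : A) :
    ∃ r, ∑ k ∈ Finset.range p, (1 + t) ^ k = t ^ (p - 1) + (p : A) * (1 + t * r) := by
  open Polynomial in
  obtain ⟨r₀, hr₀⟩ := exists_add_pow_prime_eq hp (X : ℤ[X]) 1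
  open Polynomial in
  have hgeom : (∑ k ∈ Finset.range p, (1 + X : ℤ[X]) ^ k) = X ^ (p - 1) + (p : ℤ[X]) * r₀ := by
    refine mul_right_cancel₀ Polynomial.X_ne_zero ?_
    have h := geom_sum_mul (1 + X : ℤ[X]) p
    rw [add_sub_cancel_left] at h
    rw [h, add_comm (1 : ℤ[X]) X, hr₀, one_pow, mul_one, add_mul, ← pow_succ,
      show p - 1 + 1 = p by have := hp.pos; omega]
    ring
  open Polynomial in
  have h0 : r₀.coeff 0 = 1 := by
    have h := congrArg (Polynomial.eval 0) hgeom
    simp [Polynomial.eval_finsetSum, zero_pow (show p - 1 ≠ 0 by have := hp.two_le; omega)] at h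
    rw [Polynomial.coeff_zero_eq_eval_zero]
    exact mul_left_cancel₀ (b := r₀.eval 0) (c := 1) (Nat.cast_ne_zero.mpr hp.ne_zero)
      (by rw [mul_one]; exact h.symm)
  refine ⟨Polynomial.aeval t r₀.divX, ?_⟩
  have h := congrArg (Polynomial.aeval t) hgeom
  simp only [map_sum, map_pow, map_add, map_one, map_mul, map_natCast, Polynomial.aeval_X] at h
  rw [h]
  congr 2
  conv_lhs => rw [← Polynomial.X_mul_divX_add r₀, h0]
  simp [add_comm]

/-- An element congruent to `1` modulo `p` with `p`-th power `1` is `1`, for `p ≥ 3`. -/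
theorem eq_one_of_pow_prime {A : Type*} [CommRing A] [IsAddTorsionFree A] {p : ℕ} (hp : p.Prime)
    (hp2 : p ≠ 2) (hjac : ∀ z : A, IsUnit (1 + (p : A) * z)) {y : A}
    (hwp : (1 + (p : A) * y) ^ p = 1) : y = 0 := by
  obtain ⟨r, hr⟩ := geom_sum_one_add hp ((p : A) * y)
  have h := geom_sum_mul (1 + (p : A) * y) p
  rw [hwp, sub_self, hr, add_sub_cancel_left,
    show p - 1 = (p - 3) + 1 + 1 by have := hp.two_le; omega] at h
  set z : A := (p : A) ^ (p - 3) * y ^ (p - 3 + 1 + 1) + y * r
  have h1 : (p * p : ℕ) • ((1 + (p : A) * z) * y) = 0 := by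
    rw [nsmul_eq_mul, Nat.cast_mul, ← h]
    ring
  have h2 := (smul_eq_zero.mp h1).resolve_left (mul_ne_zero hp.ne_zero hp.ne_zero)
  exact (hjac z).mul_right_eq_zero.mp h2

/-- An element congruent to `1` modulo `p` of `p`-power order is `1`, for `p ≥ 3`. -/
theorem eq_zero_of_pow_prime_pow {A : Type*} [CommRing A] [IsAddTorsionFree A] {p : ℕ}
    (hp : p.Prime) (hp2 : p ≠ 2) (hjac : ∀ z : A, IsUnit (1 + (p : A) * z)) (k : ℕ) :
    ∀ y : A, (1 + (p : A) * y) ^ p ^ k = 1 → y = 0 := by
  induction k with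
  | zero =>
    intro y h
    rw [pow_zero, pow_one, add_eq_left, ← nsmul_eq_mul] at h
    exact (smul_eq_zero.mp h).resolve_left hp.ne_zero
  | succ k ih =>
    intro y h
    obtain ⟨r, hr⟩ := exists_add_pow_prime_eq hp (1 : A) ((p : A) * y)
    obtain ⟨y', hy'⟩ : ∃ y', (1 + (p : A) * y) ^ p = 1 + (p : A) * y' :=
      ⟨(p : A) ^ (p - 1) * y ^ p + (p : A) * y * r, by
        have hpp : (p : A) ^ p = (p : A) * (p : A) ^ (p - 1) := by
          rw [← pow_succ', show p - 1 + 1 = p by have := hp.pos; omega]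
        rw [hr, one_pow, mul_pow, hpp]
        ring⟩
    have h0 : y' = 0 := ih y' (by rw [← hy', ← pow_mul, ← pow_succ', h])
    exact eq_one_of_pow_prime hp hp2 hjac (by rw [hy', h0, mul_zero, add_zero])

/-- If `u = 1 + c x` has `p`-th power `1`, `u - 1` is not a zero divisor and `c ^ (p - 1)` is `p`
up to a unit, then `x` is a unit. -/
theorem isUnit_of_pow_prime {A : Type*} [CommRing A] {p : ℕ} (hp : p.Prime) {c e x : A}
    (hec : (p : A) = c ^ (p - 1) * e) (he : IsUnit e) (hc : IsRegular c)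
    (hu : (1 + c * x) ^ p = 1) (hinj : IsRegular (c * x)) : IsUnit x := by
  obtain ⟨r, hr⟩ := geom_sum_one_add hp (c * x)
  have h := geom_sum_mul (1 + c * x) p
  rw [hu, sub_self, add_sub_cancel_left] at h
  have hsum : ∑ k ∈ Finset.range p, (1 + c * x) ^ k = 0 :=
    hinj.right (h.trans (zero_mul _).symm)
  rw [hr, hec, mul_pow, mul_assoc, ← mul_add] at hsum
  have h1 : x ^ (p - 1) + e * (1 + c * x * r) = 0 :=
    (hc.pow (p - 1)).left (hsum.trans (mul_zero _).symm)
  rw [show p - 1 = (p - 2) + 1 by have := hp.two_le; omega, pow_succ] at h1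
  have h2 : x * (x ^ (p - 2) + e * c * r) = -e := by linear_combination h1
  exact isUnit_of_mul_isUnit_left (h2 ▸ he.neg)

/-- In a finite algebra over a local ring `1 + a z` is a unit for `a` in the maximal ideal. -/
theorem isUnit_one_add_mul {O A : Type*} [CommRing O] [IsLocalRing O] [CommRing A] [Algebra O A]
    [Module.Finite O A] {a : O} (ha : a ∈ maximalIdeal O) (z : A) :
    IsUnit (1 + algebraMap O A a * z) := by
  have : Algebra.IsIntegral O A := Algebra.IsIntegral.of_finite O A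
  by_contra h
  obtain ⟨m, hm, hmem⟩ := exists_max_ideal_of_mem_nonunits h
  have hc : (m.comap (algebraMap O A)).IsMaximal :=
    Ideal.isMaximal_comap_of_isIntegral_of_isMaximal m
  have : algebraMap O A a ∈ m := by
    rw [← IsLocalRing.eq_maximalIdeal hc] at ha
    exact ha
  exact hm.ne_top ((Ideal.eq_top_iff_one _).mpr
    ((Submodule.add_mem_iff_left _ (m.mul_mem_right z this)).mp hmem))

end Fermat.Agent.LL.Pair
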