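/-
Modulo `g_i - 1` the diamond operators at `q_i` are unipotent on both parts (owner: helper4, from
helper61's route): modulo `g_i - 1` the characters lose their factor at `q_i`, and for the congruent
character the level is exactly divisible by `q_i`.
-/
import Fermat.Agent.LL.Pair.Levels
import Fermat.Agent.LL.Pair.Rigid
import Fermat.Agent.LL.Pair.CongPart
import Fermat.Agent.LL.Pair.DiamondGlue

set_option autoImplicit false
set_option synthInstance.maxHeartbeats 400000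

noncomputable section

open IsLocalRing Fermat.Agent.TW.Mod CuspForm
open Fermat.Agent.R59.TWLevel (descend descend_mk)

namespace Fermat.Agent.LL.Pair

section Omit

variable {A : Type} [CommRing A] (η : ∀ q : ℕ, (ZMod q)ˣ →* Aˣ) {I : Ideal A} {q : ℕ}

theorem dPart_one_val {N : ℕ} (M : ℕ) (u : (ZMod M)ˣ) :
    dPart (1 : (ZMod N)ˣ →* Aˣ) M u = 1 := by
  rw [dPart]
  split_ifs <;> rfl

/-- Leaving out a prime at which the character is one modulo the ideal. -/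
theorem chiTot_sub_erase_mem (hd : ∀ v, (η q v : A) - 1 ∈ I) {N N' M : ℕ} {s : Finset ℕ}
    (hqs : q ∈ s) (u : (ZMod M)ˣ) :
    (chiTot (1 : (ZMod N)ˣ →* Aˣ) η M s u : A) -
      chiTot (1 : (ZMod N')ˣ →* Aˣ) η M (s.erase q) u ∈ I := by
  rw [chiTot, chiTot, MonoidHom.mul_apply, MonoidHom.mul_apply, dPart_one_val, dPart_one_val,
    one_mul, one_mul, MonoidHom.finsetProd_apply, MonoidHom.finsetProd_apply,
    ← Finset.mul_prod_erase s _ hqs, Units.val_mul]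
  generalize ((∏ r ∈ s.erase q, dPart (η r ^ 2) M u : Aˣ) : A) = P
  rw [← sub_one_mul]
  refine Ideal.mul_mem_right _ _ ?_
  rw [dPart]
  split_ifs with h
  · rw [liftChar, MonoidHom.comp_apply, MonoidHom.pow_apply, Units.val_pow_eq_pow_val]
    generalize hv : ZMod.unitsMap h u = v
    rw [show (η q v : A) ^ 2 - 1 = ((η q v : A) + 1) * ((η q v : A) - 1) by ring]
    exact Ideal.mul_mem_left _ _ (hd v)
  · rw [MonoidHom.one_apply, Units.val_one, sub_self]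
    exact zero_mem _

/-- The same for the weights. -/
theorem prod_etaAt_inv_sub_mem (hd : ∀ v, (η q v : A) - 1 ∈ I) {s : Finset ℕ} (hqs : q ∈ s)
    (l : ℕ) :
    (((∏ r ∈ s, etaAt η r l)⁻¹ : Aˣ) : A) - (((∏ r ∈ s.erase q, etaAt η r l)⁻¹ : Aˣ) : A) ∈ I := by
  rw [← Finset.mul_prod_erase s (fun r => etaAt η r l) hqs]
  generalize ∏ r ∈ s.erase q, etaAt η r l = w
  have hb : (etaAt η q l : A) - 1 ∈ I := by
    rw [etaAt]
    split_ifs
    · exact hd _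
    · rw [Units.val_one, sub_self]; exact zero_mem _
  generalize etaAt η q l = b at hb
  have e : (((b * w)⁻¹ : Aˣ) : A) - ((w⁻¹ : Aˣ) : A) =
      -(((b * w)⁻¹ : Aˣ) : A) * ((b : A) - 1) := by
    rw [show ((w⁻¹ : Aˣ) : A) = (((b * w)⁻¹ : Aˣ) : A) * (b : A) by
      rw [← Units.val_mul, mul_inv_rev, inv_mul_cancel_right]]
    ring
  rw [e]
  exact Ideal.mul_mem_left _ _ hb

end Omit

variable {U : Setting} {i₀ : U.Idx} {n R : ℕ} {qv : Fin R → ℕ}

/-- The twisting character at an auxiliary prime is one modulo `g_i - 1`. -/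
theorem eta_aux_sub_one_mem (hq : U.IsAux n qv) (i : Fin R) (v : (ZMod (qv i))ˣ) :
    (eta U i₀ n qv (qv i) v : Coeff U n R) - 1 ∈ Ideal.span {R59.twGen U.O U.p n R i - 1} := by
  haveI : NeZero (qv i) := ⟨(hq.prime i).ne_zero⟩
  obtain ⟨j, hj⟩ := (Submonoid.mem_powers_iff _ _).1
    (mem_powers_iff_mem_zpowers.2 (mem_zpowers_unitGen (hq.prime i) v))
  rw [← hj, map_pow, Units.val_pow_eq_pow_val, eta_aux_gen hq]
  exact Ideal.mem_span_singleton.2 (sub_one_dvd_pow_sub_one _ j)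

theorem span_gen_le (i : Fin R) :
    Ideal.span {R59.twGen U.O U.p n R i - 1} ≤ maximalIdeal (Coeff U n R) :=
  R59.TWLevel.span_twGen_sub_one_le i

theorem aux_ne_hard (hq : U.IsAux n qv) (i : Fin R) : i₀.1 ≠ qv i := fun e =>
  hard_notMem_aux hq (mem_auxPrimes.2 ⟨i, e.symm⟩)

theorem not_dvd_prod_erase (hq : U.IsAux n qv) (i : Fin R) :
    ¬ qv i ∣ ∏ x ∈ (auxPrimes qv).erase (qv i), x := fun h => by
  obtain ⟨x, hx, hd⟩ := (Prime.dvd_finsetProd_iff (hq.prime i).prime _).1 h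
  exact Finset.ne_of_mem_erase hx ((Nat.prime_dvd_prime_iff_eq (hq.prime i)
    (prime_of_mem_auxPrimes hq (Finset.mem_of_mem_erase hx))).1 hd).symm

theorem prod_erase_dvd (i : Fin R) :
    ∏ x ∈ (auxPrimes qv).erase (qv i), x ∣ ∏ x ∈ auxPrimes qv, x :=
  Finset.prod_dvd_prod_of_subset _ _ _ (Finset.erase_subset _ _)

theorem prod_auxPrimes_eq (i : Fin R) :
    ∏ x ∈ auxPrimes qv, x = qv i * ∏ x ∈ (auxPrimes qv).erase (qv i), x :=
  (Finset.mul_prod_erase _ (fun x => x) (mem_auxPrimes.2 ⟨i, rfl⟩)).symm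

/-- `q_i` divides `lev * m` exactly when it is prime to `m`. -/
theorem aux_exactly_dvd (hq : U.IsAux n qv) (i : Fin R) {m : ℕ} (hm : ¬ qv i ∣ m) :
    qv i ∣ lev U i₀ qv * m ∧ ¬ qv i ^ 2 ∣ lev U i₀ qv * m := by
  have he : lev U i₀ qv * m = qv i * (U.M * (∏ x ∈ (auxPrimes qv).erase (qv i), x) * m) := by
    rw [lev_eq, prod_auxPrimes_eq i]; ring
  refine ⟨he ▸ dvd_mul_right _ _, fun h => ?_⟩
  rw [he, pow_two, Nat.mul_dvd_mul_iff_left (hq.prime i).pos] at h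
  rcases (hq.prime i).dvd_mul.1 h with h | h
  · rcases (hq.prime i).dvd_mul.1 h with h | h
    · exact hq.not_mem i (Finset.mem_insert_of_mem
        (Nat.mem_primeFactors.mpr ⟨hq.prime i, h, NeZero.ne _⟩))
    · exact not_dvd_prod_erase hq i h
  · exact hm h

theorem erase_data (B : Base U i₀) (hq : U.IsAux n qv) (i : Fin R) {N : ℕ}
    (hN : ∀ x ∈ auxPrimes qv, x.Coprime N) :
    ∀ x ∈ (auxPrimes qv).erase (qv i), ∃ (hp : x.Prime) (hS : x ∉ lowSet U i₀),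
      x.Coprime (N * qv i) ∧ x ≠ U.p ∧ (x : ResidueField U.O) = 1 ∧
        sys B qv ⟨x, hp, hS⟩ ^ 2 ≠ 1 := fun x hx => by
  obtain ⟨hp, hS, h1, -, h3, h4⟩ := exists_sys_aux B hq (Finset.mem_of_mem_erase hx)
  exact ⟨hp, hS, (hN x (Finset.mem_of_mem_erase hx)).mul_right
    ((Nat.coprime_primes hp (hq.prime i)).2 (Finset.ne_of_mem_erase hx)), h4, h3, h1⟩

section TwistCast

variable {𝒪 : Type} [CommRing 𝒪] [IsDomain 𝒪] [IsDiscreteValuationRing 𝒪]
  [IsAdicComplete (maximalIdeal 𝒪) 𝒪]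
  {A : Type} [CommRing A] [Algebra 𝒪 A] {aug : A →ₐ[𝒪] 𝒪} {S : Set ℕ}
  {η : ∀ q : ℕ, (ZMod q)ˣ →* Aˣ} {p : ℕ} [Fact p.Prime]
  {lam : PrimeIdx S → ResidueField 𝒪} {Q : Finset ℕ}

/-- `exists_tw_hard` with the levels up to equality. -/
theorem exists_tw_hard_cast (hη : ∀ q u, resHom aug (η q u : A) = 1) (hp2 : p ≠ 2)
    (hk : ∀ a : ResidueField 𝒪, p • a = 0) {N r : ℕ} [NeZero N] [Fact r.Prime] (hpr : p ≠ r)
    (hrN : r.Coprime N) (hrQ : r ∉ Q) (hrS : r ∉ S) (hr1 : (r : ResidueField 𝒪) = 1)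
    (hQ : ∀ q ∈ Q, ∃ (hq : q.Prime) (hS : q ∉ S), q.Coprime N ∧ q ≠ p ∧
      (q : ResidueField 𝒪) = 1 ∧ lam ⟨q, hq, hS⟩ ^ 2 ≠ 1)
    {N' M L : ℕ} (hN' : N' = N * ∏ q ∈ Q, q) (hM : M = N * (∏ q ∈ Q, q) * r)
    (hL : L = M * (r * ∏ q ∈ Q, q))
    (hne : ∃ i : PrimeIdx S, ¬ i.1 ∣ L ∧ lam i ≠ (i.1 : ResidueField 𝒪) + 1)
    (hlow : ∀ w : LR.Hom1 N' (ResidueField 𝒪), (∀ j : PrimeIdx S, j.1 ≠ r →
      HK.heckeHom N' j.1 (ResidueField 𝒪) (ResidueField 𝒪) w = lam j • w) → w = 0)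
    (hf : ∀ u, resHom aug (chiTot (1 : (ZMod N)ˣ →* Aˣ) η M (insert r Q) u : A) = 1)
    (hf' : ∀ u, resHom aug (dPart (1 : (ZMod (N * r * r))ˣ →* Aˣ) L u : A) = 1) :
    ∃ tw : H1 (epsOf (chiTot (1 : (ZMod N)ˣ →* Aˣ) η M (insert r Q))) A →ₗ[A]
        H1 (epsOf (dPart (1 : (ZMod (N * r * r))ˣ →* Aˣ) L)) A,
      (∀ (ℓ : ℕ) [Fact ℓ.Prime], ℓ ∉ insert r Q → ∀ x,
        ((∏ q ∈ insert r Q, etaAt η q ℓ : Aˣ) : A) •
            h1T (dPart (1 : (ZMod (N * r * r))ˣ →* Aˣ) L) A ℓ (tw x) =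
          tw (h1T (chiTot (1 : (ZMod N)ˣ →* Aˣ) η M (insert r Q)) A ℓ x)) ∧
      InjOnFullEigen (hf := hf) tw hf' lam := by
  subst hM
  subst hN'
  exact exists_tw_hard hη hp2 hk hpr hrN hrQ hrS hr1 hQ (hL.trans (by ring)) hne hlow hf hf'

end TwistCast

variable [NeZero (lev U i₀ qv)] {D : GaloisRep.DeformationRingData U.O U.ρbar (U.defCond qv)}

set_option maxHeartbeats 800000 in
/-- A congruent action at a level exactly divisible by `q_i` makes the diamond operators at `q_i`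
unipotent modulo `g_i - 1`. -/
theorem descend_act_sq_zero_of (B : Base U i₀) (hq : U.IsAux n qv) {L L' : ℕ} [NeZero L]
    [Fact (HasIntegralStructure L 2)] [NeZero L'] [Fact (HasIntegralStructure L' 2)]
    {χ χ' : (ZMod (lev U i₀ qv))ˣ →* (Coeff U n R)ˣ} {hadm : Admissible (epsOf χ)}
    {hadm' : Admissible (epsOf χ')} {h : Occurs U.O (twFam χ (lowSet U i₀)) (sys B qv)}
    {h' : Occurs U.O (twFam χ' (lowSet U i₀)) (sys B qv)} {W W' : ℕ → (Coeff U n R)ˣ}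
    (a : Act D L hadm h W) (a' : Act D L' hadm' h' W') (i : Fin R) [NeZero (qv i)]
    (hne : ∃ j : PrimeIdx (lowSet U i₀), ¬ j.1 ∣ lev U i₀ qv ∧
      sys B qv j ≠ (j.1 : ResidueField U.O) + 1)
    (I : Ideal (Coeff U n R)) (hIm : I ≤ maximalIdeal (Coeff U n R))
    (hχ : ∀ u, (χ u : Coeff U n R) - χ' u ∈ I)
    (hf' : ∀ u, resHom (R59.twAug U.O U.p n R) (χ' u : Coeff U n R) = 1)
    (hW : ∀ ℓ, (((W ℓ)⁻¹ : (Coeff U n R)ˣ) : Coeff U n R) -
      (((W' ℓ)⁻¹ : (Coeff U n R)ˣ) : Coeff U n R) ∈ I)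
    (hex : qv i ∣ L' ∧ ¬ qv i ^ 2 ∣ L') (Dm : TWGal.Diamond D.ρ U.p (qv i))
    (g : (ZMod (qv i))ˣ) :
    (descend I (a.act (Dm.δ g : D.R)) - 1) ^ 2 = 0 := by
  refine (exists_congr_part hadm hadm' I hχ hIm h h').elim fun f hf => ?_
  have hfs := hf.1
  have hfk := hf.2.1
  have hgen := hf.2.2
  have hqp : qv i ≠ U.p := fun e => hq.not_mem i (e ▸ Finset.mem_insert_self _ _)
  have h0 : a'.toHecke (((Dm.δ g : D.R) - 1) ^ 2) = 0 := by
    rw [map_pow, map_sub, map_one]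
    exact R59.TWLevel.diamond_sq_zero (hq.prime i) Dm
      (a'.toHecke : D.R →+* heckeLocal L' (↑(U.auxSet qv) : Set ℕ) U.O a'.θ) a'.toHecke_local
      ⟨GaloisRepAdic.Equiv.refl _⟩ (a'.unipotent (qv i) (hq.prime i) hqp hex.1 hex.2) g
  have h1 : a'.act (((Dm.δ g : D.R) - 1) ^ 2) = 0 := by
    rw [Act.act, AlgHom.comp_apply, h0, map_zero]
  have key : ∀ m : genPart hadm h, a.act (((Dm.δ g : D.R) - 1) ^ 2) m ∈
      (I • ⊤ : Submodule (Coeff U n R) (genPart hadm h)) := by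
    intro m
    refine hfk ▸ LinearMap.mem_ker.2 ?_
    refine Exists.elim (Submodule.Quotient.mk_surjective _ (f m)) fun m' hm' => ?_
    refine (Act.congr_act a a' I hIm hf' hne (fun ℓ _ _ => hW ℓ) f hfs hfk hgen _ m m'
      hm'.symm).trans ?_
    exact (congrArg Submodule.Quotient.mk (LinearMap.congr_fun h1 m')).trans
      (Submodule.Quotient.mk_zero _)
  have h2 : descend I (a.act (((Dm.δ g : D.R) - 1) ^ 2)) = 0 := by
    refine LinearMap.ext fun z => ?_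
    refine Exists.elim (Submodule.Quotient.mk_surjective _ z) fun m hm => ?_
    exact (congrArg _ hm.symm).trans ((descend_mk I _ m).trans
      ((Submodule.Quotient.mk_eq_zero _).2 (key m)))
  have e : descend I (a.act (((Dm.δ g : D.R) - 1) ^ 2)) =
      (descend I (a.act (Dm.δ g : D.R)) - 1) ^ 2 := by
    simp only [map_pow, map_sub, map_one]
  exact e.symm.trans h2

variable {L : ℕ} [NeZero L] [Fact (HasIntegralStructure L 2)]

set_option maxHeartbeats 800000 in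
/-- On the first part. -/
theorem descend_act_sq_zero₀ (inp : Inputs) (B : Base U i₀) (hq : U.IsAux n qv)
    (a : Act D L admissible_char₀ (occurs₀ B hq) (weight₀ U i₀ n qv))
    (i : Fin R) [NeZero (qv i)] (Dm : TWGal.Diamond D.ρ U.p (qv i)) (u : (ZMod (qv i))ˣ) :
    (descend (Ideal.span {R59.twGen U.O U.p n R i - 1}) (a.act (Dm.δ u : D.R)) - 1) ^ 2 = 0 := by
  let Q : Finset ℕ := (auxPrimes qv).erase (qv i)
  have hqA : qv i ∈ auxPrimes qv := mem_auxPrimes.2 ⟨i, rfl⟩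
  haveI : NeZero (U.M * qv i) := ⟨mul_ne_zero (NeZero.ne U.M) (hq.prime i).ne_zero⟩
  haveI : NeZero (lev U i₀ qv * ∏ x ∈ Q, x) := ⟨mul_ne_zero (neZero_lev hq).ne
    (Finset.prod_ne_zero_iff.2 fun x hx =>
      (prime_of_mem_auxPrimes hq (Finset.mem_of_mem_erase hx)).ne_zero)⟩
  haveI : Fact (HasIntegralStructure (lev U i₀ qv * ∏ x ∈ Q, x) 2) :=
    ⟨MF.IntStruct.hasIntegralStructure _ 2⟩
  let χ' : (ZMod (lev U i₀ qv))ˣ →* (Coeff U n R)ˣ :=
    chiTot (1 : (ZMod (U.M * qv i))ˣ →* (Coeff U n R)ˣ) (eta U i₀ n qv) _ Q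
  have hχ : ∀ v, (char₀ U i₀ n qv v : Coeff U n R) - χ' v ∈
      Ideal.span {R59.twGen U.O U.p n R i - 1} :=
    chiTot_sub_erase_mem _ (eta_aux_sub_one_mem hq i) hqA
  have hadm' : Admissible (epsOf χ') := admissible_of_pow U (M_dvd_lev U i₀ qv) _ chiTot_pow
  have hf' : ∀ v, resHom (R59.twAug U.O U.p n R) (χ' v : Coeff U n R) = 1 :=
    f_chiTot _ _ _ (fun v => by simp) resHom_eta _ _
  have h' := (occurs_congr admissible_char₀ hadm' _ hχ (span_gen_le i)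
    (occurs₀ B hq)).2
  refine (exists_nonEis B (qv := qv) (lev U i₀ qv * ∏ x ∈ Q, x)).elim fun j hj' => ?_
  have hj1 := hj'.1
  have hjL := hj'.2.1
  have hj := hj'.2.2.2
  have hjlev : ¬ j.1 ∣ lev U i₀ qv := fun h => hjL (h.mul_right _)
  have hlev : lev U i₀ qv = U.M * qv i * ∏ x ∈ Q, x := by
    rw [lev_eq, prod_auxPrimes_eq i, mul_assoc]
  have hQ := erase_data B hq i (N := U.M) fun x hx => aux_coprime_M hq hx
  have hne' : ∃ j : PrimeIdx (lowSet U i₀), ¬ j.1 ∣ lev U i₀ qv * ∏ x ∈ Q, x ∧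
      sys B qv j ≠ (j.1 : ResidueField U.O) + 1 := ⟨j, hjL, hj⟩
  have hdp : ∀ v, resHom (R59.twAug U.O U.p n R) (dPart (1 : (ZMod (U.M * qv i))ˣ →* (Coeff U n R)ˣ)
      (lev U i₀ qv * ∏ x ∈ Q, x) v : Coeff U n R) = 1 := fun v => by
    rw [dPart_one_val, Units.val_one, map_one]
  have htwist := exists_tw_aux (𝒪 := U.O) (R := Coeff U n R) (aug := R59.twAug U.O U.p n R)
    (S := lowSet U i₀) (η := eta U i₀ n qv) (p := U.p) resHom_eta (p_ne_two U) residue_natCast_p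
    (lam := sys B qv) (Q := Q) (N := U.M * qv i) hQ (M := lev U i₀ qv)
    (L := lev U i₀ qv * ∏ x ∈ Q, x) hlev rfl hne' hf' hdp
  refine htwist.elim fun tw htw' => ?_
  have htw := htw'.1
  have hinj := htw'.2
  have hdvd : lev U i₀ qv * ∏ x ∈ Q, x ∣ levelZero U i₀ qv :=
    mul_dvd_mul_left _ (prod_erase_dvd i)
  have hLS : ∀ q : ℕ, q.Prime → q ∣ lev U i₀ qv * ∏ x ∈ Q, x → q ∈ U.auxSet qv :=
    fun q hqp h => mem_auxSet_of_dvd_levelZero hq hqp (h.trans hdvd)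
  have hcond := level_conditions (i₀ := i₀) hq (m := ∏ x ∈ Q, x)
    fun q hqp hmem hd => not_dvd_prod_aux hq hqp (level_conditions₀.mem_insert_of_cases hmem)
      (hd.trans (prod_erase_dvd i))
  refine Nonempty.elim (nonempty_act D inp B (lev U i₀ qv * ∏ x ∈ Q, x) hcond.1 hcond.2.1 hcond.2.2 hLS hf' h'
    (fun ℓ => ∏ x ∈ Q, etaAt (eta U i₀ n qv) x ℓ) (resHom_prod_etaAt Q) ⟨j, hjlev, hj⟩
    (exists_genHecke hadm' h' hf' (fun v => by rw [dPart_one_val, Units.val_one]) tw hinj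
      (fun ℓ => ∏ x ∈ Q, etaAt (eta U i₀ n qv) x ℓ) (resHom_prod_etaAt Q)
      (fun ℓ hℓ hℓL x => htw ℓ (fun h => hℓL ((Finset.dvd_prod_of_mem _ h).mul_left _)) x)
      ⟨j, hj1, hjL, hjlev, hj⟩ _ (fun q hqp h => Finset.mem_coe.mpr (hLS q hqp h))
      (fun ℓ _ h => notMem_lowSet U i₀ (notMem_baseSet_of_notMem_auxSet h)))) fun a' => ?_
  exact descend_act_sq_zero_of B hq a a' i ⟨j, hjlev, hj⟩ _ (span_gen_le i) hχ hf'
    (prod_etaAt_inv_sub_mem _ (eta_aux_sub_one_mem hq i) hqA)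
    (aux_exactly_dvd hq i (not_dvd_prod_erase hq i)) Dm u

set_option maxHeartbeats 800000 in
/-- On the second part. -/
theorem descend_act_sq_zero₁ (inp : Inputs) (B : Base U i₀) (hq : U.IsAux n qv)
    (a : Act D L admissible_char₁ (occurs₁ B hq) (weight₁ U i₀ n qv))
    (i : Fin R) [NeZero (qv i)] (Dm : TWGal.Diamond D.ρ U.p (qv i)) (u : (ZMod (qv i))ˣ) :
    (descend (Ideal.span {R59.twGen U.O U.p n R i - 1}) (a.act (Dm.δ u : D.R)) - 1) ^ 2 = 0 := by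
  let Q : Finset ℕ := (auxPrimes qv).erase (qv i)
  haveI : Fact i₀.1.Prime := ⟨hard_prime' U i₀⟩
  haveI : NeZero (U.M / i₀.1 * qv i) := ⟨mul_ne_zero (NeZero.ne _) (hq.prime i).ne_zero⟩
  have hmne : i₀.1 * ∏ x ∈ Q, x ≠ 0 := mul_ne_zero (hard_prime' U i₀).ne_zero
    (Finset.prod_ne_zero_iff.2 fun x hx =>
      (prime_of_mem_auxPrimes hq (Finset.mem_of_mem_erase hx)).ne_zero)
  haveI : NeZero (lev U i₀ qv * (i₀.1 * ∏ x ∈ Q, x)) := ⟨mul_ne_zero (neZero_lev hq).ne hmne⟩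
  haveI : Fact (HasIntegralStructure (lev U i₀ qv * (i₀.1 * ∏ x ∈ Q, x)) 2) :=
    ⟨MF.IntStruct.hasIntegralStructure _ 2⟩
  have hqA : qv i ∈ auxPrimes qv := mem_auxPrimes.2 ⟨i, rfl⟩
  have hrQ : i₀.1 ∉ Q := fun h => hard_notMem_aux hq (Finset.mem_of_mem_erase h)
  have hs : (insert i₀.1 (auxPrimes qv)).erase (qv i) = insert i₀.1 Q :=
    Finset.erase_insert_of_ne (aux_ne_hard hq i)
  let χ' : (ZMod (lev U i₀ qv))ˣ →* (Coeff U n R)ˣ :=
    chiTot (1 : (ZMod (U.M / i₀.1 * qv i))ˣ →* (Coeff U n R)ˣ) (eta U i₀ n qv) _ (insert i₀.1 Q)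
  have hχ : ∀ v, (char₁ U i₀ n qv v : Coeff U n R) - χ' v ∈
      Ideal.span {R59.twGen U.O U.p n R i - 1} := fun v => by
    have := chiTot_sub_erase_mem (N := U.M / i₀.1) (N' := U.M / i₀.1 * qv i)
      (eta U i₀ n qv) (eta_aux_sub_one_mem hq i) (Finset.mem_insert_of_mem (b := i₀.1) hqA) v
    rw [hs] at this
    exact this
  have hadm' : Admissible (epsOf χ') := admissible_of_pow U (M_dvd_lev U i₀ qv) _ chiTot_pow
  have hf' : ∀ v, resHom (R59.twAug U.O U.p n R) (χ' v : Coeff U n R) = 1 :=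
    f_chiTot _ _ _ (fun v => by simp) resHom_eta _ _
  have h' := (occurs_congr admissible_char₁ hadm' _ hχ (span_gen_le i)
    (occurs₁ B hq)).2
  refine (exists_nonEis B (qv := qv) (lev U i₀ qv * (i₀.1 * ∏ x ∈ Q, x))).elim fun j hj' => ?_
  have hj1 := hj'.1
  have hjL := hj'.2.1
  have hj := hj'.2.2.2
  have hjlev : ¬ j.1 ∣ lev U i₀ qv := fun h => hjL (h.mul_right _)
  have hlow : lowLevel U i₀ qv = U.M / i₀.1 * qv i * ∏ x ∈ Q, x := by
    rw [lowLevel, prod_auxPrimes_eq i, mul_assoc]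
  have htwist := exists_tw_hard_cast (η := eta U i₀ n qv) resHom_eta (p_ne_two U)
    residue_natCast_p (lam := sys B qv) (N := U.M / i₀.1 * qv i) (hard_ne_p' U i₀).symm
    (coprime_hard_low.mul_right
      ((Nat.coprime_primes (hard_prime' U i₀) (hq.prime i)).2 (aux_ne_hard hq i)))
    hrQ (hard_notMem_lowSet U i₀) (natCast_hard_eq_one U i₀)
    (erase_data B hq i fun x hx => Nat.Coprime.coprime_dvd_right
      (Nat.div_dvd_of_dvd (hard_dvd U i₀)) (aux_coprime_M hq hx))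
    hlow (M := lev U i₀ qv) (by rw [lev, hlow])
    (L := lev U i₀ qv * (i₀.1 * ∏ x ∈ Q, x)) rfl ⟨j, hjL, hj⟩ (low_sys B hq) hf'
    (fun v => by rw [dPart_one_val, Units.val_one, map_one])
  refine htwist.elim fun tw htw' => ?_
  have htw := htw'.1
  have hinj := htw'.2
  have hdvd : lev U i₀ qv * (i₀.1 * ∏ x ∈ Q, x) ∣ levelOne U i₀ qv := by
    rw [show levelOne U i₀ qv = lev U i₀ qv * (i₀.1 * ∏ x ∈ auxPrimes qv, x) by ring]
    exact mul_dvd_mul_left _ (mul_dvd_mul_left _ (prod_erase_dvd i))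
  have hLS : ∀ q : ℕ, q.Prime → q ∣ lev U i₀ qv * (i₀.1 * ∏ x ∈ Q, x) → q ∈ U.auxSet qv :=
    fun q hqp h => mem_auxSet_of_dvd_levelOne hq hqp (h.trans hdvd)
  have hcond := level_conditions (i₀ := i₀) hq (m := i₀.1 * ∏ x ∈ Q, x)
    fun q hqp hmem hd => (hqp.dvd_mul.1 hd).elim (fun hd => by
      have e := (Nat.prime_dvd_prime_iff_eq hqp (hard_prime' U i₀)).1 hd
      rcases hmem with h' | h'
      · exact U.hard_ne_p i₀ (e ▸ h')
      · rcases Finset.mem_union.mp h' with h' | h'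
        · exact U.hard_notMem_ram i₀ (e ▸ h')
        · exact Finset.disjoint_left.mp U.disjoint_aux (Finset.mem_union_right _ i₀.2) (e ▸ h'))
      fun hd => not_dvd_prod_aux hq hqp (level_conditions₀.mem_insert_of_cases hmem)
        (hd.trans (prod_erase_dvd i))
  refine Nonempty.elim (nonempty_act D inp B (lev U i₀ qv * (i₀.1 * ∏ x ∈ Q, x)) hcond.1 hcond.2.1 hcond.2.2 hLS hf' h'
    (fun ℓ => ∏ x ∈ insert i₀.1 Q, etaAt (eta U i₀ n qv) x ℓ) (resHom_prod_etaAt (insert i₀.1 Q))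
    ⟨j, hjlev, hj⟩
    (exists_genHecke hadm' h' hf' (fun v => by rw [dPart_one_val, Units.val_one]) tw hinj
      (fun ℓ => ∏ x ∈ insert i₀.1 Q, etaAt (eta U i₀ n qv) x ℓ)
      (resHom_prod_etaAt (insert i₀.1 Q))
      (fun ℓ hℓ hℓL x => htw ℓ (fun h => hℓL ((Finset.mem_insert.1 h).elim
        (fun e => e ▸ (dvd_mul_right _ _).mul_left _)
        fun h => ((Finset.dvd_prod_of_mem _ h).mul_left _).mul_left _)) x)
      ⟨j, hj1, hjL, hjlev, hj⟩ _ (fun q hqp h => Finset.mem_coe.mpr (hLS q hqp h))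
      (fun ℓ _ h => notMem_lowSet U i₀ (notMem_baseSet_of_notMem_auxSet h)))) fun a' => ?_
  refine descend_act_sq_zero_of B hq a a' i ⟨j, hjlev, hj⟩ _ (span_gen_le i) hχ hf' (fun ℓ => ?_)
    (aux_exactly_dvd hq i fun hd => ((hq.prime i).dvd_mul.1 hd).elim
      (fun hd => aux_ne_hard hq i
        ((Nat.prime_dvd_prime_iff_eq (hq.prime i) (hard_prime' U i₀)).1 hd).symm)
      (not_dvd_prod_erase hq i)) Dm u
  rw [← hs]
  exact prod_etaAt_inv_sub_mem _ (eta_aux_sub_one_mem hq i) (Finset.mem_insert_of_mem hqA) ℓ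

/-- A diamond operator at `q_i` acts on the first part as `1 + (g_i - 1) x`. -/
theorem act_diamond₀ (inp : Inputs) (B : Base U i₀) (hq : U.IsAux n qv)
    (a : Act D L admissible_char₀ (occurs₀ B hq) (weight₀ U i₀ n qv))
    (i : Fin R) [NeZero (qv i)] (Dm : TWGal.Diamond D.ρ U.p (qv i)) (g : (ZMod (qv i))ˣ) :
    ∃ x : Module.End (Coeff U n R) (genPart admissible_char₀ (occurs₀ B hq)),
      a.act (Dm.δ g : D.R) =
        1 + algebraMap (Coeff U n R) _ (R59.twGen U.O U.p n R i - 1) * x := by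
  obtain ⟨j, -, hjL, -, hj⟩ := exists_nonEis B (qv := qv) (lev U i₀ qv)
  exact a.exists_eq_one_add resHom_char₀ ⟨j, hjL, hj⟩ i Dm g
    (descend_act_sq_zero₀ inp B hq a i Dm g)

/-- A diamond operator at `q_i` acts on the second part as `1 + (g_i - 1) x`. -/
theorem act_diamond₁ (inp : Inputs) (B : Base U i₀) (hq : U.IsAux n qv)
    (a : Act D L admissible_char₁ (occurs₁ B hq) (weight₁ U i₀ n qv))
    (i : Fin R) [NeZero (qv i)] (Dm : TWGal.Diamond D.ρ U.p (qv i)) (g : (ZMod (qv i))ˣ) :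
    ∃ x : Module.End (Coeff U n R) (genPart admissible_char₁ (occurs₁ B hq)),
      a.act (Dm.δ g : D.R) =
        1 + algebraMap (Coeff U n R) _ (R59.twGen U.O U.p n R i - 1) * x := by
  obtain ⟨j, -, hjL, -, hj⟩ := exists_nonEis B (qv := qv) (lev U i₀ qv)
  exact a.exists_eq_one_add resHom_char₁ ⟨j, hjL, hj⟩ i Dm g
    (descend_act_sq_zero₁ inp B hq a i Dm g)

end Fermat.Agent.LL.Pair
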